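import Mathlib
import Fermat.Agent.S22.Basic
import Fermat.Agent.S22.Nice
import Fermat.Agent.S22.Forms
import Fermat.Agent.S22.DN
import Fermat.Agent.S28.HermiteNF

/-!
# S16, package [EIS] (owner: helper7): the Eisenstein series of weight 2 and level `N`

`s16e_fun N z = N * E₂(N z) - E₂(z)`.

* `s16e_slash`  : every `SL(2,ℤ)`-translate is `(A / D) * E₂((A z + B) / D) - E₂(z)` with
  `A = gcd(N, c)`, `A * D = N`, `0 ≤ B < D` (the non-modular terms of `E₂` cancel);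
* `s16e_isMF`   : `s16e_fun N` is a modular form of weight 2 on `Γ₀(N)`;
* `s16e_coeff`  : its `q`-expansion, `a₀ = N - 1`, `aₙ = 24 (σ₁(n) - N σ₁(n / N) [N ∣ n])`;
* `s16e_slash_S`: the expansion at the cusp `0`.
-/

set_option autoImplicit false

noncomputable section

namespace Fermat.Agent.S16

open UpperHalfPlane ModularFormClass CongruenceSubgroup Matrix.SpecialLinearGroup Function
open EisensteinSeries
open scoped MatrixGroups ModularForm Manifold ArithmeticFunction.sigma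
open Fermat.Agent.S22 (IsMF IsNice G0 G1)

/-- The Eisenstein series of weight 2 and level `N`: `N E₂(N z) - E₂(z)`. -/
def s16e_fun (N : ℕ) : ℍ → ℂ :=
  fun z => (N : ℂ) * E2 (ModularForm.heckeDiagMatrix N • z) - E2 z

theorem s16e_fun_apply (N : ℕ) (z : ℍ) :
    s16e_fun N z = (N : ℂ) * E2 (ModularForm.heckeDiagMatrix N • z) - E2 z := rfl

/-! ### `E₂` is nice -/

theorem s16e_E2_periodic : Periodic (E2 ∘ ofComplex) 1 := by
  intro w
  simp only [comp_apply]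
  by_cases hw : 0 < w.im
  · have hw1 : 0 < (w + 1).im := by simpa using hw
    rw [ofComplex_apply_of_im_pos hw1, ofComplex_apply_of_im_pos hw]
    have h1 := E2_eq_tsum_cexp (z := (⟨w + 1, hw1⟩ : ℍ))
    have h2 := E2_eq_tsum_cexp (z := (⟨w, hw⟩ : ℍ))
    rw [h1, h2]
    have hq : Complex.exp (2 * (Real.pi : ℂ) * Complex.I * (w + 1)) =
        Complex.exp (2 * (Real.pi : ℂ) * Complex.I * w) := by
      rw [mul_add, mul_one, Complex.exp_add, Complex.exp_two_pi_mul_I, mul_one]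
    show 1 - 24 * ∑' (n : ℕ+), ((σ 1 n : ℕ) : ℂ) * Complex.exp (2 * ↑Real.pi * Complex.I * (w + 1)) ^ (n : ℕ) =
      1 - 24 * ∑' (n : ℕ+), ((σ 1 n : ℕ) : ℂ) * Complex.exp (2 * ↑Real.pi * Complex.I * w) ^ (n : ℕ)
    rw [hq]
  · have hw1 : ¬ 0 < (w + 1).im := by simpa using hw
    rw [ofComplex_apply_of_im_nonpos (not_lt.mp hw1), ofComplex_apply_of_im_nonpos (not_lt.mp hw)]

theorem s16e_E2_isNice : IsNice E2 :=
  ⟨s16e_E2_periodic, E2_mdifferentiable, isBoundedAtImInfty_E2⟩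

/-- Uniqueness of `q`-expansion coefficients for nice functions. -/
theorem s16e_coeff_unique {f : ℍ → ℂ} {c : ℕ → ℂ} (hf : IsNice f)
    (hs : ∀ τ : ℍ, HasSum (fun m => c m • Function.Periodic.qParam 1 (τ : ℂ) ^ m) (f τ))
    (m : ℕ) : (qExpansion 1 f).coeff m = c m := by
  have h1 := (hasFPowerSeriesOnBall_cuspFunction one_pos hf.analyticAt hs).hasFPowerSeriesAt
  have h2 := hf.analyticAt.hasFPowerSeriesAt
  have h3 := congr_arg (FormalMultilinearSeries.coeff · m) (h1.eq_formalMultilinearSeries h2)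
  simp only [FormalMultilinearSeries.coeff_ofScalars] at h3
  rw [qExpansion_coeff, h3]
  ring

/-- The `q`-expansion of `E₂`. -/
theorem s16e_E2_coeff (m : ℕ) :
    (qExpansion 1 E2).coeff m = if m = 0 then 1 else -24 * ((σ 1 m : ℕ) : ℂ) := by
  have hs : ∀ τ : ℍ, HasSum (fun m : ℕ => (if m = 0 then 1 else -24 * ((σ 1 m : ℕ) : ℂ) : ℂ) •
      Function.Periodic.qParam 1 τ ^ m) (E2 τ) := fun τ => by
    simpa only [Function.Periodic.qParam, Complex.ofReal_one, div_one] using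
      hasSum_qExpansion_E2 (z := τ)
  exact s16e_coeff_unique s16e_E2_isNice hs m

/-! ### The level `N` Eisenstein series: niceness and `q`-expansion -/

theorem s16e_fun_eq_slash {N : ℕ} (hN : N ≠ 0) :
    s16e_fun N = E2 ∣[(2 : ℤ)] ModularForm.heckeDiagMatrix N - E2 := by
  funext z
  rw [Pi.sub_apply, ModularForm.slash_heckeDiagMatrix_apply 2 hN, s16e_fun_apply]
  norm_num

theorem s16e_isNice {N : ℕ} (hN : N ≠ 0) : IsNice (s16e_fun N) := by
  rw [s16e_fun_eq_slash hN]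
  exact (Fermat.Agent.S22.DN.isNice_slash_diag s16e_E2_isNice 2 N).sub s16e_E2_isNice

/-- The `q`-expansion of the level `N` Eisenstein series `N E₂(N z) - E₂(z)`. -/
theorem s16e_coeff {N : ℕ} (hN : N ≠ 0) (n : ℕ) :
    (qExpansion 1 (s16e_fun N)).coeff n =
      if n = 0 then (N : ℂ) - 1
      else 24 * (((σ 1 n : ℕ) : ℂ) - if N ∣ n then (N : ℂ) * ((σ 1 (n / N) : ℕ) : ℂ) else 0) := by
  rw [s16e_fun_eq_slash hN,
    (Fermat.Agent.S22.DN.isNice_slash_diag s16e_E2_isNice 2 N).qExpansion_sub s16e_E2_isNice,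
    map_sub, Fermat.Agent.S22.DN.qExpansion_slash_diag_coeff s16e_E2_isNice 2 hN,
    s16e_E2_coeff, s16e_E2_coeff]
  have e1 : (N : ℂ) ^ ((2 : ℤ) - 1) = (N : ℂ) := by norm_num
  rw [e1]
  by_cases h0 : n = 0
  · subst h0
    simp
  · rw [if_neg h0, if_neg h0]
    by_cases hd : N ∣ n
    · have hq : n / N ≠ 0 := by
        intro h
        rcases Nat.div_eq_zero_iff.mp h with h | h
        · exact hN h
        · exact absurd (Nat.le_of_dvd (Nat.pos_of_ne_zero h0) hd) (not_le.mpr h)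
      rw [if_pos hd, if_pos hd, if_neg hq]
      ring
    · rw [if_neg hd, if_neg hd]
      ring

/-! ### Quasi-modularity of `E₂`, pointwise -/

/-- The constant `1 / (2 ζ(2)) * 2 π i` of the transformation law of `E₂`. -/
def s16e_kappa : ℂ := 1 / (2 * riemannZeta 2) * (2 * (Real.pi : ℂ) * Complex.I)

theorem s16e_E2_smul (γ : SL(2, ℤ)) (z : ℍ) :
    E2 (γ • z) = denom γ z ^ 2 * E2 z - s16e_kappa * (γ 1 0 : ℂ) * denom γ z := by
  have h := congrFun (E2_slash_action γ) z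
  rw [ModularForm.SL_slash_apply] at h
  simp only [Pi.sub_apply, Pi.smul_apply, smul_eq_mul, D2] at h
  have hd : denom γ z ≠ 0 := denom_ne_zero _ z
  have h2 : E2 (γ • z) = (E2 (γ • z) * denom γ z ^ (-(2 : ℤ))) * denom γ z ^ 2 := by
    rw [mul_assoc, zpow_neg, ← zpow_natCast (denom γ z) 2]
    have : denom γ z ^ ((2 : ℕ) : ℤ) ≠ 0 := zpow_ne_zero _ hd
    norm_num
  rw [h2, h, s16e_kappa]
  field_simp

/-- The point `(A z + B) / D` lies in the upper half plane for `A, D > 0`. -/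
theorem s16e_im_pos {A D : ℤ} (B : ℤ) (hA : 0 < A) (hD : 0 < D) (z : ℍ) :
    0 < ((((A : ℂ) * (z : ℂ) + (B : ℂ)) / (D : ℂ)) : ℂ).im := by
  have hAr : (0 : ℝ) < A := by exact_mod_cast hA
  have hDr : (0 : ℝ) < D := by exact_mod_cast hD
  have h1 : ((((A : ℂ) * (z : ℂ) + (B : ℂ)) / (D : ℂ)) : ℂ) =
      (((A : ℝ) * (z : ℂ) + (B : ℝ)) / (D : ℝ) : ℂ) := by push_cast; rfl
  have h2 : ((((A : ℝ) : ℂ) * (z : ℂ) + ((B : ℝ) : ℂ)) / ((D : ℝ) : ℂ)).im =
      (A : ℝ) * z.im / D := by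
    rw [Complex.div_ofReal_im]
    simp
  rw [h1, h2]
  exact div_pos (mul_pos hAr z.im_pos) hDr

theorem s16e_coe_smul (γ : SL(2, ℤ)) (z : ℍ) :
    ((γ • z : ℍ) : ℂ) =
      ((γ 0 0 : ℂ) * z + (γ 0 1 : ℂ)) / ((γ 1 0 : ℂ) * z + (γ 1 1 : ℂ)) := by
  rw [UpperHalfPlane.coe_specialLinearGroup_apply]
  simp

theorem s16e_denom_eq (γ : SL(2, ℤ)) (z : ℍ) :
    denom γ z = (γ 1 0 : ℂ) * z + (γ 1 1 : ℂ) := by
  rw [ModularGroup.denom_apply]

/-! ### The translates of the level `N` Eisenstein series -/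

/-- **Translates, from Hermite data**: if `diag(N, 1) * g = γ' * [[A, B], [0, D]]` then
`(s16e_fun N ∣[2] g)(z) = (A / D) * E₂((A z + B) / D) - E₂(z)`. -/
theorem s16e_slash_of (N : ℕ) (hN : 0 < N) (g γ' : SL(2, ℤ)) (A D : ℕ) (B : ℤ)
    (hA : 0 < A) (hD : 0 < D) (hAD : A * D = N)
    (h00 : γ' 0 0 * (A : ℤ) = N * g 0 0) (h01 : γ' 0 0 * B + γ' 0 1 * (D : ℤ) = N * g 0 1)
    (h10 : γ' 1 0 * (A : ℤ) = g 1 0) (h11 : γ' 1 0 * B + γ' 1 1 * (D : ℤ) = g 1 1) (z : ℍ) :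
    (s16e_fun N ∣[(2 : ℤ)] g) z =
      (A : ℂ) / D * E2 (ofComplex (((A : ℂ) * z + B) / D)) - E2 z := by
  have hN0 : N ≠ 0 := hN.ne'
  have hAi : (0 : ℤ) < (A : ℤ) := by exact_mod_cast hA
  have hDi : (0 : ℤ) < (D : ℤ) := by exact_mod_cast hD
  have hDc : ((D : ℤ) : ℂ) ≠ 0 := by exact_mod_cast hD.ne'
  have hw : 0 < (((((A : ℤ) : ℂ)) * (z : ℂ) + (B : ℂ)) / ((D : ℤ) : ℂ)).im :=
    s16e_im_pos B hAi hDi z
  set W : ℍ := ⟨((((A : ℤ) : ℂ)) * (z : ℂ) + (B : ℂ)) / ((D : ℤ) : ℂ), hw⟩ with hWdef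
  have hWcoe : (W : ℂ) = ((((A : ℤ) : ℂ)) * (z : ℂ) + (B : ℂ)) / ((D : ℤ) : ℂ) := rfl
  have hofW : UpperHalfPlane.ofComplex (((A : ℂ) * z + B) / D) = W := by
    have : (((A : ℂ) * (z : ℂ) + (B : ℂ)) / (D : ℂ)) = (W : ℂ) := by
      rw [hWcoe]; push_cast; rfl
    rw [this, UpperHalfPlane.ofComplex_apply]
  have hden : denom γ' W = denom g z / ((D : ℤ) : ℂ) := by
    rw [s16e_denom_eq, s16e_denom_eq, hWcoe]
    exact Fermat.Agent.S28.hnf_denom (by exact_mod_cast hD.ne') h10 h11 (z : ℂ)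
  have hdenz : denom g z ≠ 0 := denom_ne_zero _ z
  have hpt : ModularForm.heckeDiagMatrix N • (g • z) = γ' • W := by
    apply UpperHalfPlane.ext
    rw [ModularForm.coe_heckeDiagMatrix_smul hN0, s16e_coe_smul γ' W, s16e_coe_smul g z, hWcoe]
    rw [Fermat.Agent.S28.hnf_num (d := N) (by exact_mod_cast hD.ne') h00 h01 (z : ℂ),
      Fermat.Agent.S28.hnf_denom (by exact_mod_cast hD.ne') h10 h11 (z : ℂ)]
    have hz : ((g 1 0 : ℂ)) * (z : ℂ) + (g 1 1 : ℂ) ≠ 0 := by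
      rw [← s16e_denom_eq]; exact hdenz
    field_simp
  rw [ModularForm.SL_slash_apply, s16e_fun_apply, hpt, hofW, s16e_E2_smul γ' W,
    s16e_E2_smul g z, hden]
  have e10 : ((γ' 1 0 : ℤ) : ℂ) * ((A : ℤ) : ℂ) = ((g 1 0 : ℤ) : ℂ) := by exact_mod_cast h10
  have eAD : ((A : ℤ) : ℂ) * ((D : ℤ) : ℂ) = (N : ℂ) := by exact_mod_cast hAD
  have hAc : ((A : ℤ) : ℂ) = (A : ℂ) := by push_cast; rfl
  have hDc' : ((D : ℤ) : ℂ) = (D : ℂ) := by push_cast; rfl
  rw [hAc] at e10 eAD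
  rw [hDc'] at eAD hDc ⊢
  rw [← eAD, ← e10, zpow_neg, ← zpow_natCast (denom g z) 2]
  have h2 : denom g z ^ ((2 : ℕ) : ℤ) ≠ 0 := zpow_ne_zero _ hdenz
  norm_num
  field_simp
  ring

/-- **Translates**: for `g = [[a, b], [c, e]] ∈ SL(2,ℤ)`, with `A = gcd(N, c)`, `D = N / A`
and a suitable `0 ≤ B < D`,
`(s16e_fun N ∣[2] g)(z) = (A / D) * E₂((A z + B) / D) - E₂(z)`. -/
theorem s16e_slash (N : ℕ) (hN : 0 < N) (g : SL(2, ℤ)) :
    ∃ (A D : ℕ) (B : ℤ), 0 < A ∧ 0 < D ∧ A * D = N ∧ A = Int.gcd N (g 1 0) ∧ 0 ≤ B ∧ B < D ∧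
      ∀ z : ℍ, (s16e_fun N ∣[(2 : ℤ)] g) z =
        (A : ℂ) / D * E2 (ofComplex (((A : ℂ) * z + B) / D)) - E2 z := by
  obtain ⟨γ', A, B, D, hA, hD, hAD, hAg, hB0, hB1, h00, h01, h10, h11⟩ :=
    Fermat.Agent.S28.hnf_exists N hN g
  obtain ⟨A', rfl⟩ := Int.eq_ofNat_of_zero_le hA.le
  obtain ⟨D', rfl⟩ := Int.eq_ofNat_of_zero_le hD.le
  have hA' : 0 < A' := by exact_mod_cast hA
  have hD' : 0 < D' := by exact_mod_cast hD
  exact ⟨A', D', B, hA', hD', by exact_mod_cast hAD, by exact_mod_cast hAg, hB0, hB1,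
    fun z => s16e_slash_of N hN g γ' A' D' B hA' hD' (by exact_mod_cast hAD) h00 h01 h10 h11 z⟩

/-- **The expansion at the cusp `0`**:
`(s16e_fun N ∣[2] S)(z) = (1 / N) * E₂(z / N) - E₂(z)`. -/
theorem s16e_slash_S (N : ℕ) (hN : 0 < N) (z : ℍ) :
    (s16e_fun N ∣[(2 : ℤ)] ModularGroup.S) z =
      (1 : ℂ) / N * E2 (ofComplex ((z : ℂ) / N)) - E2 z := by
  have h := s16e_slash_of N hN ModularGroup.S ModularGroup.S 1 N 0 one_pos hN (one_mul N)
    (by simp [ModularGroup.S]) (by simp [ModularGroup.S]) (by simp [ModularGroup.S])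
    (by simp [ModularGroup.S]) z
  rw [h]
  simp

/-- `Γ₀(N)`-invariance of the level `N` Eisenstein series. -/
theorem s16e_slash_gamma0 (N : ℕ) (hN : 0 < N) (g : SL(2, ℤ)) (hg : g ∈ Gamma0 N) :
    s16e_fun N ∣[(2 : ℤ)] g = s16e_fun N := by
  obtain ⟨A, D, B, hA, hD, hAD, hAg, hB0, hB1, h⟩ := s16e_slash N hN g
  have hdvd : (N : ℤ) ∣ g 1 0 :=
    (ZMod.intCast_zmod_eq_zero_iff_dvd _ N).1 (Gamma0_mem.1 hg)
  have hAN : A = N := by
    rw [hAg]
    have := Int.gcd_eq_natAbs_left_iff_dvd.mpr hdvd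
    simpa using this
  have hD1 : D = 1 := by
    rw [hAN] at hAD
    exact Nat.eq_of_mul_eq_mul_left hN (by rw [hAD, mul_one])
  have hB : B = 0 := by
    rw [hD1] at hB1
    omega
  funext z
  rw [h z, hAN, hD1, hB, s16e_fun_apply]
  have hpt : ofComplex (((N : ℂ) * (z : ℂ) + ((0 : ℤ) : ℂ)) / ((1 : ℕ) : ℂ)) =
      ModularForm.heckeDiagMatrix N • z := by
    have h1 : ((N : ℂ) * (z : ℂ) + ((0 : ℤ) : ℂ)) / ((1 : ℕ) : ℂ) =
        ((ModularForm.heckeDiagMatrix N • z : ℍ) : ℂ) := by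
      rw [ModularForm.coe_heckeDiagMatrix_smul hN.ne']
      simp
    rw [h1, UpperHalfPlane.ofComplex_apply]
  rw [hpt]
  simp

/-- `E₂((A z + B) / D)` is bounded at `i∞`. -/
theorem s16e_bdd_comp (A D : ℕ) (B : ℤ) (hA : 0 < A) (hD : 0 < D) :
    IsBoundedAtImInfty (fun z : ℍ => E2 (ofComplex (((A : ℂ) * z + B) / D))) := by
  obtain ⟨M, Y, hMY⟩ := UpperHalfPlane.isBoundedAtImInfty_iff.mp isBoundedAtImInfty_E2
  rw [UpperHalfPlane.isBoundedAtImInfty_iff]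
  refine ⟨M, max Y 0 * D / A, fun z hz => ?_⟩
  have hAr : (0 : ℝ) < A := by exact_mod_cast hA
  have hDr : (0 : ℝ) < D := by exact_mod_cast hD
  have hw : 0 < ((((A : ℤ) : ℂ) * (z : ℂ) + (B : ℂ)) / ((D : ℤ) : ℂ)).im :=
    s16e_im_pos B (by exact_mod_cast hA) (by exact_mod_cast hD) z
  have hcoe : (((A : ℂ) * (z : ℂ) + (B : ℂ)) / (D : ℂ)) =
      ((((A : ℤ) : ℂ) * (z : ℂ) + (B : ℂ)) / ((D : ℤ) : ℂ)) := by push_cast; rfl
  rw [hcoe, ofComplex_apply_of_im_pos hw]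
  apply hMY
  show Y ≤ ((((A : ℤ) : ℂ) * (z : ℂ) + (B : ℂ)) / ((D : ℤ) : ℂ)).im
  have h1 : ((((A : ℤ) : ℂ) * (z : ℂ) + (B : ℂ)) / ((D : ℤ) : ℂ)) =
      ((((A : ℝ) : ℂ) * (z : ℂ) + ((B : ℝ) : ℂ)) / ((D : ℝ) : ℂ)) := by push_cast; rfl
  have h2 : ((((A : ℝ) : ℂ) * (z : ℂ) + ((B : ℝ) : ℂ)) / ((D : ℝ) : ℂ)).im =
      (A : ℝ) * z.im / D := by
    rw [Complex.div_ofReal_im]
    simp
  rw [h1, h2, le_div_iff₀ hDr]
  have h3 : max Y 0 * D ≤ z.im * A := by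
    rw [div_le_iff₀ hAr] at hz
    exact hz
  have h4 : Y * D ≤ max Y 0 * D := mul_le_mul_of_nonneg_right (le_max_left _ _) hDr.le
  linarith

/-- All `SL(2,ℤ)`-translates of the level `N` Eisenstein series are bounded at `i∞`. -/
theorem s16e_bdd_slash (N : ℕ) (hN : 0 < N) (g : SL(2, ℤ)) :
    IsBoundedAtImInfty (s16e_fun N ∣[(2 : ℤ)] g) := by
  obtain ⟨A, D, B, hA, hD, -, -, -, -, h⟩ := s16e_slash N hN g
  have hfun : s16e_fun N ∣[(2 : ℤ)] g =
      (fun _ : ℍ => (A : ℂ) / D) * (fun z : ℍ => E2 (ofComplex (((A : ℂ) * z + B) / D))) - E2 := by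
    funext z
    rw [h z]
    rfl
  rw [hfun]
  exact ((Filter.const_boundedAtFilter atImInfty ((A : ℂ) / D)).mul
    (s16e_bdd_comp A D B hA hD)).sub isBoundedAtImInfty_E2

/-- **The Eisenstein series of level `N` is a modular form of weight 2 on `Γ₀(N)`.** -/
theorem s16e_isMF (N : ℕ) [NeZero N] : IsMF (G0 N) 2 (s16e_fun N) := by
  have hN : 0 < N := Nat.pos_of_ne_zero (NeZero.ne N)
  refine ⟨{ toFun := s16e_fun N
            slash_action_eq' := ?_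
            holo' := (s16e_isNice hN.ne').holo
            bdd_at_cusps' := fun {c} hc => ?_ }, rfl⟩
  · rintro γ ⟨γ', hγ', rfl⟩
    exact s16e_slash_gamma0 N hN γ' hγ'
  · have hc' : IsCusp c 𝒮ℒ := (Subgroup.IsArithmetic.isCusp_iff_isCusp_SL2Z (G0 N)).mp hc
    rw [OnePoint.isBoundedAt_iff_forall_SL2Z hc']
    intro γ _
    exact s16e_bdd_slash N hN γ

/-! ### Consumer forms of the `q`-expansion -/

theorem s16e_coeff_zero {N : ℕ} (hN : N ≠ 0) :
    (qExpansion 1 (s16e_fun N)).coeff 0 = (N : ℂ) - 1 := by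
  rw [s16e_coeff hN, if_pos rfl]

/-- `σ₁(n) - N σ₁(n / N) [N ∣ n]` is the sum of the divisors of `n` not divisible by `N`. -/
theorem s16e_sigma_sub (N n : ℕ) (hN : 0 < N) (hn : n ≠ 0) :
    (σ 1 n : ℤ) - (if N ∣ n then (N : ℤ) * (σ 1 (n / N) : ℕ) else 0) =
      ∑ e ∈ n.divisors with ¬ N ∣ e, (e : ℤ) := by
  have hsplit : (σ 1 n : ℤ) =
      ∑ e ∈ n.divisors with N ∣ e, (e : ℤ) + ∑ e ∈ n.divisors with ¬ N ∣ e, (e : ℤ) := by
    rw [Finset.sum_filter_add_sum_filter_not, ArithmeticFunction.sigma_one_apply]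
    push_cast
    rfl
  have hdiv : ∑ e ∈ n.divisors with N ∣ e, (e : ℤ) =
      if N ∣ n then (N : ℤ) * (σ 1 (n / N) : ℕ) else 0 := by
    by_cases hd : N ∣ n
    · rw [if_pos hd, ArithmeticFunction.sigma_one_apply]
      push_cast
      rw [Finset.mul_sum]
      symm
      refine Finset.sum_bij (fun e _ => N * e) ?_ ?_ ?_ ?_
      · intro e he
        rw [Nat.mem_divisors] at he
        rw [Finset.mem_filter, Nat.mem_divisors]
        refine ⟨⟨?_, hn⟩, dvd_mul_right _ _⟩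
        obtain ⟨k, hk⟩ := hd
        rw [hk, Nat.mul_div_cancel_left _ hN] at he
        rw [hk]
        exact Nat.mul_dvd_mul_left _ he.1
      · intro a _ b _ hab
        exact Nat.eq_of_mul_eq_mul_left hN hab
      · intro d hd'
        rw [Finset.mem_filter, Nat.mem_divisors] at hd'
        obtain ⟨⟨hdn, -⟩, e, rfl⟩ := hd'
        refine ⟨e, ?_, rfl⟩
        rw [Nat.mem_divisors]
        obtain ⟨k, hk⟩ := hd
        refine ⟨?_, ?_⟩
        · rw [hk, Nat.mul_div_cancel_left _ hN]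
          rw [hk] at hdn
          exact (Nat.mul_dvd_mul_iff_left hN).mp hdn
        · rw [hk, Nat.mul_div_cancel_left _ hN]
          rintro rfl
          exact hn (by rw [hk, mul_zero])
      · intro e _
        push_cast
        rfl
    · rw [if_neg hd]
      apply Finset.sum_eq_zero
      intro e he
      rw [Finset.mem_filter, Nat.mem_divisors] at he
      exact absurd (he.2.trans he.1.1) hd
  rw [hsplit, hdiv]
  ring

/-- The higher coefficients: `aₙ = 24 * ∑_{e ∣ n, N ∤ e} e`. -/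
theorem s16e_coeff_pos {N : ℕ} (hN : N ≠ 0) {n : ℕ} (hn : n ≠ 0) :
    (qExpansion 1 (s16e_fun N)).coeff n =
      ((24 * ∑ e ∈ n.divisors with ¬ N ∣ e, (e : ℤ) : ℤ) : ℂ) := by
  rw [s16e_coeff hN, if_neg hn, ← s16e_sigma_sub N n (Nat.pos_of_ne_zero hN) hn]
  by_cases hd : N ∣ n
  · rw [if_pos hd, if_pos hd]
    push_cast
    ring
  · rw [if_neg hd, if_neg hd]
    push_cast
    ring

/-- The level `N` Eisenstein series has an integral `q`-expansion. -/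
theorem s16e_isIntQ {N : ℕ} (hN : N ≠ 0) : Fermat.Agent.S22.IsIntQ (s16e_fun N) := by
  intro n
  by_cases hn : n = 0
  · subst hn
    exact ⟨(N : ℤ) - 1, by rw [s16e_coeff_zero hN]; push_cast; ring⟩
  · exact ⟨_, s16e_coeff_pos hN hn⟩

end Fermat.Agent.S16
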