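import Mathlib

set_option autoImplicit false

namespace Fermat.Agent.S16

/-- `σ'(k)`: the sum of the divisors of `k` that are prime to `p` (the `k`-th coefficient of the
Eisenstein series of weight 2 and level `p`); `σ'(0) = 0`. -/
def s16r_sigma (p k : ℕ) : ℤ := ∑ e ∈ k.divisors with ¬ p ∣ e, (e : ℤ)

theorem s16r_sigma_zero (p : ℕ) : s16r_sigma p 0 = 0 := by
  simp [s16r_sigma]

theorem s16r_sigma_one (p : ℕ) (hp : p ≠ 1) : s16r_sigma p 1 = 1 := by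
  simp [s16r_sigma, Finset.filter_singleton, hp]

/-- `σ'(n p) = σ'(n)`. -/
theorem s16r_sigma_mul_self (p : ℕ) (hp : p.Prime) (n : ℕ) :
    s16r_sigma p (n * p) = s16r_sigma p n := by
  rcases Nat.eq_zero_or_pos n with rfl | hn
  · simp
  unfold s16r_sigma
  congr 1
  ext e
  simp only [Finset.mem_filter, Nat.mem_divisors]
  constructor
  · rintro ⟨⟨h1, _⟩, h2⟩
    refine ⟨⟨?_, hn.ne'⟩, h2⟩
    have hc : Nat.Coprime e p := ((Nat.Prime.coprime_iff_not_dvd hp).2 h2).symm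
    exact hc.dvd_of_dvd_mul_right h1
  · rintro ⟨⟨h1, h0⟩, h2⟩
    exact ⟨⟨h1.mul_right p, Nat.mul_ne_zero h0 hp.ne_zero⟩, h2⟩

/-- The Hecke relation of `σ'` at a prime `ℓ ≠ p`. -/
theorem s16r_sigma_mul_prime (p ℓ : ℕ) (hp : p.Prime) (hℓ : ℓ.Prime) (hne : ℓ ≠ p) (n : ℕ) :
    s16r_sigma p (n * ℓ) + (if ℓ ∣ n then (ℓ : ℤ) * s16r_sigma p (n / ℓ) else 0) =
      (1 + (ℓ : ℤ)) * s16r_sigma p n := by
  rcases Nat.eq_zero_or_pos n with rfl | hn
  · simp [s16r_sigma_zero]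
  have hpl : ¬ p ∣ ℓ := fun h => hne ((Nat.prime_dvd_prime_iff_eq hp hℓ).1 h).symm
  -- the two pieces
  set s : Finset ℕ := n.divisors.filter (fun e => ¬ p ∣ e) with hs
  set t : Finset ℕ := s.image (fun e => ℓ * e) with ht
  have hinj : Function.Injective (fun e : ℕ => ℓ * e) := fun a b h =>
    Nat.eq_of_mul_eq_mul_left hℓ.pos h
  have hU : (n * ℓ).divisors.filter (fun e => ¬ p ∣ e) = s ∪ t := by
    ext e
    simp only [hs, ht, Finset.mem_filter, Nat.mem_divisors, Finset.mem_union, Finset.mem_image]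
    constructor
    · rintro ⟨⟨h1, _⟩, h2⟩
      by_cases hle : ℓ ∣ e
      · obtain ⟨e', rfl⟩ := hle
        right
        refine ⟨e', ⟨⟨?_, hn.ne'⟩, fun h => h2 (h.mul_left ℓ)⟩, rfl⟩
        rw [mul_comm n ℓ] at h1
        exact Nat.dvd_of_mul_dvd_mul_left hℓ.pos h1
      · left
        refine ⟨⟨?_, hn.ne'⟩, h2⟩
        have hc : Nat.Coprime e ℓ := ((Nat.Prime.coprime_iff_not_dvd hℓ).2 hle).symm
        exact hc.dvd_of_dvd_mul_right h1
    · rintro (⟨⟨h1, h0⟩, h2⟩ | ⟨e', ⟨⟨h1, h0⟩, h2⟩, rfl⟩)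
      · exact ⟨⟨h1.mul_right ℓ, Nat.mul_ne_zero h0 hℓ.ne_zero⟩, h2⟩
      · refine ⟨⟨?_, Nat.mul_ne_zero h0 hℓ.ne_zero⟩, ?_⟩
        · rw [mul_comm n ℓ]; exact Nat.mul_dvd_mul_left ℓ h1
        · intro h
          rcases (Nat.Prime.dvd_mul hp).1 h with h | h
          · exact hpl h
          · exact h2 h
  have hI : s ∩ t = if ℓ ∣ n then ((n / ℓ).divisors.filter (fun e => ¬ p ∣ e)).image
      (fun e => ℓ * e) else ∅ := by
    ext e
    split_ifs with hd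
    · obtain ⟨m, rfl⟩ := hd
      have hm : 0 < m := by
        rcases Nat.eq_zero_or_pos m with h | h
        · subst h; simp at hn
        · exact h
      rw [Nat.mul_div_cancel_left _ hℓ.pos]
      simp only [hs, ht, Finset.mem_inter, Finset.mem_filter, Nat.mem_divisors, Finset.mem_image]
      constructor
      · rintro ⟨⟨⟨h1, _⟩, h2⟩, e', ⟨⟨h3, _⟩, h4⟩, rfl⟩
        exact ⟨e', ⟨⟨Nat.dvd_of_mul_dvd_mul_left hℓ.pos h1, hm.ne'⟩, h4⟩, rfl⟩
      · rintro ⟨e', ⟨⟨h1, _⟩, h2⟩, rfl⟩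
        refine ⟨⟨⟨Nat.mul_dvd_mul_left ℓ h1, hn.ne'⟩, ?_⟩, e',
          ⟨⟨h1.mul_left ℓ, hn.ne'⟩, h2⟩, rfl⟩
        intro h
        rcases (Nat.Prime.dvd_mul hp).1 h with h | h
        · exact hpl h
        · exact h2 h
    · simp only [hs, ht, Finset.mem_inter, Finset.mem_filter, Nat.mem_divisors, Finset.mem_image,
        Finset.notMem_empty, iff_false]
      rintro ⟨⟨⟨h1, _⟩, _⟩, e', _, rfl⟩
      exact hd (dvd_of_mul_right_dvd h1)
  have hsum := Finset.sum_union_inter (s₁ := s) (s₂ := t) (f := fun e : ℕ => (e : ℤ))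
  have hst : ∑ e ∈ t, (e : ℤ) = (ℓ : ℤ) * ∑ e ∈ s, (e : ℤ) := by
    rw [ht, Finset.sum_image (fun a _ b _ h => hinj h), Finset.mul_sum]
    exact Finset.sum_congr rfl fun e _ => by push_cast; ring
  have hsi : ∑ e ∈ s ∩ t, (e : ℤ) =
      if ℓ ∣ n then (ℓ : ℤ) * s16r_sigma p (n / ℓ) else 0 := by
    rw [hI]
    split_ifs with hd
    · rw [Finset.sum_image (fun a _ b _ h => hinj h), s16r_sigma, Finset.mul_sum]
      exact Finset.sum_congr rfl fun e _ => by push_cast; ring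
    · simp
  have h1 : s16r_sigma p (n * ℓ) = ∑ e ∈ s ∪ t, (e : ℤ) := by
    unfold s16r_sigma; rw [hU]
  have h2 : s16r_sigma p n = ∑ e ∈ s, (e : ℤ) := rfl
  rw [h1, h2, ← hsi]
  rw [hst] at hsum
  linarith

end Fermat.Agent.S16
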