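import Mathlib
import Fermat.Agent.S16.Eis
import Fermat.Agent.S16.Sigma

/-!
# S16, package [EIS] (owner: helper7): the Eisenstein series of level `p` is a Hecke eigenform

* `s16e_coeff_sigma` : `aₙ(s16e_fun p) = 24 σ'(n)` for `n ≥ 1` (`σ' = s16r_sigma p`);
* `s16e_heckeT`      : `T_ℓ (s16e_fun p) = (1 + ℓ) • s16e_fun p` for primes `ℓ ≠ p`;
* `s16e_heckeU`      : `U_p (s16e_fun p) = s16e_fun p`.
-/

set_option autoImplicit false

noncomputable section

namespace Fermat.Agent.S16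

open UpperHalfPlane ModularFormClass CongruenceSubgroup Matrix.SpecialLinearGroup Function
open EisensteinSeries
open scoped MatrixGroups ModularForm Manifold
open Fermat.Agent.S22 (IsMF IsNice G0 G1)

theorem s16e_coeff_sigma {p : ℕ} (hp : p ≠ 0) {n : ℕ} (hn : n ≠ 0) :
    (qExpansion 1 (s16e_fun p)).coeff n = 24 * (s16r_sigma p n : ℂ) := by
  rw [s16e_coeff_pos hp hn, s16r_sigma]
  push_cast
  rfl

/-- all coefficients, with `σ'(0) = 0` -/
theorem s16e_coeff_all {p : ℕ} (hp : p ≠ 0) (n : ℕ) :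
    (qExpansion 1 (s16e_fun p)).coeff n =
      (if n = 0 then (p : ℂ) - 1 else 0) + 24 * (s16r_sigma p n : ℂ) := by
  by_cases hn : n = 0
  · subst hn
    rw [s16e_coeff_zero hp, if_pos rfl, s16r_sigma_zero]
    simp
  · rw [s16e_coeff_sigma hp hn, if_neg hn, zero_add]

/-- `T_ℓ E = (1 + ℓ) E` for the Eisenstein series of level `p` and primes `ℓ ≠ p`. -/
theorem s16e_heckeT (p ℓ : ℕ) (hp : p.Prime) (hℓ : ℓ.Prime) (hℓp : ℓ ≠ p) :
    ModularForm.heckeT 2 ℓ (s16e_fun p) = ((1 + ℓ : ℕ) : ℂ) • s16e_fun p := by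
  have hN := s16e_isNice hp.ne_zero
  have hT := Fermat.Agent.S22.DN.isNice_heckeT hN 2 ℓ
  refine hT.eq_of_qExpansion_eq (hN.smul _) ?_
  ext n
  rw [hN.qExpansion_smul, PowerSeries.coeff_smul]
  have h1 := UpperHalfPlane.qCoeff_heckeT hN.per hN.holo hN.bdd 2 hℓ.ne_zero n
  simp only [ModularFormClass.qCoeff, ModularForm.coeffHeckeT_apply] at h1
  rw [h1, s16e_coeff_all hp.ne_zero, s16e_coeff_all hp.ne_zero, s16e_coeff_all hp.ne_zero]
  have e1 : (ℓ : ℂ) ^ ((2 : ℤ) - 1) = (ℓ : ℂ) := by norm_num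
  rw [e1]
  have hrel := s16r_sigma_mul_prime p ℓ hp hℓ hℓp n
  have hrelC : (s16r_sigma p (n * ℓ) : ℂ) +
      (if ℓ ∣ n then (ℓ : ℂ) * (s16r_sigma p (n / ℓ) : ℂ) else 0) =
      (1 + (ℓ : ℂ)) * (s16r_sigma p n : ℂ) := by
    have := congrArg (Int.cast : ℤ → ℂ) hrel
    push_cast at this
    exact this
  by_cases hn : n = 0
  · subst hn
    simp [s16r_sigma_zero]
    ring
  · have hnl : n * ℓ ≠ 0 := Nat.mul_ne_zero hn hℓ.ne_zero
    rw [if_neg hnl, if_neg hn, zero_add, zero_add]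
    by_cases hd : ℓ ∣ n
    · have hq : n / ℓ ≠ 0 := by
        intro h
        rcases Nat.div_eq_zero_iff.mp h with h | h
        · exact hℓ.ne_zero h
        · exact absurd (Nat.le_of_dvd (Nat.pos_of_ne_zero hn) hd) (not_le.mpr h)
      rw [if_pos hd, if_neg hq, zero_add]
      rw [if_pos hd] at hrelC
      push_cast
      rw [smul_eq_mul]
      linear_combination 24 * hrelC
    · rw [if_neg hd, add_zero]
      rw [if_neg hd, add_zero] at hrelC
      push_cast
      rw [smul_eq_mul]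
      linear_combination 24 * hrelC

/-- `U_p E = E` for the Eisenstein series of level `p`. -/
theorem s16e_heckeU (p : ℕ) (hp : p.Prime) :
    ModularForm.heckeU 2 p (s16e_fun p) = s16e_fun p := by
  have hN := s16e_isNice hp.ne_zero
  have hU := Fermat.Agent.S22.DN.isNice_heckeU hN 2 p
  refine hU.eq_of_qExpansion_eq hN ?_
  ext n
  have h1 := UpperHalfPlane.qCoeff_heckeU hN.per hN.holo hN.bdd 2 hp.ne_zero n
  simp only [ModularFormClass.qCoeff, ModularForm.coeffHeckeU_apply] at h1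
  rw [h1, s16e_coeff_all hp.ne_zero, s16e_coeff_all hp.ne_zero, s16r_sigma_mul_self p hp n]
  by_cases hn : n = 0
  · subst hn
    simp
  · have hnl : n * p ≠ 0 := Nat.mul_ne_zero hn hp.ne_zero
    rw [if_neg hnl, if_neg hn]

end Fermat.Agent.S16
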