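import Mathlib
import Fermat.Prelude.Def_CuspForm_HeckeLocal
import Fermat.Prelude.Def_CuspForm_HeckeEvalForms
import Fermat.Prelude.Def_HeckeGalois_EichlerShimura
import Fermat.Agent.S49.Main
import Fermat.Agent.S16.Sigma

/-!
# S16, reduction layer (D2), part 1: Hecke calculus on `q`-expansions

* `s16r_qCoeff_gen`: the `q`-coefficients of `heckeFormsGen N 2 ℓ` applied to a cusp form;
* `s16r_exists_Pn`: for every `n ≥ 1` a polynomial `P_n` in the Hecke operators with
  `a_1(P_n f) = a_n(f)` for all cusp forms `f`;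
* `s16r_lower_gen`: if an integral cusp form `f` is, modulo `d`, a normalised eigenform for the
  system `c`, then every polynomial `P` in the Hecke operators that kills the integral lattice
  has `d ∣ P(c)`.
-/

set_option autoImplicit false

namespace Fermat.Agent.S16

open CuspForm ModularFormClass CongruenceSubgroup UpperHalfPlane ModularCurve
open Fermat.Agent.S49 (eN qCoeff_add qCoeff_sub qCoeff_smul qCoeff_zero qCoeff_neg
  qCoeff_cusp_zero eq_zero_of_qCoeff_eq_zero mem_intLattice_iff intCast_apply)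

variable (N : ℕ) [NeZero N]

/-- The endomorphism of the space of cusp forms defined by a polynomial in the Hecke
operators. -/
noncomputable def s16r_op (P : HeckeAlg) : Module.End ℂ (CuspForm (Gamma0 N) 2) :=
  ((heckeEvalForms N 2 P : heckeAlgebra N 2 ∅) : Module.End ℂ (CuspForm (Gamma0 N) 2))

theorem s16r_op_mem (P : HeckeAlg) : s16r_op N P ∈ heckeAlgebra N 2 ∅ :=
  (heckeEvalForms N 2 P).2

theorem s16r_op_one : s16r_op N 1 = 1 := by
  unfold s16r_op; rw [map_one]; rfl

theorem s16r_op_mul (P Q : HeckeAlg) : s16r_op N (P * Q) = s16r_op N P * s16r_op N Q := by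
  unfold s16r_op; rw [map_mul]; rfl

theorem s16r_op_add (P Q : HeckeAlg) : s16r_op N (P + Q) = s16r_op N P + s16r_op N Q := by
  unfold s16r_op; rw [map_add]; rfl

theorem s16r_op_sub (P Q : HeckeAlg) : s16r_op N (P - Q) = s16r_op N P - s16r_op N Q := by
  unfold s16r_op; rw [map_sub]; rfl

theorem s16r_op_C_apply (a : ℤ) (f : CuspForm (Gamma0 N) 2) :
    s16r_op N (MvPolynomial.C a) f = (a : ℂ) • f := by
  unfold s16r_op
  rw [heckeEvalForms_C, eq_intCast]
  exact intCast_apply a f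

theorem s16r_op_comm (P Q : HeckeAlg) : s16r_op N P * s16r_op N Q = s16r_op N Q * s16r_op N P := by
  rw [← s16r_op_mul, ← s16r_op_mul, mul_comm]

theorem s16r_qCoeff_gen (ℓ : Nat.Primes) (f : CuspForm (Gamma0 N) 2) (n : ℕ) :
    qCoeff ⇑(s16r_op N (heckeGen ℓ) f) n =
      qCoeff ⇑f (n * ℓ) +
        if (ℓ : ℕ) ∣ n then ((eN N ℓ : ℤ) : ℂ) * qCoeff ⇑f (n / ℓ) else 0 := by
  unfold s16r_op
  rw [heckeEvalForms_heckeGen]
  exact Fermat.Agent.S49.qCoeff_heckeOp (ℓ : ℕ) ℓ.2 f n

/-- For every `n ≥ 1` there is a polynomial `P_n` in the Hecke operators with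
`a_1(P_n f) = a_n(f)` for every cusp form `f`. -/
theorem s16r_exists_Pn (n : ℕ) (hn : 0 < n) :
    ∃ P : HeckeAlg, ∀ f : CuspForm (Gamma0 N) 2,
      qCoeff ⇑(s16r_op N P f) 1 = qCoeff ⇑f n := by
  induction n using Nat.strong_induction_on with
  | _ n ih =>
    rcases Nat.lt_or_ge n 2 with hlt | hge
    · have h1 : n = 1 := by omega
      subst h1
      exact ⟨1, fun f => by rw [s16r_op_one]; rfl⟩
    · obtain ⟨ℓ, hℓ, hℓn⟩ := Nat.exists_prime_and_dvd (by omega : n ≠ 1)
      obtain ⟨m, rfl⟩ := hℓn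
      have hmpos : 0 < m := by
        rcases Nat.eq_zero_or_pos m with h | h
        · subst h; omega
        · exact h
      have hmlt : m < ℓ * m := by
        have := hℓ.two_le
        nlinarith
      obtain ⟨Pm, hPm⟩ := ih m hmlt hmpos
      by_cases hd : ℓ ∣ m
      · obtain ⟨m', rfl⟩ := hd
        have hm'pos : 0 < m' := by
          rcases Nat.eq_zero_or_pos m' with h | h
          · subst h; omega
          · exact h
        have hm'lt : m' < ℓ * (ℓ * m') := by
          have := hℓ.two_le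
          nlinarith
        obtain ⟨Pm', hPm'⟩ := ih m' hm'lt hm'pos
        refine ⟨Pm * heckeGen ⟨ℓ, hℓ⟩ - MvPolynomial.C (eN N ℓ) * Pm', fun f => ?_⟩
        rw [s16r_op_sub, s16r_op_mul, s16r_op_mul, LinearMap.sub_apply, Module.End.mul_apply,
          Module.End.mul_apply, qCoeff_sub, hPm, s16r_op_C_apply, qCoeff_smul, hPm',
          s16r_qCoeff_gen]
        have hq : ℓ * m' / ℓ = m' := Nat.mul_div_cancel_left _ hℓ.pos
        simp only [Subtype.coe_mk, dvd_mul_right, if_true, hq]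
        rw [mul_comm (ℓ * m') ℓ]
        ring
      · refine ⟨Pm * heckeGen ⟨ℓ, hℓ⟩, fun f => ?_⟩
        rw [s16r_op_mul, Module.End.mul_apply, hPm, s16r_qCoeff_gen]
        simp only [Subtype.coe_mk, hd, if_false, add_zero]
        rw [mul_comm m ℓ]

/-! ### The lattice `d L` and the congruence ideal -/

/-- Cusp forms all of whose `q`-coefficients are integers divisible by `d`. -/
def s16r_dLattice (d : ℕ) : AddSubgroup (CuspForm (Gamma0 N) 2) where
  carrier := {g | ∀ n : ℕ, ∃ m : ℤ, qCoeff ⇑g n = (d : ℂ) * (m : ℂ)}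
  add_mem' := fun {f g} hf hg n => by
    obtain ⟨a, ha⟩ := hf n
    obtain ⟨b, hb⟩ := hg n
    exact ⟨a + b, by rw [qCoeff_add, ha, hb]; push_cast; ring⟩
  zero_mem' := fun n => ⟨0, by rw [qCoeff_zero]; simp⟩
  neg_mem' := fun {f} hf n => by
    obtain ⟨a, ha⟩ := hf n
    exact ⟨-a, by rw [qCoeff_neg, ha]; push_cast; ring⟩

theorem s16r_mem_dLattice_iff (d : ℕ) (g : CuspForm (Gamma0 N) 2) :
    g ∈ s16r_dLattice N d ↔ ∀ n : ℕ, ∃ m : ℤ, qCoeff ⇑g n = (d : ℂ) * (m : ℂ) := Iff.rfl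

theorem s16r_hecke_mem_dLattice (d : ℕ) {T : Module.End ℂ (CuspForm (Gamma0 N) 2)}
    (hT : T ∈ CuspForm.heckeAlgebra N 2 ∅) {g : CuspForm (Gamma0 N) 2}
    (hg : g ∈ s16r_dLattice N d) : T g ∈ s16r_dLattice N d := by
  rcases Nat.eq_zero_or_pos d with rfl | hd
  · have hg0 : g = 0 := eq_zero_of_qCoeff_eq_zero g fun n => by
      obtain ⟨m, hm⟩ := hg n
      simpa using hm
    rw [hg0, map_zero]
    exact (s16r_dLattice N 0).zero_mem
  have hd0 : (d : ℂ) ≠ 0 := Nat.cast_ne_zero.2 hd.ne'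
  have hg' : ((d : ℂ)⁻¹ • g) ∈ CuspForm.intLattice N 2 := by
    rw [mem_intLattice_iff]
    intro n
    obtain ⟨m, hm⟩ := hg n
    exact ⟨m, by rw [qCoeff_smul, hm]; field_simp⟩
  have hTg' := CuspForm.mem_intLattice_of_mem_heckeAlgebra (by norm_num) hT hg'
  rw [mem_intLattice_iff] at hTg'
  intro n
  obtain ⟨m, hm⟩ := hTg' n
  refine ⟨m, ?_⟩
  have : T g = (d : ℂ) • T ((d : ℂ)⁻¹ • g) := by
    rw [map_smul, smul_smul, mul_inv_cancel₀ hd0, one_smul]
  rw [this, qCoeff_smul, hm]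

/-- If `f` is an integral cusp form which is modulo `d` a normalised eigenform with
eigenvalues `c`, then `P f ≡ P(c) f` modulo `d` for every polynomial `P` in the Hecke
operators. -/
theorem s16r_op_sub_mem (c : Nat.Primes → ℤ) (d : ℕ) (f : CuspForm (Gamma0 N) 2)
    (hgen : ∀ ℓ : Nat.Primes, s16r_op N (heckeGen ℓ) f - ((c ℓ : ℤ) : ℂ) • f ∈ s16r_dLattice N d)
    (P : HeckeAlg) :
    s16r_op N P f - ((MvPolynomial.aeval c P : ℤ) : ℂ) • f ∈ s16r_dLattice N d := by
  induction P using MvPolynomial.induction_on with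
  | C a =>
    rw [s16r_op_C_apply, MvPolynomial.aeval_C]
    simp only [Algebra.algebraMap_self, RingHom.id_apply, sub_self]
    exact (s16r_dLattice N d).zero_mem
  | add P Q hP hQ =>
    have := (s16r_dLattice N d).add_mem hP hQ
    rw [s16r_op_add, LinearMap.add_apply, map_add]
    push_cast
    rw [add_smul]
    convert this using 1
    abel
  | mul_X P ℓ hP =>
    have h1 := s16r_hecke_mem_dLattice N d (s16r_op_mem N P) (hgen ℓ)
    rw [map_sub, map_smul] at h1
    have h2 : ((c ℓ : ℤ) : ℂ) • (s16r_op N P f - ((MvPolynomial.aeval c P : ℤ) : ℂ) • f) ∈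
        s16r_dLattice N d := by
      have h3 := (s16r_dLattice N d).zsmul_mem hP (c ℓ)
      rwa [← Int.cast_smul_eq_zsmul ℂ] at h3
    have := (s16r_dLattice N d).add_mem h1 h2
    have hX : (MvPolynomial.X ℓ : HeckeAlg) = heckeGen ℓ := rfl
    rw [s16r_op_mul, Module.End.mul_apply, map_mul, MvPolynomial.aeval_X, hX]
    push_cast
    convert this using 1
    rw [smul_sub, smul_smul, mul_comm]
    abel

/-- The value at `f` of `phi P`, for `f` in the integral lattice. -/
theorem s16r_phi_apply (P : HeckeAlg) (f : ↥(intLattice N 2)) :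
    ((((latticeRestrictHom N ∅).toRingHom.comp (heckeEvalForms N 2) P :
        ↥(heckeLatticeAlgebra N ∅)) : Module.End ℤ ↥(intLattice N 2)) f :
      CuspForm (Gamma0 N) 2) = s16r_op N P (f : CuspForm (Gamma0 N) 2) := rfl

/-- **Lower bound.** If an integral cusp form `f` with coefficients `a` is modulo `d` a
normalised eigenform for the system `c`, then `d ∣ P(c)` for every polynomial `P` in the Hecke
operators that acts as zero on the integral lattice. -/
theorem s16r_lower_gen (c : Nat.Primes → ℤ) (d : ℕ) (f : CuspForm (Gamma0 N) 2) (a : ℕ → ℤ)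
    (ha : ∀ n, qCoeff ⇑f n = (a n : ℂ)) (h1 : (d : ℤ) ∣ a 1 - 1)
    (hrel : ∀ ℓ : Nat.Primes, ∀ n : ℕ, (d : ℤ) ∣
      a (n * ℓ) + (if (ℓ : ℕ) ∣ n then eN N ℓ * a (n / ℓ) else 0) - c ℓ * a n)
    (P : HeckeAlg)
    (hP : (latticeRestrictHom N ∅).toRingHom.comp (heckeEvalForms N 2) P = 0) :
    (d : ℤ) ∣ MvPolynomial.aeval c P := by
  have hfL : f ∈ intLattice N 2 := (mem_intLattice_iff f).2 fun n => ⟨a n, ha n⟩
  have hgen : ∀ ℓ : Nat.Primes,
      s16r_op N (heckeGen ℓ) f - ((c ℓ : ℤ) : ℂ) • f ∈ s16r_dLattice N d := by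
    intro ℓ n
    obtain ⟨m, hm⟩ := hrel ℓ n
    refine ⟨m, ?_⟩
    rw [qCoeff_sub, qCoeff_smul, s16r_qCoeff_gen, ha]
    have hm' : ((a (n * ℓ) + (if (ℓ : ℕ) ∣ n then eN N ℓ * a (n / ℓ) else 0) - c ℓ * a n : ℤ) : ℂ)
        = ((d : ℤ) : ℂ) * (m : ℂ) := by rw [hm]; push_cast; ring
    rw [← Int.cast_natCast (R := ℂ) d, ← hm']
    split_ifs with h
    · rw [ha, ha]; push_cast; ring
    · rw [ha]; push_cast; ring
  have hmem := s16r_op_sub_mem N c d f hgen P
  have hz : s16r_op N P f = 0 := by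
    have := s16r_phi_apply N P ⟨f, hfL⟩
    rw [hP] at this
    exact this.symm
  rw [hz, zero_sub] at hmem
  obtain ⟨m, hm⟩ := hmem 1
  rw [qCoeff_neg, qCoeff_smul, ha] at hm
  have hm2 : -(MvPolynomial.aeval c P * a 1) = (d : ℤ) * m := by
    have : ((-(MvPolynomial.aeval c P * a 1) : ℤ) : ℂ) = (((d : ℤ) * m : ℤ) : ℂ) := by
      push_cast; exact hm
    exact_mod_cast this
  obtain ⟨k, hk⟩ := h1
  refine ⟨-m - MvPolynomial.aeval c P * k, ?_⟩
  have ha1 : a 1 = 1 + d * k := by linarith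
  rw [ha1] at hm2
  linear_combination -hm2

end Fermat.Agent.S16
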