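import Mathlib
import Fermat.Agent.S16.HeckeN

/-!
# S16, reduction layer (D2), part 2: the pairing `T × L → ℤ`, `(t, f) ↦ a_1(t f)`

`L = intLattice N 2`, `T = heckeLatticeAlgebra N ∅`.  The map `L → Hom_ℤ(T, ℤ)` is bijective
(`s16r_pair_surjective`); consequently every additive character of `T` which is compatible
modulo `d` with a system of eigenvalues `c` comes from an integral cusp form which is an
eigenform modulo `d` (`s16r_upper_gen`).
-/

set_option autoImplicit false

namespace Fermat.Agent.S16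

open CuspForm ModularFormClass CongruenceSubgroup UpperHalfPlane ModularCurve
open Fermat.Agent.S49 (eN qCoeff_add qCoeff_sub qCoeff_smul qCoeff_zero qCoeff_neg
  qCoeff_cusp_zero eq_zero_of_qCoeff_eq_zero mem_intLattice_iff intCast_apply)

variable (N : ℕ) [NeZero N]

/-- The map `phi` of the statement of S16 (for a general level). -/
noncomputable def s16r_phi : HeckeAlg →+* ↥(heckeLatticeAlgebra N ∅) :=
  (latticeRestrictHom N ∅).toRingHom.comp (heckeEvalForms N 2)

theorem s16r_phi_coe_apply (P : HeckeAlg) (f : ↥(intLattice N 2)) :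
    (((s16r_phi N P : ↥(heckeLatticeAlgebra N ∅)) : Module.End ℤ ↥(intLattice N 2)) f :
      CuspForm (Gamma0 N) 2) = s16r_op N P (f : CuspForm (Gamma0 N) 2) := rfl

/-! ### The coefficient functionals -/

/-- The `n`-th `q`-coefficient of an element of the integral lattice, as an integer. -/
noncomputable def s16r_coefFun (n : ℕ) (f : ↥(intLattice N 2)) : ℤ :=
  Classical.choose ((mem_intLattice_iff (f : CuspForm (Gamma0 N) 2)).1 f.2 n)

omit [NeZero N] in
theorem s16r_coefFun_spec (n : ℕ) (f : ↥(intLattice N 2)) :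
    ((s16r_coefFun N n f : ℤ) : ℂ) = qCoeff ⇑(f : CuspForm (Gamma0 N) 2) n :=
  (Classical.choose_spec ((mem_intLattice_iff (f : CuspForm (Gamma0 N) 2)).1 f.2 n)).symm

/-- The `n`-th `q`-coefficient as a linear form on the integral lattice. -/
noncomputable def s16r_coef (n : ℕ) : ↥(intLattice N 2) →ₗ[ℤ] ℤ where
  toFun := s16r_coefFun N n
  map_add' f g := by
    have h1 := s16r_coefFun_spec N n (f + g)
    have h2 := s16r_coefFun_spec N n f
    have h3 := s16r_coefFun_spec N n g
    have h4 : qCoeff ⇑((f + g : ↥(intLattice N 2)) : CuspForm (Gamma0 N) 2) n =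
        qCoeff ⇑(f : CuspForm (Gamma0 N) 2) n + qCoeff ⇑(g : CuspForm (Gamma0 N) 2) n := by
      rw [Submodule.coe_add]; exact qCoeff_add _ _ n
    have : ((s16r_coefFun N n (f + g) : ℤ) : ℂ) =
        ((s16r_coefFun N n f + s16r_coefFun N n g : ℤ) : ℂ) := by
      rw [Int.cast_add, h1, h2, h3, h4]
    exact_mod_cast this
  map_smul' k f := by
    have h1 := s16r_coefFun_spec N n (k • f)
    have h2 := s16r_coefFun_spec N n f
    have h4 : qCoeff ⇑((k • f : ↥(intLattice N 2)) : CuspForm (Gamma0 N) 2) n =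
        (k : ℂ) * qCoeff ⇑(f : CuspForm (Gamma0 N) 2) n := by
      rw [Submodule.coe_smul, ← Int.cast_smul_eq_zsmul ℂ]; exact qCoeff_smul _ _ n
    have : ((s16r_coefFun N n (k • f) : ℤ) : ℂ) = ((k * s16r_coefFun N n f : ℤ) : ℂ) := by
      rw [Int.cast_mul, h1, h2, h4]
    simpa using (Int.cast_injective this)

omit [NeZero N] in
theorem s16r_coef_spec (n : ℕ) (f : ↥(intLattice N 2)) :
    ((s16r_coef N n f : ℤ) : ℂ) = qCoeff ⇑(f : CuspForm (Gamma0 N) 2) n :=
  s16r_coefFun_spec N n f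

omit [NeZero N] in
theorem s16r_coef_zero_apply (f : ↥(intLattice N 2)) : s16r_coef N 0 f = 0 := by
  have : ((s16r_coef N 0 f : ℤ) : ℂ) = ((0 : ℤ) : ℂ) := by
    rw [s16r_coef_spec, qCoeff_cusp_zero]; simp
  exact_mod_cast this

omit [NeZero N] in
theorem s16r_eq_zero_of_coef (f : ↥(intLattice N 2)) (h : ∀ n, 0 < n → s16r_coef N n f = 0) :
    f = 0 := by
  apply Subtype.ext
  rw [Submodule.coe_zero]
  refine eq_zero_of_qCoeff_eq_zero _ fun n => ?_
  rcases Nat.eq_zero_or_pos n with rfl | hn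
  · exact qCoeff_cusp_zero _
  · rw [← s16r_coef_spec, h n hn]; simp

/-- The coefficients of `phi (X_ℓ) f`. -/
theorem s16r_coef_gen (ℓ : Nat.Primes) (f : ↥(intLattice N 2)) (n : ℕ) :
    s16r_coef N n (((s16r_phi N (heckeGen ℓ) : ↥(heckeLatticeAlgebra N ∅)) :
        Module.End ℤ ↥(intLattice N 2)) f) =
      s16r_coef N (n * ℓ) f + if (ℓ : ℕ) ∣ n then eN N ℓ * s16r_coef N (n / ℓ) f else 0 := by
  have : ((s16r_coef N n (((s16r_phi N (heckeGen ℓ) : ↥(heckeLatticeAlgebra N ∅)) :
        Module.End ℤ ↥(intLattice N 2)) f) : ℤ) : ℂ) =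
      ((s16r_coef N (n * ℓ) f + if (ℓ : ℕ) ∣ n then eN N ℓ * s16r_coef N (n / ℓ) f else 0 : ℤ) :
        ℂ) := by
    rw [s16r_coef_spec, s16r_phi_coe_apply, s16r_qCoeff_gen]
    split_ifs with h
    · push_cast; rw [s16r_coef_spec, s16r_coef_spec]
    · push_cast; rw [s16r_coef_spec]
  exact_mod_cast this

/-- The element `t_n = phi (P_n)` of `T` computes the `n`-th coefficient. -/
theorem s16r_exists_tn (n : ℕ) (hn : 0 < n) :
    ∃ P : HeckeAlg, ∀ f : ↥(intLattice N 2),
      s16r_coef N 1 (((s16r_phi N P : ↥(heckeLatticeAlgebra N ∅)) :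
        Module.End ℤ ↥(intLattice N 2)) f) = s16r_coef N n f := by
  obtain ⟨P, hP⟩ := s16r_exists_Pn N n hn
  refine ⟨P, fun f => ?_⟩
  have : ((s16r_coef N 1 (((s16r_phi N P : ↥(heckeLatticeAlgebra N ∅)) :
        Module.End ℤ ↥(intLattice N 2)) f) : ℤ) : ℂ) = ((s16r_coef N n f : ℤ) : ℂ) := by
    rw [s16r_coef_spec, s16r_phi_coe_apply, hP, s16r_coef_spec]
  exact_mod_cast this

/-! ### The pairing -/

/-- The pairing `L → Hom(T, ℤ)`, `f ↦ (t ↦ a_1(t f))`. -/
noncomputable def s16r_pair : ↥(intLattice N 2) →ₗ[ℤ] (↥(heckeLatticeAlgebra N ∅) →ₗ[ℤ] ℤ) :=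
  LinearMap.mk₂ ℤ (fun f t => s16r_coef N 1 ((t : Module.End ℤ ↥(intLattice N 2)) f))
    (fun f g t => by simp only [map_add])
    (fun k f t => by simp only [map_smul])
    (fun f s t => by
      simp only [Subalgebra.coe_add, LinearMap.add_apply, map_add])
    (fun k f t => by
      simp only [Subalgebra.coe_smul, LinearMap.smul_apply, map_smul])

theorem s16r_pair_apply (f : ↥(intLattice N 2)) (t : ↥(heckeLatticeAlgebra N ∅)) :
    s16r_pair N f t = s16r_coef N 1 ((t : Module.End ℤ ↥(intLattice N 2)) f) := rfl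

theorem s16r_pair_injective : Function.Injective (s16r_pair N) := by
  rw [← LinearMap.ker_eq_bot, LinearMap.ker_eq_bot']
  intro f hf
  refine s16r_eq_zero_of_coef N f fun n hn => ?_
  obtain ⟨P, hP⟩ := s16r_exists_tn N n hn
  rw [← hP f, ← s16r_pair_apply, hf, LinearMap.zero_apply]

theorem s16r_pair_flip_injective : Function.Injective (s16r_pair N).flip := by
  rw [← LinearMap.ker_eq_bot, LinearMap.ker_eq_bot']
  intro t ht
  apply Subtype.ext
  rw [ZeroMemClass.coe_zero]
  refine LinearMap.ext fun f => ?_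
  rw [LinearMap.zero_apply]
  refine s16r_eq_zero_of_coef N _ fun n hn => ?_
  obtain ⟨P, hP⟩ := s16r_exists_tn N n hn
  rw [← hP]
  have hcomm : ((s16r_phi N P : ↥(heckeLatticeAlgebra N ∅)) : Module.End ℤ ↥(intLattice N 2))
      ((t : Module.End ℤ ↥(intLattice N 2)) f) =
      (t : Module.End ℤ ↥(intLattice N 2))
        (((s16r_phi N P : ↥(heckeLatticeAlgebra N ∅)) : Module.End ℤ ↥(intLattice N 2)) f) := by
    have h1 : s16r_phi N P * t = t * s16r_phi N P := mul_comm _ _
    have h2 := congrArg (fun x : ↥(heckeLatticeAlgebra N ∅) =>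
      ((x : Module.End ℤ ↥(intLattice N 2)) f)) h1
    simpa only [Subalgebra.coe_mul, Module.End.mul_apply] using h2
  rw [hcomm, ← s16r_pair_apply]
  have := LinearMap.congr_fun ht
    (((s16r_phi N P : ↥(heckeLatticeAlgebra N ∅)) : Module.End ℤ ↥(intLattice N 2)) f)
  simpa only [LinearMap.flip_apply, LinearMap.zero_apply] using this

/-! ### Perfectness -/

/-- An injective linear map between finite free `ℤ`-modules, the target of rank at most the
rank of the source, has torsion cokernel. -/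
theorem s16r_torsion_coker {L D : Type*} [AddCommGroup L] [AddCommGroup D]
    [Module.Finite ℤ L] [Module.Finite ℤ D]
    (Φ : L →ₗ[ℤ] D) (hΦ : Function.Injective Φ)
    (hrank : Module.finrank ℤ D ≤ Module.finrank ℤ L) (ψ : D) :
    ∃ k : ℤ, k ≠ 0 ∧ ∃ f : L, Φ f = k • ψ := by
  have h1 := (LinearMap.range Φ).finrank_quotient_add_finrank
  have h2 := LinearMap.finrank_range_of_inj hΦ
  have h3 : Module.finrank ℤ (D ⧸ LinearMap.range Φ) = 0 := by omega
  rw [Module.finrank_eq_zero_iff] at h3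
  obtain ⟨k, hk, hkψ⟩ := h3 (Submodule.Quotient.mk ψ)
  refine ⟨k, hk, ?_⟩
  rw [← Submodule.Quotient.mk_smul, Submodule.Quotient.mk_eq_zero] at hkψ
  obtain ⟨f, hf⟩ := hkψ
  exact ⟨f, hf⟩

theorem s16r_finrank_eq :
    Module.finrank ℤ ↥(heckeLatticeAlgebra N ∅) = Module.finrank ℤ ↥(intLattice N 2) := by
  haveI := intLattice.moduleFinite N
  haveI := intLattice.moduleFree N
  have h1 := LinearMap.finrank_le_finrank_of_injective (s16r_pair_injective N)
  have h2 := LinearMap.finrank_le_finrank_of_injective (s16r_pair_flip_injective N)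
  rw [Module.finrank_linearMap_self] at h1 h2
  omega

/-- **Perfectness of the pairing**: every linear form on `T` is `t ↦ a_1(t f)` for an `f` in
the integral lattice. -/
theorem s16r_pair_surjective : Function.Surjective (s16r_pair N) := by
  haveI := intLattice.moduleFinite N
  haveI := intLattice.moduleFree N
  intro ψ
  have hrank : Module.finrank ℤ (↥(heckeLatticeAlgebra N ∅) →ₗ[ℤ] ℤ) ≤
      Module.finrank ℤ ↥(intLattice N 2) := by
    rw [Module.finrank_linearMap_self, s16r_finrank_eq]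
  obtain ⟨k, hk, f₀, hf₀⟩ := s16r_torsion_coker (s16r_pair N) (s16r_pair_injective N) hrank ψ
  have hkC : (k : ℂ) ≠ 0 := Int.cast_ne_zero.2 hk
  -- the coefficients of `f₀` are divisible by `k`
  have hcoef : ∀ n, ∃ m : ℤ, s16r_coef N n f₀ = k * m := by
    intro n
    rcases Nat.eq_zero_or_pos n with rfl | hn
    · exact ⟨0, by rw [s16r_coef_zero_apply]; simp⟩
    · obtain ⟨P, hP⟩ := s16r_exists_tn N n hn
      refine ⟨ψ (s16r_phi N P), ?_⟩
      rw [← hP f₀, ← s16r_pair_apply, hf₀, LinearMap.smul_apply, smul_eq_mul]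
  -- divide by `k`
  have hmem : ((k : ℂ)⁻¹ • (f₀ : CuspForm (Gamma0 N) 2)) ∈ intLattice N 2 := by
    rw [mem_intLattice_iff]
    intro n
    obtain ⟨m, hm⟩ := hcoef n
    refine ⟨m, ?_⟩
    rw [qCoeff_smul, ← s16r_coef_spec, hm]
    push_cast
    field_simp
  obtain ⟨f, hf⟩ : ∃ f : ↥(intLattice N 2), k • f = f₀ := by
    refine ⟨⟨_, hmem⟩, ?_⟩
    apply Subtype.ext
    rw [Submodule.coe_smul, Subtype.coe_mk, ← Int.cast_smul_eq_zsmul ℂ, smul_smul,
      mul_inv_cancel₀ hkC, one_smul]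
  refine ⟨f, LinearMap.ext fun t => ?_⟩
  have h1 : k * s16r_pair N f t = k * ψ t := by
    have := congrArg (fun φ : ↥(heckeLatticeAlgebra N ∅) →ₗ[ℤ] ℤ => φ t) hf₀
    simp only [LinearMap.smul_apply, smul_eq_mul] at this
    rw [← this, ← hf, map_smul, LinearMap.smul_apply, smul_eq_mul]
  exact mul_left_cancel₀ hk h1

end Fermat.Agent.S16
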