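import Mathlib
import Fermat.Agent.S16.Pairing

/-!
# S16, reduction layer (D2): the two theorems `s16r_lower` and `s16r_upper`

With `phi : HeckeAlg →+* T` the map of the statement of S16 and `ev` the evaluation at the
Eisenstein system, for every `d : ℕ`:

  `s16r_Cong p d`  ⟺  `∀ P, phi P = 0 → (d : ℤ) ∣ ev P`,

where `s16r_Cong p d` says that there is a cusp form of weight 2 and level `Γ₀(p)` with integral
`q`-expansion congruent modulo `d` to `E' = ∑ σ'(k) q^k`.
-/

set_option autoImplicit false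

namespace Fermat.Agent.S16

open CuspForm ModularFormClass CongruenceSubgroup UpperHalfPlane ModularCurve
open Fermat.Agent.S49 (eN qCoeff_add qCoeff_sub qCoeff_smul qCoeff_zero qCoeff_neg
  qCoeff_cusp_zero eq_zero_of_qCoeff_eq_zero mem_intLattice_iff intCast_apply)

section general

variable (N : ℕ) [NeZero N]

theorem s16r_heckeEvalForms_surjective : Function.Surjective (heckeEvalForms N 2) := by
  rintro ⟨t, ht⟩
  induction ht using Algebra.adjoin_induction with
  | mem x hx =>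
    rcases hx with ⟨ℓ, hℓ, hℓN, -, rfl⟩ | ⟨q, hqN, hq, -, rfl⟩
    · exact ⟨heckeGen ⟨ℓ, hℓ⟩, by
        rw [heckeEvalForms_heckeGen_of_not_dvd (ℓ := ⟨ℓ, hℓ⟩) hℓN]; rfl⟩
    · exact ⟨heckeGen ⟨q, hq⟩, by
        rw [heckeEvalForms_heckeGen_of_dvd (q := ⟨q, hq⟩) hqN]; rfl⟩
  | algebraMap r =>
    exact ⟨MvPolynomial.C r, by rw [heckeEvalForms_C]; rfl⟩
  | add x y hx hy hPx hPy =>
    obtain ⟨P, hP⟩ := hPx
    obtain ⟨Q, hQ⟩ := hPy
    exact ⟨P + Q, by rw [map_add, hP, hQ]; rfl⟩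
  | mul x y hx hy hPx hPy =>
    obtain ⟨P, hP⟩ := hPx
    obtain ⟨Q, hQ⟩ := hPy
    exact ⟨P * Q, by rw [map_mul, hP, hQ]; rfl⟩

theorem s16r_phi_surjective : Function.Surjective (s16r_phi N) := by
  intro t
  obtain ⟨s, hs⟩ := latticeRestrictHom_surjective N ∅ t
  obtain ⟨P, hP⟩ := s16r_heckeEvalForms_surjective N s
  exact ⟨P, by rw [← hs, ← hP]; rfl⟩

/-- A linear form on `T` lifting the evaluation at `c` modulo `d`, under the hypothesis that the
evaluation kills `ker phi` modulo `d`. -/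
theorem s16r_exists_psi (c : Nat.Primes → ℤ) (d : ℕ)
    (h : ∀ P : HeckeAlg, s16r_phi N P = 0 → (d : ℤ) ∣ MvPolynomial.aeval c P) :
    ∃ ψ : ↥(heckeLatticeAlgebra N ∅) →ₗ[ℤ] ℤ,
      ∀ P : HeckeAlg, (d : ℤ) ∣ ψ (s16r_phi N P) - MvPolynomial.aeval c P := by
  classical
  let b := Module.Free.chooseBasis ℤ ↥(heckeLatticeAlgebra N ∅)
  choose Q hQ using fun i => s16r_phi_surjective N (b i)
  refine ⟨b.constr ℤ (fun i => MvPolynomial.aeval c (Q i)), fun P => ?_⟩
  set r := b.equivFun (s16r_phi N P) with hr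
  have h1 : s16r_phi N (P - ∑ i, MvPolynomial.C (r i) * Q i) = 0 := by
    rw [map_sub, map_sum, sub_eq_zero]
    conv_lhs => rw [← b.sum_equivFun (s16r_phi N P)]
    refine Finset.sum_congr rfl fun i _ => ?_
    rw [map_mul, hQ, ← hr]
    have : s16r_phi N (MvPolynomial.C (r i)) = ((r i : ℤ) : ↥(heckeLatticeAlgebra N ∅)) := by
      rw [← MvPolynomial.algebraMap_eq, eq_intCast, map_intCast]
    rw [this, zsmul_eq_mul]
  have h2 := h _ h1
  rw [map_sub, map_sum] at h2
  have h3 : b.constr ℤ (fun i => MvPolynomial.aeval c (Q i)) (s16r_phi N P) =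
      ∑ i, MvPolynomial.aeval c (MvPolynomial.C (r i) * Q i) := by
    rw [Module.Basis.constr_apply_fintype]
    refine Finset.sum_congr rfl fun i _ => ?_
    rw [map_mul, MvPolynomial.aeval_C, smul_eq_mul]
    rfl
  rw [h3]
  rw [← dvd_neg, neg_sub]
  exact h2

/-- **Upper bound, general form.** If the evaluation at `c` kills `ker phi` modulo `d`, then
there is an integral cusp form which is modulo `d` a normalised eigenform with eigenvalues
`c`. -/
theorem s16r_upper_gen (c : Nat.Primes → ℤ) (d : ℕ)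
    (h : ∀ P : HeckeAlg, s16r_phi N P = 0 → (d : ℤ) ∣ MvPolynomial.aeval c P) :
    ∃ f : CuspForm (Gamma0 N) 2, ∃ a : ℕ → ℤ, (∀ n, qCoeff ⇑f n = (a n : ℂ)) ∧
      (d : ℤ) ∣ a 1 - 1 ∧
      ∀ ℓ : Nat.Primes, ∀ n : ℕ, (d : ℤ) ∣
        a (n * ℓ) + (if (ℓ : ℕ) ∣ n then eN N ℓ * a (n / ℓ) else 0) - c ℓ * a n := by
  obtain ⟨ψ, hψ⟩ := s16r_exists_psi N c d h
  obtain ⟨f, hf⟩ := s16r_pair_surjective N ψ
  -- (*) a_1 (phi P f) ≡ P(c)
  have hstar : ∀ P : HeckeAlg, (d : ℤ) ∣
      s16r_coef N 1 (((s16r_phi N P : ↥(heckeLatticeAlgebra N ∅)) :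
        Module.End ℤ ↥(intLattice N 2)) f) - MvPolynomial.aeval c P := by
    intro P
    rw [← s16r_pair_apply, hf]
    exact hψ P
  refine ⟨f, fun n => s16r_coef N n f, fun n => (s16r_coef_spec N n f).symm, ?_, ?_⟩
  · have := hstar 1
    rwa [map_one, map_one, OneMemClass.coe_one, Module.End.one_apply] at this
  · intro ℓ n
    rcases Nat.eq_zero_or_pos n with rfl | hn
    · simp [s16r_coef_zero_apply]
    obtain ⟨P, hP⟩ := s16r_exists_tn N n hn
    have h1 := hstar (P * heckeGen ℓ)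
    have h2 := hstar P
    rw [hP] at h2
    rw [map_mul, Subalgebra.coe_mul, Module.End.mul_apply, hP, s16r_coef_gen, map_mul,
      aeval_heckeGen] at h1
    have h3 : (d : ℤ) ∣ (s16r_coef N n f - MvPolynomial.aeval c P) * c ℓ := h2.mul_right _
    have h4 := dvd_sub h1 h3
    have e : s16r_coef N (n * ℓ) f +
        (if (ℓ : ℕ) ∣ n then eN N ℓ * s16r_coef N (n / ℓ) f else 0) - c ℓ * s16r_coef N n f =
        (s16r_coef N (n * ℓ) f + if (ℓ : ℕ) ∣ n then eN N ℓ * s16r_coef N (n / ℓ) f else 0) -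
          MvPolynomial.aeval c P * c ℓ - (s16r_coef N n f - MvPolynomial.aeval c P) * c ℓ := by
      ring
    rw [e]
    exact h4

end general

/-! ### Specialisation to the Eisenstein system at a prime level -/

/-- The Hecke relations of `σ'` in the shape of the Eisenstein system. -/
theorem s16r_sigma_rel (p : ℕ) (hp : p.Prime) (ℓ : Nat.Primes) (n : ℕ) :
    s16r_sigma p (n * ℓ) + (if (ℓ : ℕ) ∣ n then eN p ℓ * s16r_sigma p (n / ℓ) else 0) =
      eisensteinSystem p ℓ * s16r_sigma p n := by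
  by_cases hℓ : (ℓ : ℕ) ∣ p
  · have hℓp : (ℓ : ℕ) = p := (Nat.prime_dvd_prime_iff_eq ℓ.2 hp).1 hℓ
    rw [eisensteinSystem_of_dvd hℓ, hℓp, s16r_sigma_mul_self p hp]
    simp [eN]
  · have hne : (ℓ : ℕ) ≠ p := fun h => hℓ (h ▸ dvd_rfl)
    rw [eisensteinSystem_of_not_dvd hℓ]
    have := s16r_sigma_mul_prime p ℓ hp ℓ.2 hne n
    simp only [eN, hℓ, if_false]
    push_cast
    exact this

/-- "There is a cusp form of weight 2 and level `Γ₀(p)` with integral `q`-expansion congruent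
to `E' = ∑ σ'(k) q^k` modulo `d`" (`d = 0`: equal to `E'`). -/
def s16r_Cong (p d : ℕ) : Prop :=
  ∃ f : CuspForm (Gamma0 p) 2, ∃ a : ℕ → ℤ, (∀ k, qCoeff ⇑f k = (a k : ℂ)) ∧
    ∀ k, 1 ≤ k → (d : ℤ) ∣ a k - s16r_sigma p k

/-- **Lower bound**: an integral cusp form congruent to `E'` modulo `d` forces `d ∣ ev P` for
every `P` in the kernel of `phi`. -/
theorem s16r_lower (p : ℕ) [Fact p.Prime] (d : ℕ) (h : s16r_Cong p d) (P : HeckeAlg)
    (hP : (latticeRestrictHom p ∅).toRingHom.comp (heckeEvalForms p 2) P = 0) :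
    (d : ℤ) ∣ MvPolynomial.aeval (eisensteinSystem p) P := by
  have hp : p.Prime := Fact.out
  obtain ⟨f, a, ha, hcong⟩ := h
  have ha0 : a 0 = 0 := by
    have : ((a 0 : ℤ) : ℂ) = ((0 : ℤ) : ℂ) := by rw [← ha, qCoeff_cusp_zero]; simp
    exact_mod_cast this
  have hcong' : ∀ k, (d : ℤ) ∣ a k - s16r_sigma p k := by
    intro k
    rcases Nat.eq_zero_or_pos k with rfl | hk
    · rw [ha0, s16r_sigma_zero]; simp
    · exact hcong k hk
  refine s16r_lower_gen p (eisensteinSystem p) d f a ha ?_ ?_ P hP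
  · have := hcong 1 le_rfl
    rwa [s16r_sigma_one p hp.ne_one] at this
  · intro ℓ n
    have hrel := s16r_sigma_rel p hp ℓ n
    have h1 := hcong' (n * ℓ)
    have h2 := (hcong' n).mul_left (eisensteinSystem p ℓ)
    by_cases hd : (ℓ : ℕ) ∣ n
    · have h3 := (hcong' (n / ℓ)).mul_left (eN p ℓ)
      rw [if_pos hd] at hrel ⊢
      have h4 := dvd_sub (dvd_add h1 h3) h2
      have e : a (n * ℓ) + eN p ℓ * a (n / ℓ) - eisensteinSystem p ℓ * a n =
          a (n * ℓ) - s16r_sigma p (n * ℓ) + eN p ℓ * (a (n / ℓ) - s16r_sigma p (n / ℓ)) -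
            eisensteinSystem p ℓ * (a n - s16r_sigma p n) := by
        linear_combination hrel
      rw [e]
      exact h4
    · rw [if_neg hd] at hrel ⊢
      have h4 := dvd_sub h1 h2
      have e : a (n * ℓ) + 0 - eisensteinSystem p ℓ * a n =
          a (n * ℓ) - s16r_sigma p (n * ℓ) - eisensteinSystem p ℓ * (a n - s16r_sigma p n) := by
        linear_combination hrel
      rw [e]
      exact h4

/-- **Upper bound**: if `d ∣ ev P` for every `P` in the kernel of `phi`, then there is an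
integral cusp form congruent to `E'` modulo `d`. -/
theorem s16r_upper (p : ℕ) [Fact p.Prime] (d : ℕ)
    (h : ∀ P : HeckeAlg, (latticeRestrictHom p ∅).toRingHom.comp (heckeEvalForms p 2) P = 0 →
      (d : ℤ) ∣ MvPolynomial.aeval (eisensteinSystem p) P) :
    s16r_Cong p d := by
  have hp : p.Prime := Fact.out
  obtain ⟨f, a, ha, h1, hrel⟩ := s16r_upper_gen p (eisensteinSystem p) d h
  refine ⟨f, a, ha, ?_⟩
  -- uniqueness of the solution of the Hecke relations, in `ZMod d`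
  have key := Fermat.Agent.S49.eq_zero_of_rel_of_one_eq_zero (R := ZMod d)
    (fun ℓ => ((eN p ℓ : ℤ) : ZMod d))
    (fun n => ((a n - s16r_sigma p n : ℤ) : ZMod d))
    (fun ℓ => if hℓ : ℓ.Prime then ((eisensteinSystem p ⟨ℓ, hℓ⟩ : ℤ) : ZMod d) else 0)
    (by
      show ((a 1 - s16r_sigma p 1 : ℤ) : ZMod d) = 0
      rw [s16r_sigma_one p hp.ne_one]
      exact (ZMod.intCast_zmod_eq_zero_iff_dvd _ d).2 h1)
    (by
      intro ℓ hℓ n
      have h2 := hrel ⟨ℓ, hℓ⟩ n
      have h3 := s16r_sigma_rel p hp ⟨ℓ, hℓ⟩ n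
      simp only [Subtype.coe_mk] at h2 h3
      have h4 := (ZMod.intCast_zmod_eq_zero_iff_dvd _ d).2 h2
      rw [dif_pos hℓ]
      by_cases hd : ℓ ∣ n
      · rw [if_pos hd] at h3 h4 ⊢
        push_cast at h4 ⊢
        have h5 : ((s16r_sigma p (n * ℓ) : ℤ) : ZMod d) +
            ((eN p ℓ : ℤ) : ZMod d) * ((s16r_sigma p (n / ℓ) : ℤ) : ZMod d) =
            ((eisensteinSystem p ⟨ℓ, hℓ⟩ : ℤ) : ZMod d) * ((s16r_sigma p n : ℤ) : ZMod d) := by
          exact_mod_cast congrArg (fun x : ℤ => (x : ZMod d)) h3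
        linear_combination h4 - h5
      · rw [if_neg hd] at h3 h4 ⊢
        push_cast at h4 ⊢
        have h5 : ((s16r_sigma p (n * ℓ) : ℤ) : ZMod d) =
            ((eisensteinSystem p ⟨ℓ, hℓ⟩ : ℤ) : ZMod d) * ((s16r_sigma p n : ℤ) : ZMod d) := by
          have := congrArg (fun x : ℤ => (x : ZMod d)) h3
          simpa using this
        linear_combination h4 - h5)
  intro k hk
  exact (ZMod.intCast_zmod_eq_zero_iff_dvd _ d).1 (key k hk)

end Fermat.Agent.S16
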