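import Mathlib
import Fermat.Prelude.Def_GaloisRep_Flat
import Fermat.Prelude.Def_ModularCurve_ModularUnit
import Fermat.Agent.S22.Nice
import Fermat.Agent.S22.Forms
import Fermat.Agent.S16.Reduce

/-!
# S16, package [GLUE]: interface statements

The statements that connect the analytic packages of S16 with the reduction layer:

* `s16g_EisAt p` ([EIS]): the Eisenstein series `24 E = (p - 1) + 24 ∑ σ'(n) q^n` is a modular
  form of weight 2 and level `Γ₀(p)`;
* `s16g_NoH p ℓ k` (the no-H statements of (C2)): there is no modular form of weight 2 and level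
  `Γ₀(p)` with `ℓ`-integral `q`-expansion in `1 + ℓ^k q ℤ_(ℓ)[[q]]`;
* `s16g_HAt p` (the existence statement of (C1)): there is a modular form of weight 2 and level
  `Γ₀(p)` with `q`-expansion in `1 + 2 q ℤ[[q]]`;
* `s16g_CuspAt p` ([CUSP]): a modular form of weight 2 and level `Γ₀(p)` whose `q`-expansion has
  constant term `0` is a cusp form.
-/

set_option autoImplicit false

namespace Fermat.Agent.S16

open UpperHalfPlane ModularFormClass CongruenceSubgroup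
open Fermat.Agent.S22 (IsMF IsNice G0 IsIntQ)

/-- [EIS]: `24 E = (p - 1) + 24 ∑_{n ≥ 1} σ'(n) q^n` is a modular form of weight 2 and level
`Γ₀(p)`. -/
def s16g_EisAt (p : ℕ) : Prop :=
  ∃ E : ℍ → ℂ, IsMF (G0 p) 2 E ∧ (qExpansion 1 E).coeff 0 = (p : ℂ) - 1 ∧
    ∀ n, 1 ≤ n → (qExpansion 1 E).coeff n = 24 * (s16r_sigma p n : ℂ)

/-- The no-H statement: no modular form of weight 2 and level `Γ₀(p)` has a `q`-expansion in
`1 + ℓ^k q ℤ_(ℓ)[[q]]`. -/
def s16g_NoH (p ℓ k : ℕ) : Prop :=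
  ∀ H : ℍ → ℂ, IsMF (G0 p) 2 H → ∀ a : PowerSeries ↥(GaloisRep.ratLocalizedAt ℓ),
    (∀ n, (qExpansion 1 H).coeff n =
      (((PowerSeries.coeff n a : ↥(GaloisRep.ratLocalizedAt ℓ)) : ℚ) : ℂ)) →
    PowerSeries.coeff 0 a = 1 →
    (∀ n, 1 ≤ n → ∃ r : ↥(GaloisRep.ratLocalizedAt ℓ),
      PowerSeries.coeff n a = (ℓ : ↥(GaloisRep.ratLocalizedAt ℓ)) ^ k * r) → False

/-- The exponent of the no-H statement at the prime `ℓ` needed for (C2) at level `p`:
`v_ℓ(24 / gcd(p - 1, 12)) + 1`. -/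
def s16g_kExp (p ℓ : ℕ) : ℕ := (24 / Nat.gcd (p - 1) 12).factorization ℓ + 1

/-- The existence statement of (C1): a modular form of weight 2 and level `Γ₀(p)` with
`q`-expansion in `1 + 2 q ℤ[[q]]`. -/
def s16g_HAt (p : ℕ) : Prop :=
  ∃ H : ℍ → ℂ, IsMF (G0 p) 2 H ∧ (qExpansion 1 H).coeff 0 = 1 ∧
    ∀ n, 1 ≤ n → ∃ m : ℤ, (qExpansion 1 H).coeff n = 2 * (m : ℂ)

/-- [CUSP]: a modular form of weight 2 and level `Γ₀(p)` whose `q`-expansion (at `∞`) has
constant term `0` is a cusp form. -/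
def s16g_CuspAt (p : ℕ) : Prop :=
  ∀ f : ℍ → ℂ, IsMF (G0 p) 2 f → (qExpansion 1 f).coeff 0 = 0 →
    ∃ F : CuspForm (Gamma0 p) 2, ⇑F = f

end Fermat.Agent.S16
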