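import Mathlib
import Fermat.Agent.S16.GlueDefs

/-!
# S16, package [GLUE], part (G-C2): `(C2)` from [EIS] and the no-H statements
-/

set_option autoImplicit false

namespace Fermat.Agent.S16

open UpperHalfPlane ModularFormClass CongruenceSubgroup ModularCurve
open Fermat.Agent.S22 (IsMF IsNice G0 IsIntQ)
open Fermat.Agent.S49 (qCoeff_cusp_zero)

/-- A cusp form is a modular form. -/
theorem s16g_isMF_of_cuspForm {N : ℕ} {k : ℤ} (F : CuspForm (Gamma0 N) k) :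
    IsMF (G0 N) k ⇑F :=
  ⟨⟨F.toSlashInvariantForm, F.holo',
    fun hc g hg => (F.zero_at_cusps' hc g hg).boundedAtFilter⟩, rfl⟩

theorem s16g_natCast_mem (ℓ : ℕ) (n : ℕ) : (n : ℚ) ∈ GaloisRep.ratLocalizedAt ℓ :=
  natCast_mem _ n

theorem s16g_intCast_mem (ℓ : ℕ) (n : ℤ) : (n : ℚ) ∈ GaloisRep.ratLocalizedAt ℓ :=
  intCast_mem _ n

theorem s16g_inv_natCast_mem (ℓ : ℕ) (n : ℕ) (hn : 0 < n) (hc : n.Coprime ℓ) :
    ((n : ℚ))⁻¹ ∈ GaloisRep.ratLocalizedAt ℓ := by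
  show (((n : ℚ))⁻¹).den.Coprime ℓ
  rw [Rat.inv_natCast_den_of_pos hn]
  exact hc

/-- The no-H statement in terms of a rational coefficient sequence. -/
theorem s16g_NoH_rat {p ℓ k : ℕ} (h : s16g_NoH p ℓ k) (H : ℍ → ℂ) (hH : IsMF (G0 p) 2 H)
    (b : ℕ → ℚ) (hb : ∀ n, (qExpansion 1 H).coeff n = ((b n : ℚ) : ℂ)) (h0 : b 0 = 1)
    (hk : ∀ n, 1 ≤ n → ∃ r : ℚ, r ∈ GaloisRep.ratLocalizedAt ℓ ∧ b n = (ℓ : ℚ) ^ k * r) :
    False := by
  classical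
  have hmem : ∀ n, b n ∈ GaloisRep.ratLocalizedAt ℓ := by
    intro n
    rcases Nat.eq_zero_or_pos n with rfl | hn
    · rw [h0]; exact one_mem _
    · obtain ⟨r, hr, hbr⟩ := hk n hn
      rw [hbr]
      exact mul_mem (pow_mem (s16g_natCast_mem ℓ ℓ) k) hr
  refine h H hH (PowerSeries.mk fun n => ⟨b n, hmem n⟩) ?_ ?_ ?_
  · intro n
    rw [PowerSeries.coeff_mk]
    exact hb n
  · rw [PowerSeries.coeff_mk]
    exact Subtype.ext h0
  · intro n hn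
    obtain ⟨r, hr, hbr⟩ := hk n hn
    refine ⟨⟨r, hr⟩, ?_⟩
    rw [PowerSeries.coeff_mk]
    apply Subtype.ext
    push_cast
    exact hbr

/-- The arithmetic of the exponents: `24 ℓ^(v+1) / (p - 1) = ℓ^k u` with `u` an `ℓ`-integral
rational number, `v = v_ℓ(n)`, `k = v_ℓ(24 / gcd(p - 1, 12)) + 1`. -/
theorem s16g_exp_arith (p ℓ : ℕ) (hp : 2 ≤ p) (hℓ : ℓ.Prime) :
    ∃ u : ℚ, u ∈ GaloisRep.ratLocalizedAt ℓ ∧
      (24 : ℚ) * (ℓ : ℚ) ^ ((eisensteinNumerator p).factorization ℓ + 1) / ((p : ℚ) - 1) =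
        (ℓ : ℚ) ^ (s16g_kExp p ℓ) * u := by
  set g := Nat.gcd (p - 1) 12 with hg
  have hg12 : g ∣ 12 := Nat.gcd_dvd_right _ _
  have hgp : g ∣ p - 1 := Nat.gcd_dvd_left _ _
  have hgpos : 0 < g := Nat.gcd_pos_of_pos_right _ (by norm_num)
  set n := eisensteinNumerator p with hn
  set A := 24 / g with hA
  have hng : n * g = p - 1 := Nat.div_mul_cancel hgp
  have hAg : A * g = 24 := Nat.div_mul_cancel (hg12.trans (by norm_num))
  have hnpos : 0 < n := by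
    rcases Nat.eq_zero_or_pos n with h | h
    · rw [h, zero_mul] at hng; omega
    · exact h
  have hApos : 0 < A := by
    rcases Nat.eq_zero_or_pos A with h | h
    · rw [h, zero_mul] at hAg; omega
    · exact h
  set v := n.factorization ℓ with hv
  set κ := A.factorization ℓ with hκ
  have hn' := Nat.ordProj_mul_ordCompl_eq_self n ℓ
  have hA' := Nat.ordProj_mul_ordCompl_eq_self A ℓ
  have hcop : (n / ℓ ^ v).Coprime ℓ := (Nat.coprime_ordCompl hℓ hnpos.ne').symm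
  have hn'pos : 0 < n / ℓ ^ v := Nat.pos_of_ne_zero fun h => by
    rw [← hv, h, mul_zero] at hn'; omega
  refine ⟨((A / ℓ ^ κ : ℕ) : ℚ) * ((n / ℓ ^ v : ℕ) : ℚ)⁻¹,
    mul_mem (s16g_natCast_mem ℓ _) (s16g_inv_natCast_mem ℓ _ hn'pos hcop), ?_⟩
  have hℓ0 : (ℓ : ℚ) ≠ 0 := Nat.cast_ne_zero.2 hℓ.ne_zero
  have hn'0 : ((n / ℓ ^ v : ℕ) : ℚ) ≠ 0 := Nat.cast_ne_zero.2 hn'pos.ne'
  have hp1 : ((p : ℚ) - 1) = (n : ℚ) * (g : ℚ) := by
    have : ((p - 1 : ℕ) : ℚ) = (p : ℚ) - 1 := by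
      rw [Nat.cast_sub (by omega : 1 ≤ p)]; simp
    rw [← this, ← hng]; push_cast; ring
  have h24 : (24 : ℚ) = (A : ℚ) * (g : ℚ) := by
    have : ((24 : ℕ) : ℚ) = ((A * g : ℕ) : ℚ) := by rw [hAg]
    push_cast at this
    exact this
  have hnQ : (n : ℚ) = (ℓ : ℚ) ^ v * ((n / ℓ ^ v : ℕ) : ℚ) := by
    have := congrArg (fun x : ℕ => (x : ℚ)) hn'
    simp only [Nat.cast_mul, Nat.cast_pow] at this
    rw [← hv] at this
    exact this.symm
  have hAQ : (A : ℚ) = (ℓ : ℚ) ^ κ * ((A / ℓ ^ κ : ℕ) : ℚ) := by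
    have := congrArg (fun x : ℕ => (x : ℚ)) hA'
    simp only [Nat.cast_mul, Nat.cast_pow] at this
    rw [← hκ] at this
    exact this.symm
  have hg0 : (g : ℚ) ≠ 0 := Nat.cast_ne_zero.2 hgpos.ne'
  have hk : s16g_kExp p ℓ = κ + 1 := rfl
  rw [hk, hp1, h24, hnQ]
  conv_lhs => rw [hAQ]
  field_simp
  ring

/-- **(G-C2)**: `(C2)` follows from [EIS] and the no-H statements at all primes `ℓ`, with the
exponents `s16g_kExp p ℓ`. -/
theorem s16g_C2 (p : ℕ) (hp : p.Prime) (hE : s16g_EisAt p)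
    (hNo : ∀ ℓ : ℕ, ℓ.Prime → s16g_NoH p ℓ (s16g_kExp p ℓ)) :
    ∀ d : ℕ, s16r_Cong p d → d ∣ eisensteinNumerator p := by
  intro d hd
  rw [Nat.dvd_iff_prime_pow_dvd_dvd]
  intro ℓ e hℓ hed
  by_contra hne
  have hnpos : eisensteinNumerator p ≠ 0 := by
    unfold eisensteinNumerator
    have hgp : Nat.gcd (p - 1) 12 ∣ p - 1 := Nat.gcd_dvd_left _ _
    have h2 := hp.two_le
    intro h
    have := Nat.div_mul_cancel hgp
    rw [h, zero_mul] at this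
    omega
  set v := (eisensteinNumerator p).factorization ℓ with hv
  have hve : v + 1 ≤ e := by
    by_contra hlt
    exact hne ((hℓ.pow_dvd_iff_le_factorization hnpos).2 (by omega))
  have hvd : ((ℓ ^ (v + 1) : ℕ) : ℤ) ∣ (d : ℤ) :=
    Int.natCast_dvd_natCast.2 ((pow_dvd_pow ℓ hve).trans hed)
  obtain ⟨f, a, ha, hcong⟩ := hd
  obtain ⟨E, hEmf, hE0, hEn⟩ := hE
  obtain ⟨u, hu, huv⟩ := s16g_exp_arith p ℓ hp.two_le hℓ
  have hcong' : ∀ k, 1 ≤ k → ∃ m : ℤ, a k - s16r_sigma p k = ((ℓ ^ (v + 1) : ℕ) : ℤ) * m :=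
    fun k hk => hvd.trans (hcong k hk)
  choose m' hm' using hcong'
  set m : ℕ → ℤ := fun k => if h : 1 ≤ k then m' k h else 0 with hmdef
  have hm : ∀ k, 1 ≤ k → a k - s16r_sigma p k = ((ℓ ^ (v + 1) : ℕ) : ℤ) * m k := by
    intro k hk
    rw [hmdef]
    simp only [dif_pos hk]
    exact hm' k hk
  have hp1 : ((p : ℂ) - 1) ≠ 0 := by
    have h2 := hp.two_le
    have : ((p : ℂ) - 1) = ((p - 1 : ℕ) : ℂ) := by
      rw [Nat.cast_sub (by omega : 1 ≤ p)]; simp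
    rw [this]
    exact Nat.cast_ne_zero.2 (by omega)
  have hp1Q : ((p : ℚ) - 1) ≠ 0 := by
    have h2 := hp.two_le
    have : ((p : ℚ) - 1) = ((p - 1 : ℕ) : ℚ) := by
      rw [Nat.cast_sub (by omega : 1 ≤ p)]; simp
    rw [this]
    exact Nat.cast_ne_zero.2 (by omega)
  -- the form `H = (24 E - 24 F) / (p - 1)`
  have hFmf : IsMF (G0 p) 2 ⇑f := s16g_isMF_of_cuspForm f
  have hFn : IsNice (⇑f : ℍ → ℂ) := hFmf.isNice_G0
  have hEnice : IsNice E := hEmf.isNice_G0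
  have hHmf : IsMF (G0 p) 2 (((p : ℂ) - 1)⁻¹ • (E - (24 : ℂ) • ⇑f)) :=
    (hEmf.sub (hFmf.smul 24)).smul _
  have hHq : ∀ n, (qExpansion 1 (((p : ℂ) - 1)⁻¹ • (E - (24 : ℂ) • ⇑f))).coeff n =
      ((p : ℂ) - 1)⁻¹ * ((qExpansion 1 E).coeff n - 24 * (a n : ℂ)) := by
    intro n
    rw [(hEnice.sub (hFn.smul 24)).qExpansion_smul, hEnice.qExpansion_sub (hFn.smul 24),
      hFn.qExpansion_smul]
    simp only [PowerSeries.coeff_smul, map_sub, smul_eq_mul]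
    rw [← ha n]
    rfl
  refine s16g_NoH_rat (hNo ℓ hℓ) _ hHmf
    (fun n => if n = 0 then 1 else -((ℓ : ℚ) ^ (s16g_kExp p ℓ) * u) * (m n : ℚ)) ?_ ?_ ?_
  · intro n
    rw [hHq]
    by_cases hn : n = 0
    · subst hn
      rw [hE0]
      have ha0 : (a 0 : ℂ) = 0 := by rw [← ha 0]; exact qCoeff_cusp_zero f
      rw [ha0, if_pos rfl]
      push_cast
      field_simp
      ring
    · rw [if_neg hn]
      have hn1 : 1 ≤ n := Nat.one_le_iff_ne_zero.2 hn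
      rw [hEn n hn1]
      have h1 : (a n : ℂ) = (s16r_sigma p n : ℂ) + ((ℓ : ℂ) ^ (v + 1)) * (m n : ℂ) := by
        have := congrArg (fun x : ℤ => (x : ℂ)) (hm n hn1)
        push_cast at this
        linear_combination this
      rw [h1]
      have h2 : ((ℓ : ℂ) ^ (s16g_kExp p ℓ)) * (u : ℂ) =
          (24 : ℂ) * (ℓ : ℂ) ^ (v + 1) / ((p : ℂ) - 1) := by
        have := congrArg (fun x : ℚ => (x : ℂ)) huv
        push_cast at this
        exact this.symm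
      push_cast
      rw [h2]
      field_simp
      ring
  · simp
  · intro n hn
    have hn0 : n ≠ 0 := by omega
    refine ⟨-u * (m n : ℚ), mul_mem (neg_mem hu) (s16g_intCast_mem ℓ _), ?_⟩
    rw [if_neg hn0]
    ring

end Fermat.Agent.S16
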