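import Fermat.Prelude.Def_CuspForm_HeckeLocal
import Fermat.Prelude.Def_CuspForm_HeckeEvalForms
import Fermat.Prelude.Def_HeckeGalois_EichlerShimura
import Fermat.Prelude.Def_ModularCurve_ModularUnit

/-!
# S16, layer (0): the index of the Eisenstein ideal as an index in `ℤ`

`T := heckeLatticeAlgebra p ∅`, `φ : ℤ[X_ℓ] → T` the evaluation at the Hecke operators,
`ev : ℤ[X_ℓ] → ℤ` the evaluation at the Eisenstein system.  Then `φ` is surjective and
`T ⧸ φ(ker ev) ≃ ℤ ⧸ ev(ker φ)`.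
-/

set_option autoImplicit false

open ModularCurve CuspForm

noncomputable section

namespace Fermat.Agent.S16

section Abstract

variable {R T : Type*} [CommRing R] [CommRing T]

/-- Abstract core: for a surjective `φ : R → T` and a surjective "augmentation" `ev : R → ℤ`
such that `ev (ker φ) = n ℤ` with `n > 0`, the quotient of `T` by the image of `ker ev` has
exactly `n` elements. -/
theorem dual16_card_abstract (φ : R →+* T) (hφ : Function.Surjective φ) (ev : R →+* ℤ)
    (n : ℕ) (hU : ∃ P, φ P = 0 ∧ ev P = n)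
    (hL : ∀ P, φ P = 0 → (n : ℤ) ∣ ev P) :
    Nat.card (T ⧸ Ideal.map φ (RingHom.ker ev)) = n := by
  classical
  set I : Ideal T := Ideal.map φ (RingHom.ker ev) with hI
  -- the canonical map `ℤ → T ⧸ I`
  let ψ : ℤ →+* T ⧸ I := (Ideal.Quotient.mk I).comp (Int.castRingHom T)
  have hmem : ∀ P : R, φ P - ((ev P : ℤ) : T) ∈ I := by
    intro P
    have h1 : P - ((ev P : ℤ) : R) ∈ RingHom.ker ev := by
      rw [RingHom.mem_ker, map_sub, map_intCast, Int.cast_id, sub_self]
    have h2 := Ideal.mem_map_of_mem φ h1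
    rwa [map_sub, map_intCast] at h2
  have hψ_surj : Function.Surjective ψ := by
    intro x
    obtain ⟨t, rfl⟩ := Ideal.Quotient.mk_surjective x
    obtain ⟨P, rfl⟩ := hφ t
    refine ⟨ev P, ?_⟩
    change Ideal.Quotient.mk I ((ev P : ℤ) : T) = Ideal.Quotient.mk I (φ P)
    rw [eq_comm, Ideal.Quotient.eq]
    exact hmem P
  have hker : RingHom.ker ψ = Ideal.span {(n : ℤ)} := by
    ext k
    rw [RingHom.mem_ker, Ideal.mem_span_singleton]
    change Ideal.Quotient.mk I ((k : ℤ) : T) = 0 ↔ _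
    rw [Ideal.Quotient.eq_zero_iff_mem, hI, Ideal.mem_map_iff_of_surjective φ hφ]
    constructor
    · rintro ⟨P₀, hP₀, hk⟩
      have h := hL ((k : R) - P₀) (by rw [map_sub, map_intCast, hk, sub_self])
      rw [RingHom.mem_ker] at hP₀
      rwa [map_sub, map_intCast, Int.cast_id, hP₀, sub_zero] at h
    · rintro ⟨c, rfl⟩
      obtain ⟨Q, hQ, hQn⟩ := hU
      refine ⟨(((n : ℤ) * c : ℤ) : R) - (c : R) * Q, ?_, ?_⟩
      · rw [RingHom.mem_ker, map_sub, map_intCast, Int.cast_id, map_mul, map_intCast, Int.cast_id,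
          hQn, mul_comm, sub_self]
      · rw [map_sub, map_mul, hQ, mul_zero, sub_zero, map_intCast]
  have e : (ℤ ⧸ RingHom.ker ψ) ≃+* (T ⧸ I) := RingHom.quotientKerEquivOfSurjective hψ_surj
  rw [← Nat.card_congr e.toEquiv, hker]
  rw [Nat.card_congr (Int.quotientSpanNatEquivZMod n).toEquiv, Nat.card_zmod]

/-- The image under `ev` of the kernel of `φ` is a principal ideal of `ℤ`. -/
theorem dual16_exists_gen_abstract (φ : R →+* T) (ev : R →+* ℤ) :
    ∃ m : ℕ, (∀ P, φ P = 0 → (m : ℤ) ∣ ev P) ∧ ∃ P, φ P = 0 ∧ ev P = m := by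
  classical
  -- the additive subgroup `ev (ker φ)` of `ℤ`
  let J : AddSubgroup ℤ := (RingHom.ker φ).toAddSubgroup.map ev.toAddMonoidHom
  obtain ⟨g, hg⟩ := Int.subgroup_cyclic J
  have hgJ : g ∈ J := by rw [hg]; exact AddSubgroup.subset_closure rfl
  have hall : ∀ P, φ P = 0 → g ∣ ev P := by
    intro P hP
    have : ev P ∈ J := ⟨P, hP, rfl⟩
    rw [hg, AddSubgroup.mem_closure_singleton] at this
    obtain ⟨k, hk⟩ := this
    exact ⟨k, by rw [← hk, smul_eq_mul, mul_comm]⟩
  obtain ⟨P, hP, hPg⟩ := hgJ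
  refine ⟨g.natAbs, fun Q hQ => ?_, ?_⟩
  · exact Int.natAbs_dvd.mpr (hall Q hQ)
  · rcases Int.natAbs_eq g with h | h
    · exact ⟨P, hP, by rw [← h]; exact hPg⟩
    · refine ⟨-P, by rw [map_neg]; exact neg_eq_zero.mpr hP, ?_⟩
      rw [map_neg]
      have : ev P = g := hPg
      rw [this]
      omega

end Abstract

section Surjective

variable (N : ℕ) [NeZero N] (k : ℤ)

/-- The evaluation `ℤ[X_ℓ] → heckeAlgebra N k ∅` is surjective. -/
theorem dual16_heckeEvalForms_surjective : Function.Surjective (heckeEvalForms N k) := by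
  rintro ⟨x, hx⟩
  suffices h : ∃ P : HeckeAlg,
      ((heckeEvalForms N k P : heckeAlgebra N k ∅) :
        Module.End ℂ (CuspForm (CongruenceSubgroup.Gamma0 N) k)) = x by
    obtain ⟨P, hP⟩ := h
    exact ⟨P, Subtype.ext hP⟩
  induction hx using Algebra.adjoin_induction with
  | mem x hx =>
    rcases hx with ⟨ℓ, hℓ, hℓN, -, rfl⟩ | ⟨q, hqN, hq, -, rfl⟩
    · refine ⟨heckeGen ⟨ℓ, hℓ⟩, ?_⟩
      rw [heckeEvalForms_heckeGen_of_not_dvd (ℓ := ⟨ℓ, hℓ⟩) hℓN]
      rfl
    · refine ⟨heckeGen ⟨q, hq⟩, ?_⟩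
      rw [heckeEvalForms_heckeGen_of_dvd (q := ⟨q, hq⟩) hqN]
      rfl
  | algebraMap r =>
    refine ⟨MvPolynomial.C r, ?_⟩
    rw [heckeEvalForms_C]
    rfl
  | add x y _ _ hx hy =>
    obtain ⟨P, rfl⟩ := hx
    obtain ⟨Q, rfl⟩ := hy
    exact ⟨P + Q, by rw [map_add]; rfl⟩
  | mul x y _ _ hx hy =>
    obtain ⟨P, rfl⟩ := hx
    obtain ⟨Q, rfl⟩ := hy
    exact ⟨P * Q, by rw [map_mul]; rfl⟩

end Surjective

section Concrete

/-- The evaluation at the Eisenstein system, `ℤ[X_ℓ] → ℤ`. -/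
def dual16_ev (p : ℕ) : HeckeAlg →+* ℤ :=
  (MvPolynomial.aeval (R := ℤ) (eisensteinSystem p)).toRingHom

theorem dual16_ker_ev (p : ℕ) : RingHom.ker (dual16_ev p) = eisensteinIdeal p := rfl

theorem dual16_ev_heckeGen (p : ℕ) (ℓ : Nat.Primes) :
    dual16_ev p (heckeGen ℓ) = eisensteinSystem p ℓ :=
  MvPolynomial.aeval_X _ ℓ

theorem dual16_ev_C (p : ℕ) (a : ℤ) : dual16_ev p (MvPolynomial.C a) = a := by
  change MvPolynomial.aeval (R := ℤ) (eisensteinSystem p) (MvPolynomial.C a) = a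
  rw [MvPolynomial.aeval_C]
  rfl

variable (p : ℕ) [Fact p.Prime]

/-- The evaluation at the Hecke operators, `ℤ[X_ℓ] → T = heckeLatticeAlgebra p ∅` (the map of
the frozen statement S16). -/
def dual16_phi : HeckeAlg →+* ↥(heckeLatticeAlgebra p ∅) :=
  (latticeRestrictHom p ∅).toRingHom.comp (heckeEvalForms p 2)

theorem dual16_phi_surjective : Function.Surjective (dual16_phi p) :=
  (latticeRestrictHom_surjective p ∅).comp (dual16_heckeEvalForms_surjective p 2)

/-- **(D1)** If `ev (ker φ) = n ℤ`, then the quotient of the Hecke algebra by the image of the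
Eisenstein ideal has exactly `n` elements. -/
theorem dual16_card (n : ℕ) (_hn : 0 < n)
    (hU : ∃ P, dual16_phi p P = 0 ∧ dual16_ev p P = n)
    (hL : ∀ P, dual16_phi p P = 0 → (n : ℤ) ∣ dual16_ev p P) :
    Nat.card (↥(heckeLatticeAlgebra p ∅) ⧸
        Ideal.map ((latticeRestrictHom p ∅).toRingHom.comp (heckeEvalForms p 2))
          (eisensteinIdeal p)) = n :=
  dual16_card_abstract (dual16_phi p) (dual16_phi_surjective p) (dual16_ev p) n hU hL

/-- `ev (ker φ)` is a principal ideal of `ℤ`. -/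
theorem dual16_exists_gen :
    ∃ m : ℕ, (∀ P, dual16_phi p P = 0 → (m : ℤ) ∣ dual16_ev p P) ∧
      ∃ P, dual16_phi p P = 0 ∧ dual16_ev p P = m :=
  dual16_exists_gen_abstract (dual16_phi p) (dual16_ev p)

theorem dual16_eisensteinNumerator_pos : 0 < eisensteinNumerator p := by
  have hp : 1 ≤ p - 1 := by
    have := (Fact.out : p.Prime).two_le
    omega
  have hg : Nat.gcd (p - 1) 12 ∣ p - 1 := Nat.gcd_dvd_left _ _
  exact Nat.div_pos (Nat.le_of_dvd (by omega) hg) (Nat.gcd_pos_of_pos_left _ (by omega))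

/-- **(D3)** The final assembly of S16 from the duality statements (`lower`, `upper`) and the
two congruence statements (C1), (C2), for an abstract predicate `Cong d`
("there is an integral cusp form congruent to the Eisenstein series modulo `d`"). -/
theorem dual16_result_of (Cong : ℕ → Prop)
    (lower : ∀ d : ℕ, Cong d → ∀ P, dual16_phi p P = 0 → (d : ℤ) ∣ dual16_ev p P)
    (upper : ∀ d : ℕ, (∀ P, dual16_phi p P = 0 → (d : ℤ) ∣ dual16_ev p P) → Cong d)
    (C1 : Cong (eisensteinNumerator p))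
    (C2 : ∀ d : ℕ, Cong d → d ∣ eisensteinNumerator p) :
    Nat.card (↥(heckeLatticeAlgebra p ∅) ⧸
        Ideal.map ((latticeRestrictHom p ∅).toRingHom.comp (heckeEvalForms p 2))
          (eisensteinIdeal p)) =
      eisensteinNumerator p := by
  obtain ⟨m, hm, P, hP, hPm⟩ := dual16_exists_gen p
  have h1 : m ∣ eisensteinNumerator p := C2 m (upper m hm)
  have h2 : eisensteinNumerator p ∣ m := by
    have := lower _ C1 P hP
    rw [hPm] at this
    exact_mod_cast this
  have hmn : m = eisensteinNumerator p := Nat.dvd_antisymm h1 h2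
  refine dual16_card p _ (dual16_eisensteinNumerator_pos p) ⟨P, hP, ?_⟩ ?_
  · rw [hPm, hmn]
  · rw [← hmn]; exact hm

end Concrete

end Fermat.Agent.S16
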