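import Mathlib
import Fermat.Agent.S16.Reduce
import Fermat.Agent.S16.Duality

/-!
# S16, reduction layer: the frozen statement follows from `(C1)` and `(C2)`

* `(C1)`: there is an integral cusp form of weight 2 and level `Γ₀(p)` congruent to
  `E' = ∑ σ'(k) q^k` modulo `n = eisensteinNumerator p`;
* `(C2)`: if an integral cusp form is congruent to `E'` modulo `d`, then `d ∣ n`.
-/

set_option autoImplicit false

namespace Fermat.Agent.S16

open CuspForm ModularCurve

/-- The statement of S16 from the two `q`-expansion statements `(C1)` and `(C2)`. -/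
theorem s16r_result_of (p : ℕ) [Fact p.Prime]
    (C1 : s16r_Cong p (eisensteinNumerator p))
    (C2 : ∀ d : ℕ, s16r_Cong p d → d ∣ eisensteinNumerator p) :
    Nat.card (↥(heckeLatticeAlgebra p ∅) ⧸
        Ideal.map ((latticeRestrictHom p ∅).toRingHom.comp (heckeEvalForms p 2))
          (eisensteinIdeal p)) =
      eisensteinNumerator p :=
  dual16_result_of p (s16r_Cong p)
    (fun d h P hP => s16r_lower p d h P hP)
    (fun d h => s16r_upper p d h)
    C1 C2

end Fermat.Agent.S16
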