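import Mathlib
import Fermat.Agent.S16.GlueC2
import Fermat.Agent.S16.ReduceMain

/-!
# S16, package [GLUE], part (G-C1) and the assembly

* `s16g_C1`: `(C1)` from [EIS], [CUSP] and one form `H` with `q`-expansion in `1 + 2 q ℤ[[q]]`;
* `s16g_result_of`: the frozen statement of S16 from [EIS], [CUSP], the form `H` and the no-H
  statements.
-/

set_option autoImplicit false

namespace Fermat.Agent.S16

open UpperHalfPlane ModularFormClass CongruenceSubgroup ModularCurve CuspForm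
open Fermat.Agent.S22 (IsMF IsNice G0 IsIntQ)
open Fermat.Agent.S49 (qCoeff_cusp_zero)

/-- **(G-C1)**: `(C1)` follows from [EIS], [CUSP] and the existence of a modular form of weight
2 and level `Γ₀(p)` with `q`-expansion in `1 + 2 q ℤ[[q]]`. -/
theorem s16g_C1 (p : ℕ) (hp : p.Prime) (hE : s16g_EisAt p) (hC : s16g_CuspAt p)
    (hH : s16g_HAt p) : s16r_Cong p (eisensteinNumerator p) := by
  obtain ⟨E, hEmf, hE0, hEn⟩ := hE
  obtain ⟨H, hHmf, hH0, hHn⟩ := hH
  choose h' hh' using hHn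
  set h : ℕ → ℤ := fun k => if hk : 1 ≤ k then h' k hk else 0 with hhdef
  have hh : ∀ k, 1 ≤ k → (qExpansion 1 H).coeff k = 2 * (h k : ℂ) := by
    intro k hk
    rw [hhdef]
    simp only [dif_pos hk]
    exact hh' k hk
  set g := Nat.gcd (p - 1) 12 with hg
  have hgp : g ∣ p - 1 := Nat.gcd_dvd_left _ _
  set n := eisensteinNumerator p with hn
  have hng : n * g = p - 1 := Nat.div_mul_cancel hgp
  have hbez : (g : ℤ) = ((p - 1 : ℕ) : ℤ) * Nat.gcdA (p - 1) 12 + 12 * Nat.gcdB (p - 1) 12 := by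
    have := Nat.gcd_eq_gcd_ab (p - 1) 12
    rw [← hg] at this
    exact_mod_cast this
  set y : ℤ := Nat.gcdA (p - 1) 12 with hy
  set x : ℤ := Nat.gcdB (p - 1) 12 with hx
  have hp1 : ((p - 1 : ℕ) : ℂ) = (p : ℂ) - 1 := by
    rw [Nat.cast_sub hp.one_le]; simp
  have hEnice : IsNice E := hEmf.isNice_G0
  have hHnice : IsNice H := hHmf.isNice_G0
  -- `M = (x/2) H + (y/24) (24 E)`, constant term `g/24`, integral higher coefficients
  set M : ℍ → ℂ := ((x : ℂ) / 2) • H + ((y : ℂ) / 24) • E with hM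
  have hMmf : IsMF (G0 p) 2 M := (hHmf.smul _).add (hEmf.smul _)
  have hMnice : IsNice M := hMmf.isNice_G0
  -- `F = E - n M`
  set F : ℍ → ℂ := ((1 : ℂ) / 24) • E - (n : ℂ) • M with hF
  have hFmf : IsMF (G0 p) 2 F := (hEmf.smul _).sub (hMmf.smul _)
  have hFq : ∀ k, (qExpansion 1 F).coeff k =
      (1 / 24) * (qExpansion 1 E).coeff k -
        (n : ℂ) * ((x : ℂ) / 2 * (qExpansion 1 H).coeff k +
          (y : ℂ) / 24 * (qExpansion 1 E).coeff k) := by
    intro k
    rw [hF, (hEnice.smul _).qExpansion_sub (hMnice.smul _), hEnice.qExpansion_smul,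
      hMnice.qExpansion_smul, hM, (hHnice.smul _).qExpansion_add (hEnice.smul _),
      hHnice.qExpansion_smul, hEnice.qExpansion_smul]
    simp only [map_sub, map_add, PowerSeries.coeff_smul, smul_eq_mul]
  have hngC : (n : ℂ) * (g : ℂ) = (p : ℂ) - 1 := by
    rw [← hp1, ← hng]; push_cast; ring
  have hbezC : (g : ℂ) = ((p : ℂ) - 1) * (y : ℂ) + 12 * (x : ℂ) := by
    have := congrArg (fun z : ℤ => (z : ℂ)) hbez
    simp only [Int.cast_add, Int.cast_mul, Int.cast_natCast, Int.cast_ofNat] at this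
    rw [this, hp1]
  have hF0 : (qExpansion 1 F).coeff 0 = 0 := by
    rw [hFq, hE0, hH0]
    have : (n : ℂ) * ((x : ℂ) / 2 * 1 + (y : ℂ) / 24 * ((p : ℂ) - 1)) =
        (n : ℂ) * (g : ℂ) / 24 := by
      rw [hbezC]; ring
    rw [this, hngC]
    ring
  obtain ⟨F', hF'⟩ := hC F hFmf hF0
  refine ⟨F', fun k => if k = 0 then 0 else
    s16r_sigma p k - (n : ℤ) * (x * h k + y * s16r_sigma p k), ?_, ?_⟩
  · intro k
    show (qExpansion 1 ⇑F').coeff k = _
    rw [hF']
    by_cases hk : k = 0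
    · subst hk
      rw [hF0]
      simp
    · have hk1 : 1 ≤ k := Nat.one_le_iff_ne_zero.2 hk
      beta_reduce
      rw [if_neg hk, hFq, hEn k hk1, hh k hk1]
      push_cast
      ring
  · intro k hk
    have hk0 : k ≠ 0 := by omega
    beta_reduce
    rw [if_neg hk0]
    exact ⟨-(x * h k + y * s16r_sigma p k), by ring⟩

/-- **Assembly**: the frozen statement of S16 at the prime `p` from [EIS], [CUSP], the form `H`
of (C1) and the no-H statements of (C2). -/
theorem s16g_result_of (p : ℕ) [Fact p.Prime] (hE : s16g_EisAt p) (hC : s16g_CuspAt p)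
    (hH : s16g_HAt p) (hNo : ∀ ℓ : ℕ, ℓ.Prime → s16g_NoH p ℓ (s16g_kExp p ℓ)) :
    Nat.card (↥(heckeLatticeAlgebra p ∅) ⧸
        Ideal.map ((latticeRestrictHom p ∅).toRingHom.comp (heckeEvalForms p 2))
          (eisensteinIdeal p)) =
      eisensteinNumerator p :=
  s16r_result_of p (s16g_C1 p Fact.out hE hC hH) (s16g_C2 p Fact.out hE hNo)

end Fermat.Agent.S16
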