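import Mathlib
import Fermat.Prelude.Thm_ModularForm_sturm_bound_Gamma0
import Fermat.Agent.S24.CombIndex
import Fermat.Agent.S24.CombPsi
import Fermat.Agent.S16.GlueC1

/-!
# S16, package [GLUE]: the levels `p = 2, 3`

For `p = 2, 3` there are no cusp forms of weight 2 (Sturm bound), so the statement of S16 is
trivial.
-/

set_option autoImplicit false

namespace Fermat.Agent.S16

open UpperHalfPlane ModularFormClass CongruenceSubgroup ModularCurve CuspForm
open scoped MatrixGroups

theorem s16g_index_le (p : ℕ) (hp : p.Prime) (h5 : p < 5) : (Gamma0 p).index ≤ 5 := by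
  have h1 : (Gamma0 p).index = Nat.card (Fermat.Agent.S24.Comb.X p) := rfl
  rw [h1, Fermat.Agent.S24.Comb.card_X p hp.ne_zero]
  have h2 := Fermat.Agent.S24.Comb.dedekindPsi_prime_pow hp 0
  rw [zero_add, pow_one, pow_zero] at h2
  rw [h2]
  omega

/-- There are no nonzero cusp forms of weight 2 and level `Γ₀(p)` for `p < 5`. -/
theorem s16g_cuspForm_eq_zero (p : ℕ) (hp : p.Prime) (h5 : p < 5)
    (f : CuspForm (Gamma0 p) 2) : f = 0 := by
  haveI : NeZero p := ⟨hp.ne_zero⟩
  let g : ModularForm (CongruenceSubgroup.Gamma0 p) 2 :=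
    { toSlashInvariantForm := f.toSlashInvariantForm
      holo' := f.holo'
      bdd_at_cusps' := fun hc γ hγ => (f.zero_at_cusps' hc γ hγ).isBoundedAtImInfty }
  have hg : g = 0 := by
    apply ModularForm.sturm_bound_Gamma0 p g
    intro n hn
    have hidx := s16g_index_le p hp h5
    have hb : ((2 : ℤ) * ((Gamma0 p).index : ℤ)).toNat / 12 = 0 := by
      have : ((2 : ℤ) * ((Gamma0 p).index : ℤ)).toNat = 2 * (Gamma0 p).index := by
        have : (2 : ℤ) * ((Gamma0 p).index : ℤ) = ((2 * (Gamma0 p).index : ℕ) : ℤ) := by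
          push_cast; ring
        rw [this, Int.toNat_natCast]
      rw [this]
      omega
    rw [hb] at hn
    have hn0 : n = 0 := Nat.le_zero.mp hn
    subst hn0
    exact CuspFormClass.qExpansion_coeff_zero f one_pos
      (CongruenceSubgroup.one_mem_strictPeriods_Gamma0 p)
  ext z
  have hz : g z = 0 := by rw [hg]; rfl
  exact hz

theorem s16g_eisensteinNumerator_small (p : ℕ) (hp : p.Prime) (h5 : p < 5) :
    eisensteinNumerator p = 1 := by
  have h2 := hp.two_le
  interval_cases p
  · decide
  · decide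
  · exact absurd hp (by decide)

/-- The statement of S16 for the primes `p < 5`. -/
theorem s16g_small (p : ℕ) [Fact p.Prime] (h5 : p < 5) :
    Nat.card (↥(heckeLatticeAlgebra p ∅) ⧸
        Ideal.map ((latticeRestrictHom p ∅).toRingHom.comp (heckeEvalForms p 2))
          (eisensteinIdeal p)) =
      eisensteinNumerator p := by
  have hp : p.Prime := Fact.out
  refine s16r_result_of p ?_ ?_
  · rw [s16g_eisensteinNumerator_small p hp h5]
    exact ⟨0, fun _ => 0, fun k => by
      simpa using Fermat.Agent.S49.qCoeff_zero (N := p) (k := 2) k, fun k _ => one_dvd _⟩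
  · rintro d ⟨f, a, ha, hcong⟩
    rw [s16g_eisensteinNumerator_small p hp h5]
    have hf := s16g_cuspForm_eq_zero p hp h5 f
    have ha1 : a 1 = 0 := by
      have : ((a 1 : ℤ) : ℂ) = ((0 : ℤ) : ℂ) := by
        rw [← ha 1, hf]
        simpa using Fermat.Agent.S49.qCoeff_zero (N := p) (k := 2) 1
      exact_mod_cast this
    have h1 := hcong 1 le_rfl
    rw [ha1, s16r_sigma_one p hp.ne_one, zero_sub] at h1
    have h2 : (d : ℤ) ∣ 1 := (dvd_neg.1 h1)
    exact_mod_cast h2

end Fermat.Agent.S16
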