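import Mathlib
import Fermat.Agent.S16.GlueSmall

/-!
# S16, package [GLUE]: exponents and the final assembly

* `s16g_NoH_mono`: the no-H statement with exponent `k` implies the one with exponent `k' ≥ k`;
* `s16g_kExp_of_five_le`, `s16g_kExp_three_*`, `s16g_kExp_two_*`: the values of the exponents;
* `s16g_noH_all`: the no-H statements with exponents `s16g_kExp p ℓ` from the five classical
  cases;
* `s16g_main`: the statement of S16 for every prime from the packages at the primes `p ≥ 5`.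
-/

set_option autoImplicit false

namespace Fermat.Agent.S16

open UpperHalfPlane ModularFormClass CongruenceSubgroup ModularCurve CuspForm
open Fermat.Agent.S22 (IsMF IsNice G0 IsIntQ)

theorem s16g_NoH_mono {p ℓ k k' : ℕ} (hk : k ≤ k') (h : s16g_NoH p ℓ k) : s16g_NoH p ℓ k' := by
  intro H hH a ha h0 hn
  refine h H hH a ha h0 fun n hn1 => ?_
  obtain ⟨r, hr⟩ := hn n hn1
  obtain ⟨j, rfl⟩ := Nat.exists_eq_add_of_le hk
  exact ⟨(ℓ : ↥(GaloisRep.ratLocalizedAt ℓ)) ^ j * r, by rw [hr, pow_add]; ring⟩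

theorem s16g_factorization_eq {n ℓ k : ℕ} (hℓ : ℓ.Prime) (hn : n ≠ 0) (h1 : ℓ ^ k ∣ n)
    (h2 : ¬ ℓ ^ (k + 1) ∣ n) : n.factorization ℓ = k := by
  have a1 := (hℓ.pow_dvd_iff_le_factorization hn).1 h1
  have a2 : ¬ k + 1 ≤ n.factorization ℓ := fun h =>
    h2 ((hℓ.pow_dvd_iff_le_factorization hn).2 h)
  omega

theorem s16g_gcd_mod (m : ℕ) : Nat.gcd m 12 = Nat.gcd (m % 12) 12 :=
  (Nat.gcd_comm m 12).trans (Nat.gcd_rec 12 m)

/-- For `ℓ ≥ 5` the exponent is `1`. -/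
theorem s16g_kExp_of_five_le (p ℓ : ℕ) (hℓ : ℓ.Prime) (h5 : 5 ≤ ℓ) : s16g_kExp p ℓ = 1 := by
  unfold s16g_kExp
  have hg12 : Nat.gcd (p - 1) 12 ∣ 12 := Nat.gcd_dvd_right _ _
  have hdvd : 24 / Nat.gcd (p - 1) 12 ∣ 24 :=
    Nat.div_dvd_of_dvd (hg12.trans (by norm_num))
  have hnd : ¬ ℓ ∣ 24 / Nat.gcd (p - 1) 12 := by
    intro h
    have h24 : ℓ ∣ 24 := h.trans hdvd
    have hle : ℓ ≤ 24 := Nat.le_of_dvd (by norm_num) h24
    interval_cases ℓ <;> first | omega | (exact absurd hℓ (by decide))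
  rw [Nat.factorization_eq_zero_of_not_dvd hnd]

theorem s16g_kExp_three_of_one (p : ℕ) (hp : 1 ≤ p) (h : p % 3 = 1) : s16g_kExp p 3 = 1 := by
  unfold s16g_kExp
  rw [s16g_gcd_mod]
  have hr : (p - 1) % 12 < 12 := Nat.mod_lt _ (by norm_num)
  have h3 : (p - 1) % 12 % 3 = 0 := by omega
  generalize (p - 1) % 12 = r at hr h3
  interval_cases r <;> simp_all <;>
    exact s16g_factorization_eq Nat.prime_three (by norm_num) (by norm_num) (by norm_num)

theorem s16g_kExp_three_of_two (p : ℕ) (hp : 1 ≤ p) (h : p % 3 = 2) : s16g_kExp p 3 = 2 := by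
  unfold s16g_kExp
  rw [s16g_gcd_mod]
  have hr : (p - 1) % 12 < 12 := Nat.mod_lt _ (by norm_num)
  have h3 : (p - 1) % 12 % 3 = 1 := by omega
  generalize (p - 1) % 12 = r at hr h3
  interval_cases r <;> simp_all <;>
    exact s16g_factorization_eq Nat.prime_three (by norm_num) (by norm_num) (by norm_num)

theorem s16g_kExp_two_of_one (p : ℕ) (hp : 1 ≤ p) (h : p % 4 = 1) : s16g_kExp p 2 = 2 := by
  unfold s16g_kExp
  rw [s16g_gcd_mod]
  have hr : (p - 1) % 12 < 12 := Nat.mod_lt _ (by norm_num)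
  have h3 : (p - 1) % 12 % 4 = 0 := by omega
  generalize (p - 1) % 12 = r at hr h3
  interval_cases r <;> simp_all <;>
    exact s16g_factorization_eq Nat.prime_two (by norm_num) (by norm_num) (by norm_num)

theorem s16g_kExp_two_of_three (p : ℕ) (hp : 1 ≤ p) (h : p % 4 = 3) : s16g_kExp p 2 = 3 := by
  unfold s16g_kExp
  rw [s16g_gcd_mod]
  have hr : (p - 1) % 12 < 12 := Nat.mod_lt _ (by norm_num)
  have h3 : (p - 1) % 12 % 4 = 2 := by omega
  generalize (p - 1) % 12 = r at hr h3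
  interval_cases r <;> simp_all <;>
    exact s16g_factorization_eq Nat.prime_two (by norm_num) (by norm_num) (by norm_num)

/-- The no-H statements with the exponents `s16g_kExp p ℓ`, from the classical cases. -/
theorem s16g_noH_all (p : ℕ) (hp : p.Prime) (hp5 : 5 ≤ p)
    (h5 : ∀ ℓ : ℕ, ℓ.Prime → 5 ≤ ℓ → s16g_NoH p ℓ 1)
    (h3a : p % 3 = 1 → s16g_NoH p 3 1) (h3b : p % 3 = 2 → s16g_NoH p 3 2)
    (h2a : p % 4 = 1 → s16g_NoH p 2 2) (h2b : p % 4 = 3 → s16g_NoH p 2 3) :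
    ∀ ℓ : ℕ, ℓ.Prime → s16g_NoH p ℓ (s16g_kExp p ℓ) := by
  intro ℓ hℓ
  have hp1 : 1 ≤ p := by omega
  rcases Nat.lt_or_ge ℓ 5 with hlt | hge
  · have h2 := hℓ.two_le
    interval_cases ℓ
    · -- ℓ = 2
      have hodd : p % 2 = 1 := by
        rcases hp.eq_two_or_odd with h | h
        · omega
        · exact h
      have h4 : p % 4 = 1 ∨ p % 4 = 3 := by omega
      rcases h4 with h | h
      · rw [s16g_kExp_two_of_one p hp1 h]; exact h2a h
      · rw [s16g_kExp_two_of_three p hp1 h]; exact h2b h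
    · -- ℓ = 3
      have h3 : p % 3 = 1 ∨ p % 3 = 2 := by
        have : ¬ 3 ∣ p := fun hd => by
          have := (Nat.prime_dvd_prime_iff_eq Nat.prime_three hp).1 hd
          omega
        omega
      rcases h3 with h | h
      · rw [s16g_kExp_three_of_one p hp1 h]; exact h3a h
      · rw [s16g_kExp_three_of_two p hp1 h]; exact h3b h
    · exact absurd hℓ (by decide)
  · rw [s16g_kExp_of_five_le p ℓ hℓ hge]
    exact h5 ℓ hℓ hge

/-- **S16 from the packages.**  The frozen statement of S16 for every prime `p`, from [EIS],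
[CUSP], the existence statement of (C1) and the no-H statements of (C2) at the primes
`p ≥ 5`. -/
theorem s16g_main
    (hE : ∀ p : ℕ, p.Prime → 5 ≤ p → s16g_EisAt p)
    (hC : ∀ p : ℕ, p.Prime → 5 ≤ p → s16g_CuspAt p)
    (hH : ∀ p : ℕ, p.Prime → 5 ≤ p → s16g_HAt p)
    (h5 : ∀ p : ℕ, p.Prime → 5 ≤ p → ∀ ℓ : ℕ, ℓ.Prime → 5 ≤ ℓ → s16g_NoH p ℓ 1)
    (h3a : ∀ p : ℕ, p.Prime → 5 ≤ p → p % 3 = 1 → s16g_NoH p 3 1)
    (h3b : ∀ p : ℕ, p.Prime → 5 ≤ p → p % 3 = 2 → s16g_NoH p 3 2)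
    (h2a : ∀ p : ℕ, p.Prime → 5 ≤ p → p % 4 = 1 → s16g_NoH p 2 2)
    (h2b : ∀ p : ℕ, p.Prime → 5 ≤ p → p % 4 = 3 → s16g_NoH p 2 3)
    (p : ℕ) [Fact p.Prime] :
    Nat.card (↥(heckeLatticeAlgebra p ∅) ⧸
        Ideal.map ((latticeRestrictHom p ∅).toRingHom.comp (heckeEvalForms p 2))
          (eisensteinIdeal p)) =
      eisensteinNumerator p := by
  have hp : p.Prime := Fact.out
  rcases Nat.lt_or_ge p 5 with hlt | hge
  · exact s16g_small p hlt
  · exact s16g_result_of p (hE p hp hge) (hC p hp hge) (hH p hp hge)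
      (s16g_noH_all p hp hge (h5 p hp hge) (h3a p hp hge) (h3b p hp hge) (h2a p hp hge)
        (h2b p hp hge))

end Fermat.Agent.S16
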