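import Mathlib
import Fermat.Agent.S16.EisHecke
import Fermat.Agent.S16.GlueMain

/-!
# S16, package [GLUE]: [EIS] is available

`s16g_eisAt`: the interface statement `s16g_EisAt p` holds (helper7's `s16e_fun p`), and the
final assembly `s16g_main'` without the hypothesis [EIS].
-/

set_option autoImplicit false

namespace Fermat.Agent.S16

open UpperHalfPlane ModularFormClass CongruenceSubgroup ModularCurve CuspForm
open Fermat.Agent.S22 (IsMF IsNice G0 IsIntQ)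

/-- [EIS] holds at every level `p ≠ 0`. -/
theorem s16g_eisAt (p : ℕ) (hp : p ≠ 0) : s16g_EisAt p :=
  haveI : NeZero p := ⟨hp⟩
  ⟨s16e_fun p, s16e_isMF p, s16e_coeff_zero hp, fun _ hn => s16e_coeff_sigma hp (by omega)⟩

/-- **S16 from the packages** (with [EIS] discharged): the frozen statement of S16 for every
prime `p`, from [CUSP], the existence statement of (C1) and the no-H statements of (C2) at the
primes `p ≥ 5`. -/
theorem s16g_main'
    (hC : ∀ p : ℕ, p.Prime → 5 ≤ p → s16g_CuspAt p)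
    (hH : ∀ p : ℕ, p.Prime → 5 ≤ p → s16g_HAt p)
    (h5 : ∀ p : ℕ, p.Prime → 5 ≤ p → ∀ ℓ : ℕ, ℓ.Prime → 5 ≤ ℓ → s16g_NoH p ℓ 1)
    (h3a : ∀ p : ℕ, p.Prime → 5 ≤ p → p % 3 = 1 → s16g_NoH p 3 1)
    (h3b : ∀ p : ℕ, p.Prime → 5 ≤ p → p % 3 = 2 → s16g_NoH p 3 2)
    (h2a : ∀ p : ℕ, p.Prime → 5 ≤ p → p % 4 = 1 → s16g_NoH p 2 2)
    (h2b : ∀ p : ℕ, p.Prime → 5 ≤ p → p % 4 = 3 → s16g_NoH p 2 3)
    (p : ℕ) [Fact p.Prime] :
    Nat.card (↥(heckeLatticeAlgebra p ∅) ⧸
        Ideal.map ((latticeRestrictHom p ∅).toRingHom.comp (heckeEvalForms p 2))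
          (eisensteinIdeal p)) =
      eisensteinNumerator p :=
  s16g_main (fun p hp _ => s16g_eisAt p hp.ne_zero) hC hH h5 h3a h3b h2a h2b p

end Fermat.Agent.S16
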