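import Mathlib
import Fermat.Agent.S16.GlueEis

/-!
# S16: the case assembly of the no-H statements

The five package statements of (C2), as closed `Prop`s in the shapes of PLAN v1, and the
assembly `s16fin_main`: the frozen statement of S16 from [CUSP], (C1) and the five packages.

* `s16fin_DT` (the Delta test): `H ≡ 1 mod ℓ^m`, `ℓ ≠ p` forces `ℓ^m ∣ p + 1`;
* `s16fin_L3`: no `H ≡ 1 mod 9` when `9 ∣ p + 1`;
* `s16fin_L5`: no `H ≡ 1 mod ℓ` when `ℓ ≥ 5`, `ℓ ≠ p`, `ℓ ∣ p + 1`;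
* `s16fin_LP`: no `H ≡ 1 mod p`;
* `s16fin_C22`: no `H ≡ 1 mod 8`.
-/

set_option autoImplicit false

namespace Fermat.Agent.S16

open UpperHalfPlane ModularFormClass CongruenceSubgroup ModularCurve CuspForm

/-- The Delta test: for `ℓ ≠ p` and `ℓ^m ∤ p + 1` there is no form `≡ 1 mod ℓ^m`. -/
def s16fin_DT : Prop :=
  ∀ p l m : ℕ, p.Prime → 5 ≤ p → l.Prime → l ≠ p → ¬ l ^ m ∣ p + 1 → s16g_NoH p l m

/-- No form `≡ 1 mod 9` when `9 ∣ p + 1`. -/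
def s16fin_L3 : Prop := ∀ p : ℕ, p.Prime → 9 ∣ p + 1 → s16g_NoH p 3 2

/-- No form `≡ 1 mod ℓ` when `ℓ ≥ 5`, `ℓ ≠ p`, `ℓ ∣ p + 1`. -/
def s16fin_L5 : Prop :=
  ∀ p l : ℕ, p.Prime → 5 ≤ p → l.Prime → 5 ≤ l → l ≠ p → l ∣ p + 1 → s16g_NoH p l 1

/-- No form `≡ 1 mod p`. -/
def s16fin_LP : Prop := ∀ p : ℕ, p.Prime → 5 ≤ p → s16g_NoH p p 1

/-- No form `≡ 1 mod 8`. -/
def s16fin_C22 : Prop := ∀ p : ℕ, p.Prime → 5 ≤ p → s16g_NoH p 2 3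

theorem s16fin_h5 (hDT : s16fin_DT) (hL5 : s16fin_L5) (hLP : s16fin_LP) :
    ∀ p : ℕ, p.Prime → 5 ≤ p → ∀ ℓ : ℕ, ℓ.Prime → 5 ≤ ℓ → s16g_NoH p ℓ 1 := by
  intro p hp h5 ℓ hℓ hℓ5
  by_cases hne : ℓ = p
  · subst hne
    exact hLP ℓ hp h5
  · by_cases hd : ℓ ∣ p + 1
    · exact hL5 p ℓ hp h5 hℓ hℓ5 hne hd
    · exact hDT p ℓ 1 hp h5 hℓ hne (by simpa using hd)

theorem s16fin_h3a (hDT : s16fin_DT) :
    ∀ p : ℕ, p.Prime → 5 ≤ p → p % 3 = 1 → s16g_NoH p 3 1 := by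
  intro p hp h5 h3
  refine hDT p 3 1 hp h5 Nat.prime_three (by omega) ?_
  rw [pow_one]
  omega

theorem s16fin_h3b (hDT : s16fin_DT) (hL3 : s16fin_L3) :
    ∀ p : ℕ, p.Prime → 5 ≤ p → p % 3 = 2 → s16g_NoH p 3 2 := by
  intro p hp h5 _
  by_cases h9 : 9 ∣ p + 1
  · exact hL3 p hp h9
  · exact hDT p 3 2 hp h5 Nat.prime_three (by omega) (by norm_num; exact h9)

theorem s16fin_h2a (hDT : s16fin_DT) :
    ∀ p : ℕ, p.Prime → 5 ≤ p → p % 4 = 1 → s16g_NoH p 2 2 := by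
  intro p hp h5 h4
  refine hDT p 2 2 hp h5 Nat.prime_two (by omega) ?_
  norm_num
  omega

theorem s16fin_h2b (hC22 : s16fin_C22) :
    ∀ p : ℕ, p.Prime → 5 ≤ p → p % 4 = 3 → s16g_NoH p 2 3 :=
  fun p hp h5 _ => hC22 p hp h5

/-- **S16 from the packages of PLAN v1.** -/
theorem s16fin_main
    (hC : ∀ p : ℕ, p.Prime → 5 ≤ p → s16g_CuspAt p)
    (hH : ∀ p : ℕ, p.Prime → 5 ≤ p → s16g_HAt p)
    (hDT : s16fin_DT) (hL3 : s16fin_L3) (hL5 : s16fin_L5) (hLP : s16fin_LP)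
    (hC22 : s16fin_C22) (p : ℕ) [Fact p.Prime] :
    Nat.card (↥(heckeLatticeAlgebra p ∅) ⧸
        Ideal.map ((latticeRestrictHom p ∅).toRingHom.comp (heckeEvalForms p 2))
          (eisensteinIdeal p)) =
      eisensteinNumerator p :=
  s16g_main' hC hH (s16fin_h5 hDT hL5 hLP) (s16fin_h3a hDT) (s16fin_h3b hDT hL3)
    (s16fin_h2a hDT) (s16fin_h2b hC22) p

end Fermat.Agent.S16
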