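/-
S16, package [L3] (owner: helper11), by-product for (L3a): the integral `q`-series identities behind the
Artin–Schreier relation `S³ - S + Δ = 0` modulo `3`, where `S = ∑ σ₃(n) qⁿ`.

* `l3_sig k`       : `∑ σ_k(n) qⁿ ∈ ℤ[[q]]`
* `l3_delta`       : `Δ = q ∏ (1 - qⁿ)²⁴ ∈ ℤ[[q]]`
* `l3_E4_sq`       : `(1 + 240 S₃)² = 1 + 480 S₇`         (`E₄² = E₈`)
* `l3_disc`        : `1728 Δ = (1 + 240 S₃)³ - (1 - 504 S₅)²`
* `l3_cong`        : `Δ - S₃ + S₃³ ∈ 3 ℤ[[q]]`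
-/
import Mathlib
import Fermat.Prelude.Def_ModularCurve_X0
import Fermat.Agent.S22.LevelOne
import Fermat.Agent.S28.UnitMem

set_option autoImplicit false

noncomputable section

namespace Fermat.Agent.S16

open UpperHalfPlane ModularFormClass CongruenceSubgroup Matrix.SpecialLinearGroup Function
open ModularForm EisensteinSeries
open scoped MatrixGroups ModularForm Manifold Real Topology Polynomial

open Fermat.Agent.S24 Fermat.Agent.S22 Fermat.Agent.S28 ModularCurve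

/-- `∑ₙ σ_k(n) qⁿ` as an integral power series. -/
def l3_sig (k : ℕ) : PowerSeries ℤ :=
  PowerSeries.mk fun n => ((ArithmeticFunction.sigma k n : ℕ) : ℤ)

@[simp]
theorem l3_sig_coeff (k n : ℕ) :
    PowerSeries.coeff n (l3_sig k) = ((ArithmeticFunction.sigma k n : ℕ) : ℤ) := by
  rw [l3_sig, PowerSeries.coeff_mk]

@[simp]
theorem l3_sig_constantCoeff (k : ℕ) : PowerSeries.constantCoeff (l3_sig k) = 0 := by
  rw [← PowerSeries.coeff_zero_eq_constantCoeff_apply, l3_sig_coeff]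
  simp

/-- The formal `q`-expansion of `Δ` over `ℤ`. -/
def l3_delta : PowerSeries ℤ := PowerSeries.X * ModularCurve.dedekindEtaUnit

theorem l3_map_injective :
    Function.Injective (PowerSeries.map (Int.castRingHom ℂ)) := by
  intro a b h
  ext n
  have := congrArg (PowerSeries.coeff n) h
  rw [PowerSeries.coeff_map, PowerSeries.coeff_map] at this
  exact Int.cast_injective this

theorem l3_qexp_E (k : ℕ) (hk : 3 ≤ k) (hk2 : Even k) (c : ℤ)
    (hc : -(2 * (k : ℂ) / bernoulli k : ℂ) = (c : ℂ)) :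
    qExpansion 1 (E hk : ℍ → ℂ) =
      PowerSeries.map (Int.castRingHom ℂ) (1 + PowerSeries.C c * l3_sig (k - 1)) := by
  ext n
  rw [E_qExpansion_coeff hk hk2, PowerSeries.coeff_map, map_add, PowerSeries.coeff_C_mul,
    l3_sig_coeff, hc]
  by_cases h : n = 0
  · subst h
    simp
  · rw [if_neg h, PowerSeries.coeff_one, if_neg h]
    simp

theorem l3_qexp_E4 : qExpansion 1 (E₄ : ℍ → ℂ) =
    PowerSeries.map (Int.castRingHom ℂ) (1 + PowerSeries.C 240 * l3_sig 3) :=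
  l3_qexp_E 4 _ ⟨2, rfl⟩ 240 (by
    rw [show bernoulli 4 = -1 / 30 by decide +kernel]; push_cast; norm_num)

theorem l3_qexp_E6 : qExpansion 1 (E₆ : ℍ → ℂ) =
    PowerSeries.map (Int.castRingHom ℂ) (1 + PowerSeries.C (-504) * l3_sig 5) :=
  l3_qexp_E 6 _ ⟨3, rfl⟩ (-504) (by
    rw [show bernoulli 6 = 1 / 42 by decide +kernel]; push_cast; norm_num)

theorem l3_qexp_E8 : qExpansion 1 (E (show 3 ≤ 8 by norm_num) : ℍ → ℂ) =
    PowerSeries.map (Int.castRingHom ℂ) (1 + PowerSeries.C 480 * l3_sig 7) :=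
  l3_qexp_E 8 _ ⟨4, rfl⟩ 480 (by
    rw [show bernoulli 8 = -1 / 30 by decide +kernel]; push_cast; norm_num)

theorem l3_isMF_E8 : IsMF G1 8 (E (show 3 ≤ 8 by norm_num) : ℍ → ℂ) :=
  ⟨E (show 3 ≤ 8 by norm_num), rfl⟩

/-- A level-one form of weight `8` with vanishing constant term is zero. -/
theorem l3_weight_eight_zero {f : ℍ → ℂ} (hf : IsMF G1 8 f)
    (h0 : (qExpansion 1 f).coeff 0 = 0) : f = 0 := by
  obtain ⟨F, rfl⟩ := hf
  have hF : F = 0 := by
    apply ModularForm.sturm_bound_levelOne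
    have h1 : ((8 : ℤ).toNat / 12 : ℕ) = 0 := by norm_num
    rw [h1]
    rw [Nat.cast_zero, pos_iff_ne_zero, PowerSeries.order_ne_zero_iff_constCoeff_eq_zero,
      ← PowerSeries.coeff_zero_eq_constantCoeff_apply]
    exact h0
  rw [hF]
  rfl

theorem l3_fun_E4_sq :
    (E₄ : ℍ → ℂ) ^ 2 = (E (show 3 ≤ 8 by norm_num) : ℍ → ℂ) := by
  have h1 : IsMF G1 8 ((E₄ : ℍ → ℂ) ^ 2) := (isMF_E4.pow 2).cast (by norm_num)
  have h2 := h1.sub l3_isMF_E8
  have h3 := l3_weight_eight_zero h2 (by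
    rw [(isNice_E4.pow 2).qExpansion_sub l3_isMF_E8.isNice_G1, isNice_E4.qExpansion_pow,
      l3_qexp_E4, l3_qexp_E8, ← map_pow, ← map_sub, PowerSeries.coeff_map,
      PowerSeries.coeff_zero_eq_constantCoeff_apply]
    simp)
  exact sub_eq_zero.mp h3

theorem l3_E4_sq :
    (1 + PowerSeries.C 240 * l3_sig 3) ^ 2 = 1 + PowerSeries.C 480 * l3_sig 7 := by
  apply l3_map_injective
  rw [map_pow, ← l3_qexp_E4, ← l3_qexp_E8, ← isNice_E4.qExpansion_pow, l3_fun_E4_sq]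

theorem l3_qexp_disc : qExpansion 1 (ModularForm.discriminant : ℍ → ℂ) =
    PowerSeries.map (Int.castRingHom ℂ) l3_delta := by
  have h := umem_qExpansion_disc
  rw [umem_deltaC, ← HahnSeries.ofPowerSeries_X, ← map_mul] at h
  have h2 := HahnSeries.ofPowerSeries_injective h
  rw [h2, l3_delta, map_mul, PowerSeries.map_X]

theorem l3_disc :
    PowerSeries.C 1728 * l3_delta =
      (1 + PowerSeries.C 240 * l3_sig 3) ^ 3 - (1 + PowerSeries.C (-504) * l3_sig 5) ^ 2 := by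
  apply l3_map_injective
  rw [map_sub, map_pow, map_pow, ← l3_qexp_E4, ← l3_qexp_E6, map_mul, ← l3_qexp_disc,
    ← isNice_E4.qExpansion_pow, ← isNice_E6.qExpansion_pow,
    ← (isNice_E4.pow 3).qExpansion_sub (isNice_E6.pow 2), ← Dfun_eq]
  have h : Dfun = (1728 : ℂ) • (ModularForm.discriminant : ℍ → ℂ) := by
    funext z
    rw [Dfun_eq_discriminant]
    rfl
  rw [h, umem_isNice_disc.qExpansion_smul, PowerSeries.smul_eq_C_mul, PowerSeries.map_C]
  simp

/-! ### The congruence `Δ ≡ S₃ - S₃³ (mod 3)` -/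

theorem l3_poly_dvd (d : ℕ) : (36 : ℤ) ∣ 10 * (d : ℤ) ^ 7 + 7 * (d : ℤ) ^ 5 - 17 * (d : ℤ) ^ 3 := by
  have h : ∀ x : ZMod 36, 10 * x ^ 7 + 7 * x ^ 5 - 17 * x ^ 3 = 0 := by decide
  have h2 := h (d : ZMod 36)
  have h3 : (((10 * (d : ℤ) ^ 7 + 7 * (d : ℤ) ^ 5 - 17 * (d : ℤ) ^ 3 : ℤ)) : ZMod 36) = 0 := by
    push_cast
    exact h2
  exact (ZMod.intCast_zmod_eq_zero_iff_dvd _ 36).mp h3

/-- The auxiliary series `∑ₙ (∑_{d ∣ n} (10 d⁷ + 7 d⁵ - 17 d³) / 36) qⁿ`. -/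
def l3_aux : PowerSeries ℤ :=
  PowerSeries.mk fun n =>
    ∑ d ∈ n.divisors, (10 * (d : ℤ) ^ 7 + 7 * (d : ℤ) ^ 5 - 17 * (d : ℤ) ^ 3) / 36

theorem l3_aux_eq : 10 * l3_sig 7 + 7 * l3_sig 5 - 17 * l3_sig 3 = 36 * l3_aux := by
  ext n
  have h10 : (10 : PowerSeries ℤ) = PowerSeries.C (10 : ℤ) := by simp
  have h7 : (7 : PowerSeries ℤ) = PowerSeries.C (7 : ℤ) := by simp
  have h17 : (17 : PowerSeries ℤ) = PowerSeries.C (17 : ℤ) := by simp
  have h36 : (36 : PowerSeries ℤ) = PowerSeries.C (36 : ℤ) := by simp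
  rw [h10, h7, h17, h36, map_sub, map_add, PowerSeries.coeff_C_mul, PowerSeries.coeff_C_mul,
    PowerSeries.coeff_C_mul, PowerSeries.coeff_C_mul, l3_sig_coeff, l3_sig_coeff, l3_sig_coeff,
    l3_aux, PowerSeries.coeff_mk, ArithmeticFunction.sigma_apply, ArithmeticFunction.sigma_apply,
    ArithmeticFunction.sigma_apply, Finset.mul_sum]
  push_cast
  rw [Finset.mul_sum, Finset.mul_sum, Finset.mul_sum, ← Finset.sum_add_distrib,
    ← Finset.sum_sub_distrib]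
  refine Finset.sum_congr rfl fun d _ => ?_
  rw [Int.mul_ediv_cancel' (l3_poly_dvd d)]

theorem l3_E4_sq' : (1 + 240 * l3_sig 3) ^ 2 = 1 + 480 * l3_sig 7 := by
  simpa using l3_E4_sq

theorem l3_disc' :
    1728 * l3_delta = (1 + 240 * l3_sig 3) ^ 3 - (1 - 504 * l3_sig 5) ^ 2 := by
  have h := l3_disc
  have e : (1 : PowerSeries ℤ) + PowerSeries.C (-504) * l3_sig 5 = 1 - 504 * l3_sig 5 := by
    simp [sub_eq_add_neg]
  rw [e] at h
  simpa using h

/-- **The congruence `Δ ≡ S₃ - S₃³ (mod 3)`** in `ℤ[[q]]`. -/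
theorem l3_cong : ∃ W : PowerSeries ℤ, l3_delta - l3_sig 3 + l3_sig 3 ^ 3 = 3 * W := by
  refine ⟨l3_aux + 2667 * l3_sig 3 ^ 3 - 49 * l3_sig 5 ^ 2, ?_⟩
  have h1 := l3_disc'
  have h2 := l3_E4_sq'
  have h3 := l3_aux_eq
  have hne : (1728 : PowerSeries ℤ) ≠ 0 := by
    intro h
    have := congrArg (PowerSeries.constantCoeff (R := ℤ)) h
    rw [show (1728 : PowerSeries ℤ) = PowerSeries.C (1728 : ℤ) by simp,
      PowerSeries.constantCoeff_C, map_zero] at this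
    norm_num at this
  apply mul_left_cancel₀ hne
  linear_combination h1 + 3 * h2 + 144 * h3

end Fermat.Agent.S16
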