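import Mathlib
import Fermat.Agent.S22.Basic
import Fermat.Agent.S22.Nice
import Fermat.Agent.S22.Forms
import Fermat.Agent.S22.DN

/-!
# S16, package [TR-CORE]: definitions

* `tr16_U p`, `tr16_V p`: the formal operators `U_p`, `V_p` on power series over any commutative
  ring (`coeff n (U s) = coeff (p * n) s`, `V s = s(q^p)`).
* `tr16_K p k F`: the (un-normalised) Fricke transform
  `K_F(z) = (p z)^(-k) F(-1/(p z)) = (F ∣[k] S)(p z)`.
-/

set_option autoImplicit false

noncomputable section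

namespace Fermat.Agent.S16

open UpperHalfPlane ModularFormClass CongruenceSubgroup Matrix.SpecialLinearGroup
open scoped MatrixGroups ModularForm Manifold
open Fermat.Agent.S22 (IsMF IsCF G0 G1 IsNice)

/-! ### formal `U_p` and `V_p` -/

section formal

variable {R : Type*} [CommRing R]

/-- The formal operator `U_p`: `coeff n (U_p s) = coeff (p * n) s`. -/
def tr16_U (p : ℕ) (s : PowerSeries R) : PowerSeries R :=
  PowerSeries.mk fun n => PowerSeries.coeff (p * n) s

/-- The formal operator `V_p`: `V_p s = s(q^p)`. -/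
def tr16_V (p : ℕ) (s : PowerSeries R) : PowerSeries R :=
  PowerSeries.mk fun n => if p ∣ n then PowerSeries.coeff (n / p) s else 0

@[simp] theorem tr16_U_coeff (p : ℕ) (s : PowerSeries R) (n : ℕ) :
    PowerSeries.coeff n (tr16_U p s) = PowerSeries.coeff (p * n) s := by
  simp [tr16_U]

@[simp] theorem tr16_V_coeff (p : ℕ) (s : PowerSeries R) (n : ℕ) :
    PowerSeries.coeff n (tr16_V p s) = if p ∣ n then PowerSeries.coeff (n / p) s else 0 := by
  simp [tr16_V]

theorem tr16_V_coeff_mul {p : ℕ} (hp : p ≠ 0) (s : PowerSeries R) (n : ℕ) :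
    PowerSeries.coeff (p * n) (tr16_V p s) = PowerSeries.coeff n s := by
  rw [tr16_V_coeff, if_pos (dvd_mul_right p n), Nat.mul_div_cancel_left _ (Nat.pos_of_ne_zero hp)]

theorem tr16_V_coeff_of_not_dvd {p n : ℕ} (h : ¬ p ∣ n) (s : PowerSeries R) :
    PowerSeries.coeff n (tr16_V p s) = 0 := by
  rw [tr16_V_coeff, if_neg h]

theorem tr16_V_eq_expand {p : ℕ} (hp : p ≠ 0) (s : PowerSeries R) :
    tr16_V p s = PowerSeries.expand p hp s := by
  ext n
  rw [tr16_V_coeff, PowerSeries.coeff_expand]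

@[simp] theorem tr16_U_zero (p : ℕ) : tr16_U p (0 : PowerSeries R) = 0 := by
  ext n; simp

@[simp] theorem tr16_U_add (p : ℕ) (s t : PowerSeries R) :
    tr16_U p (s + t) = tr16_U p s + tr16_U p t := by
  ext n; simp

@[simp] theorem tr16_U_sub (p : ℕ) (s t : PowerSeries R) :
    tr16_U p (s - t) = tr16_U p s - tr16_U p t := by
  ext n; simp

@[simp] theorem tr16_U_neg (p : ℕ) (s : PowerSeries R) :
    tr16_U p (-s) = -tr16_U p s := by
  ext n; simp

@[simp] theorem tr16_U_smul (p : ℕ) (c : R) (s : PowerSeries R) :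
    tr16_U p (c • s) = c • tr16_U p s := by
  ext n; simp

theorem tr16_U_C_mul (p : ℕ) (c : R) (s : PowerSeries R) :
    tr16_U p (PowerSeries.C c * s) = PowerSeries.C c * tr16_U p s := by
  ext n; simp

theorem tr16_U_sum (p : ℕ) {ι : Type*} (I : Finset ι) (s : ι → PowerSeries R) :
    tr16_U p (∑ i ∈ I, s i) = ∑ i ∈ I, tr16_U p (s i) := by
  ext n; simp [map_sum]

@[simp] theorem tr16_U_one {p : ℕ} (hp : p ≠ 0) : tr16_U p (1 : PowerSeries R) = 1 := by
  ext n
  rw [tr16_U_coeff, PowerSeries.coeff_one, PowerSeries.coeff_one]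
  simp [hp]

theorem tr16_U_C {p : ℕ} (hp : p ≠ 0) (c : R) :
    tr16_U p (PowerSeries.C c) = PowerSeries.C c := by
  ext n
  rw [tr16_U_coeff, PowerSeries.coeff_C, PowerSeries.coeff_C]
  by_cases hn : n = 0
  · simp [hn]
  · simp [hn, hp]

theorem tr16_U_map {S : Type*} [CommRing S] (p : ℕ) (φ : R →+* S) (s : PowerSeries R) :
    tr16_U p (PowerSeries.map φ s) = PowerSeries.map φ (tr16_U p s) := by
  ext n; simp

theorem tr16_V_map {S : Type*} [CommRing S] (p : ℕ) (φ : R →+* S) (s : PowerSeries R) :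
    tr16_V p (PowerSeries.map φ s) = PowerSeries.map φ (tr16_V p s) := by
  ext n
  simp only [tr16_V_coeff, PowerSeries.coeff_map]
  split_ifs <;> simp

@[simp] theorem tr16_V_zero (p : ℕ) : tr16_V p (0 : PowerSeries R) = 0 := by
  ext n; simp

@[simp] theorem tr16_V_add (p : ℕ) (s t : PowerSeries R) :
    tr16_V p (s + t) = tr16_V p s + tr16_V p t := by
  ext n
  simp only [tr16_V_coeff, map_add]
  split_ifs <;> simp

@[simp] theorem tr16_V_sub (p : ℕ) (s t : PowerSeries R) :
    tr16_V p (s - t) = tr16_V p s - tr16_V p t := by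
  ext n
  simp only [tr16_V_coeff, map_sub]
  split_ifs <;> simp

@[simp] theorem tr16_V_neg (p : ℕ) (s : PowerSeries R) :
    tr16_V p (-s) = -tr16_V p s := by
  ext n
  simp only [tr16_V_coeff, map_neg]
  split_ifs <;> simp

@[simp] theorem tr16_V_smul (p : ℕ) (c : R) (s : PowerSeries R) :
    tr16_V p (c • s) = c • tr16_V p s := by
  ext n
  simp only [tr16_V_coeff, PowerSeries.coeff_smul]
  split_ifs <;> simp

theorem tr16_V_mul {p : ℕ} (hp : p ≠ 0) (s t : PowerSeries R) :
    tr16_V p (s * t) = tr16_V p s * tr16_V p t := by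
  simp only [tr16_V_eq_expand hp, map_mul]

theorem tr16_V_pow {p : ℕ} (hp : p ≠ 0) (s : PowerSeries R) (n : ℕ) :
    tr16_V p (s ^ n) = tr16_V p s ^ n := by
  simp only [tr16_V_eq_expand hp, map_pow]

@[simp] theorem tr16_V_one {p : ℕ} (hp : p ≠ 0) : tr16_V p (1 : PowerSeries R) = 1 := by
  simp only [tr16_V_eq_expand hp, map_one]

theorem tr16_V_C {p : ℕ} (hp : p ≠ 0) (c : R) :
    tr16_V p (PowerSeries.C c) = PowerSeries.C c := by
  rw [tr16_V_eq_expand hp, PowerSeries.expand_C]

/-- `U_p ∘ V_p = id`. -/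
@[simp] theorem tr16_U_V {p : ℕ} (hp : p ≠ 0) (s : PowerSeries R) :
    tr16_U p (tr16_V p s) = s := by
  ext n
  rw [tr16_U_coeff, tr16_V_coeff_mul hp]

/-- projection formula `U_p (V_p s * t) = s * U_p t`. -/
theorem tr16_U_V_mul {p : ℕ} (hp : p ≠ 0) (s t : PowerSeries R) :
    tr16_U p (tr16_V p s * t) = s * tr16_U p t := by
  ext n
  rw [tr16_U_coeff, PowerSeries.coeff_mul, PowerSeries.coeff_mul]
  symm
  refine Finset.sum_of_injOn (fun x => (p * x.1, p * x.2)) ?_ ?_ ?_ ?_
  · intro x _ y _ h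
    simp only [Prod.mk.injEq] at h
    exact Prod.ext (Nat.eq_of_mul_eq_mul_left (Nat.pos_of_ne_zero hp) h.1)
      (Nat.eq_of_mul_eq_mul_left (Nat.pos_of_ne_zero hp) h.2)
  · intro x hx
    have hx' : x.1 + x.2 = n := Finset.HasAntidiagonal.mem_antidiagonal.mp hx
    have : (p * x.1, p * x.2) ∈ Finset.HasAntidiagonal.antidiagonal (p * n) := by
      rw [Finset.HasAntidiagonal.mem_antidiagonal, ← mul_add, hx']
    exact this
  · intro x hx hnot
    by_cases hd : p ∣ x.1
    · exfalso
      apply hnot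
      obtain ⟨a, ha⟩ := hd
      have hx' : x.1 + x.2 = p * n := Finset.HasAntidiagonal.mem_antidiagonal.mp hx
      have hb : x.2 = p * (n - a) := by
        have h1 : p * a + x.2 = p * n := by rw [← ha]; exact hx'
        have h2 : a ≤ n := by
          by_contra hlt
          rw [not_le] at hlt
          have : p * n < p * a := Nat.mul_lt_mul_of_pos_left hlt (Nat.pos_of_ne_zero hp)
          omega
        rw [Nat.mul_sub]
        omega
      refine ⟨(a, n - a), ?_, ?_⟩
      · have h2 : a ≤ n := by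
          by_contra hlt
          rw [not_le] at hlt
          have : p * n < p * a := Nat.mul_lt_mul_of_pos_left hlt (Nat.pos_of_ne_zero hp)
          omega
        have : (a, n - a) ∈ Finset.HasAntidiagonal.antidiagonal n := by
          rw [Finset.HasAntidiagonal.mem_antidiagonal]
          omega
        exact this
      · exact Prod.ext ha.symm hb.symm
    · rw [tr16_V_coeff_of_not_dvd hd, zero_mul]
  · intro x _
    simp only
    rw [tr16_V_coeff_mul hp, tr16_U_coeff]

theorem tr16_U_mul_V {p : ℕ} (hp : p ≠ 0) (s t : PowerSeries R) :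
    tr16_U p (s * tr16_V p t) = tr16_U p s * t := by
  rw [mul_comm, tr16_U_V_mul hp, mul_comm]

end formal

/-! ### the Fricke transform -/

/-- The un-normalised Fricke transform `K_F(z) = (p z)^(-k) F(-1/(p z))`, defined as
`z ↦ (F ∣[k] S)(p z)`. -/
def tr16_K (p : ℕ) (k : ℤ) (F : ℍ → ℂ) : ℍ → ℂ :=
  fun z => (F ∣[k] ModularGroup.S) (ModularForm.heckeDiagMatrix p • z)

theorem tr16_K_def (p : ℕ) (k : ℤ) (F : ℍ → ℂ) (z : ℍ) :
    tr16_K p k F z = (F ∣[k] ModularGroup.S) (ModularForm.heckeDiagMatrix p • z) := rfl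

/-- explicit formula for `K_F`. -/
theorem tr16_K_apply {p : ℕ} (hp : p ≠ 0) (k : ℤ) (F : ℍ → ℂ) (z : ℍ) :
    tr16_K p k F z =
      ((p : ℂ) * (z : ℂ)) ^ (-k) * F (ModularGroup.S • (ModularForm.heckeDiagMatrix p • z)) := by
  rw [tr16_K_def, ModularForm.SL_slash_apply, ModularGroup.denom_S,
    ModularForm.coe_heckeDiagMatrix_smul hp, mul_comm]

end Fermat.Agent.S16
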