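import Mathlib
import Fermat.Prelude.Def_ModularForm_HeckeOperator
import Fermat.Agent.S22.Basic
import Fermat.Agent.S22.Forms
import Fermat.Agent.S20.Defs
import Fermat.Agent.S20.Conj
import Fermat.Agent.S20.LevelOne

/-!
# S16, package (T1): the Fricke involution on `M₂(Γ₀(p))`

`W = S · diag(p, 1) = (0 -1; p 0)` normalises `Γ₀(p)` and `W² = -p` acts trivially in weight `2`.
This file: the matrix identities, `H ∣[2] W` is again a modular form of level `Γ₀(p)`, and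
`(H ∣[2] W) ∣[2] W = H`.
-/

set_option autoImplicit false
set_option linter.unusedSimpArgs false
set_option linter.unusedVariables false

noncomputable section

namespace Fermat.Agent.S16

open UpperHalfPlane CongruenceSubgroup Matrix.SpecialLinearGroup ModularForm
open scoped MatrixGroups ModularForm Manifold
open Fermat.Agent.S22 (IsMF IsCF G0 G1)

/-- The Fricke matrix `W = S · diag(p, 1) = (0 -1; p 0)`. -/
def s16t_W (p : ℕ) : GL (Fin 2) ℝ := mapGL ℝ ModularGroup.S * heckeDiagMatrix p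

theorem s16t_coe_mapGL (γ : SL(2, ℤ)) (i j : Fin 2) :
    ((mapGL ℝ γ : GL (Fin 2) ℝ) : Matrix (Fin 2) (Fin 2) ℝ) i j = ((γ i j : ℤ) : ℝ) := by
  simp [mapGL]

theorem s16t_W_val {p : ℕ} (hp : p ≠ 0) :
    ((s16t_W p : GL (Fin 2) ℝ) : Matrix (Fin 2) (Fin 2) ℝ) = !![0, -1; (p : ℝ), 0] := by
  ext i j
  simp only [s16t_W, Units.val_mul, Matrix.mul_apply, Fin.sum_univ_two, s16t_coe_mapGL,
    val_heckeDiagMatrix hp]
  fin_cases i <;> fin_cases j <;> simp [ModularGroup.S]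

/-- The Fricke conjugate `(d, -c/p; -p b, a)` of `(a, b; c, d) ∈ Γ₀(p)`. -/
def s16t_conj (p : ℕ) (γ : SL(2, ℤ)) (hγ : (p : ℤ) ∣ γ 1 0) : SL(2, ℤ) :=
  ⟨!![γ 1 1, -(γ 1 0 / p); -(p * γ 0 1), γ 0 0], by
    obtain ⟨c, hc⟩ := hγ
    have hdet := Matrix.SpecialLinearGroup.det_coe γ
    rw [Matrix.det_fin_two] at hdet
    rw [Matrix.det_fin_two_of, hc]
    rcases eq_or_ne (p : ℤ) 0 with h0 | h0
    · rw [h0] at hc ⊢
      simp only [zero_mul] at hc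
      rw [hc] at hdet
      simp only [zero_mul, Int.zero_ediv, neg_zero, mul_zero, sub_zero] at hdet ⊢
      linarith
    · rw [Int.mul_ediv_cancel_left _ h0]
      rw [hc] at hdet
      linarith⟩

theorem s16t_dvd_of_mem {p : ℕ} {γ : SL(2, ℤ)} (hγ : γ ∈ Gamma0 p) : (p : ℤ) ∣ γ 1 0 := by
  rw [Gamma0_mem] at hγ
  exact (ZMod.intCast_zmod_eq_zero_iff_dvd _ _).mp hγ

theorem s16t_mem_of_dvd {p : ℕ} {γ : SL(2, ℤ)} (hγ : (p : ℤ) ∣ γ 1 0) : γ ∈ Gamma0 p := by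
  rw [Gamma0_mem]
  exact (ZMod.intCast_zmod_eq_zero_iff_dvd _ _).mpr hγ

theorem s16t_conj_mem (p : ℕ) (γ : SL(2, ℤ)) (hγ : (p : ℤ) ∣ γ 1 0) :
    s16t_conj p γ hγ ∈ Gamma0 p := by
  refine s16t_mem_of_dvd ?_
  change (p : ℤ) ∣ -(p * γ 0 1)
  exact (dvd_mul_right _ _).neg_right

theorem s16t_conj_val (p : ℕ) (γ : SL(2, ℤ)) (hγ : (p : ℤ) ∣ γ 1 0) :
    ((s16t_conj p γ hγ : SL(2, ℤ)) : Matrix (Fin 2) (Fin 2) ℤ)
      = !![γ 1 1, -(γ 1 0 / p); -(p * γ 0 1), γ 0 0] := rfl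

theorem s16t_W_mul {p : ℕ} (hp : p ≠ 0) (γ : SL(2, ℤ)) (hγ : (p : ℤ) ∣ γ 1 0) :
    s16t_W p * mapGL ℝ γ = mapGL ℝ (s16t_conj p γ hγ) * s16t_W p := by
  have hp0 : (p : ℤ) ≠ 0 := by exact_mod_cast hp
  have h10 : γ 1 0 = (p : ℤ) * (γ 1 0 / (p : ℤ)) := (Int.mul_ediv_cancel' hγ).symm
  have h10' : ((γ 1 0 : ℤ) : ℝ) = (p : ℝ) * (((γ 1 0 / (p : ℤ) : ℤ)) : ℝ) := by
    exact_mod_cast h10
  apply Units.ext
  ext i j
  simp only [Units.val_mul, Matrix.mul_apply, Fin.sum_univ_two, s16t_coe_mapGL, s16t_W_val hp,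
    s16t_conj_val]
  fin_cases i <;> fin_cases j
  · simp only [Fin.zero_eta, Fin.isValue, Matrix.of_apply, Matrix.cons_val', Matrix.cons_val_zero,
      Matrix.cons_val_fin_one, Matrix.cons_val_one, Fin.mk_one]
    rw [h10']
    push_cast
    ring
  · simp only [Fin.zero_eta, Fin.isValue, Matrix.of_apply, Matrix.cons_val', Matrix.cons_val_zero,
      Matrix.cons_val_fin_one, Matrix.cons_val_one, Fin.mk_one]
    push_cast
    ring
  · simp only [Fin.zero_eta, Fin.isValue, Matrix.of_apply, Matrix.cons_val', Matrix.cons_val_zero,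
      Matrix.cons_val_fin_one, Matrix.cons_val_one, Fin.mk_one]
    push_cast
    ring
  · simp only [Fin.zero_eta, Fin.isValue, Matrix.of_apply, Matrix.cons_val', Matrix.cons_val_zero,
      Matrix.cons_val_fin_one, Matrix.cons_val_one, Fin.mk_one]
    push_cast
    ring

/-- `H ∣[k] W` is invariant under `Γ₀(p)` when `H` is. -/
theorem s16t_slash_W_invariant {p : ℕ} (hp : p ≠ 0) (k : ℤ) {H : ℍ → ℂ}
    (hH : ∀ γ ∈ Gamma0 p, H ∣[k] γ = H) (γ : SL(2, ℤ)) (hγ : γ ∈ Gamma0 p) :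
    (H ∣[k] s16t_W p) ∣[k] γ = H ∣[k] s16t_W p := by
  have hd := s16t_dvd_of_mem hγ
  have h1 : (H ∣[k] s16t_W p) ∣[k] γ = (H ∣[k] s16t_W p) ∣[k] (mapGL ℝ γ) := rfl
  rw [h1, ← SlashAction.slash_mul, s16t_W_mul hp γ hd, SlashAction.slash_mul]
  have h2 : H ∣[k] (mapGL ℝ (s16t_conj p γ hd)) = H ∣[k] (s16t_conj p γ hd) := rfl
  rw [h2, hH _ (s16t_conj_mem p γ hd)]

theorem s16t_W_sq_val {p : ℕ} (hp : p ≠ 0) :
    ((s16t_W p * s16t_W p : GL (Fin 2) ℝ) : Matrix (Fin 2) (Fin 2) ℝ)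
      = !![-(p : ℝ), 0; 0, -(p : ℝ)] := by
  ext i j
  simp only [Units.val_mul, Matrix.mul_apply, Fin.sum_univ_two, s16t_W_val hp]
  fin_cases i <;> fin_cases j <;> simp

/-- Slash by a real scalar matrix is trivial in weight `2`. -/
theorem s16t_slash_scalar (g : GL (Fin 2) ℝ) (c : ℝ) (hc : c ≠ 0)
    (hg : (g : Matrix (Fin 2) (Fin 2) ℝ) = !![c, 0; 0, c]) (f : ℍ → ℂ) :
    f ∣[(2 : ℤ)] g = f := by
  have hdet : (g.det : ℝ) = c * c := by
    rw [Matrix.GeneralLinearGroup.val_det_apply, hg, Matrix.det_fin_two_of]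
    ring
  have hdetpos : 0 < (g.det : ℝ) := by
    rw [hdet]
    exact mul_self_pos.mpr hc
  have hσ : UpperHalfPlane.σ g = .refl ℝ ℂ := by
    rw [UpperHalfPlane.σ, if_pos hdetpos]
  ext τ
  have hden : UpperHalfPlane.denom g τ = c := by
    simp [UpperHalfPlane.denom, hg]
  have hsmul : g • τ = τ := by
    apply UpperHalfPlane.ext
    rw [UpperHalfPlane.coe_smul_of_det_pos hdetpos]
    simp only [UpperHalfPlane.num, UpperHalfPlane.denom, hg]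
    have hc' : (c : ℂ) ≠ 0 := by exact_mod_cast hc
    simp
    field_simp
  rw [ModularForm.slash_apply, hσ, hdet, hden, hsmul]
  have hc' : (c : ℂ) ≠ 0 := by exact_mod_cast hc
  simp only [ContinuousAlgEquiv.refl_apply, abs_mul_self, Complex.ofReal_mul]
  norm_num
  field_simp

/-- (F2) `W² = -p` acts trivially in weight `2`. -/
theorem s16t_fricke_fricke {p : ℕ} (hp : p ≠ 0) (H : ℍ → ℂ) :
    (H ∣[(2 : ℤ)] s16t_W p) ∣[(2 : ℤ)] s16t_W p = H := by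
  rw [← SlashAction.slash_mul]
  exact s16t_slash_scalar _ (-(p : ℝ)) (neg_ne_zero.mpr (by exact_mod_cast hp))
    (s16t_W_sq_val hp) H

theorem s16t_conj_conj (p : ℕ) (hp : p ≠ 0) (γ : SL(2, ℤ)) (hγ : (p : ℤ) ∣ γ 1 0) :
    s16t_conj p (s16t_conj p γ hγ) (s16t_dvd_of_mem (s16t_conj_mem p γ hγ)) = γ := by
  have hp0 : (p : ℤ) ≠ 0 := by exact_mod_cast hp
  apply Subtype.ext
  rw [s16t_conj_val]
  ext i j
  fin_cases i <;> fin_cases j
  · rfl
  · change -(-(↑p * γ 0 1) / ↑p) = γ 0 1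
    rw [neg_mul_eq_mul_neg, Int.mul_ediv_cancel_left _ hp0, neg_neg]
  · change -(↑p * -(γ 1 0 / ↑p)) = γ 1 0
    rw [mul_neg, neg_neg, Int.mul_ediv_cancel' hγ]
  · rfl

open ConjAct Pointwise in
/-- The Fricke matrix normalises `Γ₀(p)`. -/
theorem s16t_conj_G0 {p : ℕ} (hp : p ≠ 0) : toConjAct (s16t_W p)⁻¹ • G0 p = G0 p := by
  ext x
  rw [map_inv, Subgroup.mem_inv_pointwise_smul_iff, toConjAct_smul]
  constructor
  · rintro ⟨γ, hγ, hx⟩
    have hd := s16t_dvd_of_mem hγ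
    have hγ' := s16t_conj_mem p γ hd
    have hd' := s16t_dvd_of_mem hγ'
    refine ⟨s16t_conj p γ hd, hγ', ?_⟩
    have h1 := s16t_W_mul hp (s16t_conj p γ hd) hd'
    rw [s16t_conj_conj p hp γ hd] at h1
    -- h1 : W * mapGL γ' = mapGL γ * W ; hx : mapGL γ = W * x * W⁻¹
    have h2 : s16t_W p * mapGL ℝ (s16t_conj p γ hd) = s16t_W p * x := by
      rw [h1, hx]
      group
    exact mul_left_cancel h2
  · rintro ⟨γ, hγ, rfl⟩
    have hd := s16t_dvd_of_mem hγ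
    refine ⟨s16t_conj p γ hd, s16t_conj_mem p γ hd, ?_⟩
    rw [s16t_W_mul hp γ hd]
    group

theorem s16t_isMF_cast {Γ₁ Γ₂ : Subgroup (GL (Fin 2) ℝ)} (h : Γ₁ = Γ₂) {k : ℤ}
    (F : ModularForm Γ₁ k) : IsMF Γ₂ k ⇑F := by
  subst h
  exact ⟨F, rfl⟩

/-- (F1) `H ∣[2] W` is again a modular form of level `Γ₀(p)`. -/
theorem s16t_fricke_isMF {p : ℕ} (hp : p ≠ 0) {k : ℤ} {H : ℍ → ℂ} (hH : IsMF (G0 p) k H) :
    IsMF (G0 p) k (H ∣[k] s16t_W p) := by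
  obtain ⟨F, rfl⟩ := hH
  have := s16t_isMF_cast (s16t_conj_G0 hp) (ModularForm.translate F (s16t_W p))
  rwa [ModularForm.coe_translate] at this

end Fermat.Agent.S16
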