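import Mathlib
import Fermat.Prelude.Def_ModularForm_HeckeOperator
import Fermat.Agent.S22.Basic
import Fermat.Agent.S22.Forms
import Fermat.Agent.S22.Nice
import Fermat.Prelude.Thm_ModularFormClass_qCoeff_heckeU
import Fermat.Agent.S20.Defs
import Fermat.Agent.S20.Conj
import Fermat.Agent.S20.LevelOne
import Fermat.Agent.S24.CombBasic
import Fermat.Agent.S16.Fricke

/-!
# S16, package (T1): `W_p = -U_p` on `M₂(Γ₀(p))`

* `s16t_equiv` : the `p + 1` cosets of `Γ₀(p)` in `SL(2,ℤ)`, represented by `1` and `(S T^j)⁻¹`,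
* `s16t_trace` : `H + ∑_{j < p} H ∣[2] (S T^j) = 0` (there is no level one form of weight `2`),
* `s16t_fricke_eq` : `H ∣[2] W = - U_p H`,
* `s16t_slash_ST` : `H ∣[2] (S T^j) = - (U_p H) ∣[2] heckeMatrix p j`.
-/

set_option autoImplicit false
set_option linter.unusedSimpArgs false
set_option linter.unusedVariables false
set_option linter.style.haveILetI false

noncomputable section

namespace Fermat.Agent.S16

open UpperHalfPlane CongruenceSubgroup Matrix.SpecialLinearGroup ModularForm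
open scoped MatrixGroups ModularForm Manifold
open Fermat.Agent.S22 (IsMF IsCF G0 G1)
open Fermat.Agent.S20 (X tr)
open Fermat.Agent.S24.Comb (cross mk_eq_mk_iff mul_apply' inv_apply_one_zero inv_apply_one_one)

/-- Representatives of `SL(2,ℤ) ⧸ Γ₀(p)`: `1` and `(S T^j)⁻¹`, `j < p`. -/
def s16t_rep (p : ℕ) : Option (Fin p) → SL(2, ℤ)
  | none => 1
  | some j => (ModularGroup.S * ModularGroup.T ^ (j : ℕ))⁻¹

theorem s16t_ST_one_zero (j : ℕ) : (ModularGroup.S * ModularGroup.T ^ j) 1 0 = 1 := by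
  have hT : ((ModularGroup.T ^ j : SL(2, ℤ)) : Matrix (Fin 2) (Fin 2) ℤ) = !![1, (j : ℤ); 0, 1] := by
    have := ModularGroup.coe_T_zpow (j : ℤ)
    simpa using this
  rw [mul_apply', ModularGroup.coe_S, hT]
  simp

theorem s16t_ST_one_one (j : ℕ) : (ModularGroup.S * ModularGroup.T ^ j) 1 1 = j := by
  have hT : ((ModularGroup.T ^ j : SL(2, ℤ)) : Matrix (Fin 2) (Fin 2) ℤ) = !![1, (j : ℤ); 0, 1] := by
    have := ModularGroup.coe_T_zpow (j : ℤ)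
    simpa using this
  rw [mul_apply', ModularGroup.coe_S, hT]
  simp

theorem s16t_inv_apply_zero_zero (g : SL(2, ℤ)) : (g⁻¹) 0 0 = g 1 1 := by
  have : (g⁻¹).val = Matrix.adjugate g.val := rfl
  rw [this, Matrix.adjugate_fin_two]
  simp

theorem s16t_rep_some_zero (p : ℕ) (j : Fin p) : (s16t_rep p (some j)) 0 0 = (j : ℕ) := by
  change ((ModularGroup.S * ModularGroup.T ^ (j : ℕ))⁻¹) 0 0 = _
  rw [s16t_inv_apply_zero_zero, s16t_ST_one_one]

theorem s16t_rep_some_one (p : ℕ) (j : Fin p) : (s16t_rep p (some j)) 1 0 = -1 := by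
  change ((ModularGroup.S * ModularGroup.T ^ (j : ℕ))⁻¹) 1 0 = _
  rw [inv_apply_one_zero, s16t_ST_one_zero]

theorem s16t_rep_none_zero (p : ℕ) : (s16t_rep p none) 0 0 = 1 := rfl

theorem s16t_rep_none_one (p : ℕ) : (s16t_rep p none) 1 0 = 0 := rfl

/-- The map `Option (Fin p) → SL(2,ℤ) ⧸ Γ₀(p)`. -/
def s16t_mk (p : ℕ) (o : Option (Fin p)) : X p := QuotientGroup.mk (s16t_rep p o)

theorem s16t_mk_injective {p : ℕ} (hp : p.Prime) : Function.Injective (s16t_mk p) := by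
  have hp1 : ¬ (p : ℤ) ∣ 1 := (Nat.prime_iff_prime_int.mp hp).not_dvd_one
  rintro (_ | j) (_ | j') h
  · rfl
  · exfalso
    have h' := (mk_eq_mk_iff _ _).mp h
    rw [cross, s16t_rep_none_zero, s16t_rep_none_one, s16t_rep_some_one] at h'
    simp only [mul_neg, mul_one, zero_mul, sub_zero] at h'
    exact hp1 ((dvd_neg).mp h')
  · exfalso
    have h' := (mk_eq_mk_iff _ _).mp h
    rw [cross, s16t_rep_none_zero, s16t_rep_none_one, s16t_rep_some_one] at h'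
    simp only [mul_zero, mul_one, zero_sub, neg_neg] at h'
    exact hp1 h'
  · have h' := (mk_eq_mk_iff _ _).mp h
    rw [cross, s16t_rep_some_zero, s16t_rep_some_one, s16t_rep_some_zero, s16t_rep_some_one] at h'
    have h2 : (p : ℤ) ∣ ((j' : ℕ) : ℤ) - ((j : ℕ) : ℤ) := by
      have : ((j : ℕ) : ℤ) * -1 - -1 * ((j' : ℕ) : ℤ) = ((j' : ℕ) : ℤ) - ((j : ℕ) : ℤ) := by ring
      rwa [this] at h'
    have h3 : ((j' : ℕ) : ℤ) ≡ ((j : ℕ) : ℤ) [ZMOD (p : ℤ)] :=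
      (Int.modEq_iff_dvd.mpr h2).symm
    have h4 : (j' : ℕ) ≡ (j : ℕ) [MOD p] := Int.natCast_modEq_iff.mp h3
    have h5 : (j' : ℕ) = (j : ℕ) := Nat.ModEq.eq_of_lt_of_lt h4 j'.isLt j.isLt
    congr 1
    exact Fin.ext h5.symm

theorem s16t_mk_surjective {p : ℕ} (hp : p.Prime) : Function.Surjective (s16t_mk p) := by
  haveI : Fact p.Prime := ⟨hp⟩
  intro x
  induction x using QuotientGroup.induction_on with
  | H g =>
    by_cases hc : (p : ℤ) ∣ g 1 0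
    · refine ⟨none, ?_⟩
      change (QuotientGroup.mk (s16t_rep p none) : X p) = QuotientGroup.mk g
      rw [mk_eq_mk_iff, cross, s16t_rep_none_zero, s16t_rep_none_one]
      simpa using hc
    · have hc' : ((g 1 0 : ℤ) : ZMod p) ≠ 0 := by
        rwa [Ne, ZMod.intCast_zmod_eq_zero_iff_dvd]
      set t : ZMod p := -((g 0 0 : ℤ) : ZMod p) * ((g 1 0 : ℤ) : ZMod p)⁻¹ with ht
      refine ⟨some ⟨t.val, ZMod.val_lt t⟩, ?_⟩
      change (QuotientGroup.mk (s16t_rep p (some ⟨t.val, ZMod.val_lt t⟩)) : X p)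
        = QuotientGroup.mk g
      rw [mk_eq_mk_iff, cross, s16t_rep_some_zero, s16t_rep_some_one,
        ← ZMod.intCast_zmod_eq_zero_iff_dvd]
      push_cast
      rw [ZMod.natCast_val, ZMod.cast_id', id, ht]
      field_simp
      ring

/-- The `p + 1` cosets of `Γ₀(p)` in `SL(2,ℤ)`. -/
def s16t_equiv {p : ℕ} (hp : p.Prime) : Option (Fin p) ≃ X p :=
  Equiv.ofBijective (s16t_mk p) ⟨s16t_mk_injective hp, s16t_mk_surjective hp⟩

theorem s16t_equiv_apply {p : ℕ} (hp : p.Prime) (o : Option (Fin p)) :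
    s16t_equiv hp o = s16t_mk p o := rfl

theorem s16t_tr_mk_none {p : ℕ} {k : ℤ} {H : ℍ → ℂ} (hH : IsMF (G0 p) k H) :
    tr p k H (s16t_mk p none) = H :=
  Fermat.Agent.S20.tr_one hH

theorem s16t_tr_mk_some {p : ℕ} {k : ℤ} {H : ℍ → ℂ} (hH : IsMF (G0 p) k H) (j : Fin p) :
    tr p k H (s16t_mk p (some j)) = H ∣[k] (ModularGroup.S * ModularGroup.T ^ (j : ℕ)) := by
  change tr p k H ((QuotientGroup.mk (s16t_rep p (some j))) : X p) = _
  rw [Fermat.Agent.S20.tr_mk hH]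
  change H ∣[k] ((ModularGroup.S * ModularGroup.T ^ (j : ℕ))⁻¹)⁻¹ = _
  rw [inv_inv]

theorem s16t_tr_equiv_none {p : ℕ} (hp : p.Prime) {k : ℤ} {H : ℍ → ℂ} (hH : IsMF (G0 p) k H) :
    tr p k H (s16t_equiv hp none) = H :=
  s16t_tr_mk_none hH

theorem s16t_tr_equiv_some_slash {p : ℕ} (hp : p.Prime) {k : ℤ} {H : ℍ → ℂ}
    (hH : IsMF (G0 p) k H) (j : Fin p) :
    tr p k H (s16t_equiv hp (some j)) = H ∣[k] (ModularGroup.S * ModularGroup.T ^ (j : ℕ)) :=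
  s16t_tr_mk_some hH j

/-- The sum of all translates, for any weight: `H + ∑_{j<p} H ∣[k] S T^j` is of level one. -/
theorem s16t_trace_isMF {p : ℕ} (hp : p.Prime) {k : ℤ} {H : ℍ → ℂ} (hH : IsMF (G0 p) k H) :
    IsMF G1 k (H + ∑ j ∈ Finset.range p, H ∣[k] (ModularGroup.S * ModularGroup.T ^ j)) := by
  haveI : NeZero p := ⟨hp.ne_zero⟩
  letI : Fintype (X p) := Fintype.ofFinite _
  have h1 := Fermat.Agent.S20.trace p k H hH
  have h2 : (fun z => ∑ x : X p, tr p k H x z)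
      = H + ∑ j ∈ Finset.range p, H ∣[k] (ModularGroup.S * ModularGroup.T ^ j) := by
    ext z
    rw [← Equiv.sum_comp (s16t_equiv hp), Fintype.sum_option, s16t_tr_equiv_none hp hH]
    simp only [s16t_tr_equiv_some_slash hp hH, Pi.add_apply, Finset.sum_apply]
    congr 1
    exact Fin.sum_univ_eq_sum_range
      (fun j => (H ∣[k] (ModularGroup.S * ModularGroup.T ^ j)) z) p
  rwa [h2] at h1

/-- (F3) the trace of a weight `2` form of level `p` to level one vanishes. -/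
theorem s16t_trace {p : ℕ} (hp : p.Prime) {H : ℍ → ℂ} (hH : IsMF (G0 p) 2 H) :
    H + ∑ j ∈ Finset.range p, H ∣[(2 : ℤ)] (ModularGroup.S * ModularGroup.T ^ j) = 0 :=
  Fermat.Agent.S20.l1_eq_zero_of_two (s16t_trace_isMF hp hH)

/-! ### `W_p = -U_p` -/

/-- The scalar matrix `p · 1`. -/
def s16t_scal (p : ℕ) : GL (Fin 2) ℝ := heckeDiagMatrix p * heckeMatrix p 0

theorem s16t_scal_val {p : ℕ} (hp : p ≠ 0) :
    ((s16t_scal p : GL (Fin 2) ℝ) : Matrix (Fin 2) (Fin 2) ℝ) = !![(p : ℝ), 0; 0, (p : ℝ)] := by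
  ext i j
  simp only [s16t_scal, Units.val_mul, Matrix.mul_apply, Fin.sum_univ_two,
    val_heckeDiagMatrix hp, val_heckeMatrix hp]
  fin_cases i <;> fin_cases j <;> simp

theorem s16t_ST_val (j : ℕ) :
    ((ModularGroup.S * ModularGroup.T ^ j : SL(2, ℤ)) : Matrix (Fin 2) (Fin 2) ℤ)
      = !![0, -1; 1, (j : ℤ)] := by
  have hT : ((ModularGroup.T ^ j : SL(2, ℤ)) : Matrix (Fin 2) (Fin 2) ℤ) = !![1, (j : ℤ); 0, 1] := by
    have := ModularGroup.coe_T_zpow (j : ℤ)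
    simpa using this
  have : ((ModularGroup.S * ModularGroup.T ^ j : SL(2, ℤ)) : Matrix (Fin 2) (Fin 2) ℤ)
      = (ModularGroup.S : Matrix (Fin 2) (Fin 2) ℤ) * (ModularGroup.T ^ j : SL(2, ℤ)).val := rfl
  rw [this, ModularGroup.coe_S, hT]
  ext a b
  fin_cases a <;> fin_cases b <;> simp [Matrix.mul_apply, Fin.sum_univ_two]

/-- `W · (1 j; 0 p) = p · S T^j`. -/
theorem s16t_W_mul_heckeMatrix {p : ℕ} (hp : p ≠ 0) (j : ℕ) :
    s16t_W p * heckeMatrix p j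
      = s16t_scal p * mapGL ℝ (ModularGroup.S * ModularGroup.T ^ j) := by
  apply Units.ext
  ext a b
  have hST : ∀ a b : Fin 2, ((ModularGroup.S * ModularGroup.T ^ j : SL(2, ℤ)) a b : ℤ)
      = (!![0, -1; 1, (j : ℤ)] : Matrix (Fin 2) (Fin 2) ℤ) a b := by
    intro a b
    rw [← s16t_ST_val j]
  simp only [Units.val_mul, Matrix.mul_apply, Fin.sum_univ_two, s16t_coe_mapGL, s16t_W_val hp,
    s16t_scal_val hp, val_heckeMatrix hp, hST]
  fin_cases a <;> fin_cases b <;> simp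

/-- `(H ∣[2] W) ∣[2] (1 j; 0 p) = H ∣[2] S T^j`. -/
theorem s16t_fricke_slash_heckeMatrix {p : ℕ} (hp : p ≠ 0) (H : ℍ → ℂ) (j : ℕ) :
    (H ∣[(2 : ℤ)] s16t_W p) ∣[(2 : ℤ)] heckeMatrix p j
      = H ∣[(2 : ℤ)] (ModularGroup.S * ModularGroup.T ^ j) := by
  rw [← SlashAction.slash_mul, s16t_W_mul_heckeMatrix hp, SlashAction.slash_mul,
    s16t_slash_scalar (s16t_scal p) (p : ℝ) (by exact_mod_cast hp) (s16t_scal_val hp)]
  rfl

/-- `U_p (H ∣[2] W) = ∑_{j<p} H ∣[2] S T^j`. -/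
theorem s16t_heckeU_fricke {p : ℕ} (hp : p ≠ 0) (H : ℍ → ℂ) :
    heckeU 2 p (H ∣[(2 : ℤ)] s16t_W p)
      = ∑ j ∈ Finset.range p, H ∣[(2 : ℤ)] (ModularGroup.S * ModularGroup.T ^ j) := by
  rw [heckeU_def]
  exact Finset.sum_congr rfl fun j _ => s16t_fricke_slash_heckeMatrix hp H j

/-- `U_p (H ∣[2] W) = - H` on `M₂(Γ₀(p))`. -/
theorem s16t_heckeU_fricke_eq {p : ℕ} (hp : p.Prime) {H : ℍ → ℂ} (hH : IsMF (G0 p) 2 H) :
    heckeU 2 p (H ∣[(2 : ℤ)] s16t_W p) = - H := by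
  rw [s16t_heckeU_fricke hp.ne_zero]
  have h := s16t_trace hp hH
  exact (eq_neg_of_add_eq_zero_right h)

/-- (T1) `W_p = - U_p` on `M₂(Γ₀(p))`. -/
theorem s16t_fricke_eq {p : ℕ} (hp : p.Prime) {H : ℍ → ℂ} (hH : IsMF (G0 p) 2 H) :
    H ∣[(2 : ℤ)] s16t_W p = - heckeU 2 p H := by
  have h1 := s16t_heckeU_fricke_eq hp (s16t_fricke_isMF hp.ne_zero hH)
  rw [s16t_fricke_fricke hp.ne_zero] at h1
  rw [h1, neg_neg]

/-- (T1') the translates `H ∣[2] S T^j` in terms of `U_p H`. -/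
theorem s16t_slash_ST {p : ℕ} (hp : p.Prime) {H : ℍ → ℂ} (hH : IsMF (G0 p) 2 H) (j : ℕ) :
    H ∣[(2 : ℤ)] (ModularGroup.S * ModularGroup.T ^ j)
      = - (heckeU 2 p H) ∣[(2 : ℤ)] heckeMatrix p j := by
  rw [← s16t_fricke_slash_heckeMatrix hp.ne_zero, s16t_fricke_eq hp hH, SlashAction.neg_slash]

/-- (T1'), pointwise: `(H ∣[2] S T^j)(z) = - p⁻¹ (U_p H)((z + j)/p)`. -/
theorem s16t_slash_ST_apply {p : ℕ} (hp : p.Prime) {H : ℍ → ℂ} (hH : IsMF (G0 p) 2 H) (j : ℕ)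
    (z : ℍ) :
    (H ∣[(2 : ℤ)] (ModularGroup.S * ModularGroup.T ^ j)) z
      = - ((p : ℂ)⁻¹ * heckeU 2 p H (heckeMatrix p j • z)) := by
  rw [s16t_slash_ST hp hH, Pi.neg_apply, slash_heckeMatrix_apply 2 hp.ne_zero]

/-- (U) `U_p` preserves `M₂(Γ₀(p))`. -/
theorem s16t_heckeU_isMF {p : ℕ} (hp : p.Prime) {H : ℍ → ℂ} (hH : IsMF (G0 p) 2 H) :
    IsMF (G0 p) 2 (heckeU 2 p H) := by
  have h1 := s16t_fricke_isMF hp.ne_zero hH
  have h2 : heckeU 2 p H = - (H ∣[(2 : ℤ)] s16t_W p) := by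
    rw [s16t_fricke_eq hp hH, neg_neg]
  rw [h2]
  exact h1.neg

/-- `U_p U_p = 1` on `M₂(Γ₀(p))`. -/
theorem s16t_heckeU_heckeU {p : ℕ} (hp : p.Prime) {H : ℍ → ℂ} (hH : IsMF (G0 p) 2 H) :
    heckeU 2 p (heckeU 2 p H) = H := by
  have h2 : heckeU 2 p H = - (H ∣[(2 : ℤ)] s16t_W p) := by
    rw [s16t_fricke_eq hp hH, neg_neg]
  have h3 := s16t_fricke_eq hp (s16t_heckeU_isMF hp hH)
  -- h3 : (U H) | W = - U (U H)
  have h4 : (heckeU 2 p H) ∣[(2 : ℤ)] s16t_W p = - H := by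
    rw [h2, SlashAction.neg_slash, s16t_fricke_fricke hp.ne_zero]
  rw [h4] at h3
  exact (neg_injective h3).symm

/-- (T2) the translates of `H`: `H` itself and `-(U_p H) ∣[2] (1 j; 0 p)`. -/
theorem s16t_tr_equiv_some {p : ℕ} (hp : p.Prime) {H : ℍ → ℂ} (hH : IsMF (G0 p) 2 H)
    (j : Fin p) :
    tr p 2 H (s16t_equiv hp (some j)) = - (heckeU 2 p H) ∣[(2 : ℤ)] heckeMatrix p j := by
  rw [s16t_tr_equiv_some_slash hp hH, s16t_slash_ST hp hH]

theorem s16t_tr_cases {p : ℕ} (hp : p.Prime) {H : ℍ → ℂ} (hH : IsMF (G0 p) 2 H) (x : X p) :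
    tr p 2 H x = H ∨
      ∃ j < p, tr p 2 H x = - (heckeU 2 p H) ∣[(2 : ℤ)] heckeMatrix p j := by
  obtain ⟨o, rfl⟩ := (s16t_equiv hp).surjective x
  rcases o with _ | j
  · exact Or.inl (s16t_tr_equiv_none hp hH)
  · exact Or.inr ⟨j, j.isLt, s16t_tr_equiv_some hp hH j⟩

/-- Every `SL(2,ℤ)`-translate of `H` is `H` or `-(U_p H) ∣[2] (1 j; 0 p)`. -/
theorem s16t_slash_cases {p : ℕ} (hp : p.Prime) {H : ℍ → ℂ} (hH : IsMF (G0 p) 2 H)
    (g : SL(2, ℤ)) :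
    H ∣[(2 : ℤ)] g = H ∨
      ∃ j < p, H ∣[(2 : ℤ)] g = - (heckeU 2 p H) ∣[(2 : ℤ)] heckeMatrix p j := by
  rw [Fermat.Agent.S20.slash_eq_tr hH]
  exact s16t_tr_cases hp hH _

/-- (U) the `q`-expansion of `U_p H`. -/
theorem s16t_heckeU_coeff {p : ℕ} (hp : p ≠ 0) {k : ℤ} {H : ℍ → ℂ} (hH : IsMF (G0 p) k H)
    (n : ℕ) :
    (qExpansion 1 (heckeU k p H)).coeff n
      = (qExpansion 1 H).coeff (n * p) := by
  obtain ⟨F, rfl⟩ := hH
  exact ModularFormClass.qCoeff_heckeU F (Fermat.Agent.S22.one_mem_strictPeriods_G0 p) hp n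

/-- (UU) `a_{p² n}(H) = a_n(H)` on `M₂(Γ₀(p))`. -/
theorem s16t_coeff_mul_mul {p : ℕ} (hp : p.Prime) {H : ℍ → ℂ} (hH : IsMF (G0 p) 2 H) (n : ℕ) :
    (qExpansion 1 H).coeff (n * p * p)
      = (qExpansion 1 H).coeff n := by
  rw [← s16t_heckeU_coeff hp.ne_zero hH, ← s16t_heckeU_coeff hp.ne_zero (s16t_heckeU_isMF hp hH),
    s16t_heckeU_heckeU hp hH]

/-- (T1), `q`-expansions: `a_n(H ∣[2] W) = - a_{np}(H)`. -/
theorem s16t_fricke_coeff {p : ℕ} (hp : p.Prime) {H : ℍ → ℂ} (hH : IsMF (G0 p) 2 H) (n : ℕ) :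
    (qExpansion 1 (H ∣[(2 : ℤ)] s16t_W p)).coeff n
      = - (qExpansion 1 H).coeff (n * p) := by
  have h1 : H ∣[(2 : ℤ)] s16t_W p = (-1 : ℂ) • heckeU 2 p H := by
    rw [s16t_fricke_eq hp hH, neg_one_smul]
  rw [h1, ((s16t_heckeU_isMF hp hH).isNice_G0).qExpansion_smul, map_smul,
    s16t_heckeU_coeff hp.ne_zero hH]
  simp

end Fermat.Agent.S16
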