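import Mathlib
import Fermat.Agent.S16.TraceDefs
import Fermat.Agent.S20.Defs
import Fermat.Agent.S20.Conj

/-!
# S16, package [TR-CORE]: the trace from `Γ₀(p)` to level one

For `F ∈ M_k(Γ₀(p))`, `p` prime, the sum of the `p + 1` translates
`F + ∑_{j < p} F ∣[k] (S T^j)` is a level one form, and it equals
`F + p • U_p (K_F)` with `K_F = tr16_K p k F`.
-/

set_option autoImplicit false

noncomputable section

namespace Fermat.Agent.S16

open UpperHalfPlane ModularFormClass CongruenceSubgroup Matrix.SpecialLinearGroup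
open scoped MatrixGroups ModularForm Manifold
open Fermat.Agent.S22 (IsMF IsCF G0 G1 IsNice)

/-! ### the translates `F ∣[k] (S T^j)` -/

theorem tr16_diag_smul_hecke {p : ℕ} (hp : p ≠ 0) (j : ℕ) (z : ℍ) :
    ModularForm.heckeDiagMatrix p • (ModularForm.heckeMatrix p j • z) =
      (ModularGroup.T ^ j) • z := by
  apply UpperHalfPlane.ext
  have hT : ((ModularGroup.T ^ j • z : ℍ) : ℂ) = (z : ℂ) + j := by
    have := ModularGroup.coe_T_zpow_smul_eq (z := z) (n := (j : ℤ))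
    rw [zpow_natCast] at this
    rw [this]
    push_cast
    rfl
  rw [ModularForm.coe_heckeDiagMatrix_smul hp, ModularForm.coe_heckeMatrix_smul hp, hT]
  have hp' : (p : ℂ) ≠ 0 := by exact_mod_cast hp
  field_simp

theorem tr16_denom_T_pow (j : ℕ) (z : ℍ) :
    denom ((ModularGroup.T ^ j : SL(2, ℤ)) : GL (Fin 2) ℝ) z = 1 := by
  have h := ModularGroup.coe_T_zpow (j : ℤ)
  rw [zpow_natCast] at h
  rw [ModularGroup.denom_apply]
  have h10 : (ModularGroup.T ^ j : SL(2, ℤ)) 1 0 = 0 := by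
    have := congrFun (congrFun h 1) 0
    simpa using this
  have h11 : (ModularGroup.T ^ j : SL(2, ℤ)) 1 1 = 1 := by
    have := congrFun (congrFun h 1) 1
    simpa using this
  rw [h10, h11]
  simp

/-- `F ∣[k] (S T^j) = p • (K_F ∣[k] heckeMatrix p j)`, i.e. `(F ∣ S T^j)(z) = K_F((z + j)/p)`. -/
theorem tr16_slash_ST {p : ℕ} (hp : p ≠ 0) (k : ℤ) (F : ℍ → ℂ) (j : ℕ) :
    F ∣[k] (ModularGroup.S * ModularGroup.T ^ j) =
      (p : ℂ) • (tr16_K p k F ∣[k] ModularForm.heckeMatrix p j) := by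
  funext z
  have hp' : (p : ℂ) ≠ 0 := by exact_mod_cast hp
  rw [SlashAction.slash_mul, ModularForm.SL_slash_apply, tr16_denom_T_pow, one_zpow, mul_one,
    Pi.smul_apply, ModularForm.slash_heckeMatrix_apply k hp, smul_eq_mul, ← mul_assoc,
    mul_inv_cancel₀ hp', one_mul, tr16_K_def, tr16_diag_smul_hecke hp]

/-- `∑_{j<p} F ∣[k] (S T^j) = p • U_p (K_F)` (functions). -/
theorem tr16_sum_slash_ST {p : ℕ} (hp : p ≠ 0) (k : ℤ) (F : ℍ → ℂ) :
    ∑ j ∈ Finset.range p, F ∣[k] (ModularGroup.S * ModularGroup.T ^ j) =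
      (p : ℂ) • ModularForm.heckeU k p (tr16_K p k F) := by
  rw [ModularForm.heckeU_def, Finset.smul_sum]
  exact Finset.sum_congr rfl fun j _ => tr16_slash_ST hp k F j

/-! ### coset representatives of `Γ₀(p)` in `SL(2,ℤ)` -/

theorem tr16_ST_mul_apply (j : ℕ) (g : SL(2, ℤ)) :
    (ModularGroup.S * ModularGroup.T ^ j * g) 1 0 = g 0 0 + j * g 1 0 := by
  have h := ModularGroup.coe_T_zpow (j : ℤ)
  rw [zpow_natCast] at h
  simp [Matrix.SpecialLinearGroup.coe_mul, ModularGroup.coe_S, h, Matrix.mul_apply,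
    Fin.sum_univ_two]

theorem tr16_ST_apply (j : ℕ) :
    (ModularGroup.S * ModularGroup.T ^ j : SL(2, ℤ)) 1 0 = 1 := by
  have := tr16_ST_mul_apply j 1
  simpa using this

theorem tr16_ST_inv_apply (j : ℕ) :
    ((ModularGroup.S * ModularGroup.T ^ j)⁻¹ : SL(2, ℤ)) 0 0 = j ∧
      ((ModularGroup.S * ModularGroup.T ^ j)⁻¹ : SL(2, ℤ)) 1 0 = -1 := by
  have h := ModularGroup.coe_T_zpow (j : ℤ)
  rw [zpow_natCast] at h
  constructor <;>
  simp [Matrix.SpecialLinearGroup.coe_inv, Matrix.SpecialLinearGroup.coe_mul,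
    ModularGroup.coe_S, h, Matrix.adjugate_fin_two, Matrix.mul_apply, Fin.sum_univ_two]

/-- The `p + 1` coset representatives `1, (S T^j)⁻¹` of `SL(2,ℤ) ⧸ Γ₀(p)`. -/
def tr16_rep (p : ℕ) : Option (Fin p) → S20.X p
  | none => ((1 : SL(2, ℤ)) : S20.X p)
  | some j => (((ModularGroup.S * ModularGroup.T ^ (j : ℕ))⁻¹ : SL(2, ℤ)) : S20.X p)

theorem tr16_rep_injective {p : ℕ} (hp : p.Prime) : Function.Injective (tr16_rep p) := by
  have : Fact p.Prime := ⟨hp⟩
  have hne : ∀ j : Fin p, tr16_rep p none ≠ tr16_rep p (some j) := by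
    intro j h
    have h1 : (1 : SL(2, ℤ))⁻¹ * (ModularGroup.S * ModularGroup.T ^ (j : ℕ))⁻¹ ∈ Gamma0 p :=
      QuotientGroup.eq.mp h
    rw [inv_one, one_mul, inv_mem_iff, Gamma0_mem, tr16_ST_apply] at h1
    simp at h1
  intro a b hab
  cases a with
  | none =>
    cases b with
    | none => rfl
    | some j => exact absurd hab (hne j)
  | some i =>
    cases b with
    | none => exact absurd hab.symm (hne i)
    | some j =>
      have h1 : ((ModularGroup.S * ModularGroup.T ^ (i : ℕ))⁻¹ : SL(2, ℤ))⁻¹ *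
          (ModularGroup.S * ModularGroup.T ^ (j : ℕ))⁻¹ ∈ Gamma0 p := QuotientGroup.eq.mp hab
      rw [inv_inv, Gamma0_mem, tr16_ST_mul_apply, (tr16_ST_inv_apply j).1,
        (tr16_ST_inv_apply j).2] at h1
      push_cast at h1
      have h2 : ((j : ℕ) : ZMod p) = ((i : ℕ) : ZMod p) := by
        linear_combination h1
      have h3 := congrArg ZMod.val h2
      rw [ZMod.val_cast_of_lt j.2, ZMod.val_cast_of_lt i.2] at h3
      exact congrArg some (Fin.ext h3.symm)

theorem tr16_rep_surjective {p : ℕ} (hp : p.Prime) : Function.Surjective (tr16_rep p) := by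
  have : Fact p.Prime := ⟨hp⟩
  intro x
  obtain ⟨g, rfl⟩ := QuotientGroup.mk_surjective x
  by_cases hc : ((g 1 0 : ℤ) : ZMod p) = 0
  · refine ⟨none, ?_⟩
    refine QuotientGroup.eq.mpr ?_
    rw [inv_one, one_mul, Gamma0_mem]
    exact hc
  · set y : ZMod p := -((g 0 0 : ℤ) : ZMod p) / ((g 1 0 : ℤ) : ZMod p) with hy
    refine ⟨some ⟨y.val, ZMod.val_lt y⟩, ?_⟩
    refine QuotientGroup.eq.mpr ?_
    rw [inv_inv, Gamma0_mem, tr16_ST_mul_apply]
    push_cast
    rw [ZMod.natCast_zmod_val, hy]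
    field_simp
    ring

theorem tr16_rep_bijective {p : ℕ} (hp : p.Prime) : Function.Bijective (tr16_rep p) :=
  ⟨tr16_rep_injective hp, tr16_rep_surjective hp⟩

/-- The sum over all cosets is `F + ∑_{j<p} F ∣[k] (S T^j)`. -/
theorem tr16_sum_tr {p : ℕ} (hp : p.Prime) {k : ℤ} {F : ℍ → ℂ} (hF : IsMF (G0 p) k F)
    [Fintype (S20.X p)] :
    ∑ x : S20.X p, S20.tr p k F x =
      F + ∑ j ∈ Finset.range p, F ∣[k] (ModularGroup.S * ModularGroup.T ^ j) := by
  rw [← (tr16_rep_bijective hp).sum_comp (fun x => S20.tr p k F x), Fintype.sum_option]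
  congr 1
  · exact S20.tr_one hF
  · rw [← Fin.sum_univ_eq_sum_range (fun j => F ∣[k] (ModularGroup.S * ModularGroup.T ^ j)) p]
    refine Finset.sum_congr rfl fun j _ => ?_
    change S20.tr p k F (((ModularGroup.S * ModularGroup.T ^ (j : ℕ))⁻¹ : SL(2, ℤ)) : S20.X p) = _
    rw [S20.tr_mk hF, inv_inv]

/-- The sum over all cosets is `F + p • U_p (K_F)`. -/
theorem tr16_sum_cosets {p : ℕ} (hp : p.Prime) {k : ℤ} {F : ℍ → ℂ} (hF : IsMF (G0 p) k F)
    [Fintype (S20.X p)] :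
    ∑ x : S20.X p, S20.tr p k F x = F + (p : ℂ) • ModularForm.heckeU k p (tr16_K p k F) := by
  rw [tr16_sum_tr hp hF, tr16_sum_slash_ST hp.ne_zero]

/-- **Trace to level one** (function level). -/
theorem tr16_trace_fun {p : ℕ} (hp : p.Prime) {k : ℤ} {F : ℍ → ℂ} (hF : IsMF (G0 p) k F) :
    IsMF G1 k (F + (p : ℂ) • ModularForm.heckeU k p (tr16_K p k F)) := by
  have : NeZero p := ⟨hp.ne_zero⟩
  let _ : Fintype (S20.X p) := Fintype.ofFinite _
  have h := S20.trace p k F hF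
  have hfun : (fun z => ∑ x : S20.X p, S20.tr p k F x z) = ∑ x : S20.X p, S20.tr p k F x := by
    ext z; simp
  rw [hfun, tr16_sum_cosets hp hF] at h
  exact h

/-- **Trace to level one vanishes in weight two.** -/
theorem tr16_trace_two {p : ℕ} (hp : p.Prime) {F : ℍ → ℂ} (hF : IsMF (G0 p) 2 F) :
    F + (p : ℂ) • ModularForm.heckeU 2 p (tr16_K p 2 F) = 0 := by
  obtain ⟨T, hT⟩ := tr16_trace_fun hp hF
  rw [← hT]
  have hrank := ModularForm.levelOne_weight_two_rank_zero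
  have : T = 0 := by
    have := Module.finite_of_rank_eq_zero hrank
    exact (rank_zero_iff_forall_zero.mp hrank) T
  rw [this]
  rfl

/-- q-expansion of `U_p` of a nice function. -/
theorem tr16_qExp_heckeU {p : ℕ} (hp : p ≠ 0) (k : ℤ) {f : ℍ → ℂ} (hf : IsNice f) :
    qExpansion 1 (ModularForm.heckeU k p f) = tr16_U p (qExpansion 1 f) := by
  ext n
  have h := UpperHalfPlane.qCoeff_heckeU hf.per hf.holo hf.bdd k hp n
  simp only [ModularFormClass.qCoeff, ModularForm.coeffHeckeU_apply] at h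
  rw [h, tr16_U_coeff, mul_comm]

/-- **Trace formula** (q-expansions), assuming `K_F` is nice. -/
theorem tr16_trace_of {p : ℕ} (hp : p.Prime) {k : ℤ} {F : ℍ → ℂ} (hF : IsMF (G0 p) k F)
    (hK : IsNice (tr16_K p k F)) :
    ∃ T : ℍ → ℂ, IsMF G1 k T ∧
      qExpansion 1 T = qExpansion 1 F + (p : ℂ) • tr16_U p (qExpansion 1 (tr16_K p k F)) := by
  refine ⟨_, tr16_trace_fun hp hF, ?_⟩
  have hU : IsNice (ModularForm.heckeU k p (tr16_K p k F)) := S22.DN.isNice_heckeU hK k p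
  rw [hF.isNice_G0.qExpansion_add (hU.smul _), hU.qExpansion_smul,
    tr16_qExp_heckeU hp.ne_zero k hK]

end Fermat.Agent.S16
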