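import Mathlib
import Fermat.Agent.S16.TraceDefs
import Fermat.Agent.S16.TraceOne
import Fermat.Agent.S16.Fricke
import Fermat.Agent.S16.FrickeTrace

/-!
# S16, package [TR-CORE]: the Fricke transform `K` is of level `Γ₀(p)`, the trace formula,
and `(T1)`: `K_H = -p⁻¹ U_p H` in weight two.
-/

set_option autoImplicit false

noncomputable section

namespace Fermat.Agent.S16

open UpperHalfPlane ModularFormClass CongruenceSubgroup Matrix.SpecialLinearGroup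
open scoped MatrixGroups ModularForm Manifold
open Fermat.Agent.S22 (IsMF IsCF G0 G1 IsNice)

/-- `K_F` in terms of the Fricke matrix `W = S · diag(p, 1)`. -/
theorem tr16_K_eq_fricke {p : ℕ} (hp : p ≠ 0) (k : ℤ) (F : ℍ → ℂ) :
    tr16_K p k F = ((p : ℂ) ^ (k - 1))⁻¹ • (F ∣[k] s16t_W p) := by
  have h := S22.DN.comp_diag_eq k hp (F ∣[k] ModularGroup.S)
  have h2 : F ∣[k] s16t_W p = (F ∣[k] ModularGroup.S) ∣[k] ModularForm.heckeDiagMatrix p := by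
    rw [s16t_W, SlashAction.slash_mul]
    rfl
  rw [h2, ← h]
  rfl

/-- The Fricke transform preserves `M_k(Γ₀(p))`. -/
theorem tr16_K_isMF {p : ℕ} (hp : p ≠ 0) {k : ℤ} {F : ℍ → ℂ} (hF : IsMF (G0 p) k F) :
    IsMF (G0 p) k (tr16_K p k F) := by
  rw [tr16_K_eq_fricke hp]
  exact (s16t_fricke_isMF hp hF).smul _

theorem tr16_K_isNice {p : ℕ} (hp : p ≠ 0) {k : ℤ} {F : ℍ → ℂ} (hF : IsMF (G0 p) k F) :
    IsNice (tr16_K p k F) :=
  (tr16_K_isMF hp hF).isNice_G0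

/-- **Trace formula**: for `F ∈ M_k(Γ₀(p))` there is a level one form of weight `k` with
`q`-expansion `F + p U_p (K_F)`. -/
theorem tr16_trace {p : ℕ} (hp : p.Prime) {k : ℤ} {F : ℍ → ℂ} (hF : IsMF (G0 p) k F) :
    ∃ T : ℍ → ℂ, IsMF G1 k T ∧
      qExpansion 1 T = qExpansion 1 F + (p : ℂ) • tr16_U p (qExpansion 1 (tr16_K p k F)) :=
  tr16_trace_of hp hF (tr16_K_isNice hp.ne_zero hF)

/-- **(T1)**, function level: `K_H = -p⁻¹ U_p H` on `M₂(Γ₀(p))`. -/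
theorem tr16_T1_fun {p : ℕ} (hp : p.Prime) {H : ℍ → ℂ} (hH : IsMF (G0 p) 2 H) :
    tr16_K p 2 H = (-(p : ℂ)⁻¹) • ModularForm.heckeU 2 p H := by
  rw [tr16_K_eq_fricke hp.ne_zero, s16t_fricke_eq hp hH]
  have : ((p : ℂ) ^ ((2 : ℤ) - 1))⁻¹ = (p : ℂ)⁻¹ := by norm_num
  rw [this, smul_neg]
  exact (_root_.neg_smul _ _).symm

theorem tr16_heckeU_isNice {p : ℕ} {k : ℤ} {H : ℍ → ℂ} (hH : IsMF (G0 p) k H) :
    IsNice (ModularForm.heckeU k p H) :=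
  S22.DN.isNice_heckeU hH.isNice_G0 k p

/-- **(T1)**, `q`-expansions: `K_H = -p⁻¹ U_p H` on `M₂(Γ₀(p))`. -/
theorem tr16_T1 {p : ℕ} (hp : p.Prime) {H : ℍ → ℂ} (hH : IsMF (G0 p) 2 H) :
    qExpansion 1 (tr16_K p 2 H) = (-(p : ℂ)⁻¹) • tr16_U p (qExpansion 1 H) := by
  rw [tr16_T1_fun hp hH, (tr16_heckeU_isNice hH).qExpansion_smul,
    tr16_qExp_heckeU hp.ne_zero 2 hH.isNice_G0]

/-- **(UU)**: `U_p U_p H = H` on `M₂(Γ₀(p))`. -/
theorem tr16_UU {p : ℕ} (hp : p.Prime) {H : ℍ → ℂ} (hH : IsMF (G0 p) 2 H) :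
    tr16_U p (tr16_U p (qExpansion 1 H)) = qExpansion 1 H := by
  rw [← tr16_qExp_heckeU hp.ne_zero 2 hH.isNice_G0,
    ← tr16_qExp_heckeU hp.ne_zero 2 (tr16_heckeU_isNice hH), s16t_heckeU_heckeU hp hH]

theorem tr16_UU_coeff {p : ℕ} (hp : p.Prime) {H : ℍ → ℂ} (hH : IsMF (G0 p) 2 H) (n : ℕ) :
    (qExpansion 1 H).coeff (p * (p * n)) = (qExpansion 1 H).coeff n := by
  have h := congrArg (PowerSeries.coeff n) (tr16_UU hp hH)
  rwa [tr16_U_coeff, tr16_U_coeff] at h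

/-- `U_p` preserves `M₂(Γ₀(p))` (restated from `Fricke`). -/
theorem tr16_heckeU_isMF {p : ℕ} (hp : p.Prime) {H : ℍ → ℂ} (hH : IsMF (G0 p) 2 H) :
    IsMF (G0 p) 2 (ModularForm.heckeU 2 p H) :=
  s16t_heckeU_isMF hp hH

end Fermat.Agent.S16
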