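import Mathlib
import Fermat.Agent.S16.TraceDefs
import Fermat.Agent.S16.TraceOne
import Fermat.Agent.S16.TraceMain

/-!
# S16, package [TR-CORE]: the two level-one forms `(TR2)`, `(TR3)`

Derived from the trace formula, `(T1)` and the `K`-rules `(K2)`, `(K4)` (taken as hypotheses
in the `_of` versions).
-/

set_option autoImplicit false

noncomputable section

namespace Fermat.Agent.S16

open UpperHalfPlane ModularFormClass CongruenceSubgroup Matrix.SpecialLinearGroup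
open scoped MatrixGroups ModularForm Manifold
open Fermat.Agent.S22 (IsMF IsCF G0 G1 IsNice)

/-- `q`-expansion of `z ↦ h (p z)`. -/
theorem tr16_fin_qExp_comp_diag {p : ℕ} (hp : p ≠ 0) {h : ℍ → ℂ} (hh : IsNice h) :
    qExpansion 1 (fun z => h (ModularForm.heckeDiagMatrix p • z)) = tr16_V p (qExpansion 1 h) := by
  ext n
  rw [S22.DN.qExpansion_comp_diag_coeff hh hp, tr16_V_coeff]

/-- `(TR3)` from `(K4)`. -/
theorem tr16_fin_TR3_of {p : ℕ} (hp : p.Prime) {k : ℤ} {h : ℍ → ℂ} (hh : IsMF G1 k h)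
    (hK4 : tr16_K p k (fun z => h (ModularForm.heckeDiagMatrix p • z)) = ((p : ℂ) ^ (-k)) • h) :
    ∃ F : ℍ → ℂ, IsMF G1 k F ∧
      qExpansion 1 F = tr16_V p (qExpansion 1 h) + ((p : ℂ) ^ (1 - k)) • tr16_U p (qExpansion 1 h) := by
  have : NeZero p := ⟨hp.ne_zero⟩
  have hp' : (p : ℂ) ≠ 0 := by exact_mod_cast hp.ne_zero
  have hV : IsMF (G0 p) k (fun z => h (ModularForm.heckeDiagMatrix p • z)) :=
    S22.DN.isMF_comp_diag p hh
  obtain ⟨T, hT, hq⟩ := tr16_trace hp hV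
  refine ⟨T, hT, ?_⟩
  rw [hq, hK4, hh.isNice_G1.qExpansion_smul, tr16_fin_qExp_comp_diag hp.ne_zero hh.isNice_G1,
    tr16_U_smul, smul_smul]
  congr 2
  rw [sub_eq_add_neg, zpow_add₀ hp', zpow_one]

/-- `(TR2)` from `(K2)`, `(K4)`. -/
theorem tr16_fin_TR2_of {p : ℕ} (hp : p.Prime) {G : ℍ → ℂ} (hG : IsMF (G0 p) 2 G) {k : ℤ}
    {h : ℍ → ℂ} (hh : IsMF G1 k h)
    (hK2 : tr16_K p (k + 2) ((fun z => h (ModularForm.heckeDiagMatrix p • z)) * G) =
      tr16_K p k (fun z => h (ModularForm.heckeDiagMatrix p • z)) * tr16_K p 2 G)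
    (hK4 : tr16_K p k (fun z => h (ModularForm.heckeDiagMatrix p • z)) = ((p : ℂ) ^ (-k)) • h) :
    ∃ F : ℍ → ℂ, IsMF G1 (k + 2) F ∧
      qExpansion 1 F = qExpansion 1 G * tr16_V p (qExpansion 1 h) -
        ((p : ℂ) ^ (-k)) • tr16_U p (qExpansion 1 h * tr16_U p (qExpansion 1 G)) := by
  have : NeZero p := ⟨hp.ne_zero⟩
  have hp' : (p : ℂ) ≠ 0 := by exact_mod_cast hp.ne_zero
  have hV : IsMF (G0 p) k (fun z => h (ModularForm.heckeDiagMatrix p • z)) :=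
    S22.DN.isMF_comp_diag p hh
  have hΦ : IsMF (G0 p) (k + 2) ((fun z => h (ModularForm.heckeDiagMatrix p • z)) * G) :=
    hV.mul hG
  obtain ⟨T, hT, hq⟩ := tr16_trace hp hΦ
  refine ⟨T, hT, ?_⟩
  have hU : IsNice (ModularForm.heckeU 2 p G) := tr16_heckeU_isNice hG
  have hKΦ : qExpansion 1 (tr16_K p (k + 2) ((fun z => h (ModularForm.heckeDiagMatrix p • z)) * G))
      = (((p : ℂ) ^ (-k)) * (-(p : ℂ)⁻¹)) • (qExpansion 1 h * tr16_U p (qExpansion 1 G)) := by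
    rw [hK2, hK4, tr16_T1_fun hp hG,
      (hh.isNice_G1.smul _).qExpansion_mul (hU.smul _), hh.isNice_G1.qExpansion_smul,
      hU.qExpansion_smul, tr16_qExp_heckeU hp.ne_zero 2 hG.isNice_G0, smul_mul_smul_comm]
  rw [hq, hKΦ, hV.isNice_G0.qExpansion_mul hG.isNice_G0,
    tr16_fin_qExp_comp_diag hp.ne_zero hh.isNice_G1, tr16_U_smul, smul_smul, mul_comm,
    sub_eq_add_neg, ← _root_.neg_smul]
  congr 2
  field_simp

/-! ### the two `K`-rules, and the final statements -/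

theorem tr16_fin_K_mul (p : ℕ) (k l : ℤ) (F G : ℍ → ℂ) :
    tr16_K p (k + l) (F * G) = tr16_K p k F * tr16_K p l G := by
  funext z
  rw [tr16_K_def, ModularForm.mul_slash_SL2]
  rfl

theorem tr16_fin_diag_S_diag {p : ℕ} (hp : p ≠ 0) (z : ℍ) :
    ModularForm.heckeDiagMatrix p • (ModularGroup.S • (ModularForm.heckeDiagMatrix p • z)) =
      ModularGroup.S • z := by
  apply UpperHalfPlane.ext
  have hp' : (p : ℂ) ≠ 0 := by exact_mod_cast hp
  have hz : (z : ℂ) ≠ 0 := ne_zero z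
  rw [ModularForm.coe_heckeDiagMatrix_smul hp, UpperHalfPlane.modular_S_smul,
    UpperHalfPlane.modular_S_smul]
  simp only [ModularForm.coe_heckeDiagMatrix_smul hp]
  field_simp

theorem tr16_fin_K_comp_diag {p : ℕ} (hp : p ≠ 0) {k : ℤ} {h : ℍ → ℂ} (hh : IsMF G1 k h) :
    tr16_K p k (fun z => h (ModularForm.heckeDiagMatrix p • z)) = ((p : ℂ) ^ (-k)) • h := by
  funext z
  have hp' : (p : ℂ) ≠ 0 := by exact_mod_cast hp
  have hz : (z : ℂ) ≠ 0 := ne_zero z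
  have hS : h (ModularGroup.S • z) = h z * (z : ℂ) ^ k := by
    have h1 := congrFun (S20.conj_slash_levelOne hh ModularGroup.S) z
    rw [ModularForm.SL_slash_apply, ModularGroup.denom_S] at h1
    rw [← h1, mul_assoc, ← zpow_add₀ hz, neg_add_cancel, zpow_zero, mul_one]
  rw [tr16_K_apply hp, tr16_fin_diag_S_diag hp, hS, Pi.smul_apply, smul_eq_mul, mul_zpow,
    zpow_neg, zpow_neg]
  field_simp

/-- **(TR3)**: for a level one form `h` of weight `k`, `V_p h + p^(1-k) U_p h` is the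
`q`-expansion of a level one form of weight `k`. -/
theorem tr16_fin_TR3 {p : ℕ} (hp : p.Prime) {k : ℤ} {h : ℍ → ℂ} (hh : IsMF G1 k h) :
    ∃ F : ℍ → ℂ, IsMF G1 k F ∧
      qExpansion 1 F = tr16_V p (qExpansion 1 h) + ((p : ℂ) ^ (1 - k)) • tr16_U p (qExpansion 1 h) :=
  tr16_fin_TR3_of hp hh (tr16_fin_K_comp_diag hp.ne_zero hh)

/-- **(TR2)**: for `G ∈ M₂(Γ₀(p))` and a level one form `h` of weight `k`,
`G · V_p h - p^(-k) U_p (h · U_p G)` is the `q`-expansion of a level one form of weight `k + 2`. -/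
theorem tr16_fin_TR2 {p : ℕ} (hp : p.Prime) {G : ℍ → ℂ} (hG : IsMF (G0 p) 2 G) {k : ℤ}
    {h : ℍ → ℂ} (hh : IsMF G1 k h) :
    ∃ F : ℍ → ℂ, IsMF G1 (k + 2) F ∧
      qExpansion 1 F = qExpansion 1 G * tr16_V p (qExpansion 1 h) -
        ((p : ℂ) ^ (-k)) • tr16_U p (qExpansion 1 h * tr16_U p (qExpansion 1 G)) :=
  tr16_fin_TR2_of hp hG hh (tr16_fin_K_mul p k 2 _ G) (tr16_fin_K_comp_diag hp.ne_zero hh)

end Fermat.Agent.S16
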