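import Mathlib
import Fermat.Agent.S16.TraceFin
import Fermat.Agent.S16.L3Cong
import Fermat.Agent.S16.Final

/-!
# S16, package [DT] (second seat): the Delta test

`s16dt_fin : s16fin_DT`: for primes `p ≥ 5`, `ℓ ≠ p` and `m` with `ℓ^m ∤ p + 1` there is no
modular form `H` of weight 2 and level `Γ₀(p)` with `q`-expansion in `1 + ℓ^m q ℤ_(ℓ)[[q]]`.

Proof.  Let `D = ∑ τ(n) q^n ∈ ℤ[[q]]` be the `q`-expansion of `Δ`.
* (TR3) for `h = Δ`: `V_p D + p^(-11) U_p D` is a level-one cusp form of weight 12, hence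
  `= c Δ`; the coefficients of `q` and `q^p` give `τ(p²) + p^11 = τ(p)²`.
* (TR2) for `G = H`, `h = Δ`: `H V_p D - p^(-12) U_p (D U_p H)` is a level-one cusp form of
  weight 14, hence `0`.  Modulo `ℓ^m` this reads `p^12 V_p D ≡ U_p D`; the coefficients of `q` and
  `q^p` give `τ(p) ≡ 0` and `p^12 ≡ τ(p²)`.
Hence `p^11 (p + 1) ≡ τ(p)² ≡ 0 mod ℓ^m`, so `ℓ^m ∣ p + 1`.
-/

set_option autoImplicit false

namespace Fermat.Agent.S16

open UpperHalfPlane ModularFormClass CongruenceSubgroup GaloisRep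
open Fermat.Agent.S22 (IsMF IsNice G0 G1 IsIntQ)

/-! ### Level one: weights 12 and 14 -/

/-- `Δ` is a level-one modular form of weight 12. -/
theorem s16dt_isMF_disc : IsMF G1 12 (ModularForm.discriminant : ℍ → ℂ) := by
  have h : Fermat.Agent.S22.IsCF G1 12 (ModularForm.discriminant : ℍ → ℂ) :=
    ⟨CuspForm.discriminant, rfl⟩
  obtain ⟨F, hF⟩ := h
  exact ⟨⟨F.toSlashInvariantForm, F.holo',
    fun hc g hg => (F.zero_at_cusps' hc g hg).boundedAtFilter⟩, hF⟩

/-- A level-one form of weight 14 with vanishing constant term is zero. -/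
theorem s16dt_fourteen {F : ℍ → ℂ} (hF : IsMF G1 14 F)
    (h0 : (qExpansion 1 F).coeff 0 = 0) : F = 0 := by
  obtain ⟨F', rfl⟩ := hF
  have hg1 : IsMF G1 (14 - 12) (⇑(CuspForm.discriminantEquiv (ModularForm.toCuspForm F' h0))) :=
    ⟨CuspForm.discriminantEquiv (ModularForm.toCuspForm F' h0), rfl⟩
  have hg2 : IsMF G1 2 (⇑(CuspForm.discriminantEquiv (ModularForm.toCuspForm F' h0))) :=
    Fermat.Agent.S22.IsMF.cast (by norm_num) hg1
  have hz := Fermat.Agent.S20.l1_eq_zero_of_two hg2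
  have h := ModularForm.discriminant_mul_discriminantEquiv (ModularForm.toCuspForm F' h0)
  rw [hz, mul_zero] at h
  funext z
  have := congrFun h z
  simpa [ModularForm.toCuspForm_apply] using this.symm

/-- A level-one form of weight 12 with vanishing constant term is a multiple of `Δ`. -/
theorem s16dt_twelve {F : ℍ → ℂ} (hF : IsMF G1 12 F)
    (h0 : (qExpansion 1 F).coeff 0 = 0) :
    ∃ c : ℂ, F = c • (ModularForm.discriminant : ℍ → ℂ) := by
  obtain ⟨F', rfl⟩ := hF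
  obtain ⟨c, hc⟩ := CuspForm.exists_smul_discriminant_of_weight_eq_twelve
    (ModularForm.toCuspForm F' h0)
  refine ⟨c, ?_⟩
  funext z
  have := congrArg (fun f : CuspForm _ 12 => f z) hc
  simpa [ModularForm.toCuspForm_apply] using this.symm

/-! ### The integral `q`-expansion of `Δ` -/

theorem s16dt_delta_coeff_zero : PowerSeries.coeff 0 l3_delta = 0 := by
  rw [l3_delta]
  simp

theorem s16dt_delta_coeff_one : PowerSeries.coeff 1 l3_delta = 1 := by
  have h := ModularForm.discriminant_qExpansion_coeff_one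
  rw [l3_qexp_disc, PowerSeries.coeff_map, eq_intCast] at h
  exact_mod_cast h

/-- The Hecke relation `τ(p²) + p^11 = τ(p)²`, from (TR3). -/
theorem s16dt_hecke (p : ℕ) (hp : p.Prime) :
    (p : ℤ) ^ 11 + PowerSeries.coeff (p * p) l3_delta = PowerSeries.coeff p l3_delta ^ 2 := by
  obtain ⟨F3, hF3, hq⟩ := tr16_fin_TR3 hp s16dt_isMF_disc
  have hpC : (p : ℂ) ≠ 0 := by exact_mod_cast hp.ne_zero
  have hp1 : ¬ p ∣ 1 := fun h => hp.one_lt.ne' (Nat.dvd_one.1 h)
  have h0 : (qExpansion 1 F3).coeff 0 = 0 := by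
    rw [hq, l3_qexp_disc, map_add, PowerSeries.coeff_smul, tr16_V_coeff, tr16_U_coeff,
      if_pos (dvd_zero p), Nat.zero_div, mul_zero, PowerSeries.coeff_map,
      s16dt_delta_coeff_zero, map_zero, smul_zero, add_zero]
  obtain ⟨c, hc⟩ := s16dt_twelve hF3 h0
  have hq' : qExpansion 1 F3 = c • qExpansion 1 (ModularForm.discriminant : ℍ → ℂ) := by
    rw [hc, s16dt_isMF_disc.isNice_G1.qExpansion_smul]
  rw [hq', l3_qexp_disc] at hq
  have e1 := congrArg (PowerSeries.coeff 1) hq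
  have ep := congrArg (PowerSeries.coeff p) hq
  simp only [PowerSeries.coeff_smul, PowerSeries.coeff_map, map_add, tr16_V_coeff,
    tr16_U_coeff, if_neg hp1, dvd_refl, if_true, Nat.div_self hp.pos, mul_one,
    s16dt_delta_coeff_one, smul_eq_mul, zero_add, eq_intCast, Int.cast_one] at e1 ep
  -- e1 : c = p^(1-12) * τ(p) ; ep : c * τ(p) = 1 + p^(1-12) * τ(p²)
  have h11 : ((p : ℂ) ^ ((1 : ℤ) - 12)) * (p : ℂ) ^ 11 = 1 := by
    rw [show ((1 : ℤ) - 12) = -11 by norm_num, zpow_neg]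
    have : ((p : ℂ) ^ (11 : ℤ)) = (p : ℂ) ^ 11 := by norm_cast
    rw [this]
    field_simp
  have key : ((p : ℂ) ^ 11 + ((PowerSeries.coeff (p * p) l3_delta : ℤ) : ℂ)) =
      ((PowerSeries.coeff p l3_delta : ℤ) : ℂ) ^ 2 := by
    have e2 : ((PowerSeries.coeff p l3_delta : ℤ) : ℂ) ^ 2 =
        (p : ℂ) ^ 11 * (c * ((PowerSeries.coeff p l3_delta : ℤ) : ℂ)) := by
      rw [e1]
      have : (p : ℂ) ^ 11 * ((p : ℂ) ^ ((1 : ℤ) - 12) * ((PowerSeries.coeff p l3_delta : ℤ) : ℂ) *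
          ((PowerSeries.coeff p l3_delta : ℤ) : ℂ)) =
          ((p : ℂ) ^ ((1 : ℤ) - 12) * (p : ℂ) ^ 11) *
            ((PowerSeries.coeff p l3_delta : ℤ) : ℂ) ^ 2 := by ring
      rw [this, h11, one_mul]
    rw [e2, ep]
    have : (p : ℂ) ^ 11 * (1 + (p : ℂ) ^ ((1 : ℤ) - 12) *
        ((PowerSeries.coeff (p * p) l3_delta : ℤ) : ℂ)) =
        (p : ℂ) ^ 11 + ((p : ℂ) ^ ((1 : ℤ) - 12) * (p : ℂ) ^ 11) *
          ((PowerSeries.coeff (p * p) l3_delta : ℤ) : ℂ) := by ring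
    rw [this, h11, one_mul]
  exact_mod_cast key

/-! ### Arithmetic in `ℤ_(ℓ)` -/

/-- The embedding `ℤ_(ℓ) → ℂ`. -/
noncomputable def s16dt_iota (l : ℕ) : ↥(ratLocalizedAt l) →+* ℂ :=
  (algebraMap ℚ ℂ).comp (ratLocalizedAt l).subtype

theorem s16dt_iota_apply (l : ℕ) (r : ↥(ratLocalizedAt l)) :
    s16dt_iota l r = (((r : ↥(ratLocalizedAt l)) : ℚ) : ℂ) := rfl

theorem s16dt_iota_injective (l : ℕ) : Function.Injective (s16dt_iota l) := by
  intro x y h
  rw [s16dt_iota_apply, s16dt_iota_apply] at h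
  exact Subtype.ext (by exact_mod_cast h)

theorem s16dt_map_injective (l : ℕ) :
    Function.Injective (PowerSeries.map (s16dt_iota l)) := by
  intro x y h
  refine PowerSeries.ext fun n => ?_
  have := congrArg (PowerSeries.coeff n) h
  rw [PowerSeries.coeff_map, PowerSeries.coeff_map] at this
  exact s16dt_iota_injective l this

/-- Divisibility by `ℓ^k` in `ℤ_(ℓ)` of a natural number is divisibility in `ℕ`. -/
theorem s16dt_dvd_nat (l : ℕ) (k N : ℕ)
    (h : ((l : ↥(ratLocalizedAt l)) ^ k) ∣ (N : ↥(ratLocalizedAt l))) : l ^ k ∣ N := by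
  obtain ⟨r, hr⟩ := h
  have hq : (N : ℚ) = (l : ℚ) ^ k * (r : ℚ) := by
    have := congrArg Subtype.val hr
    simpa using this
  have hden : (r : ℚ).den.Coprime l := r.2
  have h1 : ((N : ℤ) * ((r : ℚ).den : ℤ) : ℚ) = (((l : ℤ) ^ k * (r : ℚ).num : ℤ) : ℚ) := by
    push_cast
    rw [hq, mul_assoc, Rat.mul_den_eq_num]
  have h2 : (N : ℤ) * ((r : ℚ).den : ℤ) = (l : ℤ) ^ k * (r : ℚ).num := by exact_mod_cast h1
  have h3 : ((l : ℤ) ^ k) ∣ (N : ℤ) * ((r : ℚ).den : ℤ) := ⟨_, h2⟩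
  have hcop : IsCoprime ((l : ℤ) ^ k) (((r : ℚ).den : ℤ)) := by
    apply IsCoprime.pow_left
    exact Nat.isCoprime_iff_coprime.2 hden.symm
  have h4 : ((l : ℤ) ^ k) ∣ (N : ℤ) := hcop.dvd_of_dvd_mul_right h3
  have h5 : ((l ^ k : ℕ) : ℤ) ∣ (N : ℤ) := by
    push_cast
    exact h4
  exact Int.natCast_dvd_natCast.1 h5

/-! ### The congruence from (TR2) -/

/-- **The key congruence**: if `H ∈ M_2(Γ₀(p))` has `q`-expansion `a ∈ 1 + ℓ^m q ℤ_(ℓ)[[q]]`
then `p^12 V_p D ≡ U_p D mod ℓ^m`, `D` the `q`-expansion of `Δ`. -/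
theorem s16dt_cong (p l m : ℕ) (hp : p.Prime) (H : ℍ → ℂ) (hH : IsMF (G0 p) 2 H)
    (a : PowerSeries ↥(ratLocalizedAt l))
    (ha : ∀ n, (qExpansion 1 H).coeff n =
      (((PowerSeries.coeff n a : ↥(ratLocalizedAt l)) : ℚ) : ℂ))
    (ha0 : PowerSeries.coeff 0 a = 1)
    (ha1 : ∀ n, 1 ≤ n → ∃ r : ↥(ratLocalizedAt l),
      PowerSeries.coeff n a = (l : ↥(ratLocalizedAt l)) ^ m * r) :
    ∃ w : PowerSeries ↥(ratLocalizedAt l),
      PowerSeries.C ((p : ↥(ratLocalizedAt l)) ^ 12) *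
          tr16_V p (l3_delta.map (Int.castRingHom ↥(ratLocalizedAt l)))
        - tr16_U p (l3_delta.map (Int.castRingHom ↥(ratLocalizedAt l))) =
      PowerSeries.C ((l : ↥(ratLocalizedAt l)) ^ m) * w := by
  classical
  have hpC : (p : ℂ) ≠ 0 := by exact_mod_cast hp.ne_zero
  set DR : PowerSeries ↥(ratLocalizedAt l) :=
    l3_delta.map (Int.castRingHom ↥(ratLocalizedAt l)) with hDR
  -- the two `q`-expansions as images of series over `ℤ_(ℓ)`
  have hA : qExpansion 1 H = a.map (s16dt_iota l) := by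
    ext n
    rw [ha n, PowerSeries.coeff_map, s16dt_iota_apply]
  have hD : qExpansion 1 (ModularForm.discriminant : ℍ → ℂ) = DR.map (s16dt_iota l) := by
    rw [l3_qexp_disc, hDR]
    refine PowerSeries.ext fun n => ?_
    rw [PowerSeries.coeff_map, PowerSeries.coeff_map, PowerSeries.coeff_map, eq_intCast,
      eq_intCast, map_intCast]
  have hDR0 : PowerSeries.coeff 0 DR = 0 := by
    rw [hDR, PowerSeries.coeff_map, s16dt_delta_coeff_zero, map_zero]
  -- (TR2) and weight 14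
  obtain ⟨F2, hF2, hq⟩ := tr16_fin_TR2 hp hH s16dt_isMF_disc
  have hF2' : IsMF G1 14 F2 := Fermat.Agent.S22.IsMF.cast (by norm_num) hF2
  rw [hA, hD, tr16_U_map p (s16dt_iota l) a, ← map_mul, tr16_U_map, tr16_V_map, ← map_mul] at hq
  have h0 : (qExpansion 1 F2).coeff 0 = 0 := by
    rw [hq, map_sub, PowerSeries.coeff_smul, PowerSeries.coeff_map, PowerSeries.coeff_map,
      tr16_U_coeff, mul_zero, PowerSeries.coeff_mul, PowerSeries.coeff_mul,
      Finset.Nat.antidiagonal_zero, Finset.sum_singleton, Finset.sum_singleton, tr16_V_coeff,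
      if_pos (dvd_zero p), Nat.zero_div, hDR0, mul_zero, zero_mul, map_zero, smul_zero,
      sub_zero]
  have hzero := s16dt_fourteen hF2' h0
  rw [hzero, UpperHalfPlane.qExpansion_zero] at hq
  -- the identity over `ℤ_(ℓ)`
  have hid : PowerSeries.C ((p : ↥(ratLocalizedAt l)) ^ 12) * (a * tr16_V p DR) =
      tr16_U p (DR * tr16_U p a) := by
    apply s16dt_map_injective l
    have h1 : (PowerSeries.map (s16dt_iota l)) (a * tr16_V p DR) =
        ((p : ℂ) ^ (-(12 : ℤ))) • (PowerSeries.map (s16dt_iota l)) (tr16_U p (DR * tr16_U p a)) :=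
      sub_eq_zero.1 hq.symm
    rw [map_mul, h1, PowerSeries.map_C, PowerSeries.smul_eq_C_mul, ← mul_assoc, ← map_mul]
    have h2 : (s16dt_iota l) ((p : ↥(ratLocalizedAt l)) ^ 12) * (p : ℂ) ^ (-(12 : ℤ)) = 1 := by
      rw [map_pow, map_natCast, zpow_neg]
      have : ((p : ℂ) ^ (12 : ℤ)) = (p : ℂ) ^ 12 := by norm_cast
      rw [this]
      field_simp
    rw [h2, map_one, one_mul]
  -- `a = 1 + ℓ^m b`
  choose! r hr using ha1
  set b : PowerSeries ↥(ratLocalizedAt l) := PowerSeries.mk fun n => if n = 0 then 0 else r n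
    with hb
  have hab : a = 1 + PowerSeries.C ((l : ↥(ratLocalizedAt l)) ^ m) * b := by
    refine PowerSeries.ext fun n => ?_
    rw [map_add, PowerSeries.coeff_C_mul, hb, PowerSeries.coeff_mk, PowerSeries.coeff_one]
    by_cases hn : n = 0
    · subst hn
      rw [if_pos rfl, if_pos rfl, mul_zero, add_zero, ha0]
    · rw [if_neg hn, if_neg hn, zero_add]
      exact hr n (Nat.one_le_iff_ne_zero.2 hn)
  refine ⟨tr16_U p (DR * tr16_U p b) -
    PowerSeries.C ((p : ↥(ratLocalizedAt l)) ^ 12) * (b * tr16_V p DR), ?_⟩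
  have hUa : tr16_U p a = 1 + PowerSeries.C ((l : ↥(ratLocalizedAt l)) ^ m) * tr16_U p b := by
    rw [hab, tr16_U_add, tr16_U_one hp.ne_zero, tr16_U_C_mul]
  have e1 : tr16_U p (DR * tr16_U p a) =
      tr16_U p DR + PowerSeries.C ((l : ↥(ratLocalizedAt l)) ^ m) *
        tr16_U p (DR * tr16_U p b) := by
    have h3 : DR * (1 + PowerSeries.C ((l : ↥(ratLocalizedAt l)) ^ m) * tr16_U p b) =
        DR + PowerSeries.C ((l : ↥(ratLocalizedAt l)) ^ m) * (DR * tr16_U p b) := by ring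
    rw [hUa, h3, tr16_U_add, tr16_U_C_mul]
  rw [e1] at hid
  have e2 : PowerSeries.C ((p : ↥(ratLocalizedAt l)) ^ 12) * (a * tr16_V p DR) =
      PowerSeries.C ((p : ↥(ratLocalizedAt l)) ^ 12) * tr16_V p DR +
        PowerSeries.C ((l : ↥(ratLocalizedAt l)) ^ m) *
          (PowerSeries.C ((p : ↥(ratLocalizedAt l)) ^ 12) * (b * tr16_V p DR)) := by
    conv_lhs => rw [hab]
    ring
  rw [e2] at hid
  linear_combination hid

/-! ### The Delta test -/

/-- **The Delta test.**  For primes `p`, `ℓ ≠ p` and `m` with `ℓ^m ∤ p + 1` there is no modular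
form of weight 2 and level `Γ₀(p)` with `q`-expansion in `1 + ℓ^m q ℤ_(ℓ)[[q]]`. -/
theorem s16dt_noH (p l m : ℕ) (hp : p.Prime) (hl : l.Prime) (hne : l ≠ p)
    (hnd : ¬ l ^ m ∣ p + 1) : s16g_NoH p l m := by
  intro H hH a ha ha0 ha1
  obtain ⟨w, hw⟩ := s16dt_cong p l m hp H hH a ha ha0 ha1
  have hp1 : ¬ p ∣ 1 := fun h => hp.one_lt.ne' (Nat.dvd_one.1 h)
  have c1 := congrArg (PowerSeries.coeff 1) hw
  have cp := congrArg (PowerSeries.coeff p) hw
  simp only [map_sub, PowerSeries.coeff_C_mul, tr16_V_coeff, tr16_U_coeff,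
    PowerSeries.coeff_map, if_neg hp1, dvd_refl, if_true, Nat.div_self hp.pos, mul_one,
    mul_zero, zero_sub, s16dt_delta_coeff_one, eq_intCast, Int.cast_one] at c1 cp
  have hk := s16dt_hecke p hp
  have hkR : ((p : ↥(ratLocalizedAt l)) ^ 11 +
      ((PowerSeries.coeff (p * p) l3_delta : ℤ) : ↥(ratLocalizedAt l))) =
      ((PowerSeries.coeff p l3_delta : ℤ) : ↥(ratLocalizedAt l)) ^ 2 := by
    have := congrArg (Int.cast : ℤ → ↥(ratLocalizedAt l)) hk
    push_cast at this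
    exact this
  have hdvd : ((l : ↥(ratLocalizedAt l)) ^ m) ∣ ((p ^ 11 * (p + 1) : ℕ) : ↥(ratLocalizedAt l)) := by
    refine ⟨PowerSeries.coeff p w +
      (l : ↥(ratLocalizedAt l)) ^ m * (PowerSeries.coeff 1 w) ^ 2, ?_⟩
    push_cast
    linear_combination cp + hkR + (-((PowerSeries.coeff p l3_delta : ℤ) : ↥(ratLocalizedAt l)) +
      (l : ↥(ratLocalizedAt l)) ^ m * PowerSeries.coeff 1 w) * c1
  have h1 := s16dt_dvd_nat l m _ hdvd
  have hcop : Nat.Coprime (l ^ m) (p ^ 11) :=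
    Nat.Coprime.pow _ _ ((Nat.coprime_primes hl hp).2 hne)
  exact hnd (hcop.dvd_of_dvd_mul_left h1)

/-- The export of package [DT] in the shape of `Final.lean`. -/
theorem s16dt_fin : s16fin_DT := fun p l m hp _ hl hne hnd => s16dt_noH p l m hp hl hne hnd

end Fermat.Agent.S16
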