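import Mathlib
import Fermat.Agent.S16.FrickeTrace
import Fermat.Agent.S16.GlueDefs

/-!
# S16, package (T1): [CUSP]

A modular form of weight `2` and level `Γ₀(p)` whose `q`-expansion at `∞` has constant term `0`
is a cusp form: the constant term at the other cusp is `- p⁻¹ a₀(U_p H) = - p⁻¹ a₀(H)`.

* `s16t_isCF_of_coeff_zero` : `IsCF (G0 p) 2 H`,
* `s16t_cuspAt` : the interface statement `s16g_CuspAt p` of `GlueDefs`.
-/

set_option autoImplicit false
set_option linter.unusedSimpArgs false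
set_option linter.unusedVariables false
set_option linter.style.haveILetI false

noncomputable section

namespace Fermat.Agent.S16

open UpperHalfPlane CongruenceSubgroup Matrix.SpecialLinearGroup ModularForm ModularFormClass
open scoped MatrixGroups ModularForm Manifold
open Fermat.Agent.S22 (IsMF IsCF G0 G1 IsNice)

/-- A nice function whose `q`-expansion has vanishing constant term is zero at `i∞`. -/
theorem s16t_isZero_of_coeff_zero {f : ℍ → ℂ} (hf : IsNice f)
    (h0 : (qExpansion 1 f).coeff 0 = 0) : IsZeroAtImInfty f := by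
  have hc : cuspFunction 1 f 0 = 0 := by
    have : (qExpansion 1 f).coeff 0 = cuspFunction 1 f 0 := by simp [qExpansion_coeff]
    rwa [this] at h0
  have hcomp : (cuspFunction 1 f ∘ fun τ : ℍ => Function.Periodic.qParam 1 τ) = f := by
    funext τ
    simpa using eq_cuspFunction τ one_ne_zero hf.per
  have ht := hf.analyticAt.continuousAt.tendsto.comp (qParam_tendsto_atImInfty one_pos)
  rw [hcomp, hc] at ht
  exact ht

theorem s16t_heckeMatrix_one_zero {p : ℕ} (hp : p ≠ 0) (j : ℕ) :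
    (heckeMatrix p j : GL (Fin 2) ℝ) 1 0 = 0 := by
  have h := val_heckeMatrix hp j
  have h2 : ((heckeMatrix p j : GL (Fin 2) ℝ) : Matrix (Fin 2) (Fin 2) ℝ) 1 0 = 0 := by
    rw [h]; simp
  exact h2

/-- Every `SL(2,ℤ)`-translate of a form in `M₂(Γ₀(p))` with `a₀ = 0` vanishes at `i∞`. -/
theorem s16t_isZero_slash {p : ℕ} (hp : p.Prime) {H : ℍ → ℂ} (hH : IsMF (G0 p) 2 H)
    (h0 : (qExpansion 1 H).coeff 0 = 0) (g : SL(2, ℤ)) :
    IsZeroAtImInfty (H ∣[(2 : ℤ)] g) := by
  rcases s16t_slash_cases hp hH g with h | ⟨j, hj, h⟩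
  · rw [h]
    exact s16t_isZero_of_coeff_zero hH.isNice_G0 h0
  · rw [h]
    have hU := s16t_heckeU_isMF hp hH
    have hU0 : (qExpansion 1 (heckeU 2 p H)).coeff 0 = 0 := by
      rw [s16t_heckeU_coeff hp.ne_zero hH, zero_mul, h0]
    have hz := s16t_isZero_of_coeff_zero hU.isNice_G0 hU0
    have hz2 : IsZeroAtImInfty ((heckeU 2 p H) ∣[(2 : ℤ)] heckeMatrix p j) :=
      hz.slash 2 (s16t_heckeMatrix_one_zero hp.ne_zero j)
    exact Filter.ZeroAtFilter.neg hz2

/-- (CUSP) a form in `M₂(Γ₀(p))` with vanishing constant term at `∞` is a cusp form. -/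
theorem s16t_isCF_of_coeff_zero {p : ℕ} (hp : p.Prime) {H : ℍ → ℂ} (hH : IsMF (G0 p) 2 H)
    (h0 : (qExpansion 1 H).coeff 0 = 0) : IsCF (G0 p) 2 H := by
  haveI : NeZero p := ⟨hp.ne_zero⟩
  exact Fermat.Agent.S20.isCF_criterion p 2 H (Fermat.Agent.S20.conj_mdiff_of_isMF hH)
    (fun γ hγ => Fermat.Agent.S20.conj_slash_Gamma0 hH γ hγ) (s16t_isZero_slash hp hH h0)

/-- [CUSP] in the shape of `GlueDefs`. -/
theorem s16t_cuspAt {p : ℕ} (hp : p.Prime) : s16g_CuspAt p :=
  fun f hf h0 => s16t_isCF_of_coeff_zero hp hf h0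

/-- The hypothesis `hC` of `s16g_main'`. -/
theorem s16t_cuspAt_all : ∀ p : ℕ, p.Prime → 5 ≤ p → s16g_CuspAt p :=
  fun _ hp _ => s16t_cuspAt hp

end Fermat.Agent.S16
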