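import Mathlib

/-!
# S16, package [TA]: one-dimensional theta series with a periodic weight

For `m ≥ 1` and `f : ℤ → ℂ` periodic modulo `2m` we study
`θ_f(z) = ∑_{n ∈ ℤ} f(n) e(n² z / (4m))` and prove the inversion formula
`θ_f(-1/z) = (-i z / (2m))^{1/2} θ_{f̂}(z)`, `f̂(n') = ∑_{r mod 2m} f(r) e(r n' / (2m))`,
from Mathlib's functional equation of the two-variable Jacobi theta function.
-/

set_option autoImplicit false

noncomputable section

namespace Fermat.Agent.S16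

open Complex Real

/-- The general term of the theta series with weight `f`. -/
def thA_term (m : ℕ) (f : ℤ → ℂ) (z : ℂ) (n : ℤ) : ℂ :=
  f n * cexp (2 * π * I * (n : ℂ) ^ 2 * z / (4 * m))

/-- The theta series `θ_f(z) = ∑ f(n) e(n² z/(4m))`. -/
def thA_theta (m : ℕ) (f : ℤ → ℂ) (z : ℂ) : ℂ := ∑' n : ℤ, thA_term m f z n

/-- The finite Fourier transform modulo `2m`. -/
def thA_hat (m : ℕ) (f : ℤ → ℂ) (n' : ℤ) : ℂ :=
  ∑ r ∈ Finset.range (2 * m), f r * cexp (2 * π * I * ((r : ℂ) * n') / (2 * m))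

theorem thA_exp_eq (m : ℕ) (z : ℂ) (n : ℤ) :
    cexp (2 * π * I * (n : ℂ) ^ 2 * z / (4 * m)) = jacobiTheta₂_term n 0 (z / (2 * m)) := by
  unfold jacobiTheta₂_term
  congr 1
  ring

theorem thA_term_eq (m : ℕ) (f : ℤ → ℂ) (z : ℂ) (n : ℤ) :
    thA_term m f z n = f n * jacobiTheta₂_term n 0 (z / (2 * m)) := by
  unfold thA_term
  rw [thA_exp_eq]

theorem thA_im_div {m : ℕ} (hm : 0 < m) {z : ℂ} (hz : 0 < z.im) : 0 < (z / (2 * m)).im := by
  have h : (z / (2 * m)) = z / ((2 * m : ℝ) : ℂ) := by push_cast; ring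
  rw [h, Complex.div_ofReal_im]
  have : (0 : ℝ) < 2 * m := by positivity
  positivity

theorem thA_periodic_mul {m : ℕ} {f : ℤ → ℂ} (hf : ∀ n, f (n + 2 * m) = f n) (r k : ℤ) :
    f (r + 2 * m * k) = f r := by
  have h : Function.Periodic f (2 * (m : ℤ)) := hf
  have := (h.int_mul k) r
  rw [← this]
  congr 1
  simp only [Int.cast_id]
  ring

theorem thA_periodic_mod {m : ℕ} {f : ℤ → ℂ} (hf : ∀ n, f (n + 2 * m) = f n) (n : ℤ) :
    f n = f (n % (2 * m)) := by
  conv_lhs => rw [← Int.emod_add_mul_ediv n (2 * m)]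
  exact thA_periodic_mul hf _ _

theorem thA_bounded_weight {m : ℕ} (hm : 0 < m) {f : ℤ → ℂ} (hf : ∀ n, f (n + 2 * m) = f n) :
    ∃ C : ℝ, 0 ≤ C ∧ ∀ n, ‖f n‖ ≤ C := by
  refine ⟨∑ r ∈ Finset.range (2 * m), ‖f r‖, Finset.sum_nonneg fun _ _ => norm_nonneg _, ?_⟩
  intro n
  rw [thA_periodic_mod hf n]
  have h2m : (0 : ℤ) < 2 * m := by positivity
  have h0 : 0 ≤ n % (2 * m) := Int.emod_nonneg _ h2m.ne'
  have h1 : n % (2 * m) < 2 * m := Int.emod_lt_of_pos _ h2m
  obtain ⟨r, hr⟩ := Int.eq_ofNat_of_zero_le h0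
  rw [hr]
  have hr' : r ∈ Finset.range (2 * m) := by
    rw [Finset.mem_range]
    have : (r : ℤ) < ((2 * m : ℕ) : ℤ) := by rw [← hr]; push_cast; exact h1
    exact_mod_cast this
  exact Finset.single_le_sum (f := fun r : ℕ => ‖f r‖) (fun _ _ => norm_nonneg _) hr'

theorem thA_summable_exp {m : ℕ} (hm : 0 < m) {z : ℂ} (hz : 0 < z.im) :
    Summable (fun n : ℤ => cexp (2 * π * I * (n : ℂ) ^ 2 * z / (4 * m))) := by
  simp_rw [thA_exp_eq]
  exact (summable_jacobiTheta₂_term_iff 0 _).mpr (thA_im_div hm hz)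

theorem thA_summable_norm {m : ℕ} (hm : 0 < m) {f : ℤ → ℂ} (hf : ∀ n, f (n + 2 * m) = f n)
    {z : ℂ} (hz : 0 < z.im) : Summable (fun n : ℤ => ‖thA_term m f z n‖) := by
  obtain ⟨C, hC0, hC⟩ := thA_bounded_weight hm hf
  have h1 : Summable (fun n : ℤ => ‖cexp (2 * π * I * (n : ℂ) ^ 2 * z / (4 * m))‖) := by
    simp_rw [thA_exp_eq, norm_jacobiTheta₂_term]
    have := (summable_jacobiTheta₂_term_iff 0 (z / (2 * m))).mpr (thA_im_div hm hz)
    have h2 := this.norm
    simp_rw [norm_jacobiTheta₂_term] at h2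
    exact h2
  refine Summable.of_nonneg_of_le (fun _ => norm_nonneg _) (fun n => ?_) (h1.mul_left C)
  unfold thA_term
  rw [norm_mul]
  exact mul_le_mul_of_nonneg_right (hC n) (norm_nonneg _)

theorem thA_summable {m : ℕ} (hm : 0 < m) {f : ℤ → ℂ} (hf : ∀ n, f (n + 2 * m) = f n)
    {z : ℂ} (hz : 0 < z.im) : Summable (thA_term m f z) :=
  (thA_summable_norm hm hf hz).of_norm


/-! ### Decomposition into residue classes -/

theorem thA_class_term {m : ℕ} (hm : 0 < m) (z : ℂ) (r k : ℤ) :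
    cexp (2 * π * I * ((r + 2 * m * k : ℤ) : ℂ) ^ 2 * z / (4 * m)) =
      cexp (2 * π * I * (r : ℂ) ^ 2 * z / (4 * m)) *
        jacobiTheta₂_term k (r * z) (2 * m * z) := by
  unfold jacobiTheta₂_term
  rw [← Complex.exp_add]
  congr 1
  have : (m : ℂ) ≠ 0 := by exact_mod_cast hm.ne'
  push_cast
  field_simp
  ring

theorem thA_im_mul {m : ℕ} (hm : 0 < m) {z : ℂ} (hz : 0 < z.im) : 0 < (2 * m * z).im := by
  have h : (2 * (m : ℂ) * z) = ((2 * m : ℝ) : ℂ) * z := by push_cast; ring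
  rw [h, Complex.im_ofReal_mul]
  have : (0 : ℝ) < 2 * m := by positivity
  positivity

theorem thA_class_hasSum {m : ℕ} (hm : 0 < m) {z : ℂ} (hz : 0 < z.im) (r : ℤ) :
    HasSum (fun k : ℤ => cexp (2 * π * I * ((r + 2 * m * k : ℤ) : ℂ) ^ 2 * z / (4 * m)))
      (cexp (2 * π * I * (r : ℂ) ^ 2 * z / (4 * m)) * jacobiTheta₂ (r * z) (2 * m * z)) := by
  simp_rw [thA_class_term hm]
  exact (hasSum_jacobiTheta₂_term _ (thA_im_mul hm hz)).mul_left _

/-- Splitting a sum over `ℤ` into the residue classes modulo `2m`. -/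
theorem thA_tsum_classes {m : ℕ} (hm : 0 < m) {g : ℤ → ℂ} (hg : Summable g)
    {S : ℕ → ℂ} (hS : ∀ r : ℕ, r < 2 * m → HasSum (fun k : ℤ => g (r + 2 * m * k)) (S r)) :
    ∑' n : ℤ, g n = ∑ r ∈ Finset.range (2 * m), S r := by
  have : NeZero (2 * m) := ⟨by omega⟩
  let e : Fin (2 * m) × ℤ ≃ ℤ := (Equiv.prodComm _ _).trans (Int.divModEquiv (2 * m)).symm
  have he : ∀ p : Fin (2 * m) × ℤ, e p = (p.1 : ℕ) + 2 * m * p.2 := by
    intro p
    simp only [e, Equiv.trans_apply, Equiv.prodComm_apply, Prod.swap, Int.divModEquiv_symm_apply]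
    push_cast
    ring
  have hsum : Summable (g ∘ e) := (e.summable_iff).mpr hg
  have h1 : HasSum (g ∘ e) (∑' n : ℤ, g n) := by
    rw [← e.tsum_eq g]
    exact hsum.hasSum
  have h2 : ∀ r : Fin (2 * m), HasSum (fun k : ℤ => (g ∘ e) (r, k)) (S r) := by
    intro r
    have := hS r r.2
    simpa only [Function.comp_apply, he] using this
  have h3 := h1.prod_fiberwise h2
  have h4 : HasSum (fun r : Fin (2 * m) => S r) (∑ r : Fin (2 * m), S r) := hasSum_fintype _
  rw [h3.unique h4, Fin.sum_univ_eq_sum_range]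

theorem thA_theta_eq_sum {m : ℕ} (hm : 0 < m) {f : ℤ → ℂ} (hf : ∀ n, f (n + 2 * m) = f n)
    {z : ℂ} (hz : 0 < z.im) :
    thA_theta m f z = ∑ r ∈ Finset.range (2 * m),
      f r * (cexp (2 * π * I * (r : ℂ) ^ 2 * z / (4 * m)) *
        jacobiTheta₂ (r * z) (2 * m * z)) := by
  unfold thA_theta
  refine thA_tsum_classes hm (thA_summable hm hf hz) (fun r _ => ?_)
  have h := (thA_class_hasSum hm hz (r : ℤ)).mul_left (f r)
  simp only [Int.cast_natCast] at h
  have h2 : (fun k : ℤ => thA_term m f z (r + 2 * m * k)) =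
      fun k : ℤ => f r * cexp (2 * π * I * ((r + 2 * m * k : ℤ) : ℂ) ^ 2 * z / (4 * m)) := by
    funext k
    unfold thA_term
    rw [thA_periodic_mul hf]
  rw [h2]
  exact h


/-! ### The inversion formula -/

theorem thA_im_neg_inv {z : ℂ} (hz : 0 < z.im) : 0 < (-1 / z).im := by
  rw [neg_div, neg_im, one_div, inv_im, neg_div, neg_neg]
  have : 0 < normSq z := normSq_pos.mpr (by rintro rfl; simp at hz)
  positivity

/-- The functional equation for one residue class. -/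
theorem thA_class_inversion {m : ℕ} (hm : 0 < m) {z : ℂ} (hz : 0 < z.im) (r : ℤ) :
    cexp (2 * π * I * (r : ℂ) ^ 2 * (-1 / z) / (4 * m)) *
        jacobiTheta₂ (r * (-1 / z)) (2 * m * (-1 / z)) =
      (-I * z / (2 * m)) ^ (1 / 2 : ℂ) * jacobiTheta₂ (r / (2 * m)) (z / (2 * m)) := by
  have hz0 : z ≠ 0 := by rintro rfl; simp at hz
  have hm0 : (m : ℂ) ≠ 0 := by exact_mod_cast hm.ne'
  have hfe := jacobiTheta₂_functional_equation ((r : ℂ) / (2 * m)) (z / (2 * m))
  have hne : (-I * z / (2 * m)) ^ (1 / 2 : ℂ) ≠ 0 := by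
    rw [Ne, Complex.cpow_eq_zero_iff]
    rintro ⟨h, -⟩
    have : -I * z / (2 * m) ≠ 0 := by
      simp [hz0, hm0]
    exact this h
  have e1 : -I * (z / (2 * m)) = -I * z / (2 * m) := by ring
  have e2 : (r : ℂ) / (2 * m) / (z / (2 * m)) = r / z := by field_simp
  have e3 : -1 / (z / (2 * m)) = 2 * m * (-1 / z) := by field_simp
  have e4 : -π * I * ((r : ℂ) / (2 * m)) ^ 2 / (z / (2 * m)) =
      2 * π * I * (r : ℂ) ^ 2 * (-1 / z) / (4 * m) := by
    field_simp
    ring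
  rw [e1, e2, e3, e4] at hfe
  rw [hfe]
  have e5 : (r : ℂ) * (-1 / z) = -(r / z) := by ring
  rw [e5, jacobiTheta₂_neg_left]
  field_simp

theorem thA_jacobi_eq_tsum (m : ℕ) (z : ℂ) (r : ℤ) :
    jacobiTheta₂ (r / (2 * m)) (z / (2 * m)) =
      ∑' n : ℤ, cexp (2 * π * I * ((r : ℂ) * n) / (2 * m)) *
        cexp (2 * π * I * (n : ℂ) ^ 2 * z / (4 * m)) := by
  unfold jacobiTheta₂ jacobiTheta₂_term
  congr 1
  funext n
  rw [← Complex.exp_add]
  congr 1
  ring

theorem thA_hat_periodic {m : ℕ} (hm : 0 < m) (f : ℤ → ℂ) (n : ℤ) :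
    thA_hat m f (n + 2 * m) = thA_hat m f n := by
  unfold thA_hat
  refine Finset.sum_congr rfl fun r _ => ?_
  congr 1
  have hm0 : (m : ℂ) ≠ 0 := by exact_mod_cast hm.ne'
  have : 2 * π * I * ((r : ℂ) * ((n + 2 * m : ℤ) : ℂ)) / (2 * m) =
      2 * π * I * ((r : ℂ) * n) / (2 * m) + (r : ℤ) * (2 * π * I) := by
    push_cast
    field_simp
  rw [this, Complex.exp_add, Complex.exp_int_mul_two_pi_mul_I, mul_one]

/-- **Inversion formula** for the one-dimensional theta series with periodic weight. -/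
theorem thA_inversion {m : ℕ} (hm : 0 < m) {f : ℤ → ℂ} (hf : ∀ n, f (n + 2 * m) = f n)
    {z : ℂ} (hz : 0 < z.im) :
    thA_theta m f (-1 / z) =
      (-I * z / (2 * m)) ^ (1 / 2 : ℂ) * thA_theta m (thA_hat m f) z := by
  rw [thA_theta_eq_sum hm hf (thA_im_neg_inv hz)]
  have h1 : ∀ r : ℕ, cexp (2 * π * I * (r : ℂ) ^ 2 * (-1 / z) / (4 * m)) *
        jacobiTheta₂ (r * (-1 / z)) (2 * m * (-1 / z)) =
      (-I * z / (2 * m)) ^ (1 / 2 : ℂ) *
        ∑' n : ℤ, cexp (2 * π * I * ((r : ℂ) * n) / (2 * m)) *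
          cexp (2 * π * I * (n : ℂ) ^ 2 * z / (4 * m)) := by
    intro r
    have := thA_class_inversion hm hz (r : ℤ)
    rw [thA_jacobi_eq_tsum] at this
    simpa only [Int.cast_natCast] using this
  simp_rw [h1]
  have hs : ∀ r : ℕ, Summable (fun n : ℤ => f r * (cexp (2 * π * I * ((r : ℂ) * n) / (2 * m)) *
      cexp (2 * π * I * (n : ℂ) ^ 2 * z / (4 * m)))) := by
    intro r
    refine Summable.mul_left _ ?_
    refine Summable.of_norm ?_
    have := (thA_summable_exp hm hz).norm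
    refine this.congr fun n => ?_
    rw [norm_mul]
    have : ‖cexp (2 * π * I * ((r : ℂ) * n) / (2 * m))‖ = 1 := by
      have : 2 * π * I * ((r : ℂ) * n) / (2 * m) = ((2 * π * (r * n) / (2 * m) : ℝ) : ℂ) * I := by
        push_cast; ring
      rw [this, Complex.norm_exp_ofReal_mul_I]
    rw [this, one_mul]
  unfold thA_theta
  calc ∑ r ∈ Finset.range (2 * m), f r * ((-I * z / (2 * m)) ^ (1 / 2 : ℂ) *
        ∑' n : ℤ, cexp (2 * π * I * ((r : ℂ) * n) / (2 * m)) *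
          cexp (2 * π * I * (n : ℂ) ^ 2 * z / (4 * m)))
      = (-I * z / (2 * m)) ^ (1 / 2 : ℂ) * ∑ r ∈ Finset.range (2 * m),
        ∑' n : ℤ, f r * (cexp (2 * π * I * ((r : ℂ) * n) / (2 * m)) *
          cexp (2 * π * I * (n : ℂ) ^ 2 * z / (4 * m))) := by
        rw [Finset.mul_sum]
        refine Finset.sum_congr rfl fun r _ => ?_
        rw [tsum_mul_left]
        ring
    _ = (-I * z / (2 * m)) ^ (1 / 2 : ℂ) * ∑' n : ℤ, ∑ r ∈ Finset.range (2 * m),
        f r * (cexp (2 * π * I * ((r : ℂ) * n) / (2 * m)) *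
          cexp (2 * π * I * (n : ℂ) ^ 2 * z / (4 * m))) := by
        rw [Summable.tsum_finsetSum (fun r _ => hs r)]
    _ = _ := by
        congr 1
        refine tsum_congr fun n => ?_
        unfold thA_term thA_hat
        rw [Finset.sum_mul]
        refine Finset.sum_congr rfl fun r _ => ?_
        ring


/-- The inversion formula for a single residue class, as an identity of sums. -/
theorem thA_class_inversion_tsum {m : ℕ} (hm : 0 < m) {z : ℂ} (hz : 0 < z.im) (r : ℤ) :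
    ∑' k : ℤ, cexp (2 * π * I * ((r + 2 * m * k : ℤ) : ℂ) ^ 2 * (-1 / z) / (4 * m)) =
      (-I * z / (2 * m)) ^ (1 / 2 : ℂ) *
        ∑' n : ℤ, cexp (2 * π * I * ((r : ℂ) * n) / (2 * m)) *
          cexp (2 * π * I * (n : ℂ) ^ 2 * z / (4 * m)) := by
  rw [(thA_class_hasSum hm (thA_im_neg_inv hz) r).tsum_eq, thA_class_inversion hm hz,
    thA_jacobi_eq_tsum]

/-! ### Translation -/

theorem thA_twist_periodic {m : ℕ} (hm : 0 < m) {f : ℤ → ℂ} (hf : ∀ n, f (n + 2 * m) = f n)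
    (n : ℤ) :
    cexp (2 * π * I * ((n + 2 * m : ℤ) : ℂ) ^ 2 / (4 * m)) * f (n + 2 * m) =
      cexp (2 * π * I * (n : ℂ) ^ 2 / (4 * m)) * f n := by
  rw [hf]
  congr 1
  have hm0 : (m : ℂ) ≠ 0 := by exact_mod_cast hm.ne'
  have : 2 * π * I * ((n + 2 * m : ℤ) : ℂ) ^ 2 / (4 * m) =
      2 * π * I * (n : ℂ) ^ 2 / (4 * m) + ((n + m : ℤ) : ℂ) * (2 * π * I) := by
    push_cast
    field_simp
    ring
  rw [this, Complex.exp_add, Complex.exp_int_mul_two_pi_mul_I, mul_one]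

theorem thA_translate (m : ℕ) (f : ℤ → ℂ) (z : ℂ) :
    thA_theta m f (z + 1) =
      thA_theta m (fun n => cexp (2 * π * I * (n : ℂ) ^ 2 / (4 * m)) * f n) z := by
  unfold thA_theta
  refine tsum_congr fun n => ?_
  unfold thA_term
  have : 2 * π * I * (n : ℂ) ^ 2 * (z + 1) / (4 * m) =
      2 * π * I * (n : ℂ) ^ 2 / (4 * m) + 2 * π * I * (n : ℂ) ^ 2 * z / (4 * m) := by ring
  rw [this, Complex.exp_add]
  ring

/-! ### Holomorphy -/

theorem thA_differentiableAt {m : ℕ} (hm : 0 < m) {f : ℤ → ℂ} (hf : ∀ n, f (n + 2 * m) = f n)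
    {z : ℂ} (hz : 0 < z.im) : DifferentiableAt ℂ (thA_theta m f) z := by
  have hopen : IsOpen {w : ℂ | 0 < w.im} := isOpen_lt continuous_const Complex.continuous_im
  have heq : (thA_theta m f) =ᶠ[nhds z] fun w => ∑ r ∈ Finset.range (2 * m),
      f r * (cexp (2 * π * I * (r : ℂ) ^ 2 * w / (4 * m)) *
        jacobiTheta₂ (r * w) (2 * m * w)) := by
    filter_upwards [hopen.mem_nhds hz] with w hw
    exact thA_theta_eq_sum hm hf hw
  refine DifferentiableAt.congr_of_eventuallyEq ?_ heq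
  refine DifferentiableAt.fun_sum fun r _ => ?_
  refine DifferentiableAt.const_mul ?_ _
  refine DifferentiableAt.mul ?_ ?_
  · fun_prop
  · have h1 : DifferentiableAt ℂ (fun p : ℂ × ℂ => jacobiTheta₂ p.1 p.2)
        ((r : ℂ) * z, 2 * m * z) :=
      (hasFDerivAt_jacobiTheta₂ ((r : ℂ) * z) (thA_im_mul hm hz)).differentiableAt
    have h2 : DifferentiableAt ℂ (fun w : ℂ => ((r : ℂ) * w, 2 * (m : ℂ) * w)) z := by
      fun_prop
    exact h1.comp z h2

theorem thA_differentiableOn {m : ℕ} (hm : 0 < m) {f : ℤ → ℂ}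
    (hf : ∀ n, f (n + 2 * m) = f n) :
    DifferentiableOn ℂ (thA_theta m f) {z : ℂ | 0 < z.im} :=
  fun _ hz => (thA_differentiableAt hm hf hz).differentiableWithinAt

/-! ### Behaviour at `i∞` -/

theorem thA_norm_exp (m : ℕ) (z : ℂ) (n : ℤ) :
    ‖cexp (2 * π * I * (n : ℂ) ^ 2 * z / (4 * m))‖ = rexp (-π * n ^ 2 * (z.im / (2 * m))) := by
  rw [thA_exp_eq, norm_jacobiTheta₂_term]
  have h : (z / (2 * m)) = z / ((2 * m : ℝ) : ℂ) := by push_cast; ring
  rw [h, Complex.div_ofReal_im]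
  simp

/-- `θ_f(z) - f(0)` decays exponentially as `Im z → ∞`. -/
theorem thA_sub_le {m : ℕ} (hm : 0 < m) {f : ℤ → ℂ} (hf : ∀ n, f (n + 2 * m) = f n) :
    ∃ C : ℝ, 0 ≤ C ∧ ∀ z : ℂ, 1 ≤ z.im →
      ‖thA_theta m f z - f 0‖ ≤ C * rexp (-π * z.im / (2 * m)) := by
  obtain ⟨C, hC0, hC⟩ := thA_bounded_weight hm hf
  have hm0 : (0 : ℝ) < 2 * m := by positivity
  have hK : Summable (fun n : ℤ => rexp (-π * n ^ 2 * ((1 : ℝ) / (2 * m)))) := by
    have := (thA_summable_exp hm (z := I) (by simp)).norm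
    refine this.congr fun n => ?_
    rw [thA_norm_exp]
    simp
  refine ⟨C * (rexp (π / (2 * m)) * ∑' n : ℤ, rexp (-π * n ^ 2 * ((1 : ℝ) / (2 * m)))),
    by positivity, fun z hz => ?_⟩
  have hz0 : 0 < z.im := lt_of_lt_of_le one_pos hz
  have hsum := (thA_summable hm hf hz0).hasSum
  have h1 := hasSum_ite_sub_hasSum hsum 0
  have hterm0 : thA_term m f z 0 = f 0 := by simp [thA_term]
  rw [hterm0] at h1
  have hbound : ∀ n : ℤ, ‖(if n = 0 then (0 : ℂ) else thA_term m f z n)‖ ≤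
      C * (rexp (π / (2 * m)) * rexp (-π * z.im / (2 * m))) *
        rexp (-π * n ^ 2 * ((1 : ℝ) / (2 * m))) := by
    intro n
    split_ifs with hn
    · rw [norm_zero]; positivity
    · unfold thA_term
      rw [norm_mul, thA_norm_exp]
      have hn1 : (1 : ℝ) ≤ (n : ℝ) ^ 2 := by
        have : (1 : ℤ) ≤ n ^ 2 := by
          have := Int.one_le_abs hn
          nlinarith [sq_abs n, abs_nonneg n]
        exact_mod_cast this
      have e : -π * (n : ℝ) ^ 2 * (z.im / (2 * m)) - (π / (2 * m) + -π * z.im / (2 * m) +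
          -π * (n : ℝ) ^ 2 * ((1 : ℝ) / (2 * m))) =
          -(π / (2 * m)) * (((n : ℝ) ^ 2 - 1) * (z.im - 1)) := by
        field_simp
        ring
      have h3 : 0 ≤ π / (2 * m) * (((n : ℝ) ^ 2 - 1) * (z.im - 1)) := by
        have : 0 ≤ ((n : ℝ) ^ 2 - 1) * (z.im - 1) :=
          mul_nonneg (by linarith) (by linarith)
        positivity
      have h4 : rexp (-π * (n : ℝ) ^ 2 * (z.im / (2 * m))) ≤
          rexp (π / (2 * m)) * rexp (-π * z.im / (2 * m)) *
            rexp (-π * n ^ 2 * ((1 : ℝ) / (2 * m))) := by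
        rw [← Real.exp_add, ← Real.exp_add, Real.exp_le_exp]
        linarith
      calc ‖f n‖ * rexp (-π * (n : ℝ) ^ 2 * (z.im / (2 * m)))
          ≤ C * (rexp (π / (2 * m)) * rexp (-π * z.im / (2 * m)) *
            rexp (-π * n ^ 2 * ((1 : ℝ) / (2 * m)))) :=
            mul_le_mul (hC n) h4 (by positivity) hC0
        _ = _ := by ring
  have hsm : Summable (fun n : ℤ => C * (rexp (π / (2 * m)) * rexp (-π * z.im / (2 * m))) *
      rexp (-π * n ^ 2 * ((1 : ℝ) / (2 * m)))) := hK.mul_left _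
  have := tsum_of_norm_bounded hsm.hasSum hbound
  rw [h1.tsum_eq] at this
  refine this.trans (le_of_eq ?_)
  rw [tsum_mul_left]
  ring

/-- `θ_f` is bounded on `Im z ≥ 1`. -/
theorem thA_bounded {m : ℕ} (hm : 0 < m) {f : ℤ → ℂ} (hf : ∀ n, f (n + 2 * m) = f n) :
    ∃ C : ℝ, 0 ≤ C ∧ ∀ z : ℂ, 1 ≤ z.im → ‖thA_theta m f z‖ ≤ C := by
  obtain ⟨C, hC0, hC⟩ := thA_sub_le hm hf
  refine ⟨C + ‖f 0‖, by positivity, fun z hz => ?_⟩
  have h1 := hC z hz
  have h2 : rexp (-π * z.im / (2 * m)) ≤ 1 := by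
    rw [Real.exp_le_one_iff]
    have : 0 ≤ π * z.im / (2 * m) := by
      have : 0 ≤ z.im := by linarith
      positivity
    have e : -π * z.im / (2 * m) = -(π * z.im / (2 * m)) := by ring
    rw [e]
    linarith
  have h3 : ‖thA_theta m f z‖ ≤ ‖thA_theta m f z - f 0‖ + ‖f 0‖ := by
    have := norm_add_le (thA_theta m f z - f 0) (f 0)
    simpa using this
  have h4 : C * rexp (-π * z.im / (2 * m)) ≤ C := by
    calc C * rexp (-π * z.im / (2 * m)) ≤ C * 1 := mul_le_mul_of_nonneg_left h2 hC0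
      _ = C := mul_one C
  linarith


/-- `θ_f(z) → f(0)` as `Im z → ∞`. -/
theorem thA_tendsto {m : ℕ} (hm : 0 < m) {f : ℤ → ℂ} (hf : ∀ n, f (n + 2 * m) = f n) :
    Filter.Tendsto (thA_theta m f) (Filter.comap Complex.im Filter.atTop) (nhds (f 0)) := by
  obtain ⟨C, hC0, hC⟩ := thA_sub_le hm hf
  rw [tendsto_iff_norm_sub_tendsto_zero]
  have hm0 : (0 : ℝ) < π / (2 * m) := by positivity
  have h0 : Filter.Tendsto (fun y : ℝ => C * rexp (-π * y / (2 * m))) Filter.atTop (nhds 0) := by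
    have h1 : Filter.Tendsto (fun y : ℝ => (π / (2 * m)) * y) Filter.atTop Filter.atTop :=
      Filter.tendsto_id.const_mul_atTop hm0
    have h2 := Real.tendsto_exp_neg_atTop_nhds_zero.comp h1
    have h3 := h2.const_mul C
    rw [mul_zero] at h3
    refine h3.congr fun y => ?_
    simp only [Function.comp_apply]
    congr 2
    ring
  have h1 : Filter.Tendsto (fun z : ℂ => C * rexp (-π * z.im / (2 * m)))
      (Filter.comap Complex.im Filter.atTop) (nhds 0) :=
    h0.comp Filter.tendsto_comap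
  refine squeeze_zero' (Filter.Eventually.of_forall fun _ => norm_nonneg _) ?_ h1
  filter_upwards [Filter.preimage_mem_comap (Filter.Ici_mem_atTop (1 : ℝ))] with z hz
  exact hC z hz

end Fermat.Agent.S16
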