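import Mathlib

/-!
# S16 (C1), package [TB], part 1: products of absolutely convergent series over `Fin k → α`

`∑' n : Fin k → α, ∏ i, a i (n i) = ∏ i, ∑' x, a i x` for absolutely summable `a i : α → ℂ`.
Mathlib only.
-/

namespace Fermat.Agent.S16

open Finset

/-- Auxiliary statement for the induction: absolute summability and the value of the sum. -/
theorem thB_prod_aux {α : Type*} (k : ℕ) (a : Fin k → α → ℂ)
    (ha : ∀ i, Summable (fun x => ‖a i x‖)) :
    Summable (fun n : Fin k → α => ‖∏ i, a i (n i)‖) ∧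
      ∑' n : Fin k → α, ∏ i, a i (n i) = ∏ i, ∑' x, a i x := by
  induction k with
  | zero =>
    refine ⟨(hasSum_fintype _).summable, ?_⟩
    rw [tsum_fintype]
    simp
  | succ k ih =>
    have ih' := ih (fun i => a (Fin.succ i)) (fun i => ha (Fin.succ i))
    have h0 := ha 0
    -- transport along `Fin.consEquiv`
    have hprod : ∀ n : Fin (k + 1) → α,
        (∏ i, a i (n i)) = a 0 (n 0) * ∏ i : Fin k, a (Fin.succ i) (n (Fin.succ i)) := by
      intro n
      rw [Fin.prod_univ_succ]
    have hsum : Summable (fun x : α × (Fin k → α) =>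
        ‖a 0 x.1 * ∏ i : Fin k, a (Fin.succ i) (x.2 i)‖) :=
      Summable.mul_norm (f := a 0) (g := fun n : Fin k → α => ∏ i : Fin k, a (Fin.succ i) (n i))
        h0 ih'.1
    have hcomp : (fun n : Fin (k + 1) → α => ‖∏ i, a i (n i)‖) ∘
        (Fin.consEquiv (fun _ : Fin (k + 1) => α)) =
        fun x : α × (Fin k → α) => ‖a 0 x.1 * ∏ i : Fin k, a (Fin.succ i) (x.2 i)‖ := by
      funext x
      simp [hprod]
    have hcomp' : (fun n : Fin (k + 1) → α => ∏ i, a i (n i)) ∘
        (Fin.consEquiv (fun _ : Fin (k + 1) => α)) =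
        fun x : α × (Fin k → α) => a 0 x.1 * ∏ i : Fin k, a (Fin.succ i) (x.2 i) := by
      funext x
      simp [hprod]
    refine ⟨?_, ?_⟩
    · rw [← (Fin.consEquiv (fun _ : Fin (k + 1) => α)).summable_iff, hcomp]
      exact hsum
    · rw [← (Fin.consEquiv (fun _ : Fin (k + 1) => α)).tsum_eq, Fin.prod_univ_succ]
      have := tsum_mul_tsum_of_summable_norm (f := a 0)
        (g := fun n : Fin k → α => ∏ i : Fin k, a (Fin.succ i) (n i)) h0 ih'.1
      rw [ih'.2] at this
      rw [this]
      exact tsum_congr (fun x => congrFun hcomp' x)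

theorem thB_summable_norm_prod {α : Type*} {k : ℕ} (a : Fin k → α → ℂ)
    (ha : ∀ i, Summable (fun x => ‖a i x‖)) :
    Summable (fun n : Fin k → α => ‖∏ i, a i (n i)‖) :=
  (thB_prod_aux k a ha).1

theorem thB_summable_prod {α : Type*} {k : ℕ} (a : Fin k → α → ℂ)
    (ha : ∀ i, Summable (fun x => ‖a i x‖)) :
    Summable (fun n : Fin k → α => ∏ i, a i (n i)) :=
  (thB_summable_norm_prod a ha).of_norm

theorem thB_tsum_prod {α : Type*} {k : ℕ} (a : Fin k → α → ℂ)
    (ha : ∀ i, Summable (fun x => ‖a i x‖)) :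
    ∑' n : Fin k → α, ∏ i, a i (n i) = ∏ i, ∑' x, a i x :=
  (thB_prod_aux k a ha).2

end Fermat.Agent.S16
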