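import Mathlib
import Fermat.Agent.S16.ThA
import Fermat.Agent.S16.ThBProd

/-!
# S16 (C1), package [TB]: product theta series in `k` variables

For `m : Fin k → ℕ` (all positive) and `f : (Fin k → ℤ) → ℂ` periodic modulo `2 m i` in the
`i`-th variable, `thB_theta m f z = ∑_n f n · e(z · ∑_i n_i² / (4 m_i))`.
Everything is reduced to the one-variable package [TA] (`thA_*`).
-/

namespace Fermat.Agent.S16

open Complex Real Finset

variable {k : ℕ}

/-- The diagonal quadratic form `∑ n_i² / (4 m_i)`. -/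
noncomputable def thB_Q (m : Fin k → ℕ) (n : Fin k → ℤ) : ℂ :=
  ∑ i, ((n i : ℂ)) ^ 2 / (4 * (m i : ℂ))

noncomputable def thB_term (m : Fin k → ℕ) (f : (Fin k → ℤ) → ℂ) (z : ℂ) (n : Fin k → ℤ) : ℂ :=
  f n * cexp (2 * π * I * thB_Q m n * z)

noncomputable def thB_theta (m : Fin k → ℕ) (f : (Fin k → ℤ) → ℂ) (z : ℂ) : ℂ :=
  ∑' n : Fin k → ℤ, thB_term m f z n

/-- `f` only depends on the classes of the `n i` modulo `2 m i`. -/
def thB_Periodic (m : Fin k → ℕ) (f : (Fin k → ℤ) → ℂ) : Prop :=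
  ∀ n n' : Fin k → ℤ, (∀ i, (2 * (m i : ℤ)) ∣ n i - n' i) → f n = f n'

/-- The box of representatives. -/
def thB_box (m : Fin k → ℕ) : Finset (Fin k → ℕ) :=
  Fintype.piFinset (fun i => Finset.range (2 * m i))

/-- The finite Fourier transform over the box. -/
noncomputable def thB_hat (m : Fin k → ℕ) (f : (Fin k → ℤ) → ℂ) (n' : Fin k → ℤ) : ℂ :=
  ∑ r ∈ thB_box m, f (fun i => (r i : ℤ)) *
    cexp (2 * π * I * ∑ i, ((r i : ℂ) * (n' i : ℂ)) / (2 * (m i : ℂ)))

/-- indicator of the class of `r` modulo `2 m` -/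
noncomputable def thB_ind (m r : ℕ) : ℤ → ℂ := fun n =>
  if (2 * (m : ℤ)) ∣ n - r then 1 else 0

/-- the additive character `n ↦ e(r n / (2 m))` -/
noncomputable def thB_chr (m r : ℕ) : ℤ → ℂ := fun n =>
  cexp (2 * π * I * ((r : ℂ) * (n : ℂ)) / (2 * (m : ℂ)))

theorem thB_mem_box {m : Fin k → ℕ} {r : Fin k → ℕ} :
    r ∈ thB_box m ↔ ∀ i, r i < 2 * m i := by
  simp [thB_box, Fintype.mem_piFinset]

/-! ### one-variable periodicity of the auxiliary functions -/

theorem thB_ind_periodic (m r : ℕ) (n : ℤ) : thB_ind m r (n + 2 * m) = thB_ind m r n := by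
  unfold thB_ind
  have : (2 * (m : ℤ)) ∣ n + 2 * m - r ↔ (2 * (m : ℤ)) ∣ n - r := by
    have h : n + 2 * (m : ℤ) - r = (n - r) + 2 * m := by ring
    rw [h]
    exact (Int.dvd_add_left (dvd_refl _)).symm.symm
  simp only [this]

theorem thB_chr_periodic {m : ℕ} (hm : 0 < m) (r : ℕ) (n : ℤ) :
    thB_chr m r (n + 2 * m) = thB_chr m r n := by
  unfold thB_chr
  have hm' : (m : ℂ) ≠ 0 := by exact_mod_cast hm.ne'
  have : 2 * π * I * ((r : ℂ) * ((n + 2 * (m : ℤ) : ℤ) : ℂ)) / (2 * (m : ℂ)) =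
      2 * π * I * ((r : ℂ) * (n : ℂ)) / (2 * (m : ℂ)) + (r : ℤ) * (2 * π * I) := by
    push_cast
    field_simp
  rw [this, Complex.exp_add, Complex.exp_int_mul_two_pi_mul_I, mul_one]

theorem thB_one_periodic (m : ℕ) (n : ℤ) :
    (fun _ : ℤ => (1 : ℂ)) (n + 2 * m) = (fun _ : ℤ => (1 : ℂ)) n := rfl

/-! ### the terms of a product function -/

theorem thB_exp_eq (m : Fin k → ℕ) (n : Fin k → ℤ) (z : ℂ) :
    cexp (2 * π * I * thB_Q m n * z) =
      ∏ i, cexp (2 * π * I * (n i : ℂ) ^ 2 * z / (4 * (m i : ℂ))) := by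
  rw [← Complex.exp_sum]
  congr 1
  unfold thB_Q
  rw [Finset.mul_sum, Finset.sum_mul]
  refine Finset.sum_congr rfl (fun i _ => ?_)
  ring

theorem thB_term_prod (m : Fin k → ℕ) (g : Fin k → ℤ → ℂ) (z : ℂ) (n : Fin k → ℤ) :
    thB_term m (fun n => ∏ i, g i (n i)) z n = ∏ i, thA_term (m i) (g i) z (n i) := by
  unfold thB_term thA_term
  rw [thB_exp_eq, ← Finset.prod_mul_distrib]

theorem thB_one_summable_norm {m : ℕ} (hm : 0 < m) {g : ℤ → ℂ}
    (hg : ∀ n, g (n + 2 * m) = g n) {z : ℂ} (hz : 0 < z.im) :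
    Summable (fun n => ‖thA_term m g z n‖) :=
  (thA_summable hm hg hz).norm

theorem thB_summable_norm_of_prod {m : Fin k → ℕ} (hm : ∀ i, 0 < m i) (g : Fin k → ℤ → ℂ)
    (hg : ∀ i n, g i (n + 2 * m i) = g i n) {z : ℂ} (hz : 0 < z.im) :
    Summable (fun n => ‖thB_term m (fun n => ∏ i, g i (n i)) z n‖) := by
  simp_rw [thB_term_prod]
  exact thB_summable_norm_prod (fun i => thA_term (m i) (g i) z)
    (fun i => thB_one_summable_norm (hm i) (hg i) hz)

theorem thB_theta_prod {m : Fin k → ℕ} (hm : ∀ i, 0 < m i) (g : Fin k → ℤ → ℂ)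
    (hg : ∀ i n, g i (n + 2 * m i) = g i n) {z : ℂ} (hz : 0 < z.im) :
    thB_theta m (fun n => ∏ i, g i (n i)) z = ∏ i, thA_theta (m i) (g i) z := by
  unfold thB_theta thA_theta
  simp_rw [thB_term_prod]
  exact thB_tsum_prod (fun i => thA_term (m i) (g i) z)
    (fun i => thB_one_summable_norm (hm i) (hg i) hz)

/-! ### decomposition of a periodic function into indicator functions of classes -/

/-- the representative of `n` in the box -/
noncomputable def thB_rep (m : Fin k → ℕ) (n : Fin k → ℤ) : Fin k → ℕ :=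
  fun i => (n i % (2 * (m i : ℤ))).toNat

theorem thB_rep_cast {m : Fin k → ℕ} (hm : ∀ i, 0 < m i) (n : Fin k → ℤ) (i : Fin k) :
    ((thB_rep m n i : ℕ) : ℤ) = n i % (2 * (m i : ℤ)) := by
  unfold thB_rep
  have h : (0 : ℤ) < 2 * (m i : ℤ) := by have := hm i; positivity
  exact Int.toNat_of_nonneg (Int.emod_nonneg _ h.ne')

theorem thB_rep_mem {m : Fin k → ℕ} (hm : ∀ i, 0 < m i) (n : Fin k → ℤ) :
    thB_rep m n ∈ thB_box m := by
  rw [thB_mem_box]
  intro i
  have h : (0 : ℤ) < 2 * (m i : ℤ) := by have := hm i; positivity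
  have h1 := Int.emod_lt_of_pos (n i) h
  have h2 := thB_rep_cast hm n i
  have : ((thB_rep m n i : ℕ) : ℤ) < ((2 * m i : ℕ) : ℤ) := by
    rw [h2]; push_cast; exact h1
  exact_mod_cast this

theorem thB_rep_dvd {m : Fin k → ℕ} (hm : ∀ i, 0 < m i) (n : Fin k → ℤ) (i : Fin k) :
    (2 * (m i : ℤ)) ∣ n i - (thB_rep m n i : ℕ) := by
  rw [thB_rep_cast hm]
  exact Int.dvd_self_sub_emod

theorem thB_eq_of_dvd {m a b : ℕ} (ha : a < 2 * m) (hb : b < 2 * m)
    (h : (2 * (m : ℤ)) ∣ (a : ℤ) - b) : a = b := by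
  have h1 : ((2 * m : ℕ) : ℤ) ∣ (a : ℤ) - b := by push_cast; exact h
  have h2 := (Int.emod_emod_of_dvd (a : ℤ) (dvd_refl ((2 * m : ℕ) : ℤ)))
  have h3 : (a : ℤ) % ((2 * m : ℕ) : ℤ) = (b : ℤ) % ((2 * m : ℕ) : ℤ) :=
    Int.emod_eq_emod_iff_emod_sub_eq_zero.mpr (Int.emod_eq_zero_of_dvd h1)
  have h4 : (a : ℤ) % ((2 * m : ℕ) : ℤ) = a := Int.emod_eq_of_lt (by positivity) (by exact_mod_cast ha)
  have h5 : (b : ℤ) % ((2 * m : ℕ) : ℤ) = b := Int.emod_eq_of_lt (by positivity) (by exact_mod_cast hb)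
  rw [h4, h5] at h3
  exact_mod_cast h3

theorem thB_prod_ind {m : Fin k → ℕ} (hm : ∀ i, 0 < m i) (n : Fin k → ℤ)
    {r : Fin k → ℕ} (hr : r ∈ thB_box m) :
    ∏ i, thB_ind (m i) (r i) (n i) = if r = thB_rep m n then 1 else 0 := by
  rw [thB_mem_box] at hr
  split_ifs with h
  · subst h
    refine Finset.prod_eq_one (fun i _ => ?_)
    unfold thB_ind
    rw [if_pos (thB_rep_dvd hm n i)]
  · obtain ⟨i, hi⟩ := Function.ne_iff.mp h
    refine Finset.prod_eq_zero (Finset.mem_univ i) ?_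
    unfold thB_ind
    rw [if_neg]
    intro hdvd
    apply hi
    have hmem := thB_rep_mem hm n
    rw [thB_mem_box] at hmem
    refine thB_eq_of_dvd (hr i) (hmem i) ?_
    have := dvd_sub (thB_rep_dvd hm n i) hdvd
    have e : n i - ((thB_rep m n i : ℕ) : ℤ) - (n i - (r i : ℤ)) =
        (r i : ℤ) - (thB_rep m n i : ℕ) := by ring
    rwa [e] at this

theorem thB_f_decomp {m : Fin k → ℕ} (hm : ∀ i, 0 < m i) {f : (Fin k → ℤ) → ℂ}
    (hf : thB_Periodic m f) (n : Fin k → ℤ) :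
    f n = ∑ r ∈ thB_box m, f (fun i => (r i : ℤ)) * ∏ i, thB_ind (m i) (r i) (n i) := by
  rw [Finset.sum_eq_single_of_mem (thB_rep m n) (thB_rep_mem hm n)]
  · rw [thB_prod_ind hm n (thB_rep_mem hm n), if_pos rfl, mul_one]
    exact hf _ _ (fun i => thB_rep_dvd hm n i)
  · intro r hr hne
    rw [thB_prod_ind hm n hr, if_neg hne, mul_zero]

/-! ### decomposition of the theta series -/

theorem thB_term_decomp {m : Fin k → ℕ} (hm : ∀ i, 0 < m i) {f : (Fin k → ℤ) → ℂ}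
    (hf : thB_Periodic m f) (z : ℂ) (n : Fin k → ℤ) :
    thB_term m f z n = ∑ r ∈ thB_box m, f (fun i => (r i : ℤ)) *
      thB_term m (fun n => ∏ i, thB_ind (m i) (r i) (n i)) z n := by
  unfold thB_term
  conv_lhs => rw [thB_f_decomp hm hf n]
  rw [Finset.sum_mul]
  refine Finset.sum_congr rfl (fun r _ => ?_)
  ring

theorem thB_summable_norm {m : Fin k → ℕ} (hm : ∀ i, 0 < m i) {f : (Fin k → ℤ) → ℂ}
    (hf : thB_Periodic m f) {z : ℂ} (hz : 0 < z.im) :
    Summable (fun n => ‖thB_term m f z n‖) := by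
  have h : ∀ r ∈ thB_box m, Summable (fun n => ‖f (fun i => (r i : ℤ)) *
      thB_term m (fun n => ∏ i, thB_ind (m i) (r i) (n i)) z n‖) := by
    intro r _
    simp_rw [norm_mul]
    exact (thB_summable_norm_of_prod hm (fun i => thB_ind (m i) (r i))
      (fun i n => thB_ind_periodic (m i) (r i) n) hz).mul_left _
  refine Summable.of_nonneg_of_le (fun _ => norm_nonneg _) (fun n => ?_) (summable_sum h)
  rw [thB_term_decomp hm hf]
  exact norm_sum_le _ _

theorem thB_summable {m : Fin k → ℕ} (hm : ∀ i, 0 < m i) {f : (Fin k → ℤ) → ℂ}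
    (hf : thB_Periodic m f) {z : ℂ} (hz : 0 < z.im) :
    Summable (thB_term m f z) :=
  (thB_summable_norm hm hf hz).of_norm

theorem thB_decomp {m : Fin k → ℕ} (hm : ∀ i, 0 < m i) {f : (Fin k → ℤ) → ℂ}
    (hf : thB_Periodic m f) {z : ℂ} (hz : 0 < z.im) :
    thB_theta m f z = ∑ r ∈ thB_box m, f (fun i => (r i : ℤ)) *
      ∏ i, thA_theta (m i) (thB_ind (m i) (r i)) z := by
  unfold thB_theta
  rw [tsum_congr (thB_term_decomp hm hf z)]
  rw [Summable.tsum_finsetSum]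
  · refine Finset.sum_congr rfl (fun r _ => ?_)
    rw [tsum_mul_left]
    congr 1
    exact thB_theta_prod hm (fun i => thB_ind (m i) (r i))
      (fun i n => thB_ind_periodic (m i) (r i) n) hz
  · intro r _
    exact ((thB_summable_norm_of_prod hm (fun i => thB_ind (m i) (r i))
      (fun i n => thB_ind_periodic (m i) (r i) n) hz).of_norm).mul_left _

/-! ### holomorphy and boundedness -/

theorem thB_differentiableOn {m : Fin k → ℕ} (hm : ∀ i, 0 < m i) {f : (Fin k → ℤ) → ℂ}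
    (hf : thB_Periodic m f) :
    DifferentiableOn ℂ (thB_theta m f) {z | 0 < z.im} := by
  have h : DifferentiableOn ℂ (fun z => ∑ r ∈ thB_box m, f (fun i => (r i : ℤ)) *
      ∏ i, thA_theta (m i) (thB_ind (m i) (r i)) z) {z | 0 < z.im} := by
    refine DifferentiableOn.fun_sum (fun r _ => ?_)
    refine DifferentiableOn.const_mul ?_ _
    exact DifferentiableOn.fun_finsetProd (𝕜 := ℂ) (u := Finset.univ)
      (f := fun i z => thA_theta (m i) (thB_ind (m i) (r i)) z)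
      (fun i _ => thA_differentiableOn (hm i) (fun n => thB_ind_periodic (m i) (r i) n))
  refine h.congr (fun z hz => ?_)
  exact thB_decomp hm hf hz

theorem thB_bounded {m : Fin k → ℕ} (hm : ∀ i, 0 < m i) {f : (Fin k → ℤ) → ℂ}
    (hf : thB_Periodic m f) :
    ∃ C, ∀ z : ℂ, 1 ≤ z.im → ‖thB_theta m f z‖ ≤ C := by
  choose C hC using fun (r : Fin k → ℕ) (i : Fin k) =>
    thA_bounded (hm i) (fun n => thB_ind_periodic (m i) (r i) n)
  refine ⟨∑ r ∈ thB_box m, ‖f (fun i => (r i : ℤ))‖ * ∏ i, C r i, fun z hz => ?_⟩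
  rw [thB_decomp hm hf (lt_of_lt_of_le one_pos hz)]
  refine (norm_sum_le _ _).trans (Finset.sum_le_sum (fun r _ => ?_))
  rw [norm_mul, norm_prod]
  refine mul_le_mul_of_nonneg_left ?_ (norm_nonneg _)
  exact Finset.prod_le_prod (fun i _ => norm_nonneg _) (fun i _ => (hC r i).2 z hz)

/-! ### translation -/

theorem thB_translate (m : Fin k → ℕ) (f : (Fin k → ℤ) → ℂ) (z : ℂ) :
    thB_theta m f (z + 1) = thB_theta m (fun n => cexp (2 * π * I * thB_Q m n) * f n) z := by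
  unfold thB_theta
  refine tsum_congr (fun n => ?_)
  unfold thB_term
  rw [mul_add, Complex.exp_add, mul_one]
  ring

/-- `Q(n) - Q(n')` is an integer if `n ≡ n'` modulo `2 m`. -/
theorem thB_Q_sub {m : Fin k → ℕ} (hm : ∀ i, 0 < m i) (n n' : Fin k → ℤ)
    (h : ∀ i, (2 * (m i : ℤ)) ∣ n i - n' i) :
    ∃ c : ℤ, thB_Q m n = thB_Q m n' + c := by
  choose c hc using h
  refine ⟨∑ i, c i * (n' i + m i * c i), ?_⟩
  unfold thB_Q
  push_cast
  rw [← Finset.sum_add_distrib]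
  refine Finset.sum_congr rfl (fun i _ => ?_)
  have hm' : (m i : ℂ) ≠ 0 := by exact_mod_cast (hm i).ne'
  have e : (n i : ℂ) = n' i + 2 * m i * c i := by
    have := hc i
    have h2 : n i = n' i + 2 * (m i : ℤ) * c i := by linarith
    rw [h2]; push_cast; ring
  rw [e]
  field_simp
  ring

theorem thB_expQ_periodic {m : Fin k → ℕ} (hm : ∀ i, 0 < m i) {f : (Fin k → ℤ) → ℂ}
    (hf : thB_Periodic m f) :
    thB_Periodic m (fun n => cexp (2 * π * I * thB_Q m n) * f n) := by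
  intro n n' h
  obtain ⟨c, hc⟩ := thB_Q_sub hm n n' h
  have : cexp (2 * π * I * thB_Q m n) = cexp (2 * π * I * thB_Q m n') := by
    rw [hc, mul_add, Complex.exp_add]
    have : (2 * π * I * (c : ℂ)) = c * (2 * π * I) := by ring
    rw [this, Complex.exp_int_mul_two_pi_mul_I, mul_one]
  simp only [this, hf n n' h]

/-! ### the finite Fourier transform -/

theorem thB_hat_eq (m : Fin k → ℕ) (f : (Fin k → ℤ) → ℂ) (n' : Fin k → ℤ) :
    thB_hat m f n' = ∑ r ∈ thB_box m, f (fun i => (r i : ℤ)) *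
      ∏ i, thB_chr (m i) (r i) (n' i) := by
  unfold thB_hat thB_chr
  refine Finset.sum_congr rfl (fun r _ => ?_)
  congr 1
  rw [← Complex.exp_sum]
  congr 1
  rw [Finset.mul_sum]
  refine Finset.sum_congr rfl (fun i _ => ?_)
  ring

theorem thB_chr_eq_of_dvd {m : ℕ} (hm : 0 < m) (r : ℕ) {n n' : ℤ}
    (h : (2 * (m : ℤ)) ∣ n - n') : thB_chr m r n = thB_chr m r n' := by
  obtain ⟨c, hc⟩ := h
  have hm' : (m : ℂ) ≠ 0 := by exact_mod_cast hm.ne'
  have e : n = n' + 2 * (m : ℤ) * c := by linarith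
  unfold thB_chr
  have : 2 * π * I * ((r : ℂ) * (n : ℂ)) / (2 * (m : ℂ)) =
      2 * π * I * ((r : ℂ) * (n' : ℂ)) / (2 * (m : ℂ)) + ((r : ℤ) * c : ℤ) * (2 * π * I) := by
    rw [e]
    push_cast
    field_simp
  rw [this, Complex.exp_add, Complex.exp_int_mul_two_pi_mul_I, mul_one]

theorem thB_hat_periodic {m : Fin k → ℕ} (hm : ∀ i, 0 < m i) (f : (Fin k → ℤ) → ℂ) :
    thB_Periodic m (thB_hat m f) := by
  intro n n' h
  rw [thB_hat_eq, thB_hat_eq]
  refine Finset.sum_congr rfl (fun r _ => ?_)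
  congr 1
  exact Finset.prod_congr rfl (fun i _ => thB_chr_eq_of_dvd (hm i) (r i) (h i))

theorem thB_hat_ind {m r : ℕ} (hr : r < 2 * m) : thA_hat m (thB_ind m r) = thB_chr m r := by
  funext n'
  unfold thA_hat thB_chr
  rw [Finset.sum_eq_single_of_mem r (Finset.mem_range.mpr hr)]
  · have : thB_ind m r (r : ℤ) = 1 := by
      unfold thB_ind
      rw [if_pos]
      simp
    rw [this, one_mul]
  · intro s hs hne
    have : thB_ind m r (s : ℤ) = 0 := by
      unfold thB_ind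
      rw [if_neg]
      intro h
      exact hne (thB_eq_of_dvd (Finset.mem_range.mp hs) hr h)
    rw [this, zero_mul]

theorem thB_im_neg_inv {z : ℂ} (hz : 0 < z.im) : 0 < (-1 / z).im := by
  have hz0 : z ≠ 0 := by
    intro h; rw [h] at hz; simp at hz
  have : (-1 / z).im = z.im / Complex.normSq z := by
    rw [neg_div, Complex.neg_im, one_div, Complex.inv_im]
    ring
  rw [this]
  exact div_pos hz (Complex.normSq_pos.mpr hz0)

theorem thB_inversion {m : Fin k → ℕ} (hm : ∀ i, 0 < m i) {f : (Fin k → ℤ) → ℂ}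
    (hf : thB_Periodic m f) {z : ℂ} (hz : 0 < z.im) :
    thB_theta m f (-1 / z) =
      (∏ i, (-I * z / (2 * (m i : ℂ))) ^ (1 / 2 : ℂ)) * thB_theta m (thB_hat m f) z := by
  rw [thB_decomp hm hf (thB_im_neg_inv hz)]
  have hchr : ∀ r : Fin k → ℕ, Summable
      (thB_term m (fun n => ∏ i, thB_chr (m i) (r i) (n i)) z) := fun r =>
    (thB_summable_norm_of_prod hm (fun i => thB_chr (m i) (r i))
      (fun i n => thB_chr_periodic (hm i) (r i) n) hz).of_norm
  have hR : thB_theta m (thB_hat m f) z = ∑ r ∈ thB_box m, f (fun i => (r i : ℤ)) *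
      thB_theta m (fun n => ∏ i, thB_chr (m i) (r i) (n i)) z := by
    unfold thB_theta
    have : ∀ n, thB_term m (thB_hat m f) z n = ∑ r ∈ thB_box m, f (fun i => (r i : ℤ)) *
        thB_term m (fun n => ∏ i, thB_chr (m i) (r i) (n i)) z n := by
      intro n
      unfold thB_term
      rw [thB_hat_eq, Finset.sum_mul]
      refine Finset.sum_congr rfl (fun r _ => ?_)
      ring
    rw [tsum_congr this, Summable.tsum_finsetSum (fun r _ => (hchr r).mul_left _)]
    refine Finset.sum_congr rfl (fun r _ => ?_)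
    rw [tsum_mul_left]
  rw [hR, Finset.mul_sum]
  refine Finset.sum_congr rfl (fun r hr => ?_)
  rw [thB_mem_box] at hr
  rw [thB_theta_prod hm (fun i => thB_chr (m i) (r i))
    (fun i n => thB_chr_periodic (hm i) (r i) n) hz]
  have : ∀ i, thA_theta (m i) (thB_ind (m i) (r i)) (-1 / z) =
      (-I * z / (2 * (m i : ℂ))) ^ (1 / 2 : ℂ) * thA_theta (m i) (thB_chr (m i) (r i)) z := by
    intro i
    rw [thA_inversion (hm i) (fun n => thB_ind_periodic (m i) (r i) n) hz, thB_hat_ind (hr i)]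
  rw [Finset.prod_congr rfl (fun i _ => this i), Finset.prod_mul_distrib]
  ring

/-! ### the prefactor in four variables -/

theorem thB_pos_mul_cpow {t : ℝ} (ht : 0 < t) {w : ℂ} (hw : w ≠ 0) (s : ℂ) :
    ((t : ℂ) * w) ^ s = (t : ℂ) ^ s * w ^ s := by
  have ht' : (t : ℂ) ≠ 0 := by exact_mod_cast ht.ne'
  rw [Complex.cpow_def_of_ne_zero (mul_ne_zero ht' hw), Complex.cpow_def_of_ne_zero ht',
    Complex.cpow_def_of_ne_zero hw, Complex.log_ofReal_mul ht hw, ← Complex.exp_add,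
    Complex.ofReal_log ht.le]
  congr 1
  ring

theorem thB_factor_eq {m : ℕ} (hm : 0 < m) {z : ℂ} (hz : 0 < z.im) :
    (-I * z / (2 * (m : ℂ))) ^ (1 / 2 : ℂ) =
      ((Real.sqrt (1 / (2 * (m : ℝ))) : ℝ) : ℂ) * (-I * z) ^ (1 / 2 : ℂ) := by
  have hz0 : z ≠ 0 := by
    intro h; rw [h] at hz; simp at hz
  have hw : -I * z ≠ 0 := mul_ne_zero (neg_ne_zero.mpr Complex.I_ne_zero) hz0
  have ht : (0 : ℝ) < 1 / (2 * (m : ℝ)) := by positivity
  have e : -I * z / (2 * (m : ℂ)) = ((1 / (2 * (m : ℝ)) : ℝ) : ℂ) * (-I * z) := by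
    push_cast
    ring
  rw [e, thB_pos_mul_cpow ht hw, Real.sqrt_eq_rpow, Complex.ofReal_cpow ht.le]
  push_cast
  ring_nf

theorem thB_prefactor_four (m : Fin 4 → ℕ) (hm : ∀ i, 0 < m i) (P : ℕ)
    (hP : m 0 * m 1 * m 2 * m 3 = P ^ 2) {z : ℂ} (hz : 0 < z.im) :
    ∏ i, (-I * z / (2 * (m i : ℂ))) ^ (1 / 2 : ℂ) = - z ^ 2 / (4 * (P : ℂ)) := by
  have hP0 : 0 < P := by
    rcases Nat.eq_zero_or_pos P with h | h
    · rw [h] at hP
      have : 0 < m 0 * m 1 * m 2 * m 3 :=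
        Nat.mul_pos (Nat.mul_pos (Nat.mul_pos (hm 0) (hm 1)) (hm 2)) (hm 3)
      omega
    · exact h
  simp_rw [fun i => thB_factor_eq (hm i) hz]
  rw [Finset.prod_mul_distrib, Finset.prod_const, Finset.card_univ, Fintype.card_fin]
  have h4 : ((-I * z) ^ (1 / 2 : ℂ)) ^ 4 = - z ^ 2 := by
    have h2 : ((-I * z) ^ (1 / 2 : ℂ)) ^ 2 = -I * z := by
      simp [one_div]
    have : ((-I * z) ^ (1 / 2 : ℂ)) ^ 4 = (((-I * z) ^ (1 / 2 : ℂ)) ^ 2) ^ 2 := by ring
    rw [this, h2]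
    ring_nf
    rw [Complex.I_sq]
    ring
  rw [h4]
  have hs : ∏ i : Fin 4, ((Real.sqrt (1 / (2 * (m i : ℝ))) : ℝ) : ℂ) = 1 / (4 * (P : ℂ)) := by
    rw [← Complex.ofReal_prod, Fin.prod_univ_four]
    rw [← Real.sqrt_mul (by positivity), ← Real.sqrt_mul (by positivity),
      ← Real.sqrt_mul (by positivity)]
    have hPr : (m 0 : ℝ) * m 1 * m 2 * m 3 = (P : ℝ) ^ 2 := by exact_mod_cast hP
    have hm0 : (m 0 : ℝ) ≠ 0 := by exact_mod_cast (hm 0).ne'
    have hm1 : (m 1 : ℝ) ≠ 0 := by exact_mod_cast (hm 1).ne'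
    have hm2 : (m 2 : ℝ) ≠ 0 := by exact_mod_cast (hm 2).ne'
    have hm3 : (m 3 : ℝ) ≠ 0 := by exact_mod_cast (hm 3).ne'
    have hPne : (P : ℝ) ≠ 0 := by exact_mod_cast hP0.ne'
    have e : 1 / (2 * (m 0 : ℝ)) * (1 / (2 * (m 1 : ℝ))) * (1 / (2 * (m 2 : ℝ))) *
        (1 / (2 * (m 3 : ℝ))) = (1 / (4 * (P : ℝ))) ^ 2 := by
      have : 1 / (2 * (m 0 : ℝ)) * (1 / (2 * (m 1 : ℝ))) * (1 / (2 * (m 2 : ℝ))) *
          (1 / (2 * (m 3 : ℝ))) = 1 / (16 * ((m 0 : ℝ) * m 1 * m 2 * m 3)) := by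
        field_simp
        ring
      rw [this, hPr]
      field_simp
      ring
    rw [e, Real.sqrt_sq (by positivity)]
    push_cast
    ring
  rw [hs]
  ring

/-! ### the limit at `i∞` -/

/-- the real-valued version of `thB_Q` -/
noncomputable def thB_Qr (m : Fin k → ℕ) (n : Fin k → ℤ) : ℝ :=
  ∑ i, ((n i : ℝ)) ^ 2 / (4 * (m i : ℝ))

theorem thB_Q_eq (m : Fin k → ℕ) (n : Fin k → ℤ) : thB_Q m n = ((thB_Qr m n : ℝ) : ℂ) := by
  unfold thB_Q thB_Qr
  push_cast
  rfl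

theorem thB_Qr_nonneg (m : Fin k → ℕ) (n : Fin k → ℤ) : 0 ≤ thB_Qr m n :=
  Finset.sum_nonneg (fun i _ => by positivity)

theorem thB_Qr_pos {m : Fin k → ℕ} (hm : ∀ i, 0 < m i) {n : Fin k → ℤ} (hn : n ≠ 0) :
    0 < thB_Qr m n := by
  obtain ⟨i, hi⟩ := Function.ne_iff.mp hn
  have hi' : (n i : ℝ) ≠ 0 := by exact_mod_cast hi
  have hmi : (0 : ℝ) < m i := by exact_mod_cast hm i
  refine lt_of_lt_of_le ?_ (Finset.single_le_sum (f := fun i => ((n i : ℝ)) ^ 2 / (4 * (m i : ℝ)))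
    (fun j _ => by positivity) (Finset.mem_univ i))
  positivity

theorem thB_norm_term (m : Fin k → ℕ) (f : (Fin k → ℤ) → ℂ) (z : ℂ) (n : Fin k → ℤ) :
    ‖thB_term m f z n‖ = ‖f n‖ * Real.exp (-(2 * π * thB_Qr m n * z.im)) := by
  unfold thB_term
  rw [norm_mul, Complex.norm_exp, thB_Q_eq]
  congr 2
  simp only [Complex.mul_re, Complex.mul_im, Complex.ofReal_re, Complex.ofReal_im, Complex.I_re,
    Complex.I_im, Complex.re_ofNat, Complex.im_ofNat]
  ring

theorem thB_tendsto {m : Fin k → ℕ} (hm : ∀ i, 0 < m i) {f : (Fin k → ℤ) → ℂ}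
    (hf : thB_Periodic m f) :
    Filter.Tendsto (fun z : UpperHalfPlane => thB_theta m f (z : ℂ)) UpperHalfPlane.atImInfty
      (nhds (f 0)) := by
  classical
  have hsum : Summable (fun n => ‖thB_term m f I n‖) :=
    thB_summable_norm hm hf (by simp)
  have key := tendsto_tsum_of_dominated_convergence
    (𝓕 := UpperHalfPlane.atImInfty)
    (f := fun (z : UpperHalfPlane) (n : Fin k → ℤ) => thB_term m f (z : ℂ) n)
    (g := fun n => if n = 0 then f 0 else 0)
    (bound := fun n => ‖thB_term m f I n‖) hsum ?_ ?_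
  · have e : ∑' n : Fin k → ℤ, (if n = 0 then f 0 else 0) = f 0 := by
      rw [tsum_eq_single 0 (fun n hn => by simp [hn])]
      simp
    rw [e] at key
    exact key
  · intro n
    by_cases hn : n = 0
    · subst hn
      have : ∀ z : UpperHalfPlane, thB_term m f (z : ℂ) 0 = f 0 := by
        intro z
        unfold thB_term thB_Q
        simp
      simp only [this, if_true]
      exact tendsto_const_nhds
    · simp only [hn, if_false]
      rw [tendsto_zero_iff_norm_tendsto_zero]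
      simp_rw [thB_norm_term]
      have hpos := thB_Qr_pos hm hn
      have h1 : Filter.Tendsto (fun z : UpperHalfPlane => 2 * π * thB_Qr m n * z.im)
          UpperHalfPlane.atImInfty Filter.atTop := by
        have hc : 0 < 2 * π * thB_Qr m n := by positivity
        exact Filter.Tendsto.const_mul_atTop hc Filter.tendsto_comap
      have h2 := Real.tendsto_exp_neg_atTop_nhds_zero.comp h1
      have h3 := h2.const_mul ‖f n‖
      simpa using h3
  · rw [Filter.eventually_iff, UpperHalfPlane.atImInfty_mem]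
    refine ⟨1, fun z hz n => ?_⟩
    rw [thB_norm_term, thB_norm_term]
    refine mul_le_mul_of_nonneg_left ?_ (norm_nonneg _)
    rw [Real.exp_le_exp]
    simp only [Complex.I_im, mul_one, neg_le_neg_iff]
    have h0 : 0 ≤ 2 * π * thB_Qr m n := by
      have := thB_Qr_nonneg m n
      positivity
    have hz' : (1 : ℝ) ≤ (z : ℂ).im := hz
    calc 2 * π * thB_Qr m n = 2 * π * thB_Qr m n * 1 := by ring
      _ ≤ 2 * π * thB_Qr m n * (z : ℂ).im := mul_le_mul_of_nonneg_left hz' h0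

end Fermat.Agent.S16
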