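import Mathlib

set_option autoImplicit false

namespace Fermat.Agent.S16

/-- The numerator `X(n) = pq n₁² + p n₂² + q n₃² + n₄²` of the diagonal quadratic form
`Q(n) = n₁²/4 + n₂²/(4q) + n₃²/(4p) + n₄²/(4pq) = X(n)/(4pq)`. -/
def thE_X (p q : ℤ) (n1 n2 n3 n4 : ℤ) : ℤ :=
  p * q * n1 ^ 2 + p * n2 ^ 2 + q * n3 ^ 2 + n4 ^ 2

theorem thE_X_neg (p q n1 n2 n3 n4 : ℤ) :
    thE_X p q (-n1) (-n2) (-n3) (-n4) = thE_X p q n1 n2 n3 n4 := by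
  unfold thE_X; ring

/-- `4 ∣ X(n)` under the parity conditions, for `q ≡ 3 mod 4`. -/
theorem thE_four_dvd (p q : ℤ) (hq4 : (4 : ℤ) ∣ q + 1) (n1 n2 n3 n4 : ℤ)
    (h12 : (2 : ℤ) ∣ n1 - n2) (h34 : (2 : ℤ) ∣ n3 - n4) :
    (4 : ℤ) ∣ thE_X p q n1 n2 n3 n4 := by
  obtain ⟨t, ht⟩ := hq4
  obtain ⟨k, hk⟩ := h12
  obtain ⟨j, hj⟩ := h34
  have e1 : n1 = n2 + 2 * k := by linarith
  have e3 : n3 = n4 + 2 * j := by linarith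
  have eq : q = 4 * t - 1 := by linarith
  refine ⟨p * n2 ^ 2 * t + p * q * (k * n2 + k ^ 2) + n4 ^ 2 * t + q * (j * n4 + j ^ 2), ?_⟩
  unfold thE_X
  rw [e1, e3]
  have : p * q * (n2 + 2 * k) ^ 2 + p * n2 ^ 2 + q * (n4 + 2 * j) ^ 2 + n4 ^ 2 =
      p * n2 ^ 2 * (q + 1) + 4 * (p * q * (k * n2 + k ^ 2)) + n4 ^ 2 * (q + 1) +
        4 * (q * (j * n4 + j ^ 2)) := by ring
  rw [this, eq]
  ring

/-- `q ∣ X(n)` under the gluing condition `q ∣ a n₂ + n₄`, where `q ∣ a² + p`. -/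
theorem thE_q_dvd (p q a : ℤ) (ha : q ∣ a ^ 2 + p) (n1 n2 n3 n4 : ℤ)
    (h24 : q ∣ a * n2 + n4) : q ∣ thE_X p q n1 n2 n3 n4 := by
  obtain ⟨c, hc⟩ := ha
  obtain ⟨m, hm⟩ := h24
  have e4 : n4 = q * m - a * n2 := by linarith
  have ep : p = q * c - a ^ 2 := by linarith
  refine ⟨p * n1 ^ 2 + c * n2 ^ 2 + n3 ^ 2 - 2 * a * n2 * m + q * m ^ 2, ?_⟩
  unfold thE_X
  rw [e4]
  have : p * q * n1 ^ 2 + p * n2 ^ 2 + q * n3 ^ 2 + (q * m - a * n2) ^ 2 =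
      q * (p * n1 ^ 2 + n3 ^ 2 - 2 * a * n2 * m + q * m ^ 2) + (p + a ^ 2) * n2 ^ 2 := by ring
  rw [this]
  have h2 : p + a ^ 2 = q * c := by linarith
  rw [h2]
  ring

theorem thE_isCoprime_four (q : ℤ) (hq4 : (4 : ℤ) ∣ q + 1) : IsCoprime (4 : ℤ) q := by
  obtain ⟨t, ht⟩ := hq4
  exact ⟨t, -1, by linarith⟩

/-- On the dual lattice `M`: `4q ∣ X(n)`, i.e. `p Q(n) ∈ ℤ`. -/
theorem thE_dvd_of_mem_M (p q a : ℤ) (hq4 : (4 : ℤ) ∣ q + 1) (ha : q ∣ a ^ 2 + p)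
    (n1 n2 n3 n4 : ℤ) (h12 : (2 : ℤ) ∣ n1 - n2) (h34 : (2 : ℤ) ∣ n3 - n4)
    (h24 : q ∣ a * n2 + n4) : 4 * q ∣ thE_X p q n1 n2 n3 n4 :=
  (thE_isCoprime_four q hq4).mul_dvd (thE_four_dvd p q hq4 n1 n2 n3 n4 h12 h34)
    (thE_q_dvd p q a ha n1 n2 n3 n4 h24)

theorem thE_p_dvd (p q : ℤ) (n1 n2 n3 n4 : ℤ) (h3 : p ∣ n3) (h4 : p ∣ n4) :
    p ∣ thE_X p q n1 n2 n3 n4 := by
  obtain ⟨c, rfl⟩ := h3
  obtain ⟨d, rfl⟩ := h4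
  exact ⟨q * n1 ^ 2 + n2 ^ 2 + q * p * c ^ 2 + p * d ^ 2, by unfold thE_X; ring⟩

/-- On the lattice `L`: `4pq ∣ X(n)`, i.e. `Q(n) ∈ ℤ`. -/
theorem thE_dvd_of_mem_L (p q a : ℤ) (hq4 : (4 : ℤ) ∣ q + 1) (ha : q ∣ a ^ 2 + p)
    (hpq : IsCoprime (4 * q) p)
    (n1 n2 n3 n4 : ℤ) (h12 : (2 : ℤ) ∣ n1 - n2) (h34 : (2 : ℤ) ∣ n3 - n4)
    (h24 : q ∣ a * n2 + n4) (h3 : p ∣ n3) (h4 : p ∣ n4) :
    4 * p * q ∣ thE_X p q n1 n2 n3 n4 := by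
  have h := hpq.mul_dvd (thE_dvd_of_mem_M p q a hq4 ha n1 n2 n3 n4 h12 h34 h24)
    (thE_p_dvd p q n1 n2 n3 n4 h3 h4)
  have e : 4 * p * q = 4 * q * p := by ring
  rw [e]; exact h

/-- Coprimality of `4q` and `p` for distinct odd primes. -/
theorem thE_isCoprime (p q : ℕ) (hp : p.Prime) (hq : q.Prime) (hp2 : p ≠ 2) (hpq : q ≠ p) :
    IsCoprime (4 * (q : ℤ)) (p : ℤ) := by
  have h1 : Nat.Coprime (4 * q) p := by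
    refine Nat.Coprime.mul_left ?_ ?_
    · have : Nat.Coprime 2 p := (Nat.coprime_primes Nat.prime_two hp).2 (Ne.symm hp2)
      exact Nat.Coprime.pow_left 2 this
    · exact (Nat.coprime_primes hq hp).2 hpq
  have := Nat.isCoprime_iff_coprime.2 h1
  simpa using this

/-- `X(n) = 0` only for `n = 0` (positive definiteness), `p, q > 0`. -/
theorem thE_X_eq_zero (p q : ℤ) (hp : 0 < p) (hq : 0 < q) (n1 n2 n3 n4 : ℤ)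
    (h : thE_X p q n1 n2 n3 n4 = 0) : n1 = 0 ∧ n2 = 0 ∧ n3 = 0 ∧ n4 = 0 := by
  unfold thE_X at h
  have h1 : 0 ≤ p * q * n1 ^ 2 := by positivity
  have h2 : 0 ≤ p * n2 ^ 2 := by positivity
  have h3 : 0 ≤ q * n3 ^ 2 := by positivity
  have h4 : 0 ≤ n4 ^ 2 := by positivity
  have e1 : p * q * n1 ^ 2 = 0 := by linarith
  have e2 : p * n2 ^ 2 = 0 := by linarith
  have e3 : q * n3 ^ 2 = 0 := by linarith
  have e4 : n4 ^ 2 = 0 := by linarith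
  have hpq : p * q ≠ 0 := (mul_pos hp hq).ne'
  refine ⟨?_, ?_, ?_, ?_⟩
  · simpa [hpq, hp.ne', hq.ne'] using e1
  · simpa [hp.ne'] using e2
  · simpa [hq.ne'] using e3
  · simpa using e4

theorem thE_X_nonneg (p q : ℤ) (hp : 0 < p) (hq : 0 < q) (n1 n2 n3 n4 : ℤ) :
    0 ≤ thE_X p q n1 n2 n3 n4 := by
  unfold thE_X
  positivity

/-- Each coordinate is bounded by the value of `X`. -/
theorem thE_sq_le (p q : ℤ) (hp : 0 < p) (hq : 0 < q) (n1 n2 n3 n4 : ℤ) :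
    n1 ^ 2 ≤ thE_X p q n1 n2 n3 n4 ∧ n2 ^ 2 ≤ thE_X p q n1 n2 n3 n4 ∧
      n3 ^ 2 ≤ thE_X p q n1 n2 n3 n4 ∧ n4 ^ 2 ≤ thE_X p q n1 n2 n3 n4 := by
  unfold thE_X
  have hp1 : 1 ≤ p := hp
  have hq1 : 1 ≤ q := hq
  have h1 : 0 ≤ n1 ^ 2 := sq_nonneg _
  have h2 : 0 ≤ n2 ^ 2 := sq_nonneg _
  have h3 : 0 ≤ n3 ^ 2 := sq_nonneg _
  have h4 : 0 ≤ n4 ^ 2 := sq_nonneg _
  have hpq1 : 1 ≤ p * q := by nlinarith
  have a1 : n1 ^ 2 ≤ p * q * n1 ^ 2 := by nlinarith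
  have a2 : n2 ^ 2 ≤ p * n2 ^ 2 := by nlinarith
  have a3 : n3 ^ 2 ≤ q * n3 ^ 2 := by nlinarith
  have b1 : 0 ≤ p * q * n1 ^ 2 := by positivity
  have b2 : 0 ≤ p * n2 ^ 2 := by positivity
  have b3 : 0 ≤ q * n3 ^ 2 := by positivity
  refine ⟨by linarith, by linarith, by linarith, by linarith⟩

end Fermat.Agent.S16
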