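import Mathlib

set_option autoImplicit false

namespace Fermat.Agent.S16

open Finset

section box

variable {ι : Type*} [Fintype ι] [DecidableEq ι]

/-- The box `∏ [0, N i)` inside `ι → ℕ`. -/
def thC_box (N : ι → ℕ) : Finset (ι → ℕ) := Fintype.piFinset (fun i => Finset.range (N i))

/-- Periodicity of a function on `ι → ℤ` with respect to the lattice `∏ N i ℤ`. -/
def thC_Per (N : ι → ℕ) {α : Type*} (g : (ι → ℤ) → α) : Prop :=
  ∀ n i, g (n + Pi.single i (N i : ℤ)) = g n

variable {N : ι → ℕ} {α : Type*} {g : (ι → ℤ) → α}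

theorem thC_Per.single_mul (hg : thC_Per N g) (n : ι → ℤ) (i : ι) (k : ℤ) :
    g (n + Pi.single i (k * (N i : ℤ))) = g n := by
  induction k using Int.induction_on generalizing n with
  | zero => simp
  | succ k ih =>
    have : n + Pi.single i (((k : ℤ) + 1) * (N i : ℤ)) =
        (n + Pi.single i ((k : ℤ) * (N i : ℤ))) + Pi.single i (N i : ℤ) := by
      rw [add_assoc, ← Pi.single_add]; congr 2; ring
    rw [this, hg, ih]
  | pred k ih =>
    have h1 := hg (n + Pi.single i ((-(k : ℤ) - 1) * (N i : ℤ))) i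
    have : n + Pi.single i ((-(k : ℤ) - 1) * (N i : ℤ)) + Pi.single i (N i : ℤ) =
        n + Pi.single i (-(k : ℤ) * (N i : ℤ)) := by
      rw [add_assoc, ← Pi.single_add]; congr 2; ring
    rw [this] at h1
    rw [← h1, ih]

theorem thC_Per.add_mul (hg : thC_Per N g) (n : ι → ℤ) (k : ι → ℤ) :
    g (n + fun i => k i * (N i : ℤ)) = g n := by
  have key : ∀ s : Finset ι, g (n + ∑ i ∈ s, Pi.single i (k i * (N i : ℤ))) = g n := by
    intro s
    induction s using Finset.induction_on with
    | empty => simp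
    | insert a s ha ih =>
      rw [Finset.sum_insert ha, add_comm (Pi.single a _), ← add_assoc, hg.single_mul, ih]
  have e : (fun i => k i * (N i : ℤ)) = ∑ i, Pi.single i (k i * (N i : ℤ)) := by
    funext j
    simp [Finset.sum_apply, Pi.single_apply]
  rw [e]
  exact key _

theorem thC_Per.of_modEq (hg : thC_Per N g) {n n' : ι → ℤ}
    (h : ∀ i, n i ≡ n' i [ZMOD (N i : ℤ)]) : g n = g n' := by
  have hd : ∀ i, ∃ k : ℤ, n i = n' i + k * (N i : ℤ) := by
    intro i
    obtain ⟨k, hk⟩ := (Int.modEq_iff_dvd.1 (h i).symm)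
    exact ⟨k, by linarith [mul_comm k (N i : ℤ)]⟩
  choose k hk using hd
  have : n = n' + fun i => k i * (N i : ℤ) := by
    funext i; simp [hk i]
  rw [this, hg.add_mul]

/-- The reduction map of the box. -/
def thC_red (N : ι → ℕ) (n : ι → ℤ) : ι → ℕ := fun i => (n i % (N i : ℤ)).toNat

theorem thC_red_mem (hN : ∀ i, 0 < N i) (n : ι → ℤ) : thC_red N n ∈ thC_box N := by
  simp only [thC_box, Fintype.mem_piFinset, Finset.mem_range, thC_red]
  intro i
  have h1 : 0 ≤ n i % (N i : ℤ) := Int.emod_nonneg _ (by exact_mod_cast (hN i).ne')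
  have h2 : n i % (N i : ℤ) < (N i : ℤ) := Int.emod_lt_of_pos _ (by exact_mod_cast hN i)
  omega

theorem thC_red_cast (hN : ∀ i, 0 < N i) (n : ι → ℤ) (i : ι) :
    ((thC_red N n i : ℕ) : ℤ) = n i % (N i : ℤ) := by
  simp only [thC_red]
  exact Int.toNat_of_nonneg (Int.emod_nonneg _ (by exact_mod_cast (hN i).ne'))

theorem thC_Per.red (hN : ∀ i, 0 < N i) (hg : thC_Per N g) (n : ι → ℤ) :
    g (fun i => ((thC_red N n i : ℕ) : ℤ)) = g n := by
  refine hg.of_modEq fun i => ?_
  rw [thC_red_cast hN]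
  exact Int.mod_modEq _ _

theorem thC_red_of_mem {r : ι → ℕ} (hr : r ∈ thC_box N) :
    thC_red N (fun i => (r i : ℤ)) = r := by
  funext i
  simp only [thC_box, Fintype.mem_piFinset, Finset.mem_range] at hr
  simp only [thC_red]
  have : ((r i : ℤ)) % (N i : ℤ) = (r i : ℤ) :=
    Int.emod_eq_of_lt (by positivity) (by exact_mod_cast hr i)
  rw [this]; simp

/-- Sums over the box of a periodic function are translation invariant. -/
theorem thC_sum_box_shift {M : Type*} [AddCommMonoid M] {g : (ι → ℤ) → M}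
    (hN : ∀ i, 0 < N i) (hg : thC_Per N g) (s : ι → ℤ) :
    ∑ r ∈ thC_box N, g ((fun i => (r i : ℤ)) + s) = ∑ r ∈ thC_box N, g (fun i => (r i : ℤ)) := by
  refine Finset.sum_nbij' (fun r => thC_red N ((fun i => (r i : ℤ)) + s))
    (fun r => thC_red N ((fun i => (r i : ℤ)) - s)) ?_ ?_ ?_ ?_ ?_
  · intro r _; exact thC_red_mem hN _
  · intro r _; exact thC_red_mem hN _
  · intro r hr
    have : thC_red N ((fun i => ((thC_red N ((fun i => (r i : ℤ)) + s) i : ℕ) : ℤ)) - s) =
        thC_red N (fun i => (r i : ℤ)) := by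
      funext i
      simp only [thC_red, Pi.sub_apply, Pi.add_apply]
      congr 1
      rw [Int.toNat_of_nonneg (Int.emod_nonneg _ (by exact_mod_cast (hN i).ne'))]
      rw [Int.sub_emod, Int.emod_emod_of_dvd _ dvd_rfl, ← Int.sub_emod]
      congr 1; ring
    rw [this, thC_red_of_mem hr]
  · intro r hr
    have : thC_red N ((fun i => ((thC_red N ((fun i => (r i : ℤ)) - s) i : ℕ) : ℤ)) + s) =
        thC_red N (fun i => (r i : ℤ)) := by
      funext i
      simp only [thC_red, Pi.sub_apply, Pi.add_apply]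
      congr 1
      rw [Int.toNat_of_nonneg (Int.emod_nonneg _ (by exact_mod_cast (hN i).ne'))]
      rw [Int.add_emod, Int.emod_emod_of_dvd _ dvd_rfl, ← Int.add_emod]
      congr 1; ring
    rw [this, thC_red_of_mem hr]
  · intro r _
    exact (hg.red hN _).symm

/-- Orthogonality: a periodic function which is multiplied by `c ≠ 1` under some translation
has vanishing sum over the box. -/
theorem thC_sum_box_eq_zero {g : (ι → ℤ) → ℂ} (hN : ∀ i, 0 < N i) (hg : thC_Per N g)
    (s : ι → ℤ) (c : ℂ) (hc : c ≠ 1) (h : ∀ n, g (n + s) = c * g n) :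
    ∑ r ∈ thC_box N, g (fun i => (r i : ℤ)) = 0 := by
  have h1 := thC_sum_box_shift hN hg s
  simp_rw [h, ← Finset.mul_sum] at h1
  have h2 : (c - 1) * ∑ r ∈ thC_box N, g (fun i => (r i : ℤ)) = 0 := by
    rw [sub_mul, one_mul, h1, sub_self]
  rcases mul_eq_zero.1 h2 with h3 | h3
  · exact absurd (sub_eq_zero.1 h3) hc
  · exact h3

end box

end Fermat.Agent.S16
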