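import Mathlib
import Fermat.Agent.S16.ThBox
import Fermat.Agent.S16.ThArith

set_option autoImplicit false

namespace Fermat.Agent.S16

open Finset Complex Real

/-- The moduli `m = (1, q, p, pq)` of the diagonal form
`Q(n) = ∑ n_i² / (4 m_i)`. -/
def thC_m (p q : ℕ) : Fin 4 → ℕ := ![1, q, p, p * q]

/-- The dual lattice `M` (in the orthogonal coordinates). -/
def thC_memM (q : ℕ) (a : ℤ) (n : Fin 4 → ℤ) : Prop :=
  (2 : ℤ) ∣ n 0 - n 1 ∧ (2 : ℤ) ∣ n 2 - n 3 ∧ (q : ℤ) ∣ a * n 1 + n 3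

/-- The lattice `L` (in the orthogonal coordinates). -/
def thC_memL (p q : ℕ) (a : ℤ) (n : Fin 4 → ℤ) : Prop :=
  thC_memM q a n ∧ (p : ℤ) ∣ n 2 ∧ (p : ℤ) ∣ n 3

/-- The class of a vector in `M / L = 𝔽_p²`. -/
def thC_cls (p : ℕ) (n : Fin 4 → ℤ) : ZMod p × ZMod p := ((n 2 : ZMod p), (n 3 : ZMod p))

open Classical in
/-- The function `f~ = 1_M · (f ∘ cls)` on `ℤ⁴` attached to `f : 𝔽_p² → ℂ`. -/
noncomputable def thC_tilde (p q : ℕ) (a : ℤ) (f : ZMod p × ZMod p → ℂ) (n : Fin 4 → ℤ) : ℂ :=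
  if thC_memM q a n then f (thC_cls p n) else 0

/-- The polar form `Y(r, n) = pq r₀n₀ + p r₁n₁ + q r₂n₂ + r₃n₃`; the bilinear form of the
lattice is `B(r, n) = Y(r, n) / (2pq)`. -/
def thC_Y (p q : ℤ) (r n : Fin 4 → ℤ) : ℤ :=
  p * q * r 0 * n 0 + p * r 1 * n 1 + q * r 2 * n 2 + r 3 * n 3

/-- The induced pairing on `𝔽_p²`. -/
def thC_Bbar (p q : ℕ) (w w' : ZMod p × ZMod p) : ZMod p :=
  (2 * (q : ZMod p))⁻¹ * ((q : ZMod p) * w.1 * w'.1 + w.2 * w'.2)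

/-- The induced quadratic form on `𝔽_p²`. -/
def thC_Nbar (p q : ℕ) (w : ZMod p × ZMod p) : ZMod p :=
  (4 * (q : ZMod p))⁻¹ * ((q : ZMod p) * w.1 ^ 2 + w.2 ^ 2)

/-- The standing hypotheses on `(p, q, a)`. -/
structure thC_Hyp (p q : ℕ) (a : ℤ) : Prop where
  hp : p.Prime
  hq : q.Prime
  hp2 : p ≠ 2
  hq4 : q % 4 = 3
  hqp : q ≠ p
  ha : (q : ℤ) ∣ a ^ 2 + p

variable {p q : ℕ} {a : ℤ}

theorem thC_Hyp.four_dvd (h : thC_Hyp p q a) : (4 : ℤ) ∣ (q : ℤ) + 1 := by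
  have := h.hq4
  omega

theorem thC_Hyp.two_dvd (h : thC_Hyp p q a) : (2 : ℤ) ∣ (q : ℤ) - 1 := by
  have := h.hq4
  omega

theorem thC_Hyp.two_dvd_p (h : thC_Hyp p q a) : (2 : ℤ) ∣ (p : ℤ) - 1 := by
  rcases h.hp.eq_two_or_odd with h2 | h2
  · exact absurd h2 h.hp2
  · omega

theorem thC_Hyp.q_ne_zero (h : thC_Hyp p q a) : ((q : ℕ) : ZMod p) ≠ 0 := by
  intro h0
  have := (ZMod.natCast_eq_zero_iff q p).1 h0
  exact h.hqp ((Nat.prime_dvd_prime_iff_eq h.hp h.hq).1 this).symm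

theorem thC_Hyp.two_ne_zero (h : thC_Hyp p q a) : (2 : ZMod p) ≠ 0 := by
  intro h0
  have h1 : ((2 : ℕ) : ZMod p) = 0 := by exact_mod_cast h0
  have := (ZMod.natCast_eq_zero_iff 2 p).1 h1
  exact h.hp2 ((Nat.prime_dvd_prime_iff_eq h.hp Nat.prime_two).1 this)

theorem thC_memM_add {n n' : Fin 4 → ℤ} (hn : thC_memM q a n) (hn' : thC_memM q a n') :
    thC_memM q a (n + n') := by
  obtain ⟨h1, h2, h3⟩ := hn
  obtain ⟨h1', h2', h3'⟩ := hn'
  refine ⟨?_, ?_, ?_⟩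
  · have := dvd_add h1 h1'
    have e : (n + n') 0 - (n + n') 1 = n 0 - n 1 + (n' 0 - n' 1) := by
      simp only [Pi.add_apply]; ring
    rw [e]; exact this
  · have := dvd_add h2 h2'
    have e : (n + n') 2 - (n + n') 3 = n 2 - n 3 + (n' 2 - n' 3) := by
      simp only [Pi.add_apply]; ring
    rw [e]; exact this
  · have := dvd_add h3 h3'
    have e : a * (n + n') 1 + (n + n') 3 = a * n 1 + n 3 + (a * n' 1 + n' 3) := by
      simp only [Pi.add_apply]; ring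
    rw [e]; exact this

theorem thC_memM_neg {n : Fin 4 → ℤ} (hn : thC_memM q a n) : thC_memM q a (-n) := by
  obtain ⟨h1, h2, h3⟩ := hn
  refine ⟨?_, ?_, ?_⟩
  · have := (dvd_neg).2 h1
    have e : (-n) 0 - (-n) 1 = -(n 0 - n 1) := by
      simp only [Pi.neg_apply]; ring
    rw [e]; exact this
  · have := (dvd_neg).2 h2
    have e : (-n) 2 - (-n) 3 = -(n 2 - n 3) := by
      simp only [Pi.neg_apply]; ring
    rw [e]; exact this
  · have := (dvd_neg).2 h3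
    have e : a * (-n) 1 + (-n) 3 = -(a * n 1 + n 3) := by
      simp only [Pi.neg_apply]; ring
    rw [e]; exact this

theorem thC_memM_zero : thC_memM q a 0 := by
  refine ⟨?_, ?_, ?_⟩ <;> simp

theorem thC_memL.memM {n : Fin 4 → ℤ} (hn : thC_memL p q a n) : thC_memM q a n := hn.1

theorem thC_memL_add {n n' : Fin 4 → ℤ} (hn : thC_memL p q a n) (hn' : thC_memL p q a n') :
    thC_memL p q a (n + n') :=
  ⟨thC_memM_add hn.1 hn'.1, dvd_add hn.2.1 hn'.2.1, dvd_add hn.2.2 hn'.2.2⟩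

theorem thC_memL_neg {n : Fin 4 → ℤ} (hn : thC_memL p q a n) : thC_memL p q a (-n) :=
  ⟨thC_memM_neg hn.1, (dvd_neg).2 hn.2.1, (dvd_neg).2 hn.2.2⟩

theorem thC_memM_add_iff_of_memL {n s : Fin 4 → ℤ} (hs : thC_memL p q a s) :
    thC_memM q a (n + s) ↔ thC_memM q a n := by
  constructor
  · intro h
    have := thC_memM_add h (thC_memM_neg hs.1)
    simpa using this
  · intro h
    exact thC_memM_add h hs.1

theorem thC_cls_add (n n' : Fin 4 → ℤ) : thC_cls p (n + n') = thC_cls p n + thC_cls p n' := by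
  simp [thC_cls]

theorem thC_cls_neg (n : Fin 4 → ℤ) : thC_cls p (-n) = -thC_cls p n := by
  simp [thC_cls]

theorem thC_cls_of_memL {s : Fin 4 → ℤ} (hs : thC_memL p q a s) : thC_cls p s = 0 := by
  obtain ⟨-, h2, h3⟩ := hs
  simp only [thC_cls, Prod.mk_eq_zero]
  exact ⟨(ZMod.intCast_zmod_eq_zero_iff_dvd _ p).2 h2, (ZMod.intCast_zmod_eq_zero_iff_dvd _ p).2 h3⟩

theorem thC_memL_iff {n : Fin 4 → ℤ} :
    thC_memL p q a n ↔ thC_memM q a n ∧ thC_cls p n = 0 := by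
  simp only [thC_memL, thC_cls, Prod.mk_eq_zero, ZMod.intCast_zmod_eq_zero_iff_dvd]

theorem thC_tilde_add_of_memL (f : ZMod p × ZMod p → ℂ) {s : Fin 4 → ℤ}
    (hs : thC_memL p q a s) (n : Fin 4 → ℤ) :
    thC_tilde p q a f (n + s) = thC_tilde p q a f n := by
  unfold thC_tilde
  rw [thC_cls_add, thC_cls_of_memL hs, add_zero]
  by_cases h : thC_memM q a n
  · rw [if_pos h, if_pos ((thC_memM_add_iff_of_memL hs).2 h)]
  · rw [if_neg h, if_neg (fun h' => h ((thC_memM_add_iff_of_memL hs).1 h'))]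

theorem thC_tilde_neg (f : ZMod p × ZMod p → ℂ) (n : Fin 4 → ℤ) :
    thC_tilde p q a f (-n) = thC_tilde p q a (fun w => f (-w)) n := by
  have : thC_memM q a (-n) ↔ thC_memM q a n :=
    ⟨fun h => by simpa using thC_memM_neg h, thC_memM_neg⟩
  unfold thC_tilde
  rw [thC_cls_neg]
  by_cases h : thC_memM q a n
  · rw [if_pos h, if_pos (this.2 h)]
  · rw [if_neg h, if_neg (fun h' => h (this.1 h'))]

/-! ### The polar form -/

theorem thC_X_add (p q : ℤ) (r n : Fin 4 → ℤ) :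
    thE_X p q ((r + n) 0) ((r + n) 1) ((r + n) 2) ((r + n) 3) =
      thE_X p q (r 0) (r 1) (r 2) (r 3) + thE_X p q (n 0) (n 1) (n 2) (n 3) +
        2 * thC_Y p q r n := by
  simp only [thE_X, thC_Y, Pi.add_apply]; ring

theorem thC_Hyp.dvd_X (h : thC_Hyp p q a) {n : Fin 4 → ℤ} (hn : thC_memM q a n) :
    4 * (q : ℤ) ∣ thE_X p q (n 0) (n 1) (n 2) (n 3) :=
  thE_dvd_of_mem_M p q a h.four_dvd h.ha _ _ _ _ hn.1 hn.2.1 hn.2.2

theorem thC_Hyp.dvd_Y (h : thC_Hyp p q a) {r n : Fin 4 → ℤ} (hr : thC_memM q a r)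
    (hn : thC_memM q a n) : 2 * (q : ℤ) ∣ thC_Y p q r n := by
  have h1 := h.dvd_X (thC_memM_add hr hn)
  rw [thC_X_add] at h1
  have h2 := (dvd_sub h1 (dvd_add (h.dvd_X hr) (h.dvd_X hn)))
  have e : thE_X p q (r 0) (r 1) (r 2) (r 3) + thE_X p q (n 0) (n 1) (n 2) (n 3) +
      2 * thC_Y p q r n - (thE_X p q (r 0) (r 1) (r 2) (r 3) +
        thE_X p q (n 0) (n 1) (n 2) (n 3)) = 2 * thC_Y p q r n := by ring
  rw [e] at h2
  have e2 : 4 * (q : ℤ) = 2 * (2 * q) := by ring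
  rw [e2] at h2
  exact Int.dvd_of_mul_dvd_mul_left (by norm_num) h2

theorem thC_Hyp.Y_cast (h : thC_Hyp p q a) {r n : Fin 4 → ℤ} (k : ℤ)
    (hk : thC_Y p q r n = 2 * q * k) :
    (k : ZMod p) = thC_Bbar p q (thC_cls p r) (thC_cls p n) := by
  haveI : Fact p.Prime := ⟨h.hp⟩
  have h1 : ((thC_Y p q r n : ℤ) : ZMod p) = ((2 * (q : ℤ) * k : ℤ) : ZMod p) := by rw [hk]
  simp only [thC_Y] at h1
  push_cast at h1
  simp only [ZMod.natCast_self, zero_mul, zero_add] at h1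
  have h2q : (2 * (q : ZMod p)) ≠ 0 := mul_ne_zero h.two_ne_zero h.q_ne_zero
  simp only [thC_Bbar, thC_cls]
  rw [h1, inv_mul_cancel_left₀ h2q]

theorem thC_Hyp.X_cast (h : thC_Hyp p q a) {n : Fin 4 → ℤ} (k : ℤ)
    (hk : thE_X p q (n 0) (n 1) (n 2) (n 3) = 4 * q * k) :
    (k : ZMod p) = thC_Nbar p q (thC_cls p n) := by
  haveI : Fact p.Prime := ⟨h.hp⟩
  have h1 : ((thE_X p q (n 0) (n 1) (n 2) (n 3) : ℤ) : ZMod p) =
      ((4 * (q : ℤ) * k : ℤ) : ZMod p) := by rw [hk]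
  simp only [thE_X] at h1
  push_cast at h1
  simp only [ZMod.natCast_self, zero_mul, zero_add] at h1
  have h4 : (4 : ZMod p) ≠ 0 := by
    have : (4 : ZMod p) = 2 * 2 := by norm_num
    rw [this]; exact mul_ne_zero h.two_ne_zero h.two_ne_zero
  have h4q : (4 * (q : ZMod p)) ≠ 0 := mul_ne_zero h4 h.q_ne_zero
  simp only [thC_Nbar, thC_cls]
  rw [h1, inv_mul_cancel_left₀ h4q]


/-! ### The characters of the box -/

/-- The character `n ↦ e(B(n, n'))` of `ℤ⁴`, `B(n, n') = ∑ n_i n'_i / (2 m_i)`. -/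
noncomputable def thC_chi (p q : ℕ) (n' n : Fin 4 → ℤ) : ℂ :=
  cexp (2 * π * I * ∑ i, ((n i : ℂ) * (n' i : ℂ)) / (2 * (thC_m p q i : ℂ)))

theorem thC_chi_add (n' n s : Fin 4 → ℤ) :
    thC_chi p q n' (n + s) = thC_chi p q n' n * thC_chi p q n' s := by
  simp only [thC_chi, ← Complex.exp_add]
  congr 1
  rw [← mul_add, ← Finset.sum_add_distrib]
  congr 1
  refine Finset.sum_congr rfl fun i _ => ?_
  simp only [Pi.add_apply]
  push_cast
  ring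

theorem thC_chi_eq (hp : p ≠ 0) (hq : q ≠ 0) (n' n : Fin 4 → ℤ) :
    thC_chi p q n' n = cexp (2 * π * I * ((thC_Y p q n n' : ℤ) : ℂ) / (2 * p * q)) := by
  simp only [thC_chi, thC_m, thC_Y, Fin.sum_univ_four]
  congr 1
  have hp' : (p : ℂ) ≠ 0 := by exact_mod_cast hp
  have hq' : (q : ℂ) ≠ 0 := by exact_mod_cast hq
  simp only [Matrix.cons_val_zero, Matrix.cons_val_one, Matrix.cons_val]
  push_cast
  field_simp

theorem thC_exp_int_div (k : ℤ) {N : ℕ} (hN : N ≠ 0) :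
    cexp (2 * π * I * (k : ℂ) / N) = 1 ↔ (N : ℤ) ∣ k := by
  have hN' : (N : ℂ) ≠ 0 := by exact_mod_cast hN
  rw [Complex.exp_eq_one_iff]
  constructor
  · rintro ⟨m, hm⟩
    have h2 : (2 * π * I : ℂ) ≠ 0 := Complex.two_pi_I_ne_zero
    field_simp at hm
    refine ⟨m, ?_⟩
    have : ((k : ℤ) : ℂ) = ((N * m : ℤ) : ℂ) := by push_cast; rw [hm]
    exact_mod_cast this
  · rintro ⟨m, rfl⟩
    refine ⟨m, ?_⟩
    push_cast
    field_simp

theorem thC_Hyp.chi_of_memM [NeZero p] (h : thC_Hyp p q a) {n' n : Fin 4 → ℤ}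
    (hn : thC_memM q a n) (hn' : thC_memM q a n') :
    thC_chi p q n' n = ZMod.stdAddChar (N := p) (thC_Bbar p q (thC_cls p n) (thC_cls p n')) := by
  obtain ⟨k, hk⟩ := h.dvd_Y hn hn'
  rw [thC_chi_eq h.hp.ne_zero h.hq.ne_zero, ← h.Y_cast k hk, ZMod.stdAddChar_coe, hk]
  congr 1
  have hp' : (p : ℂ) ≠ 0 := by exact_mod_cast h.hp.ne_zero
  have hq' : (q : ℂ) ≠ 0 := by exact_mod_cast h.hq.ne_zero
  push_cast
  field_simp

/-- The value of the quadratic form, as a root of unity, on `M`. -/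
theorem thC_Hyp.expQ_of_memM [NeZero p] (h : thC_Hyp p q a) {n : Fin 4 → ℤ}
    (hn : thC_memM q a n) :
    cexp (2 * π * I * ∑ i, ((n i : ℂ)) ^ 2 / (4 * (thC_m p q i : ℂ))) =
      ZMod.stdAddChar (N := p) (thC_Nbar p q (thC_cls p n)) := by
  obtain ⟨k, hk⟩ := h.dvd_X hn
  rw [← h.X_cast k hk, ZMod.stdAddChar_coe]
  congr 1
  have hp' : (p : ℂ) ≠ 0 := by exact_mod_cast h.hp.ne_zero
  have hq' : (q : ℂ) ≠ 0 := by exact_mod_cast h.hq.ne_zero
  have e : ∑ i, ((n i : ℂ)) ^ 2 / (4 * (thC_m p q i : ℂ)) =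
      ((thE_X p q (n 0) (n 1) (n 2) (n 3) : ℤ) : ℂ) / (4 * p * q) := by
    simp only [thC_m, thE_X, Fin.sum_univ_four]
    simp only [Matrix.cons_val_zero, Matrix.cons_val_one, Matrix.cons_val]
    push_cast
    field_simp
  rw [e, hk]
  push_cast
  field_simp

end Fermat.Agent.S16
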