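import Mathlib
import Fermat.Agent.S16.ThCDefs

set_option autoImplicit false

namespace Fermat.Agent.S16

open Finset Complex Real

variable {p q : ℕ} {a : ℤ}

/-- The periods `N_i = 2 m_i` of the box. -/
def thC_N (p q : ℕ) : Fin 4 → ℕ := fun i => 2 * thC_m p q i

theorem thC_N_pos (hp : 0 < p) (hq : 0 < q) (i : Fin 4) : 0 < thC_N p q i := by
  have hpq : 0 < p * q := Nat.mul_pos hp hq
  fin_cases i <;> simp [thC_N, thC_m] <;> omega

theorem thC_Hyp.N_pos (h : thC_Hyp p q a) (i : Fin 4) : 0 < thC_N p q i :=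
  thC_N_pos h.hp.pos h.hq.pos i

theorem thC_single_memL (p q : ℕ) (a : ℤ) (i : Fin 4) :
    thC_memL p q a (Pi.single i (thC_N p q i : ℤ)) := by
  fin_cases i
  · refine ⟨⟨?_, ?_, ?_⟩, ?_, ?_⟩ <;> simp [thC_N, thC_m]
  · refine ⟨⟨?_, ?_, ?_⟩, ?_, ?_⟩ <;> simp [thC_N, thC_m]
    · exact Dvd.dvd.mul_left (Dvd.dvd.mul_left dvd_rfl _) _
  · refine ⟨⟨?_, ?_, ?_⟩, ?_, ?_⟩ <;> simp [thC_N, thC_m]
  · refine ⟨⟨?_, ?_, ?_⟩, ?_, ?_⟩ <;> simp [thC_N, thC_m]
    · exact Dvd.dvd.mul_left (Dvd.dvd.mul_left dvd_rfl _) _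
    · exact Dvd.dvd.mul_left (Dvd.dvd.mul_right dvd_rfl _) _

theorem thC_chi_single (hp : p ≠ 0) (hq : q ≠ 0) (n' : Fin 4 → ℤ) (i : Fin 4) :
    thC_chi p q n' (Pi.single i (thC_N p q i : ℤ)) = 1 := by
  have hm : (thC_m p q i : ℂ) ≠ 0 := by
    have hpq : p * q ≠ 0 := Nat.mul_ne_zero hp hq
    fin_cases i <;> simp [thC_m] <;> simp_all
  have e : ∑ j, (((Pi.single i (thC_N p q i : ℤ) : Fin 4 → ℤ) j : ℤ) : ℂ) * (n' j : ℂ) /
      (2 * (thC_m p q j : ℂ)) = (n' i : ℂ) := by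
    rw [Finset.sum_eq_single i]
    · simp only [Pi.single_eq_same, thC_N]
      push_cast
      field_simp
    · intro j _ hj
      simp [Pi.single_eq_of_ne hj]
    · simp
  rw [thC_chi, e]
  have := Complex.exp_int_mul_two_pi_mul_I (n' i)
  rw [← this]
  congr 1
  ring

theorem thC_tilde_chi_per (hp : p ≠ 0) (hq : q ≠ 0) (a : ℤ) (f : ZMod p × ZMod p → ℂ)
    (n' : Fin 4 → ℤ) :
    thC_Per (thC_N p q) (fun n => thC_tilde p q a f n * thC_chi p q n' n) := by
  intro n i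
  simp only
  rw [thC_tilde_add_of_memL f (thC_single_memL p q a i), thC_chi_add, thC_chi_single hp hq, mul_one]

theorem thC_chi_eq_one_iff (hp : p ≠ 0) (hq : q ≠ 0) (n' s : Fin 4 → ℤ) :
    thC_chi p q n' s = 1 ↔ (2 * (p : ℤ) * q) ∣ thC_Y p q s n' := by
  rw [thC_chi_eq hp hq]
  have h2 : 2 * p * q ≠ 0 := by
    simp only [ne_eq, mul_eq_zero, OfNat.ofNat_ne_zero, false_or, not_or]
    exact ⟨hp, hq⟩
  have := thC_exp_int_div (thC_Y p q s n') h2
  push_cast at this
  exact this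

/-- For `n'` outside `M` there is a vector of `L` on which the character `χ_{n'}` is
nontrivial. -/
theorem thC_Hyp.exists_chi_ne_one (h : thC_Hyp p q a) {n' : Fin 4 → ℤ}
    (hn' : ¬ thC_memM q a n') : ∃ s, thC_memL p q a s ∧ thC_chi p q n' s ≠ 1 := by
  have hp0 : (p : ℤ) ≠ 0 := by exact_mod_cast h.hp.ne_zero
  have hq0 : (q : ℤ) ≠ 0 := by exact_mod_cast h.hq.ne_zero
  have hq2 := h.two_dvd
  have hp2 := h.two_dvd_p
  simp only [thC_memM, not_and_or] at hn'
  rcases hn' with h1 | h1 | h1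
  · refine ⟨![1, q, 0, 0], ⟨⟨?_, ?_, ?_⟩, ?_, ?_⟩, ?_⟩
    · show (2 : ℤ) ∣ 1 - (q : ℤ)
      have := (dvd_neg).2 hq2
      have e : (1 : ℤ) - q = -((q : ℤ) - 1) := by ring
      rw [e]; exact this
    · simp
    · simp
    · simp
    · simp
    · rw [Ne, thC_chi_eq_one_iff h.hp.ne_zero h.hq.ne_zero]
      intro hd
      apply h1
      have e : thC_Y p q ![1, q, 0, 0] n' = (p * q) * (n' 0 + n' 1) := by
        simp [thC_Y]; ring
      rw [e] at hd
      have e2 : 2 * (p : ℤ) * q = (p * q) * 2 := by ring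
      rw [e2] at hd
      have h3 := Int.dvd_of_mul_dvd_mul_left (mul_ne_zero hp0 hq0) hd
      have : n' 0 - n' 1 = (n' 0 + n' 1) - 2 * n' 1 := by ring
      rw [this]
      exact dvd_sub h3 (dvd_mul_right _ _)
  · refine ⟨![0, 0, p, p * q], ⟨⟨?_, ?_, ?_⟩, ?_, ?_⟩, ?_⟩
    · simp
    · show (2 : ℤ) ∣ (p : ℤ) - (p : ℤ) * q
      obtain ⟨c, hc⟩ := hq2
      exact ⟨-(p * c), by linear_combination (-(p : ℤ)) * hc⟩
    · simp
    · simp
    · simp
    · rw [Ne, thC_chi_eq_one_iff h.hp.ne_zero h.hq.ne_zero]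
      intro hd
      apply h1
      have e : thC_Y p q ![0, 0, p, p * q] n' = (p * q) * (n' 2 + n' 3) := by
        simp [thC_Y]; ring
      rw [e] at hd
      have e2 : 2 * (p : ℤ) * q = (p * q) * 2 := by ring
      rw [e2] at hd
      have h3 := Int.dvd_of_mul_dvd_mul_left (mul_ne_zero hp0 hq0) hd
      have : n' 2 - n' 3 = (n' 2 + n' 3) - 2 * n' 3 := by ring
      rw [this]
      exact dvd_sub h3 (dvd_mul_right _ _)
  · refine ⟨![0, 2 * a, 0, 2 * p], ⟨⟨?_, ?_, ?_⟩, ?_, ?_⟩, ?_⟩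
    · simp
    · simp
    · show (q : ℤ) ∣ a * (2 * a) + 2 * (p : ℤ)
      obtain ⟨c, hc⟩ := h.ha
      exact ⟨2 * c, by linear_combination 2 * hc⟩
    · simp
    · simp
    · rw [Ne, thC_chi_eq_one_iff h.hp.ne_zero h.hq.ne_zero]
      intro hd
      apply h1
      have e : thC_Y p q ![0, 2 * a, 0, 2 * p] n' = (2 * p) * (a * n' 1 + n' 3) := by
        simp [thC_Y]; ring
      rw [e] at hd
      have e2 : 2 * (p : ℤ) * q = (2 * p) * q := by ring
      rw [e2] at hd
      exact Int.dvd_of_mul_dvd_mul_left (mul_ne_zero (by norm_num) hp0) hd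

/-- Vanishing of the character sum of `f~` outside `M`. -/
theorem thC_Hyp.sum_eq_zero_of_not_memM (h : thC_Hyp p q a) (f : ZMod p × ZMod p → ℂ)
    {n' : Fin 4 → ℤ} (hn' : ¬ thC_memM q a n') :
    ∑ r ∈ thC_box (thC_N p q),
      thC_tilde p q a f (fun i => (r i : ℤ)) * thC_chi p q n' (fun i => (r i : ℤ)) = 0 := by
  obtain ⟨s, hs, hc⟩ := h.exists_chi_ne_one hn'
  refine thC_sum_box_eq_zero (g := fun n => thC_tilde p q a f n * thC_chi p q n' n) h.N_pos
    (thC_tilde_chi_per h.hp.ne_zero h.hq.ne_zero a f n') s (thC_chi p q n' s) hc ?_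
  intro n
  rw [thC_tilde_add_of_memL f hs, thC_chi_add]
  ring


/-! ### Fibres of the box over `M / L` -/

open Classical in
/-- The number of points of the box lying in `M` with prescribed class in `M / L`. -/
noncomputable def thC_cnt (p q : ℕ) (a : ℤ) (w : ZMod p × ZMod p) : ℕ :=
  #{r ∈ thC_box (thC_N p q) | thC_memM q a (fun i => (r i : ℤ)) ∧
    thC_cls p (fun i => (r i : ℤ)) = w}

open Classical in
theorem thC_cnt_eq_sum (w : ZMod p × ZMod p) :
    thC_cnt p q a w = ∑ r ∈ thC_box (thC_N p q),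
      (fun n : Fin 4 → ℤ => if thC_memM q a n ∧ thC_cls p n = w then 1 else 0)
        (fun i => (r i : ℤ)) := by
  simp only [thC_cnt, Finset.card_filter]

open Classical in
theorem thC_sum_fiber [NeZero p] (F : ZMod p × ZMod p → ℂ) :
    ∑ r ∈ thC_box (thC_N p q), thC_tilde p q a F (fun i => (r i : ℤ)) =
      ∑ w, (thC_cnt p q a w : ℂ) * F w := by
  have e : ∀ n : Fin 4 → ℤ, thC_tilde p q a F n =
      ∑ w, if thC_memM q a n ∧ thC_cls p n = w then F w else 0 := by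
    intro n
    unfold thC_tilde
    by_cases hn : thC_memM q a n
    · simp [hn]
    · simp [hn]
  simp_rw [e]
  rw [Finset.sum_comm]
  refine Finset.sum_congr rfl fun w _ => ?_
  rw [← Finset.sum_filter, Finset.sum_const, nsmul_eq_mul]
  rfl

/-- Every class of `M / L = 𝔽_p²` is represented. -/
theorem thC_Hyp.exists_memM_cls [NeZero p] (h : thC_Hyp p q a) (w : ZMod p × ZMod p) :
    ∃ s, thC_memM q a s ∧ thC_cls p s = w := by
  haveI : Fact p.Prime := ⟨h.hp⟩
  set t : ℤ := (((q : ZMod p)⁻¹ * w.2).val : ℤ) with ht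
  set v : ℤ := ((w.1).val : ℤ) with hv
  have htc : ((t : ℤ) : ZMod p) = (q : ZMod p)⁻¹ * w.2 := by
    rw [ht]; simp
  have hvc : ((v : ℤ) : ZMod p) = w.1 := by
    rw [hv]; simp
  refine ⟨![0, 0, v + p * (v + q * t), q * t], ⟨?_, ?_, ?_⟩, ?_⟩
  · simp
  · show (2 : ℤ) ∣ v + p * (v + q * t) - q * t
    obtain ⟨c, hc⟩ := h.two_dvd_p
    exact ⟨v + c * (v + q * t), by linear_combination (v + q * t) * hc⟩
  · show (q : ℤ) ∣ a * 0 + q * t
    exact ⟨t, by ring⟩
  · simp only [thC_cls]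
    ext
    · show (((v + p * (v + q * t) : ℤ)) : ZMod p) = w.1
      push_cast
      rw [hvc]; simp
    · show (((q * t : ℤ)) : ZMod p) = w.2
      push_cast
      rw [htc, mul_inv_cancel_left₀ h.q_ne_zero]

open Classical in
/-- All fibres have the same cardinality. -/
theorem thC_Hyp.cnt_eq [NeZero p] (h : thC_Hyp p q a) (w : ZMod p × ZMod p) :
    thC_cnt p q a w = thC_cnt p q a 0 := by
  obtain ⟨s, hs, hsw⟩ := h.exists_memM_cls (-w)
  rw [thC_cnt_eq_sum, thC_cnt_eq_sum]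
  have hper : thC_Per (thC_N p q)
      (fun n : Fin 4 → ℤ => if thC_memM q a n ∧ thC_cls p n = (0 : ZMod p × ZMod p)
        then (1 : ℕ) else 0) := by
    intro n i
    have hL := thC_single_memL p q a i
    simp only [thC_memM_add_iff_of_memL hL, thC_cls_add, thC_cls_of_memL hL, add_zero]
  rw [← thC_sum_box_shift h.N_pos hper s]
  refine Finset.sum_congr rfl fun r _ => ?_
  have hiff : thC_memM q a ((fun i => (r i : ℤ)) + s) ↔ thC_memM q a (fun i => (r i : ℤ)) :=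
    ⟨fun h' => by simpa using thC_memM_add h' (thC_memM_neg hs), fun h' => thC_memM_add h' hs⟩
  simp only [hiff, thC_cls_add, hsw]
  have : (thC_cls p (fun i => (r i : ℤ)) + -w = 0) ↔ thC_cls p (fun i => (r i : ℤ)) = w := by
    rw [← sub_eq_add_neg, sub_eq_zero]
  simp only [this]


/-! ### Orthogonality on the box -/

theorem thC_sum_exp_range (N : ℕ) (hN : 0 < N) (r : ℕ) (hr : r < N) :
    ∑ k ∈ Finset.range N, cexp (2 * π * I * ((r : ℂ) * (k : ℂ)) / N) =
      if r = 0 then (N : ℂ) else 0 := by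
  split_ifs with h0
  · subst h0
    simp
  · set ζ : ℂ := cexp (2 * π * I * ((r : ℤ) : ℂ) / N) with hζ
    have hζ1 : ζ ≠ 1 := by
      rw [hζ, Ne, thC_exp_int_div _ hN.ne']
      intro hd
      have := Int.le_of_dvd (by exact_mod_cast Nat.pos_of_ne_zero h0) hd
      omega
    have hζN : ζ ^ N = 1 := by
      rw [hζ, ← Complex.exp_nat_mul]
      have : (N : ℂ) * (2 * π * I * ((r : ℤ) : ℂ) / N) = (r : ℤ) * (2 * π * I) := by
        have hN' : (N : ℂ) ≠ 0 := by exact_mod_cast hN.ne'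
        field_simp
      rw [this]
      exact Complex.exp_int_mul_two_pi_mul_I _
    have e : ∀ k : ℕ, cexp (2 * π * I * ((r : ℂ) * (k : ℂ)) / N) = ζ ^ k := by
      intro k
      rw [hζ, ← Complex.exp_nat_mul]
      congr 1
      push_cast
      ring
    simp_rw [e]
    have := mul_geom_sum ζ N
    rw [hζN, sub_self] at this
    rcases mul_eq_zero.1 this with h1 | h1
    · exact absurd (sub_eq_zero.1 h1) hζ1
    · exact h1

theorem thC_sum_chi_box (r : Fin 4 → ℕ) (hr : r ∈ thC_box (thC_N p q))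
    (hp : 0 < p) (hq : 0 < q) :
    ∑ n' ∈ thC_box (thC_N p q), thC_chi p q (fun i => (n' i : ℤ)) (fun i => (r i : ℤ)) =
      if r = 0 then ((∏ i, thC_N p q i : ℕ) : ℂ) else 0 := by
  have e : ∀ n' : Fin 4 → ℕ, thC_chi p q (fun i => (n' i : ℤ)) (fun i => (r i : ℤ)) =
      ∏ i, cexp (2 * π * I * ((r i : ℂ) * (n' i : ℂ)) / (thC_N p q i : ℕ)) := by
    intro n'
    rw [thC_chi, Finset.mul_sum, Complex.exp_sum]
    refine Finset.prod_congr rfl fun i _ => ?_
    congr 1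
    simp only [thC_N]
    push_cast
    ring
  simp_rw [e]
  unfold thC_box
  have hps := Finset.prod_univ_sum (fun i => Finset.range (thC_N p q i))
    (fun i (k : ℕ) => cexp (2 * π * I * ((r i : ℂ) * (k : ℂ)) / (thC_N p q i : ℕ)))
  rw [← hps]
  have e2 : ∀ i, ∑ k ∈ Finset.range (thC_N p q i),
      cexp (2 * π * I * ((r i : ℂ) * (k : ℂ)) / (thC_N p q i : ℕ)) =
      if r i = 0 then ((thC_N p q i : ℕ) : ℂ) else 0 := by
    intro i
    refine thC_sum_exp_range _ (thC_N_pos hp hq i) _ ?_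
    simp only [thC_box, Fintype.mem_piFinset, Finset.mem_range] at hr
    exact hr i
  simp_rw [e2]
  rw [Finset.prod_ite_zero]
  have : (∀ i ∈ (Finset.univ : Finset (Fin 4)), r i = 0) ↔ r = 0 := by
    constructor
    · intro h; funext i; exact h i (Finset.mem_univ _)
    · intro h i _; rw [h]; rfl
  simp only [this]
  push_cast
  rfl

theorem thC_prod_N (p q : ℕ) : ∏ i, thC_N p q i = 16 * p ^ 2 * q ^ 2 := by
  simp only [thC_N, thC_m, Fin.prod_univ_four]
  simp only [Matrix.cons_val_zero, Matrix.cons_val_one, Matrix.cons_val]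
  ring

theorem thC_zero_mem_box (hp : 0 < p) (hq : 0 < q) : (0 : Fin 4 → ℕ) ∈ thC_box (thC_N p q) := by
  simp only [thC_box, Fintype.mem_piFinset, Finset.mem_range, Pi.zero_apply]
  exact thC_N_pos hp hq

/-- The character sum of `f~` for `n' ∈ M`, in terms of the fibre counts. -/
theorem thC_Hyp.sum_of_memM [NeZero p] (h : thC_Hyp p q a) (f : ZMod p × ZMod p → ℂ)
    {n' : Fin 4 → ℤ} (hn' : thC_memM q a n') :
    ∑ r ∈ thC_box (thC_N p q),
      thC_tilde p q a f (fun i => (r i : ℤ)) * thC_chi p q n' (fun i => (r i : ℤ)) =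
      (thC_cnt p q a 0 : ℂ) *
        ∑ w, f w * ZMod.stdAddChar (N := p) (thC_Bbar p q w (thC_cls p n')) := by
  have e : ∀ n : Fin 4 → ℤ, thC_tilde p q a f n * thC_chi p q n' n =
      thC_tilde p q a (fun w => f w * ZMod.stdAddChar (N := p) (thC_Bbar p q w (thC_cls p n')))
        n := by
    intro n
    unfold thC_tilde
    by_cases hn : thC_memM q a n
    · rw [if_pos hn, if_pos hn, h.chi_of_memM hn hn']
    · rw [if_neg hn, if_neg hn, zero_mul]
  simp_rw [e]
  rw [thC_sum_fiber, Finset.mul_sum]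
  refine Finset.sum_congr rfl fun w _ => ?_
  rw [h.cnt_eq w]

open Classical in
/-- The fibres have `4q` elements. -/
theorem thC_Hyp.cnt_zero [NeZero p] (h : thC_Hyp p q a) : thC_cnt p q a 0 = 4 * q := by
  haveI : Fact p.Prime := ⟨h.hp⟩
  set c := thC_cnt p q a 0 with hc
  -- the double sum, computed in two ways
  have hδ : ∀ n' : Fin 4 → ℤ, ∑ r ∈ thC_box (thC_N p q),
      thC_tilde p q a (Pi.single 0 1) (fun i => (r i : ℤ)) *
        thC_chi p q n' (fun i => (r i : ℤ)) = if thC_memM q a n' then (c : ℂ) else 0 := by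
    intro n'
    by_cases hn' : thC_memM q a n'
    · rw [if_pos hn', h.sum_of_memM _ hn', ← hc]
      rw [Finset.sum_eq_single 0]
      · simp [thC_Bbar]
      · intro w _ hw
        simp [Pi.single_eq_of_ne hw]
      · simp
    · rw [if_neg hn', h.sum_eq_zero_of_not_memM _ hn']
  have h1 : ∑ n' ∈ thC_box (thC_N p q), ∑ r ∈ thC_box (thC_N p q),
      thC_tilde p q a (Pi.single 0 1) (fun i => (r i : ℤ)) *
        thC_chi p q (fun i => (n' i : ℤ)) (fun i => (r i : ℤ)) = (c : ℂ) * ((p : ℂ) ^ 2 * c) := by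
    simp_rw [hδ]
    have e2 : ∑ n' ∈ thC_box (thC_N p q),
        (if thC_memM q a (fun i => (n' i : ℤ)) then (c : ℂ) else 0) =
        (c : ℂ) * ∑ n' ∈ thC_box (thC_N p q),
          thC_tilde p q a (fun _ => 1) (fun i => (n' i : ℤ)) := by
      rw [Finset.mul_sum]
      refine Finset.sum_congr rfl fun n' _ => ?_
      unfold thC_tilde
      by_cases hn : thC_memM q a (fun i => (n' i : ℤ))
      · rw [if_pos hn, if_pos hn, mul_one]
      · rw [if_neg hn, if_neg hn, mul_zero]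
    rw [e2, thC_sum_fiber]
    congr 1
    simp_rw [h.cnt_eq, mul_one]
    rw [Finset.sum_const, Finset.card_univ, nsmul_eq_mul, ← hc]
    simp [ZMod.card, pow_two]
  have h2 : ∑ n' ∈ thC_box (thC_N p q), ∑ r ∈ thC_box (thC_N p q),
      thC_tilde p q a (Pi.single 0 1) (fun i => (r i : ℤ)) *
        thC_chi p q (fun i => (n' i : ℤ)) (fun i => (r i : ℤ)) =
      ((16 * p ^ 2 * q ^ 2 : ℕ) : ℂ) := by
    rw [Finset.sum_comm]
    simp_rw [← Finset.mul_sum]
    rw [Finset.sum_eq_single_of_mem 0 (thC_zero_mem_box h.hp.pos h.hq.pos)]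
    · rw [thC_sum_chi_box 0 (thC_zero_mem_box h.hp.pos h.hq.pos) h.hp.pos h.hq.pos, if_pos rfl,
        thC_prod_N]
      have : thC_tilde p q a (Pi.single 0 1) (fun i => (((0 : Fin 4 → ℕ) i : ℕ) : ℤ)) = 1 := by
        unfold thC_tilde
        have h0 : (fun i => (((0 : Fin 4 → ℕ) i : ℕ) : ℤ)) = (0 : Fin 4 → ℤ) := by
          funext i; simp
        rw [h0, if_pos thC_memM_zero]
        have h00 : thC_cls p (0 : Fin 4 → ℤ) = 0 := by simp [thC_cls]
        rw [h00, Pi.single_eq_same]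
      rw [this, one_mul]
    · intro r hr hr0
      rw [thC_sum_chi_box r hr h.hp.pos h.hq.pos, if_neg hr0, mul_zero]
  have h3 : ((c * (p ^ 2 * c) : ℕ) : ℂ) = ((16 * p ^ 2 * q ^ 2 : ℕ) : ℂ) := by
    rw [← h2, h1]; push_cast; ring
  have h4 : c * (p ^ 2 * c) = 16 * p ^ 2 * q ^ 2 := by exact_mod_cast h3
  have hp0 : 0 < p ^ 2 := pow_pos h.hp.pos 2
  have h5 : p ^ 2 * (c * c) = p ^ 2 * ((4 * q) * (4 * q)) := by
    rw [show p ^ 2 * (c * c) = c * (p ^ 2 * c) by ring, h4]; ring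
  have h6 : c * c = (4 * q) * (4 * q) := Nat.eq_of_mul_eq_mul_left hp0 h5
  exact Nat.mul_self_inj.1 h6

/-- **(σ)** The finite Fourier transform over the box of `f~` is `4q` times `(F f)~`, where
`F f (w) = ∑ f(w') ψ(B̄(w', w))` is the Fourier transform on `𝔽_p²`. -/
theorem thC_hat_tilde [NeZero p] (h : thC_Hyp p q a) (f : ZMod p × ZMod p → ℂ)
    (n' : Fin 4 → ℤ) :
    ∑ r ∈ Fintype.piFinset (fun i => Finset.range (2 * thC_m p q i)),
      thC_tilde p q a f (fun i => (r i : ℤ)) *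
        cexp (2 * π * I * ∑ i, ((r i : ℂ) * (n' i : ℂ)) / (2 * (thC_m p q i : ℂ))) =
      4 * (q : ℂ) * thC_tilde p q a
        (fun w => ∑ w', f w' * ZMod.stdAddChar (N := p) (thC_Bbar p q w' w)) n' := by
  have e : ∀ r : Fin 4 → ℕ,
      cexp (2 * π * I * ∑ i, ((r i : ℂ) * (n' i : ℂ)) / (2 * (thC_m p q i : ℂ))) =
        thC_chi p q n' (fun i => (r i : ℤ)) := by
    intro r
    simp [thC_chi]
  simp_rw [e]
  have hbox : Fintype.piFinset (fun i => Finset.range (2 * thC_m p q i)) =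
      thC_box (thC_N p q) := rfl
  rw [hbox]
  by_cases hn' : thC_memM q a n'
  · rw [h.sum_of_memM f hn', h.cnt_zero]
    unfold thC_tilde
    rw [if_pos hn']
    push_cast
    ring
  · rw [h.sum_eq_zero_of_not_memM f hn']
    unfold thC_tilde
    rw [if_neg hn', mul_zero]

end Fermat.Agent.S16
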