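import Mathlib

set_option autoImplicit false

namespace Fermat.Agent.S16

open Finset

section gauss

variable {F : Type*} [Field F] [Fintype F]

/-- The complex-valued quadratic character. -/
noncomputable def thG_chi (F : Type*) [Field F] [Fintype F] : MulChar F ℂ :=
  letI := Classical.decEq F
  (quadraticChar F).ringHomComp (Int.castRingHom ℂ)

theorem thG_chi_apply (a : F) :
    thG_chi F a = ((letI := Classical.decEq F; quadraticChar F a : ℤ) : ℂ) := by
  classical
  simp [thG_chi, MulChar.ringHomComp_apply]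

theorem thG_chi_isQuadratic : (thG_chi F).IsQuadratic := by
  classical
  exact (quadraticChar_isQuadratic F).comp _

theorem thG_chi_ne_one (hF : ringChar F ≠ 2) : thG_chi F ≠ 1 := by
  classical
  intro h
  obtain ⟨a, ha⟩ := quadraticChar_exists_neg_one' hF
  have h1 : thG_chi F a = 1 := by rw [h]; exact MulChar.one_apply a.isUnit
  rw [thG_chi_apply] at h1
  have h2 : (quadraticChar F (a : F) : ℤ) = -1 := by convert ha
  rw [h2] at h1
  norm_num at h1

theorem thG_chi_of_not_isSquare {a : F} (h : ¬ IsSquare a) : thG_chi F a = -1 := by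
  classical
  rw [thG_chi_apply]
  have : quadraticChar F a = -1 := quadraticChar_neg_one_iff_not_isSquare.2 h
  simp [this]

/-- One-dimensional quadratic exponential sum in terms of the Gauss sum. -/
theorem thG_sum_one (hF : ringChar F ≠ 2) (ψ : AddChar F ℂ) (hψ : ψ.IsPrimitive)
    (u : F) (hu : u ≠ 0) :
    ∑ x : F, ψ (u * x ^ 2) = thG_chi F u * gaussSum (thG_chi F) ψ := by
  classical
  have h1 : ∑ x : F, ψ (u * x ^ 2) =
      ∑ y : F, ((quadraticChar F y : ℤ) + 1 : ℂ) * ψ (u * y) := by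
    have e1 : ∀ x : F, ψ (u * x ^ 2) = ∑ y : F, if x ^ 2 = y then ψ (u * y) else 0 := by
      intro x
      rw [Finset.sum_ite_eq]
      simp
    simp_rw [e1]
    rw [Finset.sum_comm]
    refine Finset.sum_congr rfl fun y _ => ?_
    rw [← Finset.sum_filter, Finset.sum_const, nsmul_eq_mul]
    congr 1
    have := quadraticChar_card_sqrts hF y
    have h2 : ({x : F | x ^ 2 = y} : Set F).toFinset = Finset.univ.filter (fun x => x ^ 2 = y) := by
      ext x; simp
    rw [h2] at this
    have h3 : ((#(Finset.univ.filter (fun x : F => x ^ 2 = y)) : ℤ) : ℂ) =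
        ((quadraticChar F y + 1 : ℤ) : ℂ) := by rw [this]
    push_cast at h3
    exact h3
  rw [h1]
  simp_rw [add_mul, one_mul]
  rw [Finset.sum_add_distrib]
  have h2 : ∑ y : F, ψ (u * y) = 0 := by
    have := AddChar.sum_mulShift (R := F) (R' := ℂ) u hψ
    rw [if_neg hu] at this
    simp_rw [mul_comm u]
    simpa using this
  rw [h2, add_zero]
  -- the remaining sum is a Gauss sum for the shifted character
  have h3 : ∑ y : F, ((quadraticChar F y : ℤ) : ℂ) * ψ (u * y) =
      gaussSum (thG_chi F) (ψ.mulShift u) := by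
    simp only [gaussSum, AddChar.mulShift_apply, thG_chi_apply]
  rw [h3]
  have h4 := gaussSum_mulShift_eq (thG_chi F) ψ (Units.mk0 u hu)
  rw [Units.val_mk0] at h4
  rw [h4, (thG_chi_isQuadratic (F := F)).inv]

/-- **(E2)** The two-dimensional quadratic exponential sum of an anisotropic diagonal form
over a finite field of odd characteristic equals `-#F`. -/
theorem thG_sum (hF : ringChar F ≠ 2) (ψ : AddChar F ℂ) (hψ : ψ.IsPrimitive)
    (u v : F) (hu : u ≠ 0) (hv : v ≠ 0) (h : ¬ IsSquare (-(u * v))) :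
    ∑ x : F, ∑ y : F, ψ (u * x ^ 2 + v * y ^ 2) = -(Fintype.card F : ℂ) := by
  classical
  simp_rw [AddChar.map_add_eq_mul]
  rw [← Finset.sum_mul_sum, thG_sum_one hF ψ hψ u hu, thG_sum_one hF ψ hψ v hv]
  have hsq := gaussSum_sq (thG_chi_ne_one hF) (thG_chi_isQuadratic (F := F)) hψ
  have e : thG_chi F u * gaussSum (thG_chi F) ψ * (thG_chi F v * gaussSum (thG_chi F) ψ) =
      thG_chi F u * thG_chi F v * gaussSum (thG_chi F) ψ ^ 2 := by ring
  rw [e, hsq, ← mul_assoc, ← map_mul, ← map_mul]
  have : u * v * -1 = -(u * v) := by ring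
  rw [this, thG_chi_of_not_isSquare h]
  ring

end gauss

/-- **(E2)** for `ZMod p`. -/
theorem thG_sum_zmod (p : ℕ) [Fact p.Prime] (hp2 : p ≠ 2) (ψ : AddChar (ZMod p) ℂ)
    (hψ : ψ.IsPrimitive) (u v : ZMod p) (hu : u ≠ 0) (hv : v ≠ 0) (h : ¬ IsSquare (-(u * v))) :
    ∑ x : ZMod p, ∑ y : ZMod p, ψ (u * x ^ 2 + v * y ^ 2) = -(p : ℂ) := by
  have := thG_sum (F := ZMod p) (by rw [ZMod.ringChar_zmod_n]; exact hp2) ψ hψ u v hu hv h
  rwa [ZMod.card] at this

end Fermat.Agent.S16
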