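import Mathlib
import Fermat.Agent.S16.ThB
import Fermat.Agent.S16.ThC
import Fermat.Agent.S16.ThGauss

set_option autoImplicit false

namespace Fermat.Agent.S16

open Finset Complex Real

variable {p q : ℕ} {a : ℤ}

/-! ### `f~` in the shapes of package [TB] -/

theorem thC_tilde_periodic (a : ℤ) (f : ZMod p × ZMod p → ℂ) :
    thB_Periodic (thC_m p q) (thC_tilde p q a f) := by
  intro n n' hd
  have hL : thC_memL p q a (n - n') := by
    have h0 := hd 0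
    have h1 := hd 1
    have h2 := hd 2
    have h3 := hd 3
    simp only [thC_m, Matrix.cons_val_zero, Matrix.cons_val_one, Matrix.cons_val] at h0 h1 h2 h3
    push_cast at h0 h1 h2 h3
    obtain ⟨c0, hc0⟩ := h0
    obtain ⟨c1, hc1⟩ := h1
    obtain ⟨c2, hc2⟩ := h2
    obtain ⟨c3, hc3⟩ := h3
    refine ⟨⟨?_, ?_, ?_⟩, ?_, ?_⟩
    · simp only [Pi.sub_apply]
      exact ⟨c0 - q * c1, by rw [hc0, hc1]; ring⟩
    · simp only [Pi.sub_apply]
      exact ⟨p * c2 - p * q * c3, by rw [hc2, hc3]; ring⟩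
    · simp only [Pi.sub_apply]
      exact ⟨2 * a * c1 + 2 * p * c3, by rw [hc1, hc3]; ring⟩
    · simp only [Pi.sub_apply]
      exact ⟨2 * c2, by rw [hc2]; ring⟩
    · simp only [Pi.sub_apply]
      exact ⟨2 * q * c3, by rw [hc3]; ring⟩
  have := thC_tilde_add_of_memL f hL n'
  rw [← this]
  congr 1
  abel

/-- **(σ)** in the shape of [TB]. -/
theorem thC_hat_tilde' [NeZero p] (h : thC_Hyp p q a) (f : ZMod p × ZMod p → ℂ)
    (n' : Fin 4 → ℤ) :
    thB_hat (thC_m p q) (thC_tilde p q a f) n' =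
      4 * (q : ℂ) * thC_tilde p q a
        (fun w => ∑ w', f w' * ZMod.stdAddChar (N := p) (thC_Bbar p q w' w)) n' :=
  thC_hat_tilde h f n'

/-- **(τ)** in the shape of [TB]. -/
theorem thC_expQ_tilde [NeZero p] (h : thC_Hyp p q a) (f : ZMod p × ZMod p → ℂ)
    (n : Fin 4 → ℤ) :
    cexp (2 * π * I * thB_Q (thC_m p q) n) * thC_tilde p q a f n =
      thC_tilde p q a (fun w => ZMod.stdAddChar (N := p) (thC_Nbar p q w) * f w) n := by
  unfold thC_tilde
  by_cases hn : thC_memM q a n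
  · rw [if_pos hn, if_pos hn]
    unfold thB_Q
    rw [h.expQ_of_memM hn]
  · rw [if_neg hn, if_neg hn, mul_zero]

/-! ### Finite Fourier analysis on `𝔽_p²` -/

section fp

variable [Fact p.Prime]

theorem thC_Nbar_add (h : thC_Hyp p q a) (x y : ZMod p × ZMod p) :
    thC_Nbar p q (x + y) = thC_Nbar p q x + thC_Nbar p q y + thC_Bbar p q x y := by
  have h2 : (2 : ZMod p) ≠ 0 := h.two_ne_zero
  have hq : (q : ZMod p) ≠ 0 := h.q_ne_zero
  have h4 : (4 : ZMod p) ≠ 0 := by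
    have : (4 : ZMod p) = 2 * 2 := by norm_num
    rw [this]; exact mul_ne_zero h2 h2
  simp only [thC_Nbar, thC_Bbar, Prod.fst_add, Prod.snd_add]
  field_simp
  ring

theorem thC_Nbar_smul (c : ZMod p) (y : ZMod p × ZMod p) :
    thC_Nbar p q (c • y) = c ^ 2 * thC_Nbar p q y := by
  simp only [thC_Nbar, Prod.smul_fst, Prod.smul_snd, smul_eq_mul]
  ring

theorem thC_Bbar_smul_right (c : ZMod p) (x y : ZMod p × ZMod p) :
    thC_Bbar p q x (c • y) = c * thC_Bbar p q x y := by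
  simp only [thC_Bbar, Prod.smul_fst, Prod.smul_snd, smul_eq_mul]
  ring

theorem thC_Nbar_zero : thC_Nbar p q (0 : ZMod p × ZMod p) = 0 := by
  simp [thC_Nbar]

/-- The Gauss sum of the anisotropic form `j N̄`. -/
theorem thC_gauss (h : thC_Hyp p q a) (hanis : ¬ IsSquare (-(q : ZMod p))) (j : ZMod p)
    (hj : j ≠ 0) :
    ∑ w : ZMod p × ZMod p, ZMod.stdAddChar (N := p) (j * thC_Nbar p q w) = -(p : ℂ) := by
  have h2 : (2 : ZMod p) ≠ 0 := h.two_ne_zero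
  have hq : (q : ZMod p) ≠ 0 := h.q_ne_zero
  have h4 : (4 : ZMod p) ≠ 0 := by
    have : (4 : ZMod p) = 2 * 2 := by norm_num
    rw [this]; exact mul_ne_zero h2 h2
  have h4q : (4 * (q : ZMod p)) ≠ 0 := mul_ne_zero h4 hq
  rw [Fintype.sum_prod_type]
  have := thG_sum_zmod p h.hp2 (ZMod.stdAddChar (N := p)) (ZMod.isPrimitive_stdAddChar p)
    (j * 4⁻¹) (j * (4 * (q : ZMod p))⁻¹) (mul_ne_zero hj (inv_ne_zero h4))
    (mul_ne_zero hj (inv_ne_zero h4q)) ?_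
  · rw [← this]
    refine Finset.sum_congr rfl fun x _ => Finset.sum_congr rfl fun y _ => ?_
    congr 1
    simp only [thC_Nbar]
    field_simp
  · intro hsq
    apply hanis
    have e : -(j * 4⁻¹ * (j * (4 * (q : ZMod p))⁻¹)) =
        -(q : ZMod p) * (j * (4 * (q : ZMod p))⁻¹) ^ 2 := by
      field_simp
    rw [e] at hsq
    obtain ⟨r, hr⟩ := hsq
    have hne : j * (4 * (q : ZMod p))⁻¹ ≠ 0 := mul_ne_zero hj (inv_ne_zero h4q)
    obtain ⟨c, hc⟩ : ∃ c, c = j * (4 * (q : ZMod p))⁻¹ := ⟨_, rfl⟩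
    rw [← hc] at hr hne
    refine ⟨r * c⁻¹, ?_⟩
    calc -(q : ZMod p) = (-(q : ZMod p) * c ^ 2) * (c⁻¹) ^ 2 := by
          field_simp
      _ = (r * r) * (c⁻¹) ^ 2 := by rw [hr]
      _ = r * c⁻¹ * (r * c⁻¹) := by ring

/-- Orthogonality on `𝔽_p²` for the pairing `B̄`. -/
theorem thC_sum_Bbar (h : thC_Hyp p q a) (w : ZMod p × ZMod p) :
    ∑ w' : ZMod p × ZMod p, ZMod.stdAddChar (N := p) (thC_Bbar p q w' w) =
      if w = 0 then (p : ℂ) ^ 2 else 0 := by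
  have h2 : (2 : ZMod p) ≠ 0 := h.two_ne_zero
  have hq : (q : ZMod p) ≠ 0 := h.q_ne_zero
  have h2q : (2 * (q : ZMod p)) ≠ 0 := mul_ne_zero h2 hq
  have e : ∀ w' : ZMod p × ZMod p, ZMod.stdAddChar (N := p) (thC_Bbar p q w' w) =
      ZMod.stdAddChar (N := p) (w'.1 * (2⁻¹ * w.1)) *
        ZMod.stdAddChar (N := p) (w'.2 * ((2 * (q : ZMod p))⁻¹ * w.2)) := by
    intro w'
    rw [← AddChar.map_add_eq_mul]
    congr 1
    simp only [thC_Bbar]
    field_simp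
  simp_rw [e]
  rw [Fintype.sum_prod_type]
  simp_rw [← Finset.mul_sum]
  rw [← Finset.sum_mul]
  rw [AddChar.sum_mulShift _ (ZMod.isPrimitive_stdAddChar p),
    AddChar.sum_mulShift _ (ZMod.isPrimitive_stdAddChar p)]
  have hc1 : 2⁻¹ * w.1 = 0 ↔ w.1 = 0 := by simp [h2]
  have hc2 : (2 * (q : ZMod p))⁻¹ * w.2 = 0 ↔ w.2 = 0 := by simp [h2, hq]
  have hw0 : w = 0 ↔ w.1 = 0 ∧ w.2 = 0 := by
    rw [Prod.ext_iff]; rfl
  simp only [hc1, hc2, hw0]
  by_cases h1 : w.1 = 0 <;> by_cases h2' : w.2 = 0 <;> simp [h1, h2', ZMod.card, pow_two]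

end fp

end Fermat.Agent.S16
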