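import Mathlib

set_option autoImplicit false

namespace Fermat.Agent.S16

open scoped NumberTheorySymbols

/-- Auxiliary: a prime `q ≡ 3 mod 4`, `q > p`, in a prescribed nonzero class modulo `p`. -/
theorem thE_exists_prime_class (p : ℕ) (hp : p.Prime) (hp2 : p ≠ 2) (t : ZMod p) (ht : t ≠ 0) :
    ∃ q : ℕ, q.Prime ∧ q % 4 = 3 ∧ p < q ∧ (q : ZMod p) = t := by
  have : Fact p.Prime := ⟨hp⟩
  have hcop : Nat.Coprime 4 p := by
    have : Nat.Coprime 2 p := (Nat.coprime_primes Nat.prime_two hp).2 (Ne.symm hp2)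
    exact Nat.Coprime.pow_left 2 this
  obtain ⟨k, hk4, hkp⟩ := Nat.chineseRemainder hcop 3 t.val
  have hk4' : k % 4 = 3 := hk4
  have hkt : (k : ZMod p) = t := by
    have := (ZMod.natCast_eq_natCast_iff k t.val p).2 hkp
    rw [this, ZMod.natCast_zmod_val]
  have hkp0 : ¬ p ∣ k := by
    intro h
    apply ht
    rw [← hkt]
    exact (ZMod.natCast_eq_zero_iff k p).2 h
  have hkcop : Nat.Coprime k (4 * p) := by
    refine Nat.Coprime.mul_right ?_ ?_
    · have h2 : Nat.Coprime k 2 := by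
        rw [Nat.coprime_comm, Nat.Prime.coprime_iff_not_dvd Nat.prime_two]
        omega
      exact Nat.Coprime.pow_right 2 h2
    · rw [Nat.coprime_comm]
      exact (Nat.Prime.coprime_iff_not_dvd hp).2 hkp0
  have : NeZero (4 * p) := ⟨by have := hp.pos; omega⟩
  have hunit : IsUnit ((k : ℕ) : ZMod (4 * p)) := (ZMod.isUnit_iff_coprime k (4 * p)).2 hkcop
  obtain ⟨q, hqp, hq, hqk⟩ := Nat.forall_exists_prime_gt_and_eq_mod hunit p
  have hmod : q ≡ k [MOD 4 * p] := (ZMod.natCast_eq_natCast_iff q k (4 * p)).1 hqk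
  refine ⟨q, hq, ?_, hqp, ?_⟩
  · have h4 : q ≡ k [MOD 4] := hmod.of_mul_right p
    have : q % 4 = k % 4 := h4
    omega
  · have hpm : q ≡ k [MOD p] := hmod.of_mul_left 4
    rw [(ZMod.natCast_eq_natCast_iff q k p).2 hpm, hkt]

/-- **(E1)** For every odd prime `p` there are a prime `q ≡ 3 mod 4`, `q ≠ p`, such that `-q` is
not a square modulo `p`, and an integer `a` with `q ∣ a² + p`. -/
theorem thE_exists_q (p : ℕ) (hp : p.Prime) (hp2 : p ≠ 2) :
    ∃ q a : ℕ, q.Prime ∧ q % 4 = 3 ∧ q ≠ p ∧ ¬ IsSquare (-(q : ZMod p)) ∧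
      (q : ℤ) ∣ (a : ℤ) ^ 2 + p := by
  have : Fact p.Prime := ⟨hp⟩
  obtain ⟨s, hs⟩ := FiniteField.exists_nonsquare (F := ZMod p) (by
    rw [ZMod.ringChar_zmod_n]; exact hp2)
  have hs0 : s ≠ 0 := by
    rintro rfl
    exact hs ⟨0, by simp⟩
  obtain ⟨q, hq, hq4, hpq, hqt⟩ := thE_exists_prime_class p hp hp2 (-s) (neg_ne_zero.2 hs0)
  have : Fact q.Prime := ⟨hq⟩
  have hq2 : q ≠ 2 := by rintro rfl; omega
  have hqp : q ≠ p := (Nat.ne_of_lt hpq).symm
  have hnsq : ¬ IsSquare (-(q : ZMod p)) := by rw [hqt, neg_neg]; exact hs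
  -- Legendre symbols
  have h1 : legendreSym p (-(q : ℤ)) = -1 := by
    rw [legendreSym.eq_neg_one_iff]
    push_cast
    exact hnsq
  have hq1 : legendreSym q (-1) = -1 := by
    rw [legendreSym.at_neg_one hq2, ZMod.χ₄_nat_three_mod_four hq4]
  have h2 : legendreSym q (-(p : ℤ)) = 1 := by
    have e1 : legendreSym q (-(p : ℤ)) = legendreSym q (-1) * legendreSym q p := by
      rw [← legendreSym.mul]; congr 1; ring
    have e2 : legendreSym p (-(q : ℤ)) = legendreSym p (-1) * legendreSym p q := by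
      rw [← legendreSym.mul]; congr 1; ring
    rw [e1, hq1]
    rw [e2, legendreSym.at_neg_one hp2] at h1
    rcases Nat.Prime.eq_two_or_odd hp with h | h
    · exact absurd h hp2
    have hp4 : p % 4 = 1 ∨ p % 4 = 3 := by omega
    rcases hp4 with hp4 | hp4
    · rw [ZMod.χ₄_nat_one_mod_four hp4, one_mul] at h1
      rw [legendreSym.quadratic_reciprocity_one_mod_four hp4 hq2, h1]
      norm_num
    · rw [ZMod.χ₄_nat_three_mod_four hp4] at h1
      rw [legendreSym.quadratic_reciprocity_three_mod_four hp4 hq4]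
      have : legendreSym p q = 1 := by linarith
      rw [this]
      norm_num
  have hp0 : ((-(p : ℤ) : ℤ) : ZMod q) ≠ 0 := by
    push_cast
    rw [neg_ne_zero]
    intro h
    have := (ZMod.natCast_eq_zero_iff p q).1 h
    exact hqp ((Nat.prime_dvd_prime_iff_eq hq hp).1 this)
  obtain ⟨b, hb⟩ := (legendreSym.eq_one_iff q hp0).1 h2
  refine ⟨q, b.val, hq, hq4, hqp, hnsq, ?_⟩
  rw [← ZMod.intCast_zmod_eq_zero_iff_dvd]
  push_cast at hb ⊢
  rw [ZMod.natCast_zmod_val, pow_two, ← hb]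
  ring

end Fermat.Agent.S16
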