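import Mathlib
import Fermat.Agent.S16.ThCDefs
import Fermat.Agent.S16.ThGauss

/-!
# S16, (C1): the `𝔽_p²`-algebra of the orbit of `1_L`

`F f w = ∑_{w'} f(w') ψ(B̄(w', w))` is the finite Fourier transform on `𝔽_p²` (the inner sum of
`thC_hat_tilde`), `σ f = -(1/p) F f`.  The orbit consists of `λ_∞ = δ₀` and
`λ_j = -(1/p) ψ(j N̄)`, `j ∈ 𝔽_p`:

* `σ λ_∞ = λ_0`, `σ λ_0 = λ_∞`, `σ λ_j = λ_{-1/j}` (`j ≠ 0`);
* `ψ(N̄) λ_j = λ_{j+1}`, `ψ(N̄) λ_∞ = λ_∞`.
-/

set_option autoImplicit false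

noncomputable section

namespace Fermat.Agent.S16

open Finset

variable (p q : ℕ) [Fact p.Prime]

/-- The finite Fourier transform on `𝔽_p²` with respect to the pairing `B̄`. -/
def thFp_F (f : ZMod p × ZMod p → ℂ) (w : ZMod p × ZMod p) : ℂ :=
  ∑ w' : ZMod p × ZMod p, f w' * ZMod.stdAddChar (N := p) (thC_Bbar p q w' w)

/-- `σ f = -(1/p) F f`: the action of `S` on the weights. -/
def thFp_sig (f : ZMod p × ZMod p → ℂ) (w : ZMod p × ZMod p) : ℂ :=
  -(1 / (p : ℂ)) * thFp_F p q f w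

/-- The orbit of `δ₀`: `λ_∞ = δ₀`, `λ_j = -(1/p) ψ(j N̄)`. -/
def thFp_lam : Option (ZMod p) → ZMod p × ZMod p → ℂ
  | none => Pi.single 0 1
  | some j => fun w => -(1 / (p : ℂ)) * ZMod.stdAddChar (N := p) (j * thC_Nbar p q w)

variable {p q}

theorem thFp_lam_none : thFp_lam p q none = Pi.single 0 1 := rfl

theorem thFp_lam_some (j : ZMod p) (w : ZMod p × ZMod p) :
    thFp_lam p q (some j) w = -(1 / (p : ℂ)) * ZMod.stdAddChar (N := p) (j * thC_Nbar p q w) :=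
  rfl

theorem thFp_Bbar_zero_left (w : ZMod p × ZMod p) : thC_Bbar p q 0 w = 0 := by
  simp [thC_Bbar]

theorem thFp_Nbar_zero : thC_Nbar p q (0 : ZMod p × ZMod p) = 0 := by
  simp [thC_Nbar]

theorem thFp_Nbar_neg (w : ZMod p × ZMod p) : thC_Nbar p q (-w) = thC_Nbar p q w := by
  simp [thC_Nbar]

/-- `N̄(w + t) = N̄(w) + N̄(t) + B̄(w, t)`. -/
theorem thFp_Nbar_add (hq : (q : ZMod p) ≠ 0) (h2 : (2 : ZMod p) ≠ 0) (w t : ZMod p × ZMod p) :
    thC_Nbar p q (w + t) = thC_Nbar p q w + thC_Nbar p q t + thC_Bbar p q w t := by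
  simp only [thC_Nbar, thC_Bbar, Prod.fst_add, Prod.snd_add]
  have h4 : (4 : ZMod p) ≠ 0 := by
    have : (4 : ZMod p) = 2 * 2 := by norm_num
    rw [this]; exact mul_ne_zero h2 h2
  field_simp
  ring

/-- `F δ₀ = 1`. -/
theorem thFp_F_single (w : ZMod p × ZMod p) : thFp_F p q (Pi.single 0 1) w = 1 := by
  classical
  rw [thFp_F, Fintype.sum_eq_single (0 : ZMod p × ZMod p)]
  · simp [thFp_Bbar_zero_left]
  · intro x hx
    simp [hx]

/-- `F 1 = p² δ₀` (nondegeneracy of `B̄`). -/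
theorem thFp_F_one (hq : (q : ZMod p) ≠ 0) (h2 : (2 : ZMod p) ≠ 0) (w : ZMod p × ZMod p) :
    thFp_F p q (fun _ => 1) w = if w = 0 then (p : ℂ) ^ 2 else 0 := by
  classical
  have hψ : (ZMod.stdAddChar (N := p)).IsPrimitive := ZMod.isPrimitive_stdAddChar p
  have e : ∀ w' : ZMod p × ZMod p,
      (1 : ℂ) * ZMod.stdAddChar (N := p) (thC_Bbar p q w' w) =
        ZMod.stdAddChar (N := p) (w'.1 * (2⁻¹ * w.1)) *
          ZMod.stdAddChar (N := p) (w'.2 * ((2 * (q : ZMod p))⁻¹ * w.2)) := by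
    intro w'
    rw [one_mul, ← AddChar.map_add_eq_mul]
    congr 1
    simp only [thC_Bbar]
    field_simp
  rw [thFp_F]
  simp_rw [e]
  rw [Fintype.sum_prod_type]
  simp_rw [← Finset.mul_sum]
  rw [← Finset.sum_mul]
  have s1 := AddChar.sum_mulShift (R := ZMod p) (R' := ℂ) (2⁻¹ * w.1) hψ
  have s2 := AddChar.sum_mulShift (R := ZMod p) (R' := ℂ) ((2 * (q : ZMod p))⁻¹ * w.2) hψ
  rw [s1, s2, ZMod.card]
  have h2q : (2 * (q : ZMod p)) ≠ 0 := mul_ne_zero h2 hq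
  by_cases hw : w = 0
  · subst hw
    simp [sq]
  · rw [if_neg hw]
    have : w.1 ≠ 0 ∨ w.2 ≠ 0 := by
      by_contra hcon
      rw [not_or, not_not, not_not] at hcon
      exact hw (Prod.ext hcon.1 hcon.2)
    rcases this with h | h
    · rw [if_neg (mul_ne_zero (inv_ne_zero h2) h), Nat.cast_zero, zero_mul]
    · rw [if_neg (mul_ne_zero (inv_ne_zero h2q) h), Nat.cast_zero, mul_zero]

/-- The Gauss sum of `N̄`: `∑_w ψ(j N̄(w)) = -p` for `j ≠ 0`. -/
theorem thFp_gauss (hp2 : p ≠ 2) (hq : (q : ZMod p) ≠ 0)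
    (hns : ¬ IsSquare (-(q : ZMod p))) (j : ZMod p) (hj : j ≠ 0) :
    ∑ w : ZMod p × ZMod p, ZMod.stdAddChar (N := p) (j * thC_Nbar p q w) = -(p : ℂ) := by
  classical
  have hψ : (ZMod.stdAddChar (N := p)).IsPrimitive := ZMod.isPrimitive_stdAddChar p
  have h2 : (2 : ZMod p) ≠ 0 := by
    intro h0
    have h1 : ((2 : ℕ) : ZMod p) = 0 := by exact_mod_cast h0
    have := (ZMod.natCast_eq_zero_iff 2 p).1 h1
    exact hp2 ((Nat.prime_dvd_prime_iff_eq Fact.out Nat.prime_two).1 this)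
  have h4 : (4 : ZMod p) ≠ 0 := by
    have : (4 : ZMod p) = 2 * 2 := by norm_num
    rw [this]; exact mul_ne_zero h2 h2
  have h4q : (4 * (q : ZMod p)) ≠ 0 := mul_ne_zero h4 hq
  set c : ZMod p := j * (4 * (q : ZMod p))⁻¹ with hc
  have hc0 : c ≠ 0 := mul_ne_zero hj (inv_ne_zero h4q)
  have hu : c * (q : ZMod p) ≠ 0 := mul_ne_zero hc0 hq
  have hns' : ¬ IsSquare (-((c * (q : ZMod p)) * c)) := by
    rintro ⟨s, hs⟩
    apply hns
    refine ⟨s * c⁻¹, ?_⟩
    have : (s * c⁻¹) * (s * c⁻¹) = (s * s) * (c⁻¹ * c⁻¹) := by ring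
    rw [this, ← hs]
    field_simp
  have key := thG_sum_zmod p hp2 (ZMod.stdAddChar (N := p)) hψ (c * (q : ZMod p)) c hu hc0 hns'
  rw [Fintype.sum_prod_type, ← key]
  refine Finset.sum_congr rfl fun x _ => Finset.sum_congr rfl fun y _ => ?_
  congr 1
  simp only [thC_Nbar, hc]
  ring

/-- `F(ψ(j N̄)) = -p ψ(j' N̄)` for `j j' = -1` (completing the square). -/
theorem thFp_F_gauss (hp2 : p ≠ 2) (hq : (q : ZMod p) ≠ 0)
    (hns : ¬ IsSquare (-(q : ZMod p))) (j j' : ZMod p) (hjj : j * j' = -1)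
    (w : ZMod p × ZMod p) :
    thFp_F p q (fun w => ZMod.stdAddChar (N := p) (j * thC_Nbar p q w)) w =
      -(p : ℂ) * ZMod.stdAddChar (N := p) (j' * thC_Nbar p q w) := by
  classical
  have h2 : (2 : ZMod p) ≠ 0 := by
    intro h0
    have h1 : ((2 : ℕ) : ZMod p) = 0 := by exact_mod_cast h0
    have := (ZMod.natCast_eq_zero_iff 2 p).1 h1
    exact hp2 ((Nat.prime_dvd_prime_iff_eq Fact.out Nat.prime_two).1 this)
  have hj : j ≠ 0 := by
    rintro rfl
    rw [zero_mul] at hjj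
    exact one_ne_zero (neg_eq_zero.1 hjj.symm)
  have hj' : j' = -j⁻¹ := by
    have : j * j' * j⁻¹ = -1 * j⁻¹ := by rw [hjj]
    rw [mul_comm j j', mul_assoc, mul_inv_cancel₀ hj, mul_one] at this
    rw [this]; ring
  have e : ∀ w' : ZMod p × ZMod p,
      ZMod.stdAddChar (N := p) (j * thC_Nbar p q w') *
          ZMod.stdAddChar (N := p) (thC_Bbar p q w' w) =
        ZMod.stdAddChar (N := p) (j * thC_Nbar p q (w' + j⁻¹ • w)) *
          ZMod.stdAddChar (N := p) (j' * thC_Nbar p q w) := by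
    intro w'
    rw [← AddChar.map_add_eq_mul, ← AddChar.map_add_eq_mul]
    congr 1
    rw [thFp_Nbar_add hq h2, hj']
    have e1 : thC_Nbar p q (j⁻¹ • w) = j⁻¹ ^ 2 * thC_Nbar p q w := by
      simp only [thC_Nbar, Prod.smul_fst, Prod.smul_snd, smul_eq_mul]
      ring
    have e2 : thC_Bbar p q w' (j⁻¹ • w) = j⁻¹ * thC_Bbar p q w' w := by
      simp only [thC_Bbar, Prod.smul_fst, Prod.smul_snd, smul_eq_mul]
      ring
    rw [e1, e2]
    field_simp
    ring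
  rw [thFp_F]
  simp_rw [e]
  rw [← Finset.sum_mul]
  have hshift : ∑ w' : ZMod p × ZMod p,
      ZMod.stdAddChar (N := p) (j * thC_Nbar p q (w' + j⁻¹ • w)) =
        ∑ w' : ZMod p × ZMod p, ZMod.stdAddChar (N := p) (j * thC_Nbar p q w') :=
    Fintype.sum_equiv (Equiv.addRight (j⁻¹ • w)) _ _ (fun _ => rfl)
  rw [hshift, thFp_gauss hp2 hq hns j hj]

/-! ### The action of `σ` and `τ` on the orbit -/

/-- `σ λ_∞ = λ_0`. -/
theorem thFp_sig_none : thFp_sig p q (thFp_lam p q none) = thFp_lam p q (some 0) := by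
  funext w
  rw [thFp_sig, thFp_lam_none, thFp_F_single, thFp_lam_some]
  simp

/-- `σ λ_0 = λ_∞`. -/
theorem thFp_sig_zero (hp2 : p ≠ 2) (hq : (q : ZMod p) ≠ 0) :
    thFp_sig p q (thFp_lam p q (some 0)) = thFp_lam p q none := by
  classical
  have h2 : (2 : ZMod p) ≠ 0 := by
    intro h0
    have h1 : ((2 : ℕ) : ZMod p) = 0 := by exact_mod_cast h0
    have := (ZMod.natCast_eq_zero_iff 2 p).1 h1
    exact hp2 ((Nat.prime_dvd_prime_iff_eq Fact.out Nat.prime_two).1 this)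
  have hp0 : (p : ℂ) ≠ 0 := Nat.cast_ne_zero.2 (Fact.out : p.Prime).ne_zero
  funext w
  have e : thFp_F p q (thFp_lam p q (some 0)) w =
      -(1 / (p : ℂ)) * thFp_F p q (fun _ => 1) w := by
    simp only [thFp_F, thFp_lam_some, zero_mul, AddChar.map_zero_eq_one, mul_one]
    rw [Finset.mul_sum]
    refine Finset.sum_congr rfl fun x _ => ?_
    ring
  rw [thFp_sig, e, thFp_F_one hq h2, thFp_lam_none]
  by_cases hw : w = 0
  · subst hw
    rw [if_pos rfl, Pi.single_eq_same]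
    field_simp
  · rw [if_neg hw, Pi.single_eq_of_ne hw]
    simp

/-- `σ λ_j = λ_{j'}` for `j j' = -1`. -/
theorem thFp_sig_some (hp2 : p ≠ 2) (hq : (q : ZMod p) ≠ 0)
    (hns : ¬ IsSquare (-(q : ZMod p))) (j j' : ZMod p) (hjj : j * j' = -1) :
    thFp_sig p q (thFp_lam p q (some j)) = thFp_lam p q (some j') := by
  classical
  have hp0 : (p : ℂ) ≠ 0 := Nat.cast_ne_zero.2 (Fact.out : p.Prime).ne_zero
  funext w
  have e : thFp_F p q (thFp_lam p q (some j)) w =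
      -(1 / (p : ℂ)) *
        thFp_F p q (fun w => ZMod.stdAddChar (N := p) (j * thC_Nbar p q w)) w := by
    simp only [thFp_F, thFp_lam_some]
    rw [Finset.mul_sum]
    refine Finset.sum_congr rfl fun x _ => ?_
    ring
  rw [thFp_sig, e, thFp_F_gauss hp2 hq hns j j' hjj, thFp_lam_some]
  field_simp

/-- `σ λ_j = λ_{-1/j}` for `j ≠ 0`. -/
theorem thFp_sig_some' (hp2 : p ≠ 2) (hq : (q : ZMod p) ≠ 0)
    (hns : ¬ IsSquare (-(q : ZMod p))) (j : ZMod p) (hj : j ≠ 0) :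
    thFp_sig p q (thFp_lam p q (some j)) = thFp_lam p q (some (-j⁻¹)) :=
  thFp_sig_some hp2 hq hns j (-j⁻¹) (by rw [mul_neg, mul_inv_cancel₀ hj])

/-- `ψ(N̄) λ_j = λ_{j+1}`. -/
theorem thFp_tau_some (j : ZMod p) (w : ZMod p × ZMod p) :
    ZMod.stdAddChar (N := p) (thC_Nbar p q w) * thFp_lam p q (some j) w =
      thFp_lam p q (some (j + 1)) w := by
  rw [thFp_lam_some, thFp_lam_some, add_mul, one_mul, AddChar.map_add_eq_mul]
  ring

/-- `ψ(N̄)⁻¹ λ_j = λ_{j-1}`. -/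
theorem thFp_tau_inv_some (j : ZMod p) (w : ZMod p × ZMod p) :
    ZMod.stdAddChar (N := p) (-thC_Nbar p q w) * thFp_lam p q (some j) w =
      thFp_lam p q (some (j - 1)) w := by
  rw [thFp_lam_some, thFp_lam_some, sub_mul, one_mul, sub_eq_add_neg,
    AddChar.map_add_eq_mul]
  ring

/-- `ψ(N̄) λ_∞ = λ_∞`. -/
theorem thFp_tau_none (w : ZMod p × ZMod p) :
    ZMod.stdAddChar (N := p) (thC_Nbar p q w) * thFp_lam p q none w = thFp_lam p q none w := by
  classical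
  rw [thFp_lam_none]
  by_cases hw : w = 0
  · subst hw
    simp [thFp_Nbar_zero]
  · rw [Pi.single_eq_of_ne hw, mul_zero]

/-- `ψ(N̄)⁻¹ λ_∞ = λ_∞`. -/
theorem thFp_tau_inv_none (w : ZMod p × ZMod p) :
    ZMod.stdAddChar (N := p) (-thC_Nbar p q w) * thFp_lam p q none w =
      thFp_lam p q none w := by
  classical
  rw [thFp_lam_none]
  by_cases hw : w = 0
  · subst hw
    simp [thFp_Nbar_zero]
  · rw [Pi.single_eq_of_ne hw, mul_zero]

/-- The orbit functions are even. -/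
theorem thFp_lam_neg (x : Option (ZMod p)) (w : ZMod p × ZMod p) :
    thFp_lam p q x (-w) = thFp_lam p q x w := by
  classical
  cases x with
  | none =>
    rw [thFp_lam_none]
    by_cases hw : w = 0
    · subst hw; simp
    · rw [Pi.single_eq_of_ne hw, Pi.single_eq_of_ne (neg_ne_zero.2 hw)]
  | some j => rw [thFp_lam_some, thFp_lam_some, thFp_Nbar_neg]

/-- The values of the orbit functions at `0`: `λ_∞(0) = 1`, `λ_j(0) = -1/p`. -/
theorem thFp_lam_none_zero : thFp_lam p q none 0 = 1 := by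
  rw [thFp_lam_none, Pi.single_eq_same]

theorem thFp_lam_some_zero (j : ZMod p) : thFp_lam p q (some j) 0 = -(1 / (p : ℂ)) := by
  rw [thFp_lam_some, thFp_Nbar_zero, mul_zero, AddChar.map_zero_eq_one, mul_one]

end Fermat.Agent.S16
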