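import Mathlib

/-!
# S16, package (C1), step [W']: the orbit lemma

Let `p` be a prime and `Φ : Option (ZMod p) → ℍ → ℂ` a family of functions indexed by
`ℙ¹(𝔽_p) = 𝔽_p ∪ {∞}` (`none = ∞`) such that

* `Φ ∞ ∣[k] T = Φ ∞`, `Φ j ∣[k] T = Φ (j + 1)`,
* `Φ ∞ ∣[k] S = Φ 0`, `Φ 0 ∣[k] S = Φ ∞`, `Φ j ∣[k] S = Φ (-1/j)` for `j ≠ 0`.

Then `Φ ∞ ∣[k] γ = Φ (d/c)` for every `γ = (a b; c d) ∈ SL₂(ℤ)`; in particular `Φ ∞` is
invariant under `Γ₀(p)` and every `SL₂(ℤ)`-translate of `Φ ∞` is one of the `Φ x`.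

This is applied to the theta series `Φ ∞ = Θ_L`, `Φ j = -(1/p) ∑_{n ∈ M} e(j Q(n)) e(Q(n) z)` of a
quaternary lattice `L` of level `p` with dual `M`.
-/

set_option autoImplicit false

namespace Fermat.Agent.S16

open UpperHalfPlane ModularGroup Matrix Matrix.SpecialLinearGroup CongruenceSubgroup
open scoped MatrixGroups ModularForm

section idx

variable (p : ℕ) [Fact p.Prime]

/-- The point `(c : d) ∈ ℙ¹(𝔽_p)` attached to the bottom row of `γ`, written as `d / c`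
(`none` if `p ∣ c`). -/
noncomputable def thO_idx (γ : SL(2, ℤ)) : Option (ZMod p) :=
  if ((γ 1 0 : ℤ) : ZMod p) = 0 then none
  else some (((γ 1 1 : ℤ) : ZMod p) / ((γ 1 0 : ℤ) : ZMod p))

/-- The action of `T` on the indices. -/
def thO_actT : Option (ZMod p) → Option (ZMod p)
  | none => none
  | some j => some (j + 1)

/-- The action of `T⁻¹` on the indices. -/
def thO_actTi : Option (ZMod p) → Option (ZMod p)
  | none => none
  | some j => some (j - 1)

/-- The action of `S` on the indices. -/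
noncomputable def thO_actS : Option (ZMod p) → Option (ZMod p)
  | none => some 0
  | some j => if j = 0 then none else some (-j⁻¹)

theorem thO_actT_actTi (x : Option (ZMod p)) : thO_actT p (thO_actTi p x) = x := by
  cases x <;> simp [thO_actT, thO_actTi]

theorem thO_actS_actS (x : Option (ZMod p)) : thO_actS p (thO_actS p x) = x := by
  cases x with
  | none => simp [thO_actS]
  | some j =>
    by_cases hj : j = 0
    · simp [thO_actS, hj]
    · simp [thO_actS, hj]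

theorem thO_idx_eq_none_iff (γ : SL(2, ℤ)) : thO_idx p γ = none ↔ γ ∈ Gamma0 p := by
  unfold thO_idx
  rw [Gamma0_mem]
  by_cases h : ((γ 1 0 : ℤ) : ZMod p) = 0 <;> simp [h]

theorem thO_idx_of_mem (γ : SL(2, ℤ)) (h : γ ∈ Gamma0 p) : thO_idx p γ = none :=
  (thO_idx_eq_none_iff p γ).mpr h

theorem thO_idx_one : thO_idx p 1 = none :=
  thO_idx_of_mem p 1 (one_mem _)

/-- the determinant relation modulo `p`. -/
theorem thO_det_mod (γ : SL(2, ℤ)) :
    ((γ 0 0 : ℤ) : ZMod p) * ((γ 1 1 : ℤ) : ZMod p) -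
      ((γ 0 1 : ℤ) : ZMod p) * ((γ 1 0 : ℤ) : ZMod p) = 1 := by
  have h := γ.det_coe
  rw [Matrix.det_fin_two] at h
  have h2 := congrArg (fun t : ℤ => (t : ZMod p)) h
  simpa using h2

theorem thO_entries_mul_T (γ : SL(2, ℤ)) :
    (γ * T) 1 0 = γ 1 0 ∧ (γ * T) 1 1 = γ 1 0 + γ 1 1 := by
  constructor
  · simp [Matrix.SpecialLinearGroup.coe_mul, coe_T, Matrix.mul_apply, Fin.sum_univ_two]
  · simp [Matrix.SpecialLinearGroup.coe_mul, coe_T, Matrix.mul_apply, Fin.sum_univ_two]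

theorem thO_entries_mul_Tinv (γ : SL(2, ℤ)) :
    (γ * T⁻¹) 1 0 = γ 1 0 ∧ (γ * T⁻¹) 1 1 = -γ 1 0 + γ 1 1 := by
  constructor
  · simp [Matrix.SpecialLinearGroup.coe_mul, Matrix.mul_apply, Fin.sum_univ_two]
  · simp [Matrix.SpecialLinearGroup.coe_mul, Matrix.mul_apply, Fin.sum_univ_two]

theorem thO_entries_mul_S (γ : SL(2, ℤ)) :
    (γ * S) 1 0 = γ 1 1 ∧ (γ * S) 1 1 = -γ 1 0 := by
  constructor
  · simp [Matrix.SpecialLinearGroup.coe_mul, coe_S, Matrix.mul_apply, Fin.sum_univ_two]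
  · simp [Matrix.SpecialLinearGroup.coe_mul, coe_S, Matrix.mul_apply, Fin.sum_univ_two]

theorem thO_idx_mul_T (γ : SL(2, ℤ)) : thO_idx p (γ * T) = thO_actT p (thO_idx p γ) := by
  obtain ⟨h1, h2⟩ := thO_entries_mul_T γ
  unfold thO_idx
  rw [h1, h2]
  by_cases h : ((γ 1 0 : ℤ) : ZMod p) = 0
  · simp [h, thO_actT]
  · simp only [h, if_false, thO_actT, Option.some.injEq]
    push_cast
    field_simp
    ring

theorem thO_idx_mul_Tinv (γ : SL(2, ℤ)) : thO_idx p (γ * T⁻¹) = thO_actTi p (thO_idx p γ) := by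
  obtain ⟨h1, h2⟩ := thO_entries_mul_Tinv γ
  unfold thO_idx
  rw [h1, h2]
  by_cases h : ((γ 1 0 : ℤ) : ZMod p) = 0
  · simp [h, thO_actTi]
  · simp only [h, if_false, thO_actTi, Option.some.injEq]
    push_cast
    field_simp
    ring

theorem thO_idx_mul_S (γ : SL(2, ℤ)) : thO_idx p (γ * S) = thO_actS p (thO_idx p γ) := by
  obtain ⟨h1, h2⟩ := thO_entries_mul_S γ
  have hdet := thO_det_mod p γ
  unfold thO_idx
  rw [h1, h2]
  by_cases hc : ((γ 1 0 : ℤ) : ZMod p) = 0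
  · have hd : ((γ 1 1 : ℤ) : ZMod p) ≠ 0 := by
      intro hd
      rw [hc, hd] at hdet
      simp at hdet
    simp [hc, hd, thO_actS]
  · by_cases hd : ((γ 1 1 : ℤ) : ZMod p) = 0
    · simp [hc, hd, thO_actS]
    · have hq : ((γ 1 1 : ℤ) : ZMod p) / ((γ 1 0 : ℤ) : ZMod p) ≠ 0 := div_ne_zero hd hc
      simp only [hc, hd, hq, if_false, thO_actS, Option.some.injEq]
      push_cast
      field_simp

end idx

section orbit

variable (p : ℕ) [Fact p.Prime]

/-- **The orbit lemma.** -/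
theorem thO_orbit (k : ℤ) (Φ : Option (ZMod p) → ℍ → ℂ)
    (hT : ∀ x, Φ x ∣[k] T = Φ (thO_actT p x))
    (hS : ∀ x, Φ x ∣[k] S = Φ (thO_actS p x)) (γ : SL(2, ℤ)) :
    Φ none ∣[k] γ = Φ (thO_idx p γ) := by
  have hTi : ∀ x, Φ x ∣[k] T⁻¹ = Φ (thO_actTi p x) := by
    intro x
    have h := hT (thO_actTi p x)
    rw [thO_actT_actTi] at h
    rw [← h, ← SlashAction.slash_mul, mul_inv_cancel, SlashAction.slash_one]
  have hSi : ∀ x, Φ x ∣[k] S⁻¹ = Φ (thO_actS p x) := by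
    intro x
    have h := hS (thO_actS p x)
    rw [thO_actS_actS] at h
    rw [← h, ← SlashAction.slash_mul, mul_inv_cancel, SlashAction.slash_one]
  have hγ : γ ∈ Subgroup.closure ({S, T} : Set SL(2, ℤ)) := by
    rw [SpecialLinearGroup.SL2Z_generators]; trivial
  induction hγ using Subgroup.closure_induction_right with
  | one => rw [SlashAction.slash_one, thO_idx_one]
  | mul_right x hx y hy ih =>
    rcases hy with rfl | hy
    · rw [SlashAction.slash_mul, ih, hS, thO_idx_mul_S]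
    · rw [Set.mem_singleton_iff] at hy
      subst hy
      rw [SlashAction.slash_mul, ih, hT, thO_idx_mul_T]
  | mul_inv_cancel x hx y hy ih =>
    rcases hy with rfl | hy
    · have hidx : thO_idx p (x * S⁻¹) = thO_actS p (thO_idx p x) := by
        have h1 := thO_idx_mul_S p (x * S⁻¹)
        rw [inv_mul_cancel_right] at h1
        rw [h1, thO_actS_actS]
      rw [SlashAction.slash_mul, ih, hSi, hidx]
    · rw [Set.mem_singleton_iff] at hy
      subst hy
      rw [SlashAction.slash_mul, ih, hTi, thO_idx_mul_Tinv]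

/-- `Φ ∞` is invariant under `Γ₀(p)`. -/
theorem thO_invariant (k : ℤ) (Φ : Option (ZMod p) → ℍ → ℂ)
    (hT : ∀ x, Φ x ∣[k] T = Φ (thO_actT p x))
    (hS : ∀ x, Φ x ∣[k] S = Φ (thO_actS p x)) (γ : SL(2, ℤ)) (hγ : γ ∈ Gamma0 p) :
    Φ none ∣[k] γ = Φ none := by
  rw [thO_orbit p k Φ hT hS γ, thO_idx_of_mem p γ hγ]

end orbit

section glue

/-- the slash action of `T` on functions. -/
theorem thO_slash_T_apply (k : ℤ) (f : ℍ → ℂ) (z : ℍ) :
    (f ∣[k] T) z = f ((1 : ℝ) +ᵥ z) := by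
  rw [ModularForm.SL_slash_apply, modular_T_smul]
  have h : denom T z = 1 := by
    simp [denom_apply, coe_T]
  rw [h]
  simp

/-- the slash action of `S` on functions. -/
theorem thO_slash_S_apply (k : ℤ) (f : ℍ → ℂ) (z : ℍ) :
    (f ∣[k] S) z = f (S • z) * (z : ℂ) ^ (-k) := by
  rw [ModularForm.SL_slash_apply, denom_S]

theorem thO_coe_S_smul (z : ℍ) : ((S • z : ℍ) : ℂ) = -1 / (z : ℂ) := by
  rw [modular_S_smul]
  simp [neg_div, inv_neg, one_div]

theorem thO_coe_T_smul (z : ℍ) : (((1 : ℝ) +ᵥ z : ℍ) : ℂ) = (z : ℂ) + 1 := by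
  simp [add_comm]

end glue

end Fermat.Agent.S16
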