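import Mathlib
import Fermat.Agent.S16.GlueDefs
import Fermat.Agent.S16.ThCDefs

/-!
# S16, (C1), package [TF-Q]: the `q`-expansion of the lattice theta series

* `thQ_coeff`: generic regrouping. If `F τ = ∑_n w n · e(N n · τ)` (as a `HasSum`, for every
  `τ ∈ ℍ`) with `N : X → ℕ`, `F` nice, and the support of `w` meets every fibre of `N` in a finite
  set, then the `k`-th coefficient of `qExpansion 1 F` is the finite sum of `w` over the fibre.
* `thQ_hAt`: for the lattice `L` of `ThCDefs` (in the orthogonal coordinates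
  `Q(n) = ∑ n_i² / (4 m_i)`, `m = (1, q, p, pq)`): a modular form of weight 2 and level `Γ₀(p)`
  which is the theta series of `L` has `q`-expansion in `1 + 2 q ℤ[[q]]`, i.e. `s16g_HAt p`.
-/

set_option autoImplicit false

noncomputable section

namespace Fermat.Agent.S16

open UpperHalfPlane ModularFormClass CongruenceSubgroup Function Filter Complex Real
open Fermat.Agent.S22 (IsMF IsNice G0)

/-- Uniqueness of `q`-expansion coefficients for nice functions. -/
theorem thQ_coeff_unique {f : ℍ → ℂ} {c : ℕ → ℂ} (hf : IsNice f)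
    (hs : ∀ τ : ℍ, HasSum (fun m => c m • Function.Periodic.qParam 1 (τ : ℂ) ^ m) (f τ))
    (m : ℕ) : (qExpansion 1 f).coeff m = c m := by
  have h1 := (hasFPowerSeriesOnBall_cuspFunction one_pos hf.analyticAt hs).hasFPowerSeriesAt
  have h2 := hf.analyticAt.hasFPowerSeriesAt
  have h3 := congr_arg (FormalMultilinearSeries.coeff · m) (h1.eq_formalMultilinearSeries h2)
  simp only [FormalMultilinearSeries.coeff_ofScalars] at h3
  rw [qExpansion_coeff, h3]
  ring

/-- `e(k τ) = q^k`. -/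
theorem thQ_exp_eq_qParam_pow (k : ℕ) (τ : ℂ) :
    cexp (2 * π * Complex.I * (k : ℂ) * τ) = Function.Periodic.qParam 1 τ ^ k := by
  rw [Function.Periodic.qParam, ← Complex.exp_nat_mul]
  congr 1
  simp
  ring

/-- **Generic regrouping**: the `q`-expansion of `F = ∑_n w n · e(N n · τ)`. -/
theorem thQ_coeff {X : Type*} (w : X → ℂ) (N : X → ℕ) (F : ℍ → ℂ) (hF : IsNice F)
    (hsum : ∀ τ : ℍ, HasSum (fun n : X => w n * cexp (2 * π * Complex.I * (N n : ℂ) * τ)) (F τ))
    (S : ℕ → Finset X) (hS : ∀ n, w n ≠ 0 → n ∈ S (N n)) (hSN : ∀ k, ∀ n ∈ S k, N n = k)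
    (k : ℕ) : (qExpansion 1 F).coeff k = ∑ n ∈ S k, w n := by
  refine thQ_coeff_unique (c := fun k => ∑ n ∈ S k, w n) hF (fun τ => ?_) k
  have h1 := (hsum τ).tsum_fiberwise N
  have h2 : (fun c : ℕ => ∑' b : N ⁻¹' {c}, w b * cexp (2 * π * Complex.I * (N b : ℂ) * τ)) =
      fun m => (∑ n ∈ S m, w n) • Function.Periodic.qParam 1 (τ : ℂ) ^ m := by
    funext c
    have e1 : (fun b : N ⁻¹' {c} => w b * cexp (2 * π * Complex.I * (N b : ℂ) * τ)) =
        fun b : N ⁻¹' {c} => w b * Function.Periodic.qParam 1 (τ : ℂ) ^ c := by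
      funext b
      have hb : N b = c := b.2
      rw [hb, thQ_exp_eq_qParam_pow]
    rw [e1, tsum_mul_right, smul_eq_mul]
    congr 1
    rw [tsum_subtype (N ⁻¹' {c}) w]
    rw [tsum_eq_sum (s := S c)]
    · refine Finset.sum_congr rfl fun n hn => ?_
      rw [Set.indicator_of_mem]
      exact hSN c n hn
    · intro b hb
      by_cases hbc : b ∈ N ⁻¹' {c}
      · rw [Set.indicator_of_mem hbc]
        by_contra hne
        have := hS b hne
        have hbN : N b = c := hbc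
        rw [hbN] at this
        exact hb this
      · rw [Set.indicator_of_notMem hbc]
  rw [h2] at h1
  exact h1


/-! ### The lattice `L` -/

section lattice

variable {p q : ℕ} {a : ℤ}

/-- The numerator `X(n)` of the diagonal form, on `Fin 4 → ℤ`. -/
def thQ_X (p q : ℕ) (n : Fin 4 → ℤ) : ℤ := thE_X p q (n 0) (n 1) (n 2) (n 3)

/-- The value `Q(n) = X(n) / (4pq)` as a natural number (junk outside the lattice). -/
def thQ_N (p q : ℕ) (n : Fin 4 → ℤ) : ℕ := (thQ_X p q n / (4 * p * q)).toNat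

theorem thQ_X_neg (p q : ℕ) (n : Fin 4 → ℤ) : thQ_X p q (-n) = thQ_X p q n := by
  unfold thQ_X
  simp only [Pi.neg_apply]
  exact thE_X_neg _ _ _ _ _ _

/-- The diagonal form in the shape of the theta series. -/
theorem thQ_Q_eq (hp : p ≠ 0) (hq : q ≠ 0) (n : Fin 4 → ℤ) :
    (∑ i, (n i : ℂ) ^ 2 / (4 * (thC_m p q i : ℂ))) = (thQ_X p q n : ℂ) / (4 * p * q) := by
  have hpC : (p : ℂ) ≠ 0 := by exact_mod_cast hp
  have hqC : (q : ℂ) ≠ 0 := by exact_mod_cast hq
  rw [Fin.sum_univ_four]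
  simp only [thC_m, thQ_X, thE_X, Matrix.cons_val_zero, Matrix.cons_val_one,
    Matrix.cons_val]
  push_cast
  field_simp

/-- On the lattice `L` the form is `ℕ`-valued. -/
theorem thQ_X_of_memL (h : thC_Hyp p q a) {n : Fin 4 → ℤ} (hn : thC_memL p q a n) :
    thQ_X p q n = 4 * p * q * (thQ_N p q n : ℤ) := by
  have hp0 : (0 : ℤ) < p := by exact_mod_cast h.hp.pos
  have hq0 : (0 : ℤ) < q := by exact_mod_cast h.hq.pos
  obtain ⟨⟨h12, h34, h24⟩, h3, h4⟩ := hn
  have hd : (4 * (p : ℤ) * q) ∣ thQ_X p q n :=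
    thE_dvd_of_mem_L p q a h.four_dvd h.ha (thE_isCoprime p q h.hp h.hq h.hp2 h.hqp)
      (n 0) (n 1) (n 2) (n 3) h12 h34 h24 h3 h4
  have hnn : 0 ≤ thQ_X p q n := thE_X_nonneg p q hp0 hq0 _ _ _ _
  have hpos : (0 : ℤ) < 4 * p * q := by positivity
  have hdiv : 0 ≤ thQ_X p q n / (4 * p * q) := Int.ediv_nonneg hnn hpos.le
  unfold thQ_N
  rw [Int.toNat_of_nonneg hdiv, Int.mul_ediv_cancel' hd]

theorem thQ_zero_memL (p q : ℕ) (a : ℤ) : thC_memL p q a 0 :=
  ⟨thC_memM_zero, by simp, by simp⟩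

open Classical in
/-- The finite set of lattice vectors of norm `k`. -/
def thQ_S (p q : ℕ) (a : ℤ) (k : ℕ) : Finset (Fin 4 → ℤ) :=
  (Fintype.piFinset fun _ : Fin 4 =>
    Finset.Icc (-(4 * p * q * k : ℤ)) (4 * p * q * k)).filter
      fun n => thC_memL p q a n ∧ thQ_X p q n = 4 * p * q * k

theorem thQ_abs_le_of_sq_le {x B : ℤ} (h : x ^ 2 ≤ B) : -B ≤ x ∧ x ≤ B := by
  have h1 : |x| ≤ x ^ 2 := by
    rcases abs_cases x with ⟨e, _⟩ | ⟨e, _⟩ <;> rw [e] <;> nlinarith
  have h2 := abs_le.1 (h1.trans h)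
  exact h2

theorem thQ_mem_S (h : thC_Hyp p q a) {n : Fin 4 → ℤ} {k : ℕ} :
    n ∈ thQ_S p q a k ↔ thC_memL p q a n ∧ thQ_X p q n = 4 * p * q * k := by
  classical
  unfold thQ_S
  rw [Finset.mem_filter, and_iff_right_iff_imp]
  rintro ⟨-, hX⟩
  have hp0 : (0 : ℤ) < p := by exact_mod_cast h.hp.pos
  have hq0 : (0 : ℤ) < q := by exact_mod_cast h.hq.pos
  obtain ⟨b0, b1, b2, b3⟩ := thE_sq_le p q hp0 hq0 (n 0) (n 1) (n 2) (n 3)
  rw [Fintype.mem_piFinset]
  intro i
  rw [Finset.mem_Icc, ← hX]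
  fin_cases i
  · exact thQ_abs_le_of_sq_le b0
  · exact thQ_abs_le_of_sq_le b1
  · exact thQ_abs_le_of_sq_le b2
  · exact thQ_abs_le_of_sq_le b3

theorem thQ_S_zero (h : thC_Hyp p q a) : thQ_S p q a 0 = {0} := by
  have hp0 : (0 : ℤ) < p := by exact_mod_cast h.hp.pos
  have hq0 : (0 : ℤ) < q := by exact_mod_cast h.hq.pos
  ext n
  rw [thQ_mem_S h, Finset.mem_singleton]
  constructor
  · rintro ⟨-, hX⟩
    have hX0 : thE_X p q (n 0) (n 1) (n 2) (n 3) = 0 := by
      have : thQ_X p q n = 0 := by rw [hX]; simp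
      exact this
    obtain ⟨e0, e1, e2, e3⟩ := thE_X_eq_zero p q hp0 hq0 _ _ _ _ hX0
    funext i
    fin_cases i
    · exact e0
    · exact e1
    · exact e2
    · exact e3
  · rintro rfl
    refine ⟨thQ_zero_memL p q a, ?_⟩
    simp [thQ_X, thE_X]

/-- The number of lattice vectors of norm `k ≥ 1` is even. -/
theorem thQ_even_card (h : thC_Hyp p q a) {k : ℕ} (hk : 1 ≤ k) :
    Even (thQ_S p q a k).card := by
  have hp0 : (0 : ℤ) < p := by exact_mod_cast h.hp.pos
  have hq0 : (0 : ℤ) < q := by exact_mod_cast h.hq.pos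
  have key : ∑ _n ∈ thQ_S p q a k, (1 : ZMod 2) = 0 := by
    refine Finset.sum_involution (fun n _ => -n) ?_ ?_ ?_ ?_
    · intro n _
      exact CharTwo.add_self_eq_zero (1 : ZMod 2)
    · intro n hn _ hfix
      have hn0 : n = 0 := by
        funext i
        have := congr_fun hfix i
        simp only [Pi.neg_apply, Pi.zero_apply] at this ⊢
        omega
      rw [thQ_mem_S h] at hn
      have hX := hn.2
      rw [hn0] at hX
      have h0 : thQ_X p q 0 = 0 := by simp [thQ_X, thE_X]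
      rw [h0] at hX
      have hpos : (0 : ℤ) < 4 * p * q * k := by
        have : (0 : ℤ) < k := by exact_mod_cast hk
        positivity
      omega
    · intro n hn
      rw [thQ_mem_S h] at hn ⊢
      exact ⟨thC_memL_neg hn.1, by rw [thQ_X_neg]; exact hn.2⟩
    · intro n _
      simp
  rw [Finset.sum_const, nsmul_eq_mul, mul_one] at key
  exact (ZMod.natCast_eq_zero_iff_even).1 key

/-- **The `q`-expansion of the theta series of `L`**: for a weight function `g` which is the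
indicator of `L`, the coefficients of `∑_n g n · e(Q(n) τ)` are the representation numbers. -/
theorem thQ_theta_coeff (h : thC_Hyp p q a) (g : (Fin 4 → ℤ) → ℂ)
    (hg1 : ∀ n, thC_memL p q a n → g n = 1) (hg0 : ∀ n, ¬ thC_memL p q a n → g n = 0)
    (Θ : ℍ → ℂ) (hΘ : IsNice Θ)
    (hsum : ∀ τ : ℍ, HasSum (fun n : Fin 4 → ℤ =>
      g n * cexp (2 * π * Complex.I * (∑ i, (n i : ℂ) ^ 2 / (4 * (thC_m p q i : ℂ))) * τ)) (Θ τ))
    (k : ℕ) : (qExpansion 1 Θ).coeff k = ((thQ_S p q a k).card : ℂ) := by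
  have hpC : (p : ℂ) ≠ 0 := by exact_mod_cast h.hp.ne_zero
  have hqC : (q : ℂ) ≠ 0 := by exact_mod_cast h.hq.ne_zero
  have hmem : ∀ n, g n ≠ 0 → thC_memL p q a n := fun n hn => by
    by_contra hc
    exact hn (hg0 n hc)
  have hsum' : ∀ τ : ℍ, HasSum (fun n : Fin 4 → ℤ =>
      g n * cexp (2 * π * Complex.I * (thQ_N p q n : ℂ) * τ)) (Θ τ) := by
    intro τ
    have e : (fun n : Fin 4 → ℤ =>
        g n * cexp (2 * π * Complex.I * (thQ_N p q n : ℂ) * τ)) = fun n : Fin 4 → ℤ =>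
        g n * cexp (2 * π * Complex.I *
          (∑ i, (n i : ℂ) ^ 2 / (4 * (thC_m p q i : ℂ))) * τ) := by
      funext n
      by_cases hn : g n = 0
      · rw [hn, zero_mul, zero_mul]
      · have hX := thQ_X_of_memL h (hmem n hn)
        rw [thQ_Q_eq h.hp.ne_zero h.hq.ne_zero, hX]
        congr 3
        push_cast
        field_simp
    rw [e]
    exact hsum τ
  have hc := thQ_coeff g (thQ_N p q) Θ hΘ hsum' (thQ_S p q a)
    (fun n hn => by
      rw [thQ_mem_S h]
      exact ⟨hmem n hn, thQ_X_of_memL h (hmem n hn)⟩)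
    (fun k n hn => by
      rw [thQ_mem_S h] at hn
      have hX := thQ_X_of_memL h hn.1
      rw [hn.2] at hX
      have hpos : (0 : ℤ) < 4 * p * q := by
        have hp0 : (0 : ℤ) < p := by exact_mod_cast h.hp.pos
        have hq0 : (0 : ℤ) < q := by exact_mod_cast h.hq.pos
        positivity
      have := mul_left_cancel₀ hpos.ne' hX
      exact_mod_cast this.symm) k
  rw [hc, Finset.sum_congr rfl (fun n hn => hg1 n ((thQ_mem_S h).1 hn).1)]
  simp

/-- **[TF-Q], export**: a modular form of weight 2 and level `Γ₀(p)` which is the theta series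
of the lattice `L` has `q`-expansion in `1 + 2qℤ[[q]]`. -/
theorem thQ_hAt (h : thC_Hyp p q a) (g : (Fin 4 → ℤ) → ℂ)
    (hg1 : ∀ n, thC_memL p q a n → g n = 1) (hg0 : ∀ n, ¬ thC_memL p q a n → g n = 0)
    (Θ : ℍ → ℂ) (hΘ : IsMF (G0 p) 2 Θ)
    (hsum : ∀ τ : ℍ, HasSum (fun n : Fin 4 → ℤ =>
      g n * cexp (2 * π * Complex.I * (∑ i, (n i : ℂ) ^ 2 / (4 * (thC_m p q i : ℂ))) * τ)) (Θ τ)) :
    s16g_HAt p := by
  have hn : IsNice Θ := hΘ.isNice_G0
  refine ⟨Θ, hΘ, ?_, fun k hk => ?_⟩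
  · rw [thQ_theta_coeff h g hg1 hg0 Θ hn hsum 0, thQ_S_zero h]
    simp
  · obtain ⟨r, hr⟩ := thQ_even_card h hk
    refine ⟨(r : ℤ), ?_⟩
    rw [thQ_theta_coeff h g hg1 hg0 Θ hn hsum k, hr]
    push_cast
    ring

end lattice

end Fermat.Agent.S16
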