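/-
S16, (C1), package [TF1]: the slash glue for the product theta series `thB_theta` (helper18's
[TB]): the theta series as a function on the upper half plane, holomorphy, boundedness at `i∞`,
the action of `T` and `S` in weight 2, and the assembly `thS_isMF` through the criterion
`isMF_criterion` of S20.
-/
import Mathlib
import Fermat.Agent.S16.ThB
import Fermat.Agent.S20.Conj

set_option autoImplicit false

noncomputable section

namespace Fermat.Agent.S16

open UpperHalfPlane hiding I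
open CongruenceSubgroup Filter Function Complex
open Fermat.Agent.S22 (IsMF G0 G1)
open Fermat.Agent.S20 (isMF_criterion)
open scoped MatrixGroups ModularForm Topology Manifold Real

variable {k : ℕ}

/-- The theta series `thB_theta m f` as a function on the upper half plane. -/
def thS_fun (m : Fin k → ℕ) (f : (Fin k → ℤ) → ℂ) : ℍ → ℂ := fun z => thB_theta m f (z : ℂ)

theorem thS_fun_apply (m : Fin k → ℕ) (f : (Fin k → ℤ) → ℂ) (z : ℍ) :
    thS_fun m f z = thB_theta m f (z : ℂ) := rfl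

theorem thS_congr (m : Fin k → ℕ) {f g : (Fin k → ℤ) → ℂ} (h : ∀ n, f n = g n) :
    thS_fun m f = thS_fun m g := by
  have : f = g := funext h
  rw [this]

theorem thS_smul (m : Fin k → ℕ) (c : ℂ) (f : (Fin k → ℤ) → ℂ) :
    thS_fun m (fun n => c * f n) = c • thS_fun m f := by
  funext z
  simp only [thS_fun, Pi.smul_apply, smul_eq_mul, thB_theta, thB_term]
  rw [← tsum_mul_left]
  exact tsum_congr (fun n => by ring)

theorem thS_mdiff {m : Fin k → ℕ} (hm : ∀ i, 0 < m i) {f : (Fin k → ℤ) → ℂ}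
    (hf : thB_Periodic m f) : MDiff (thS_fun m f) := by
  rw [UpperHalfPlane.mdifferentiable_iff]
  have h := thB_differentiableOn hm hf
  refine h.congr (fun z hz => ?_)
  simp only [comp_apply, thS_fun, ofComplex_apply_of_im_pos hz]

theorem thS_bdd {m : Fin k → ℕ} (hm : ∀ i, 0 < m i) {f : (Fin k → ℤ) → ℂ}
    (hf : thB_Periodic m f) : IsBoundedAtImInfty (thS_fun m f) := by
  obtain ⟨C, hC⟩ := thB_bounded hm hf
  rw [UpperHalfPlane.isBoundedAtImInfty_iff]
  exact ⟨C, 1, fun z hz => hC (z : ℂ) hz⟩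

theorem thS_slash_T (m : Fin k → ℕ) (f : (Fin k → ℤ) → ℂ) :
    thS_fun m f ∣[(2 : ℤ)] ModularGroup.T =
      thS_fun m (fun n => cexp (2 * π * I * thB_Q m n) * f n) := by
  funext z
  rw [ModularForm.SL_slash_apply]
  have hd : denom ModularGroup.T z = 1 := by
    rw [ModularGroup.denom_apply]
    simp [ModularGroup.T]
  have hz : ((ModularGroup.T • z : ℍ) : ℂ) = (z : ℂ) + 1 := by
    rw [modular_T_smul, coe_vadd]
    push_cast
    ring
  rw [hd, one_zpow, mul_one, thS_fun_apply, hz, thB_translate]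
  rfl

theorem thS_slash_S (m : Fin 4 → ℕ) (hm : ∀ i, 0 < m i) (P : ℕ)
    (hP : m 0 * m 1 * m 2 * m 3 = P ^ 2) {f : (Fin 4 → ℤ) → ℂ} (hf : thB_Periodic m f) :
    thS_fun m f ∣[(2 : ℤ)] ModularGroup.S = (-(1 / (4 * (P : ℂ)))) • thS_fun m (thB_hat m f) := by
  funext z
  rw [ModularForm.SL_slash_apply, ModularGroup.denom_S]
  have hz0 : (z : ℂ) ≠ 0 := ne_zero z
  have hz : ((ModularGroup.S • z : ℍ) : ℂ) = -1 / (z : ℂ) := by
    rw [modular_S_smul]
    show (-(z : ℂ))⁻¹ = _
    field_simp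
  have hP0 : (P : ℂ) ≠ 0 := by
    intro h
    have hP' : P = 0 := by exact_mod_cast h
    rw [hP'] at hP
    have : 0 < m 0 * m 1 * m 2 * m 3 :=
      Nat.mul_pos (Nat.mul_pos (Nat.mul_pos (hm 0) (hm 1)) (hm 2)) (hm 3)
    omega
  rw [thS_fun_apply, hz, thB_inversion hm hf z.im_pos, thB_prefactor_four m hm P hP z.im_pos]
  simp only [Pi.smul_apply, smul_eq_mul, thS_fun_apply]
  rw [zpow_neg, show ((2 : ℤ)) = ((2 : ℕ) : ℤ) from rfl, zpow_natCast]
  field_simp

/-- **Assembly**: a theta function whose `SL(2,ℤ)`-translates all are theta functions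
of periodic weights, and which is fixed by `Γ₀(N)`, is a modular form of weight 2. -/
theorem thS_isMF (N : ℕ) [NeZero N] {X : Type*} {m : Fin k → ℕ} (hm : ∀ i, 0 < m i)
    (f : X → (Fin k → ℤ) → ℂ) (hf : ∀ x, thB_Periodic m (f x)) (x₀ : X)
    (idx : SL(2, ℤ) → X)
    (horb : ∀ γ : SL(2, ℤ), thS_fun m (f x₀) ∣[(2 : ℤ)] γ = thS_fun m (f (idx γ)))
    (hinv : ∀ γ ∈ Gamma0 N, idx γ = x₀) : IsMF (G0 N) 2 (thS_fun m (f x₀)) := by
  refine isMF_criterion N 2 _ (thS_mdiff hm (hf x₀)) (fun γ hγ => ?_) (fun g => ?_)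
  · rw [horb γ, hinv γ hγ]
  · rw [horb g]
    exact thS_bdd hm (hf _)

end Fermat.Agent.S16
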