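import Mathlib
import Fermat.Agent.S16.ThOrbit
import Fermat.Agent.S16.ThSlash
import Fermat.Agent.S16.ThCFp
import Fermat.Agent.S16.ThFp
import Fermat.Agent.S16.ThQExp
import Fermat.Agent.S16.ThE

/-!
# S16, package (C1): the final instantiation `thF_hAt`

For every prime `p ≥ 5` there is a modular form of weight 2 and level `Γ₀(p)` with `q`-expansion
in `1 + 2qℤ[[q]]`: the theta series of the quaternary lattice `L` of level `p`
(`thC_memL p q a`, in the orthogonal coordinates of the diagonal lattice `⟨1, q, p, pq⟩`).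

Ingredients (all on main): the one- and four-variable theta series with periodic weights
(`ThA`, `ThB`), the slash glue (`ThSlash`), the character sums over the box (`ThC`, `ThCFp`),
the orbit of `δ₀` under the finite Weil representation of `𝔽_p²` (`ThFp`, `ThGauss`),
the orbit lemma (`ThOrbit`), the `q`-expansion (`ThQExp`) and the auxiliary prime (`ThE`).
-/

set_option autoImplicit false

namespace Fermat.Agent.S16

open UpperHalfPlane hiding I
open ModularGroup CongruenceSubgroup Complex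
open Fermat.Agent.S22 (IsMF G0)
open scoped MatrixGroups ModularForm Real

variable {p q : ℕ} {a : ℤ}

/-- The weights on `ℤ⁴` of the orbit of `1_L`: `Λ_∞ = 1_L`, `Λ_j = -(1/p) 1_M e(j Q)`. -/
noncomputable def thF_Lam (p q : ℕ) (a : ℤ) [Fact p.Prime] (x : Option (ZMod p)) :
    (Fin 4 → ℤ) → ℂ :=
  thC_tilde p q a (thFp_lam p q x)

theorem thF_periodic [Fact p.Prime] (x : Option (ZMod p)) :
    thB_Periodic (thC_m p q) (thF_Lam p q a x) :=
  thC_tilde_periodic a _

theorem thF_m_pos (h : thC_Hyp p q a) (i : Fin 4) : 0 < thC_m p q i := by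
  have hp := h.hp.pos
  have hq := h.hq.pos
  fin_cases i
  · simp [thC_m]
  · simpa [thC_m] using hq
  · simpa [thC_m] using hp
  · simpa [thC_m] using Nat.mul_pos hp hq

theorem thF_m_prod (p q : ℕ) :
    thC_m p q 0 * thC_m p q 1 * thC_m p q 2 * thC_m p q 3 = (p * q) ^ 2 := by
  simp [thC_m]
  ring

/-- the `T`-rule on the weights. -/
theorem thF_T [Fact p.Prime] (h : thC_Hyp p q a) (x : Option (ZMod p)) (n : Fin 4 → ℤ) :
    cexp (2 * π * I * thB_Q (thC_m p q) n) * thF_Lam p q a x n =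
      thF_Lam p q a (thO_actT p x) n := by
  unfold thF_Lam
  rw [thC_expQ_tilde h]
  congr 1
  funext w
  cases x with
  | none => exact thFp_tau_none w
  | some j => exact thFp_tau_some j w

theorem thF_tilde_smul (c : ℂ) (f : ZMod p × ZMod p → ℂ) (n : Fin 4 → ℤ) :
    c * thC_tilde p q a f n = thC_tilde p q a (fun w => c * f w) n := by
  unfold thC_tilde
  split_ifs <;> simp

/-- the action of `σ` on the orbit, in terms of the index map of `ThOrbit`. -/
theorem thF_sig [Fact p.Prime] (h : thC_Hyp p q a) (hns : ¬ IsSquare (-(q : ZMod p)))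
    (x : Option (ZMod p)) :
    thFp_sig p q (thFp_lam p q x) = thFp_lam p q (thO_actS p x) := by
  cases x with
  | none => exact thFp_sig_none
  | some j =>
    by_cases hj : j = 0
    · subst hj
      simpa [thO_actS] using thFp_sig_zero (p := p) (q := q) h.hp2 h.q_ne_zero
    · simpa [thO_actS, hj] using thFp_sig_some' (p := p) (q := q) h.hp2 h.q_ne_zero hns j hj

/-- the `S`-rule on the weights. -/
theorem thF_S [Fact p.Prime] (h : thC_Hyp p q a) (hns : ¬ IsSquare (-(q : ZMod p)))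
    (x : Option (ZMod p)) (n : Fin 4 → ℤ) :
    -(1 / (4 * ((p * q : ℕ) : ℂ))) * thB_hat (thC_m p q) (thF_Lam p q a x) n =
      thF_Lam p q a (thO_actS p x) n := by
  have hp0 : (p : ℂ) ≠ 0 := by exact_mod_cast h.hp.ne_zero
  have hq0 : (q : ℂ) ≠ 0 := by exact_mod_cast h.hq.ne_zero
  unfold thF_Lam
  rw [thC_hat_tilde' h, ← thF_sig h hns x, ← mul_assoc, thF_tilde_smul]
  congr 1
  funext w
  unfold thFp_sig thFp_F
  push_cast
  field_simp

/-- the family of theta functions indexed by `ℙ¹(𝔽_p)`. -/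
noncomputable def thF_Phi (p q : ℕ) (a : ℤ) [Fact p.Prime] (x : Option (ZMod p)) : ℍ → ℂ :=
  thS_fun (thC_m p q) (thF_Lam p q a x)

theorem thF_Phi_T [Fact p.Prime] (h : thC_Hyp p q a) (x : Option (ZMod p)) :
    thF_Phi p q a x ∣[(2 : ℤ)] T = thF_Phi p q a (thO_actT p x) := by
  unfold thF_Phi
  rw [thS_slash_T]
  exact thS_congr _ (thF_T h x)

theorem thF_Phi_S [Fact p.Prime] (h : thC_Hyp p q a) (hns : ¬ IsSquare (-(q : ZMod p)))
    (x : Option (ZMod p)) :
    thF_Phi p q a x ∣[(2 : ℤ)] S = thF_Phi p q a (thO_actS p x) := by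
  unfold thF_Phi
  rw [thS_slash_S (thC_m p q) (thF_m_pos h) (p * q) (thF_m_prod p q) (thF_periodic x),
    ← thS_smul]
  exact thS_congr _ (thF_S h hns x)

/-- every `SL(2,ℤ)`-translate of the theta series of `L` is a member of the family. -/
theorem thF_orbit [Fact p.Prime] (h : thC_Hyp p q a) (hns : ¬ IsSquare (-(q : ZMod p)))
    (γ : SL(2, ℤ)) :
    thF_Phi p q a none ∣[(2 : ℤ)] γ = thF_Phi p q a (thO_idx p γ) :=
  thO_orbit p 2 (thF_Phi p q a) (thF_Phi_T h) (thF_Phi_S h hns) γ

/-- **[TF-MF]** the theta series of `L` is a modular form of weight 2 and level `Γ₀(p)`. -/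
theorem thF_isMF [Fact p.Prime] (h : thC_Hyp p q a) (hns : ¬ IsSquare (-(q : ZMod p))) :
    IsMF (G0 p) 2 (thF_Phi p q a none) :=
  thS_isMF p (thF_m_pos h) (thF_Lam p q a) (fun x => thF_periodic x) none (thO_idx p)
    (thF_orbit h hns) (fun γ hγ => thO_idx_of_mem p γ hγ)

theorem thF_Lam_none_of_memL [Fact p.Prime] (n : Fin 4 → ℤ) (hn : thC_memL p q a n) :
    thF_Lam p q a none n = 1 := by
  obtain ⟨hM, hc⟩ := thC_memL_iff.1 hn
  unfold thF_Lam thC_tilde
  rw [if_pos hM, hc, thFp_lam_none_zero]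

theorem thF_Lam_none_of_not_memL [Fact p.Prime] (n : Fin 4 → ℤ) (hn : ¬ thC_memL p q a n) :
    thF_Lam p q a none n = 0 := by
  unfold thF_Lam thC_tilde
  by_cases hM : thC_memM q a n
  · rw [if_pos hM]
    have hc : thC_cls p n ≠ 0 := fun hc => hn (thC_memL_iff.2 ⟨hM, hc⟩)
    rw [thFp_lam_none, Pi.single_eq_of_ne hc]
  · rw [if_neg hM]

/-- **(C1) for the data `(p, q, a)`.** -/
theorem thF_hAt_of [Fact p.Prime] (h : thC_Hyp p q a) (hns : ¬ IsSquare (-(q : ZMod p))) :
    s16g_HAt p := by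
  refine thQ_hAt h (thF_Lam p q a none) thF_Lam_none_of_memL thF_Lam_none_of_not_memL
    (thF_Phi p q a none) (thF_isMF h hns) (fun τ => ?_)
  have hs := (thB_summable (thF_m_pos h) (thF_periodic (p := p) (q := q) (a := a) none)
    τ.im_pos).hasSum
  exact hs

/-- **(C1)**: for every prime `p ≥ 5` there is a modular form of weight 2 and level `Γ₀(p)`
with `q`-expansion in `1 + 2qℤ[[q]]`. -/
theorem thF_hAt (p : ℕ) (hp : p.Prime) (h5 : 5 ≤ p) : s16g_HAt p := by
  have hp2 : p ≠ 2 := by omega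
  obtain ⟨q, a, hq, hq4, hqp, hns, ha⟩ := thE_exists_q p hp hp2
  have : Fact p.Prime := ⟨hp⟩
  exact thF_hAt_of (a := (a : ℤ)) ⟨hp, hq, hp2, hq4, hqp, ha⟩ hns

end Fermat.Agent.S16
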