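import Mathlib
import Fermat.Agent.S16.Final
import Fermat.Agent.S16.FrickeCusp
import Fermat.Agent.S16.ThFinal

/-!
# S16: the assembly with [CUSP] and (C1) discharged

`s16fin_main2`: the frozen statement of S16 from the five (C2) packages alone; [CUSP] is
`s16t_cuspAt_all` (Fricke/trace package) and (C1) is `thF_hAt` (the quaternary theta series).
-/

set_option autoImplicit false

namespace Fermat.Agent.S16

open UpperHalfPlane ModularFormClass CongruenceSubgroup ModularCurve CuspForm

/-- **S16 from the five (C2) packages.** -/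
theorem s16fin_main2
    (hDT : s16fin_DT) (hL3 : s16fin_L3) (hL5 : s16fin_L5) (hLP : s16fin_LP)
    (hC22 : s16fin_C22) (p : ℕ) [Fact p.Prime] :
    Nat.card (↥(heckeLatticeAlgebra p ∅) ⧸
        Ideal.map ((latticeRestrictHom p ∅).toRingHom.comp (heckeEvalForms p 2))
          (eisensteinIdeal p)) =
      eisensteinNumerator p :=
  s16fin_main s16t_cuspAt_all thF_hAt hDT hL3 hL5 hLP hC22 p

end Fermat.Agent.S16
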