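import Mathlib
import Fermat.Prelude.Def_ModularCurve_X0
import Fermat.Agent.S22.Basic
import Fermat.Agent.S22.Nice
import Fermat.Agent.S22.Forms
import Fermat.Agent.S22.LevelOne
import Fermat.Agent.S24.BridgeEta

set_option autoImplicit false

noncomputable section

namespace Fermat.Agent.S16

open UpperHalfPlane ModularFormClass ModularForm EisensteinSeries
open scoped MatrixGroups ModularForm Manifold
open Fermat.Agent.S22 Fermat.Agent.S24

/-- The formal series `∑ σ_k(n) qⁿ`. -/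
def s16as_S (k : ℕ) : PowerSeries ℤ :=
  PowerSeries.mk fun n => ((ArithmeticFunction.sigma k n : ℕ) : ℤ)

theorem s16as_coeff_S (k n : ℕ) :
    PowerSeries.coeff n (s16as_S k) = ((ArithmeticFunction.sigma k n : ℕ) : ℤ) := by
  rw [s16as_S, PowerSeries.coeff_mk]

/-- The formal discriminant `q ∏ (1 - qⁿ)²⁴`. -/
def s16as_delta : PowerSeries ℤ := PowerSeries.X * ModularCurve.etaProd ^ 24

/-- The Eisenstein series of weight `8`. -/
def s16as_E8 : ModularForm 𝒮ℒ (8 : ℕ) := E (by norm_num : 3 ≤ 8)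

theorem s16as_coeff_one_add (c : ℤ) (k n : ℕ) :
    PowerSeries.coeff n (1 + PowerSeries.C c * s16as_S k) =
      if n = 0 then 1 else c * ((ArithmeticFunction.sigma k n : ℕ) : ℤ) := by
  rw [map_add, PowerSeries.coeff_C_mul, s16as_coeff_S, PowerSeries.coeff_one]
  by_cases h : n = 0
  · subst h
    simp
  · simp [h]

theorem s16as_qExp_E4 :
    qExpansion 1 (E₄ : ℍ → ℂ) =
      (1 + PowerSeries.C 240 * s16as_S 3).map (Int.castRingHom ℂ) := by
  ext n
  rw [E_qExpansion_coeff _ ⟨2, rfl⟩, show bernoulli 4 = -1 / 30 by decide +kernel,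
    PowerSeries.coeff_map, s16as_coeff_one_add]
  by_cases h : n = 0
  · simp [h]
  · simp only [h, if_false, eq_intCast]
    push_cast
    norm_num

theorem s16as_qExp_E6 :
    qExpansion 1 (E₆ : ℍ → ℂ) =
      (1 + PowerSeries.C (-504) * s16as_S 5).map (Int.castRingHom ℂ) := by
  ext n
  rw [E_qExpansion_coeff _ ⟨3, rfl⟩, show bernoulli 6 = 1 / 42 by decide +kernel,
    PowerSeries.coeff_map, s16as_coeff_one_add]
  by_cases h : n = 0
  · simp [h]
  · simp only [h, if_false, eq_intCast]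
    push_cast
    norm_num

theorem s16as_qExp_E8 :
    qExpansion 1 (s16as_E8 : ℍ → ℂ) =
      (1 + PowerSeries.C 480 * s16as_S 7).map (Int.castRingHom ℂ) := by
  ext n
  rw [s16as_E8, E_qExpansion_coeff _ ⟨4, rfl⟩, show bernoulli 8 = -1 / 30 by decide +kernel,
    PowerSeries.coeff_map, s16as_coeff_one_add]
  by_cases h : n = 0
  · simp [h]
  · simp only [h, if_false, eq_intCast]
    push_cast
    norm_num

theorem s16as_map_injective :
    Function.Injective (PowerSeries.map (Int.castRingHom ℂ)) := by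
  intro a b h
  ext n
  have := congrArg (PowerSeries.coeff n) h
  rw [PowerSeries.coeff_map, PowerSeries.coeff_map] at this
  exact Int.cast_injective this

theorem s16as_isMF_E8 : IsMF G1 8 (s16as_E8 : ℍ → ℂ) :=
  IsMF.cast (by norm_num) (⟨s16as_E8, rfl⟩ : IsMF G1 ((8 : ℕ) : ℤ) (s16as_E8 : ℍ → ℂ))

theorem s16as_E4_sq : (E₄ : ℍ → ℂ) ^ 2 = (s16as_E8 : ℍ → ℂ) := by
  have h1 : IsMF G1 8 ((E₄ : ℍ → ℂ) ^ 2 - (s16as_E8 : ℍ → ℂ)) :=
    ((isMF_E4.pow 2).cast (by norm_num)).sub s16as_isMF_E8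
  obtain ⟨F, hF⟩ := h1
  have hq : qExpansion 1 (F : ℍ → ℂ) =
      ((1 + PowerSeries.C 240 * s16as_S 3) ^ 2 - (1 + PowerSeries.C 480 * s16as_S 7)).map
        (Int.castRingHom ℂ) := by
    rw [hF, (isNice_E4.pow 2).qExpansion_sub s16as_isMF_E8.isNice_G1, isNice_E4.qExpansion_pow,
      s16as_qExp_E4, s16as_qExp_E8, map_sub, map_pow]
  have h0 : PowerSeries.coeff 0 (qExpansion 1 (F : ℍ → ℂ)) = 0 := by
    rw [hq, PowerSeries.coeff_map, map_sub, PowerSeries.coeff_zero_eq_constantCoeff, map_pow,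
      ← PowerSeries.coeff_zero_eq_constantCoeff, s16as_coeff_one_add,
      PowerSeries.coeff_zero_eq_constantCoeff,
      ← PowerSeries.coeff_zero_eq_constantCoeff, s16as_coeff_one_add]
    simp
  have hF0 : F = 0 := by
    apply ModularForm.sturm_bound_levelOne
    have : (1 : ℕ∞) ≤ (qExpansion 1 (F : ℍ → ℂ)).order := by
      apply PowerSeries.nat_le_order
      intro i hi
      have : i = 0 := by omega
      subst this
      exact h0
    refine lt_of_lt_of_le ?_ this
    norm_num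
  have : (E₄ : ℍ → ℂ) ^ 2 - (s16as_E8 : ℍ → ℂ) = 0 := by
    rw [← hF, hF0]
    rfl
  exact sub_eq_zero.mp this

theorem s16as_E4_sq_series :
    (1 + PowerSeries.C 240 * s16as_S 3) ^ 2 = 1 + PowerSeries.C 480 * s16as_S 7 := by
  apply s16as_map_injective
  rw [map_pow, ← s16as_qExp_E4, ← s16as_qExp_E8, ← isNice_E4.qExpansion_pow, s16as_E4_sq]

theorem s16as_delta_series :
    PowerSeries.C 1728 * s16as_delta =
      (1 + PowerSeries.C 240 * s16as_S 3) ^ 3 - (1 + PowerSeries.C (-504) * s16as_S 5) ^ 2 := by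
  apply s16as_map_injective
  have hD : Dfun = (1728 : ℂ) • (anA_qfun * anA_etaF ^ 24) := by
    funext z
    rw [Dfun_eq_discriminant, anA_discriminant_eq]
    simp
  have h1 : qExpansion 1 Dfun = (PowerSeries.C 1728 * s16as_delta).map (Int.castRingHom ℂ) := by
    rw [hD, (anA_isNice_qfun.mul (anA_isNice_etaF.pow 24)).qExpansion_smul,
      anA_isNice_qfun.qExpansion_mul (anA_isNice_etaF.pow 24), anA_isNice_etaF.qExpansion_pow,
      anA_qExpansion_qfun, anA_qExpansion_etaF, s16as_delta, map_mul, map_mul, map_pow,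
      PowerSeries.map_X, PowerSeries.map_C]
    ext n
    simp [PowerSeries.coeff_C_mul]
  rw [← h1, Dfun_eq, (isNice_E4.pow 3).qExpansion_sub (isNice_E6.pow 2),
    isNice_E4.qExpansion_pow, isNice_E6.qExpansion_pow, s16as_qExp_E4, s16as_qExp_E6, map_sub,
    map_pow, map_pow]

/-! ### The arithmetic -/

theorem s16as_dvd_poly (d : ℤ) : (36 : ℤ) ∣ 10 * d ^ 7 + 7 * d ^ 5 - 17 * d ^ 3 := by
  have h : ∀ x : ZMod 36, 10 * x ^ 7 + 7 * x ^ 5 - 17 * x ^ 3 = 0 := by decide +kernel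
  have := h (d : ZMod 36)
  have h2 : ((10 * d ^ 7 + 7 * d ^ 5 - 17 * d ^ 3 : ℤ) : ZMod 36) = 0 := by
    push_cast
    exact this
  exact (ZMod.intCast_zmod_eq_zero_iff_dvd _ 36).mp h2

/-- The integral series `∑ₙ (∑_{d ∣ n} (10 d⁷ + 7 d⁵ - 17 d³) / 36) qⁿ`. -/
def s16as_V : PowerSeries ℤ :=
  PowerSeries.mk fun n =>
    ∑ d ∈ n.divisors, (10 * (d : ℤ) ^ 7 + 7 * (d : ℤ) ^ 5 - 17 * (d : ℤ) ^ 3) / 36

theorem s16as_V_mul :
    PowerSeries.C 36 * s16as_V =
      PowerSeries.C 10 * s16as_S 7 + PowerSeries.C 7 * s16as_S 5 -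
        PowerSeries.C 17 * s16as_S 3 := by
  ext n
  simp only [map_add, map_sub, PowerSeries.coeff_C_mul, s16as_coeff_S, s16as_V,
    PowerSeries.coeff_mk, ArithmeticFunction.sigma_apply]
  push_cast
  rw [Finset.mul_sum, Finset.mul_sum, Finset.mul_sum, Finset.mul_sum, ← Finset.sum_add_distrib,
    ← Finset.sum_sub_distrib]
  refine Finset.sum_congr rfl fun d _ => ?_
  exact Int.mul_ediv_cancel' (s16as_dvd_poly d)

/-- The remainder: `Δ = S₃ - S₃³ + 3 W`. -/
def s16as_W : PowerSeries ℤ :=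
  s16as_V + PowerSeries.C 2667 * s16as_S 3 ^ 3 - PowerSeries.C 49 * s16as_S 5 ^ 2

/-- **Ramanujan-type congruence, integral form**: `Δ = S₃ - S₃³ + 3 W` in `ℤ⟦q⟧`. -/
theorem s16as_delta_eq :
    s16as_delta = s16as_S 3 - s16as_S 3 ^ 3 + PowerSeries.C 3 * s16as_W := by
  have h1 := s16as_E4_sq_series
  have h2 := s16as_delta_series
  have h3 := s16as_V_mul
  have key : PowerSeries.C 1728 * s16as_delta =
      PowerSeries.C 1728 * (s16as_S 3 - s16as_S 3 ^ 3 + PowerSeries.C 3 * s16as_W) := by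
    rw [s16as_W]
    simp only [map_ofNat, map_neg] at h1 h2 h3 ⊢
    linear_combination h2 + 3 * h1 - 144 * h3
  ext n
  have := congrArg (PowerSeries.coeff n) key
  rw [PowerSeries.coeff_C_mul, PowerSeries.coeff_C_mul] at this
  exact mul_left_cancel₀ (by norm_num) this

/-! ### Reduction modulo 3 -/

/-- In characteristic `3`: `Δ̄ = S̄₃ - S̄₃³` (any commutative ring in which `3 = 0`). -/
theorem s16as_delta_map {k : Type*} [CommRing k] (h3 : (3 : k) = 0) :
    s16as_delta.map (Int.castRingHom k) =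
      (s16as_S 3).map (Int.castRingHom k) - ((s16as_S 3).map (Int.castRingHom k)) ^ 3 := by
  rw [s16as_delta_eq, map_add, map_sub, map_pow, map_mul, PowerSeries.map_C]
  have : (Int.castRingHom k) 3 = 0 := by simpa using h3
  rw [this, map_zero, zero_mul, add_zero]

theorem s16as_cube_zmod (f : PowerSeries (ZMod 3)) (n : ℕ) :
    PowerSeries.coeff n (f ^ 3) = if 3 ∣ n then PowerSeries.coeff (n / 3) f else 0 := by
  have h : (f.expand 3 (by norm_num)).map (frobenius (ZMod 3) 3) = f ^ 3 :=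
    MvPowerSeries.map_frobenius_expand 3 (by norm_num)
  rw [← h, PowerSeries.coeff_map, PowerSeries.coeff_expand, ZMod.frobenius_zmod]
  rfl

/-- **(AS0)** `τ(n) ≡ σ₃(n) - [3 ∣ n] σ₃(n/3) (mod 3)`. -/
theorem s16as_tau_mod_three (n : ℕ) :
    ((PowerSeries.coeff n s16as_delta : ℤ) : ZMod 3) =
      ((ArithmeticFunction.sigma 3 n : ℕ) : ZMod 3) -
        (if 3 ∣ n then ((ArithmeticFunction.sigma 3 (n / 3) : ℕ) : ZMod 3) else 0) := by
  have h := congrArg (PowerSeries.coeff n)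
    (s16as_delta_map (k := ZMod 3) (by decide))
  rw [PowerSeries.coeff_map, map_sub, s16as_cube_zmod, PowerSeries.coeff_map, s16as_coeff_S] at h
  rw [eq_intCast] at h
  rw [h]
  simp [PowerSeries.coeff_map, s16as_coeff_S]

end Fermat.Agent.S16
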