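import Mathlib
import Fermat.Prelude.Def_ModularCurve_JqCoeff
import Fermat.Prelude.Def_ModularCurve_X0ModL
import Fermat.Agent.S28.EsymOrd
import Fermat.Agent.S16.TauModThree

/-!
# S16 (L3a): the Artin–Schreier equation of `∑ σ₃(n) qⁿ` in characteristic `3`

Let `k` be a field of characteristic `3`, `S = ∑ σ₃(n) qⁿ ∈ k((q))` and `J = jqModC k` the
`q`-expansion of the `j`-invariant.  Then

* `s16as_artin_schreier : J * (S - S ^ 3) = 1`   (i.e. `S³ - S + Δ̄ = 0`, `Δ̄ = 1 / J`);
* `s16as_not_rational : Q(J) * S = R(J) → Q = 0`   (`S` is not a rational function of `J`).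
-/

set_option autoImplicit false

noncomputable section

namespace Fermat.Agent.S16

open ModularCurve Polynomial

/-- The series `∑ σ₃(n) qⁿ` as a Laurent series over `k`. -/
def s16as_sig3 (k : Type*) [CommRing k] : LaurentSeries k :=
  HahnSeries.ofPowerSeries ℤ k
    (PowerSeries.mk fun n => ((ArithmeticFunction.sigma 3 n : ℕ) : k))

theorem s16as_sig3_eq (k : Type*) [CommRing k] :
    s16as_sig3 k = HahnSeries.ofPowerSeries ℤ k ((s16as_S 3).map (Int.castRingHom k)) := by
  rw [s16as_sig3]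
  congr 1
  ext n
  rw [PowerSeries.coeff_mk, PowerSeries.coeff_map, s16as_coeff_S]
  simp

section CharThree

variable (k : Type*) [CommRing k] [CharP k 3]

theorem s16as_three_eq_zero : (3 : k) = 0 := by
  have := CharP.cast_eq_zero k 3
  exact_mod_cast this

theorem s16as_eisenstein4_map : eisenstein4.map (Int.castRingHom k) = 1 := by
  ext n
  rw [PowerSeries.coeff_map, eisenstein4, PowerSeries.coeff_mk, PowerSeries.coeff_one]
  by_cases h : n = 0
  · simp [h]
  · simp only [h, if_false, eq_intCast]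
    push_cast
    have : (240 : k) = 3 * 80 := by norm_num
    rw [this, s16as_three_eq_zero, zero_mul, zero_mul]

theorem s16as_jNum_map :
    jNum.map (Int.castRingHom k) = dedekindEtaUnitInv.map (Int.castRingHom k) := by
  rw [jNum, map_mul, map_pow, s16as_eisenstein4_map, one_pow, one_mul]

/-- The reduction of `Δ = q ∏ (1 - qⁿ)²⁴` as a Laurent series. -/
theorem s16as_sig3_sub_cube :
    s16as_sig3 k - s16as_sig3 k ^ 3 =
      HahnSeries.single (1 : ℤ) (1 : k) *
        HahnSeries.ofPowerSeries ℤ k (dedekindEtaUnit.map (Int.castRingHom k)) := by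
  rw [s16as_sig3_eq, ← map_pow, ← map_sub, ← s16as_delta_map (s16as_three_eq_zero k),
    s16as_delta, dedekindEtaUnit, map_mul, PowerSeries.map_X, map_mul,
    HahnSeries.ofPowerSeries_X]

/-- **(AS1)** the Artin–Schreier equation `J (S - S³) = 1`. -/
theorem s16as_artin_schreier : jqModC k * (s16as_sig3 k - s16as_sig3 k ^ 3) = 1 := by
  rw [s16as_sig3_sub_cube, jqModC, s16as_jNum_map]
  have h : dedekindEtaUnitInv.map (Int.castRingHom k) * dedekindEtaUnit.map (Int.castRingHom k)
      = 1 := by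
    rw [← map_mul, mul_comm, dedekindEtaUnit_mul_inv, map_one]
  calc HahnSeries.single (-1 : ℤ) (1 : k) *
        HahnSeries.ofPowerSeries ℤ k (dedekindEtaUnitInv.map (Int.castRingHom k)) *
        (HahnSeries.single (1 : ℤ) (1 : k) *
          HahnSeries.ofPowerSeries ℤ k (dedekindEtaUnit.map (Int.castRingHom k)))
      = (HahnSeries.single (-1 : ℤ) (1 : k) * HahnSeries.single (1 : ℤ) (1 : k)) *
          HahnSeries.ofPowerSeries ℤ k (dedekindEtaUnitInv.map (Int.castRingHom k) *
            dedekindEtaUnit.map (Int.castRingHom k)) := by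
        rw [map_mul]
        ring
    _ = 1 := by
        rw [h, map_one (HahnSeries.ofPowerSeries ℤ k), mul_one, HahnSeries.single_mul_single,
          mul_one, neg_add_cancel]
        rfl

end CharThree

section Field

variable {k : Type*} [Field k]

/-- The descent: `X (Q² R - R³) = Q³` has no solution with `Q ≠ 0`. -/
theorem s16as_descent :
    ∀ (n : ℕ) (Q R : k[X]), Q.natDegree = n → X * (Q ^ 2 * R - R ^ 3) = Q ^ 3 → Q = 0 := by
  intro n
  induction n using Nat.strong_induction_on with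
  | _ n ih =>
    intro Q R hn h
    by_contra hQ
    have hX : (X : k[X]) ≠ 0 := Polynomial.X_ne_zero
    have hXQ : (X : k[X]) ∣ Q := Polynomial.prime_X.dvd_of_dvd_pow (Dvd.intro _ h)
    obtain ⟨Q₁, rfl⟩ := hXQ
    have h2 : R ^ 3 = X ^ 2 * (Q₁ ^ 2 * R - Q₁ ^ 3) := by
      have h' : X * ((X * Q₁) ^ 2 * R - R ^ 3) = X * (X ^ 2 * Q₁ ^ 3) := by
        rw [h]
        ring
      have h'' := mul_left_cancel₀ hX h'
      linear_combination -h''
    have hXR : (X : k[X]) ∣ R :=
      Polynomial.prime_X.dvd_of_dvd_pow ⟨X * (Q₁ ^ 2 * R - Q₁ ^ 3), by rw [h2]; ring⟩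
    obtain ⟨R₁, rfl⟩ := hXR
    have h3 : X * (Q₁ ^ 2 * R₁ - R₁ ^ 3) = Q₁ ^ 3 := by
      have h' : X ^ 2 * (X * R₁ ^ 3) = X ^ 2 * (X * (Q₁ ^ 2 * R₁) - Q₁ ^ 3) := by
        linear_combination h2
      have h'' := mul_left_cancel₀ (pow_ne_zero 2 hX) h'
      linear_combination -h''
    have hQ₁ : Q₁ ≠ 0 := by
      rintro rfl
      exact hQ (mul_zero _)
    have hdeg : Q₁.natDegree < n := by
      rw [← hn, Polynomial.natDegree_X_mul hQ₁]
      exact Nat.lt_succ_self _
    exact hQ₁ (ih _ hdeg Q₁ R₁ rfl h3)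

variable (k)

theorem s16as_order_J : (jqModC k).order = -1 := by
  have hne : jqModC k ≠ 0 := jqModC_ne_zero_of_nontrivial k
  refine le_antisymm (HahnSeries.order_le_of_coeff_ne_zero ?_) ?_
  · rw [coeff_jqModC_neg_one]
    exact one_ne_zero
  · by_contra hlt
    rw [not_le] at hlt
    exact HahnSeries.coeff_order_eq_zero.not.mpr hne (coeff_jqModC_of_lt k hlt)

theorem s16as_aeval_J_injective :
    Function.Injective (Polynomial.aeval (R := k) (jqModC k)) := by
  rw [injective_iff_map_eq_zero]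
  intro P hP
  by_contra hne
  exact Fermat.Agent.S28.esymO_aeval_ne_zero (jqModC k)
    (by rw [s16as_order_J]; norm_num) P hne hP

variable [CharP k 3]

/-- **(AS2)** `S = ∑ σ₃(n) qⁿ` is not a rational function of `J` in characteristic `3`. -/
theorem s16as_not_rational (Q R : k[X])
    (h : Polynomial.aeval (jqModC k) Q * s16as_sig3 k = Polynomial.aeval (jqModC k) R) :
    Q = 0 := by
  have hAS := s16as_artin_schreier k
  have key : Polynomial.aeval (jqModC k) (X * (Q ^ 2 * R - R ^ 3)) =
      Polynomial.aeval (jqModC k) (Q ^ 3) := by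
    simp only [map_mul, map_sub, map_pow, Polynomial.aeval_X]
    rw [← h]
    linear_combination (Polynomial.aeval (jqModC k) Q) ^ 3 * hAS
  exact s16as_descent _ Q R rfl (s16as_aeval_J_injective k key)

/-- (AS2'), the companion: then also `R = 0`. -/
theorem s16as_not_rational' (Q R : k[X])
    (h : Polynomial.aeval (jqModC k) Q * s16as_sig3 k = Polynomial.aeval (jqModC k) R) :
    Q = 0 ∧ R = 0 := by
  have hQ := s16as_not_rational k Q R h
  refine ⟨hQ, ?_⟩
  rw [hQ, map_zero, zero_mul] at h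
  exact (s16as_aeval_J_injective k) (by rw [← h, map_zero])

end Field

/-! ### (AS3): the same with `σ₁` -/

section SigmaOne

/-- The series `∑ σ₁(n) qⁿ` as a Laurent series over `k`. -/
def s16as_sig1 (k : Type*) [CommRing k] : LaurentSeries k :=
  HahnSeries.ofPowerSeries ℤ k
    (PowerSeries.mk fun n => ((ArithmeticFunction.sigma 1 n : ℕ) : k))

theorem s16as_cube_cast (k : Type*) [CommRing k] [CharP k 3] (d : ℕ) :
    ((d : k)) ^ 3 = (d : k) := by
  have h : ∀ x : ZMod 3, x ^ 3 - x = 0 := by decide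
  have h1 : (((d : ℤ) ^ 3 - (d : ℤ) : ℤ) : ZMod 3) = 0 := by
    push_cast
    exact h _
  have h2 : ((3 : ℕ) : ℤ) ∣ (d : ℤ) ^ 3 - (d : ℤ) :=
    (ZMod.intCast_zmod_eq_zero_iff_dvd _ 3).mp h1
  have h3 := (CharP.intCast_eq_zero_iff k 3 _).mpr h2
  push_cast at h3
  exact sub_eq_zero.mp h3

theorem s16as_sigma_three_cast (k : Type*) [CommRing k] [CharP k 3] (n : ℕ) :
    ((ArithmeticFunction.sigma 3 n : ℕ) : k) = ((ArithmeticFunction.sigma 1 n : ℕ) : k) := by
  rw [ArithmeticFunction.sigma_apply, ArithmeticFunction.sigma_apply]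
  push_cast
  exact Finset.sum_congr rfl fun d _ => by rw [s16as_cube_cast, pow_one]

theorem s16as_sig1_eq (k : Type*) [CommRing k] [CharP k 3] : s16as_sig1 k = s16as_sig3 k := by
  rw [s16as_sig1, s16as_sig3]
  congr 1
  ext n
  rw [PowerSeries.coeff_mk, PowerSeries.coeff_mk, s16as_sigma_three_cast]

/-- **(AS1)** for `σ₁`. -/
theorem s16as_artin_schreier_one (k : Type*) [CommRing k] [CharP k 3] :
    jqModC k * (s16as_sig1 k - s16as_sig1 k ^ 3) = 1 := by
  rw [s16as_sig1_eq]
  exact s16as_artin_schreier k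

/-- **(AS2)** for `σ₁`. -/
theorem s16as_not_rational_one (k : Type*) [Field k] [CharP k 3] (Q R : k[X])
    (h : Polynomial.aeval (jqModC k) Q * s16as_sig1 k = Polynomial.aeval (jqModC k) R) :
    Q = 0 ∧ R = 0 := by
  rw [s16as_sig1_eq] at h
  exact s16as_not_rational' k Q R h

end SigmaOne

end Fermat.Agent.S16
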