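/-
S16, package [L3] (owner: helper11), part (L3b-2): the algebraic core of the case `9 ∣ p + 1`.

Over `R = ℤ_(3)`: if `f₃ = P(j) Δ^p`, `f₂ E₄ E₆ = Q(j) Δ^(p+1)` with `P, Q ∈ R[X]` and
`p f₂ + f₃ ∈ 9 R((q))`, then `f₃ ≡ 0 mod 3`.  The input is the Artin–Schreier package (L3a) of
helper2: `S = ∑ σ₃(n) qⁿ` is not a rational function of `j` in characteristic `3`.
-/
import Mathlib
import Fermat.Agent.S28.RedO
import Fermat.Agent.S28.TwistFormal
import Fermat.Agent.S16.ArtinSchreier
import Fermat.Agent.S16.L3Cong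

set_option autoImplicit false

noncomputable section

namespace Fermat.Agent.S16

open Polynomial
open Fermat.Agent.S28 ModularCurve

/-- The ring `ℤ_(3)`. -/
abbrev l3_R : Type := ↥(GaloisRep.ratLocalizedAt 3)

/-- Integral power series as Laurent series over `ℤ_(3)`. -/
def l3_o : PowerSeries ℤ →+* LaurentSeries l3_R :=
  (HahnSeries.ofPowerSeries ℤ l3_R).comp (PowerSeries.map (Int.castRingHom l3_R))

theorem l3_o_apply (s : PowerSeries ℤ) :
    l3_o s = HahnSeries.ofPowerSeries ℤ l3_R (s.map (Int.castRingHom l3_R)) := rfl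

theorem l3_red_o (s : PowerSeries ℤ) :
    redO_red 3 (l3_o s) =
      HahnSeries.ofPowerSeries ℤ (ZMod 3) (s.map (Int.castRingHom (ZMod 3))) := by
  rw [l3_o_apply, redO_red, twL_coeffMap_ofPowerSeries]
  congr 1
  ext n
  simp

theorem l3_red_three : redO_red 3 (3 : LaurentSeries l3_R) = 0 := by
  have := redO_red_natCast_self 3
  simpa using this

theorem l3_eisenstein4_eq : ModularCurve.eisenstein4 = 1 + 240 * l3_sig 3 := by
  ext n
  rw [eisenstein4, PowerSeries.coeff_mk, map_add,
    show (240 : PowerSeries ℤ) = PowerSeries.C (240 : ℤ) by simp, PowerSeries.coeff_C_mul,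
    l3_sig_coeff, PowerSeries.coeff_one, ArithmeticFunction.sigma_apply]
  by_cases h : n = 0
  · subst h
    simp
  · rw [if_neg h, if_neg h, zero_add]
    push_cast
    rfl

/-- `j Δ = E₄³` over `ℤ_(3)`. -/
theorem l3_j_mul_delta :
    jqModC l3_R * twL_delta l3_R = l3_o (1 + 240 * l3_sig 3) ^ 3 := by
  rw [← l3_eisenstein4_eq, ← map_pow, l3_o_apply, jqModC, twL_delta]
  have h1 : HahnSeries.single (-1 : ℤ) (1 : l3_R) * HahnSeries.single (1 : ℤ) (1 : l3_R) = 1 := by
    rw [HahnSeries.single_mul_single, one_mul]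
    rfl
  have h2 : jNum.map (Int.castRingHom l3_R) * dedekindEtaUnit.map (Int.castRingHom l3_R) =
      (eisenstein4 ^ 3).map (Int.castRingHom l3_R) := by
    rw [← map_mul, jNum, mul_assoc, mul_comm dedekindEtaUnitInv, dedekindEtaUnit_mul_inv, mul_one]
  calc HahnSeries.single (-1 : ℤ) (1 : l3_R) *
        HahnSeries.ofPowerSeries ℤ l3_R (jNum.map (Int.castRingHom l3_R)) *
        (HahnSeries.single (1 : ℤ) (1 : l3_R) *
          HahnSeries.ofPowerSeries ℤ l3_R (dedekindEtaUnit.map (Int.castRingHom l3_R)))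
      = (HahnSeries.single (-1 : ℤ) (1 : l3_R) * HahnSeries.single (1 : ℤ) (1 : l3_R)) *
        (HahnSeries.ofPowerSeries ℤ l3_R (jNum.map (Int.castRingHom l3_R)) *
          HahnSeries.ofPowerSeries ℤ l3_R (dedekindEtaUnit.map (Int.castRingHom l3_R))) := by
        ring
    _ = HahnSeries.ofPowerSeries ℤ l3_R ((eisenstein4 ^ 3).map (Int.castRingHom l3_R)) := by
        rw [h1, one_mul, ← map_mul, h2]

/-- The kernel of the reduction of polynomials is `3 R[X]`. -/
theorem l3_poly_ker (T : l3_R[X]) (h : T.map (redO_res 3) = 0) :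
    ∃ T₁ : l3_R[X], T = C 3 * T₁ := by
  have hc : ∀ n : ℕ, ∃ r : l3_R, T.coeff n = 3 * r := by
    intro n
    have h1 : redO_res 3 (T.coeff n) = 0 := by
      rw [← Polynomial.coeff_map, h, Polynomial.coeff_zero]
    obtain ⟨r, hr⟩ := redO_res_eq_zero 3 _ h1
    exact ⟨r, by rw [hr]; norm_num⟩
  choose r hr using hc
  refine ⟨∑ n ∈ T.support, Polynomial.monomial n (r n), Polynomial.ext fun n => ?_⟩
  rw [Polynomial.coeff_C_mul, Polynomial.finsetSum_coeff]
  simp only [Polynomial.coeff_monomial]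
  rw [Finset.sum_ite_eq' T.support n]
  by_cases hn : n ∈ T.support
  · rw [if_pos hn, hr n]
  · rw [if_neg hn, mul_zero]
    exact Polynomial.notMem_support_iff.mp hn

/-- Reduction commutes with evaluation at `j`. -/
theorem l3_red_aeval (T : l3_R[X]) :
    redO_red 3 (Polynomial.aeval (jqModC l3_R) T) =
      Polynomial.aeval (jqModC (ZMod 3)) (T.map (redO_res 3)) := by
  induction T using Polynomial.induction_on' with
  | add p q hp hq =>
    rw [map_add, map_add, Polynomial.map_add, map_add, hp, hq]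
  | monomial n c =>
    rw [Polynomial.aeval_monomial, map_mul, map_pow, Polynomial.map_monomial,
      Polynomial.aeval_monomial]
    congr 1
    · have h1 : algebraMap l3_R (PowerSeries l3_R) c = PowerSeries.C c := by simp
      have h2 : algebraMap (ZMod 3) (PowerSeries (ZMod 3)) (redO_res 3 c) =
          PowerSeries.C (redO_res 3 c) := by simp
      rw [HahnSeries.algebraMap_apply', h1, HahnSeries.ofPowerSeries_C,
        HahnSeries.algebraMap_apply', h2, HahnSeries.ofPowerSeries_C]
      exact coeffMap_single (redO_res 3) 0 c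
    · congr 1
      exact coeffMap_jqModC (redO_res 3)

theorem l3_sig3_eq :
    HahnSeries.ofPowerSeries ℤ (ZMod 3) ((l3_sig 3).map (Int.castRingHom (ZMod 3))) =
      s16as_sig3 (ZMod 3) := by
  rw [s16as_sig3]
  congr 1

/-- **The algebraic core of [L3].** -/
theorem l3_core (p : ℕ) (P Q : l3_R[X]) (f₂ f₃ w : LaurentSeries l3_R)
    (h1 : f₃ = Polynomial.aeval (jqModC l3_R) P * twL_delta l3_R ^ p)
    (h2 : f₂ * l3_o (1 + 240 * l3_sig 3) * l3_o (1 - 504 * l3_sig 5) =
      Polynomial.aeval (jqModC l3_R) Q * twL_delta l3_R ^ (p + 1))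
    (h3 : (p : LaurentSeries l3_R) * f₂ + f₃ = 9 * w) :
    redO_red 3 f₃ = 0 := by
  set J := jqModC l3_R with hJ
  set Dl := twL_delta l3_R with hDl
  set Dinv := twL_deltaInv l3_R with hDinv
  set x := l3_o (80 * l3_sig 3) with hx
  set y := l3_o (-56 * l3_sig 5) with hy
  have hE4 : l3_o (1 + 240 * l3_sig 3) = 1 + 3 * x := by
    rw [hx, map_add, map_one, map_mul, map_mul]
    have : l3_o 240 = 3 * l3_o 80 := by
      rw [← map_ofNat l3_o 3, ← map_mul]
      norm_num
    rw [this]
    ring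
  have hE6 : l3_o (1 - 504 * l3_sig 5) = 1 + 9 * y := by
    rw [hy, map_sub, map_one, map_mul, map_mul]
    have : l3_o 504 = - (9 * l3_o (-56)) := by
      rw [← map_ofNat l3_o 9, ← map_mul, ← map_neg]
      norm_num
    rw [this]
    ring
  have hJD : J * Dl = (1 + 3 * x) ^ 3 := by
    rw [← hE4]
    exact l3_j_mul_delta
  have hDp : Dl ^ p * Dinv ^ p = 1 := by
    rw [← mul_pow, twL_delta_mul_inv, one_pow]
  rw [hE4, hE6] at h2
  set PJ := Polynomial.aeval J P with hPJ
  set QJ := Polynomial.aeval J Q with hQJ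
  -- the key congruence
  have key : (p : LaurentSeries l3_R) * QJ + PJ * J * (1 + 3 * x) =
      9 * (w * (1 + 3 * x) * (1 + 9 * y) * J * Dinv ^ p
        - (p : LaurentSeries l3_R) * QJ * (x + 3 * x ^ 2 + 3 * x ^ 3) - PJ * J * (y + 3 * x * y)) := by
    linear_combination ((1 + 3 * x) * (1 + 9 * y) * J * Dinv ^ p) * h3
      - ((p : LaurentSeries l3_R) * J * Dinv ^ p) * h2
      - ((1 + 3 * x) * (1 + 9 * y) * J * Dinv ^ p) * h1
      - ((p : LaurentSeries l3_R) * QJ) * hJD
      - ((p : LaurentSeries l3_R) * J * QJ * Dl + (1 + 3 * x) * (1 + 9 * y) * J * PJ) * hDp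
  set W₂ := w * (1 + 3 * x) * (1 + 9 * y) * J * Dinv ^ p
        - (p : LaurentSeries l3_R) * QJ * (x + 3 * x ^ 2 + 3 * x ^ 3) - PJ * J * (y + 3 * x * y)
    with hW₂
  -- Step 1: reduction modulo `3`
  set T : l3_R[X] := C (p : l3_R) * Q + X * P with hT
  have hTJ : Polynomial.aeval J T = (p : LaurentSeries l3_R) * QJ + PJ * J := by
    rw [hT, map_add, map_mul, map_mul, Polynomial.aeval_X, Polynomial.aeval_C]
    have : algebraMap l3_R (LaurentSeries l3_R) (p : l3_R) = (p : LaurentSeries l3_R) :=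
      map_natCast _ p
    rw [this]
    ring
  have hred1 : redO_red 3 (Polynomial.aeval J T) = 0 := by
    have : Polynomial.aeval J T = 3 * (3 * W₂ - PJ * J * x) := by
      rw [hTJ]
      linear_combination key
    rw [this, map_mul, l3_red_three, zero_mul]
  rw [l3_red_aeval] at hred1
  have hT0 : T.map (redO_res 3) = 0 :=
    s16as_aeval_J_injective (ZMod 3) (by rw [hred1, map_zero])
  obtain ⟨T₁, hT₁⟩ := l3_poly_ker T hT0
  -- Step 2: divide by `3` and reduce again
  have h3ne : (3 : LaurentSeries l3_R) ≠ 0 := by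
    intro h
    have := congrArg (fun s : LaurentSeries l3_R => s.coeff 0) h
    rw [show (3 : LaurentSeries l3_R) = HahnSeries.C (3 : l3_R) by
      rw [← map_ofNat (HahnSeries.C : l3_R →+* LaurentSeries l3_R) 3]] at this
    simp only [HahnSeries.C_apply, HahnSeries.coeff_single_same, HahnSeries.coeff_zero] at this
    have h2 := congrArg (Subtype.val) this
    norm_num at h2
  have hTJ' : Polynomial.aeval J T = 3 * Polynomial.aeval J T₁ := by
    rw [hT₁, map_mul, Polynomial.aeval_C]
    congr 1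
    exact map_ofNat _ 3
  have key2 : Polynomial.aeval J T₁ + PJ * J * x = 3 * W₂ := by
    apply mul_left_cancel₀ h3ne
    linear_combination key + hTJ - hTJ'
  have hxbar : redO_red 3 x = - s16as_sig3 (ZMod 3) := by
    rw [hx, l3_red_o, map_mul, map_mul, l3_sig3_eq]
    have : HahnSeries.ofPowerSeries ℤ (ZMod 3)
        ((PowerSeries.map (Int.castRingHom (ZMod 3))) 80) = -1 := by
      rw [map_ofNat, map_ofNat]
      have h81 : ((81 : ℕ) : LaurentSeries (ZMod 3)) = 0 := by
        have := CharP.cast_eq_zero (ZMod 3) 3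
        have h2 : ((81 : ℕ) : ZMod 3) = 0 := by
          rw [show (81 : ℕ) = 3 * 27 by norm_num, Nat.cast_mul, this, zero_mul]
        rw [← map_natCast (HahnSeries.C : ZMod 3 →+* LaurentSeries (ZMod 3)) 81, h2, map_zero]
      push_cast at h81
      linear_combination h81
    rw [this]
    ring
  have hred2 := congrArg (redO_red 3) key2
  rw [map_add, map_mul, map_mul, map_mul, l3_red_three, zero_mul, hPJ, hJ, l3_red_aeval,
    l3_red_aeval, hxbar, ← hJ] at hred2
  have hJbar : redO_red 3 J = jqModC (ZMod 3) := coeffMap_jqModC (redO_res 3)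
  rw [hJbar] at hred2
  have hnr : Polynomial.aeval (jqModC (ZMod 3)) (X * P.map (redO_res 3)) * s16as_sig3 (ZMod 3) =
      Polynomial.aeval (jqModC (ZMod 3)) (T₁.map (redO_res 3)) := by
    rw [map_mul, Polynomial.aeval_X]
    linear_combination -hred2
  have hXP := s16as_not_rational (ZMod 3) _ _ hnr
  have hP0 : P.map (redO_res 3) = 0 := by
    rcases mul_eq_zero.mp hXP with h | h
    · exact absurd h Polynomial.X_ne_zero
    · exact h
  -- Step 3
  rw [h1, map_mul, hPJ, hJ, l3_red_aeval, hP0, map_zero, zero_mul]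

end Fermat.Agent.S16
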