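/-
S16, package [L3] (owner: helper11), part (L3b-3): assembly.

`l3_noH_of` : for a prime `p` with `9 ∣ p + 1` there is no modular form of weight `2` and level
`Γ₀(p)` with `q`-expansion in `1 + 9 q ℤ_(3)[[q]]`, GIVEN the two trace statements `l3_TR2 p`,
`l3_TR3 p` of package [TR-CORE].

`l3_noH` : the same, unconditionally (the trace statements are `tr16_fin_TR2`, `tr16_fin_TR3`
of helper25).
-/
import Mathlib
import Fermat.Agent.S16.L3Core
import Fermat.Agent.S16.L3Avatar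
import Fermat.Agent.S16.TraceDefs
import Fermat.Agent.S16.TraceFin
import Fermat.Agent.S16.GlueDefs

set_option autoImplicit false

noncomputable section

namespace Fermat.Agent.S16

open UpperHalfPlane ModularFormClass CongruenceSubgroup Matrix.SpecialLinearGroup Function
open ModularForm EisensteinSeries
open scoped MatrixGroups ModularForm Manifold Real Topology Polynomial

open Fermat.Agent.S24 Fermat.Agent.S22 Fermat.Agent.S28 ModularCurve

/-- (TR2): for `G` of weight `2` and level `Γ₀(p)` and `h` of level one and weight `k`,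
`G · V_p h - p^(-k) U_p (h · U_p G)` is the `q`-expansion of a level-one form of weight
`k + 2`. -/
def l3_TR2 (p : ℕ) : Prop :=
  ∀ (k : ℤ) (G h : ℍ → ℂ), IsMF (G0 p) 2 G → IsMF G1 k h →
    ∃ F : ℍ → ℂ, IsMF G1 (k + 2) F ∧
      qExpansion 1 F = qExpansion 1 G * tr16_V p (qExpansion 1 h) -
        ((p : ℂ) ^ (-k)) • tr16_U p (qExpansion 1 h * tr16_U p (qExpansion 1 G))

/-- (TR3): for `h` of level one and weight `k`, `V_p h + p^(1-k) U_p h` is the `q`-expansion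
of a level-one form of weight `k`. -/
def l3_TR3 (p : ℕ) : Prop :=
  ∀ (k : ℤ) (h : ℍ → ℂ), IsMF G1 k h →
    ∃ F : ℍ → ℂ, IsMF G1 k F ∧
      qExpansion 1 F = tr16_V p (qExpansion 1 h) + ((p : ℂ) ^ (1 - k)) • tr16_U p (qExpansion 1 h)

/-- The embedding `ℤ_(3) → ℂ`. -/
def l3_iota : l3_R →+* ℂ := (algebraMap ℚ ℂ).comp (GaloisRep.ratLocalizedAt 3).subtype

theorem l3_iota_apply (r : l3_R) : l3_iota r = (((r : l3_R) : ℚ) : ℂ) := rfl

theorem l3_iota_comp_int : l3_iota.comp (Int.castRingHom l3_R) = Int.castRingHom ℂ :=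
  RingHom.ext_int _ _

theorem l3_map_map (s : PowerSeries ℤ) :
    PowerSeries.map l3_iota (PowerSeries.map (Int.castRingHom l3_R) s) =
      PowerSeries.map (Int.castRingHom ℂ) s := by
  ext n
  simp only [PowerSeries.coeff_map]
  exact congrArg (fun f : ℤ →+* ℂ => f (PowerSeries.coeff n s)) l3_iota_comp_int

/-- The inverse of `p` in `ℤ_(3)`. -/
def l3_pinv (p : ℕ) (hp : p.Coprime 3) : l3_R :=
  ⟨((p : ℚ))⁻¹, by
    show ((p : ℚ)⁻¹).den.Coprime 3
    rcases Nat.eq_zero_or_pos p with h0 | hpos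
    · subst h0
      simp
    · rw [Rat.inv_natCast_den_of_pos hpos]
      exact hp⟩

theorem l3_p_mul_pinv (p : ℕ) (hp : p.Coprime 3) (hp0 : p ≠ 0) :
    (p : l3_R) * l3_pinv p hp = 1 := by
  apply Subtype.ext
  show ((p : l3_R) : ℚ) * ((p : ℚ))⁻¹ = 1
  have : ((p : l3_R) : ℚ) = (p : ℚ) := by simp
  rw [this]
  exact mul_inv_cancel₀ (by exact_mod_cast hp0)

theorem l3_iota_pinv (p : ℕ) (hp : p.Coprime 3) : l3_iota (l3_pinv p hp) = ((p : ℂ))⁻¹ := by
  rw [l3_iota_apply]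
  show (((p : ℚ)⁻¹ : ℚ) : ℂ) = _
  push_cast
  rfl

theorem l3_res_pinv_ne_zero (p : ℕ) (hp : p.Coprime 3) (hp0 : p ≠ 0) (n : ℕ) :
    redO_res 3 (l3_pinv p hp ^ n) ≠ 0 := by
  intro h
  have h1 : redO_res 3 ((p : l3_R) ^ n * l3_pinv p hp ^ n) = 1 := by
    rw [← mul_pow, l3_p_mul_pinv p hp hp0, one_pow, map_one]
  rw [map_mul, h, mul_zero] at h1
  exact zero_ne_one h1

/-- `Δ ^ p` over `ℤ_(3)`. -/
def l3_D (p : ℕ) : PowerSeries l3_R := (PowerSeries.map (Int.castRingHom l3_R) l3_delta) ^ p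

theorem l3_D_coeff (p : ℕ) : PowerSeries.coeff p (l3_D p) = 1 := by
  rw [l3_D, l3_delta, map_mul, PowerSeries.map_X, mul_pow, PowerSeries.coeff_X_pow_mul',
    if_pos le_rfl, Nat.sub_self, PowerSeries.coeff_zero_eq_constantCoeff_apply, map_pow]
  have : PowerSeries.constantCoeff (PowerSeries.map (Int.castRingHom l3_R) dedekindEtaUnit) = 1 := by
    rw [← PowerSeries.coeff_zero_eq_constantCoeff_apply, PowerSeries.coeff_map,
      PowerSeries.coeff_zero_eq_constantCoeff_apply, constantCoeff_dedekindEtaUnit, map_one]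
  rw [this, one_pow]

theorem l3_qexp_D (p : ℕ) :
    qExpansion 1 ((ModularForm.discriminant : ℍ → ℂ) ^ p) = PowerSeries.map l3_iota (l3_D p) := by
  rw [umem_isNice_disc.qExpansion_pow, l3_qexp_disc, l3_D, map_pow, l3_map_map]

/-- The two formal series of the trace statements, over `ℤ_(3)`. -/
def l3_f2 (p : ℕ) (c : l3_R) (a : PowerSeries l3_R) : PowerSeries l3_R :=
  a * tr16_V p (l3_D p) - PowerSeries.C (c ^ (12 * p)) * tr16_U p (l3_D p * tr16_U p a)

def l3_f3 (p : ℕ) (c : l3_R) : PowerSeries l3_R :=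
  tr16_V p (l3_D p) + PowerSeries.C (c ^ (12 * p - 1)) * tr16_U p (l3_D p)

theorem l3_f3_coeff_one (p : ℕ) (hp : 2 ≤ p) (c : l3_R) :
    PowerSeries.coeff 1 (l3_f3 p c) = c ^ (12 * p - 1) := by
  rw [l3_f3, map_add, PowerSeries.coeff_C_mul, tr16_U_coeff, mul_one, l3_D_coeff, mul_one,
    tr16_V_coeff_of_not_dvd, zero_add]
  intro h
  have := Nat.le_of_dvd one_pos h
  omega

/-- **The formal congruence** `p f₂ + f₃ ≡ 0 mod 9` for `a ≡ 1 mod 9`, `9 ∣ p + 1`. -/
theorem l3_formal (p : ℕ) (hp0 : p ≠ 0) (c : l3_R) (hc : (p : l3_R) * c = 1) (m : ℕ)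
    (hm : p + 1 = 9 * m) (a a' : PowerSeries l3_R) (ha : a = 1 + 9 * a') :
    ∃ w : PowerSeries l3_R,
      PowerSeries.C (p : l3_R) * l3_f2 p c a + l3_f3 p c = 9 * w := by
  refine ⟨PowerSeries.C (m : l3_R) * tr16_V p (l3_D p) +
    PowerSeries.C (p : l3_R) * (a' * tr16_V p (l3_D p) -
      PowerSeries.C (c ^ (12 * p)) * tr16_U p (l3_D p * tr16_U p a')), ?_⟩
  have h9 : (9 : PowerSeries l3_R) = PowerSeries.C (9 : l3_R) :=
    (map_ofNat (PowerSeries.C (R := l3_R)) 9).symm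
  have hU : tr16_U p a = 1 + 9 * tr16_U p a' := by
    rw [ha, tr16_U_add, tr16_U_one hp0, h9, tr16_U_C_mul]
  have hU2 : tr16_U p (l3_D p * tr16_U p a) =
      tr16_U p (l3_D p) + 9 * tr16_U p (l3_D p * tr16_U p a') := by
    rw [hU, mul_add, mul_one, tr16_U_add, h9, ← mul_assoc, mul_comm (l3_D p), mul_assoc,
      tr16_U_C_mul]
  have hcc : PowerSeries.C (p : l3_R) * PowerSeries.C (c ^ (12 * p)) =
      PowerSeries.C (c ^ (12 * p - 1)) := by
    rw [← map_mul]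
    congr 1
    have h12 : 12 * p = (12 * p - 1) + 1 := by omega
    conv_lhs => rw [h12, pow_succ]
    rw [mul_comm (c ^ (12 * p - 1)), ← mul_assoc, hc, one_mul]
  have hpm : PowerSeries.C (p : l3_R) + 1 = 9 * PowerSeries.C (m : l3_R) := by
    rw [h9, ← map_one (PowerSeries.C (R := l3_R)), ← map_add, ← map_mul]
    congr 1
    have := congrArg (fun n : ℕ => (n : l3_R)) hm
    push_cast at this
    exact this
  rw [l3_f2, l3_f3, hU2, ha]
  linear_combination (-(tr16_U p (l3_D p))) * hcc + (tr16_V p (l3_D p)) * hpm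

theorem l3_isMF_disc : IsMF G1 12 (ModularForm.discriminant : ℍ → ℂ) := by
  have h : IsMF G1 12 Dfun := isMF_Dfun
  have h2 := h.smul ((1728 : ℂ)⁻¹)
  refine (congrArg (IsMF G1 12) ?_).mp h2
  funext z
  rw [Pi.smul_apply, Dfun_eq_discriminant, smul_eq_mul, ← mul_assoc,
    inv_mul_cancel₀ (by norm_num : (1728 : ℂ) ≠ 0), one_mul]

theorem l3_iota_pow_neg (p : ℕ) (hcop : p.Coprime 3) (n : ℕ) :
    l3_iota (l3_pinv p hcop ^ n) = (p : ℂ) ^ (-(n : ℤ)) := by
  rw [map_pow, l3_iota_pinv, zpow_neg, zpow_natCast, inv_pow]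

/-- **[L3], modulo the trace statements.** -/
theorem l3_noH_of (p : ℕ) (hp : p.Prime) (h9 : 9 ∣ p + 1) (hTR2 : l3_TR2 p) (hTR3 : l3_TR3 p) :
    s16g_NoH p 3 2 := by
  intro H hH a ha h0 h1
  have hp0 : p ≠ 0 := hp.ne_zero
  have hp2 : 2 ≤ p := hp.two_le
  have hcop : p.Coprime 3 := by
    rw [Nat.coprime_comm, Nat.Prime.coprime_iff_not_dvd Nat.prime_three]
    intro h3
    have : 3 ∣ p + 1 := dvd_trans (by norm_num) h9
    omega
  set c := l3_pinv p hcop with hc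
  have hpc : (p : l3_R) * c = 1 := l3_p_mul_pinv p hcop hp0
  obtain ⟨m, hm⟩ := h9
  -- `a = 1 + 9 a'`
  choose! r hr using h1
  set a' : PowerSeries l3_R := PowerSeries.mk fun n => if n = 0 then 0 else r n with ha'
  have h9 : (9 : PowerSeries l3_R) = PowerSeries.C (9 : l3_R) :=
    (map_ofNat (PowerSeries.C (R := l3_R)) 9).symm
  have haa : a = 1 + 9 * a' := by
    ext n
    rw [map_add, h9, PowerSeries.coeff_C_mul, ha', PowerSeries.coeff_mk, PowerSeries.coeff_one]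
    by_cases hn : n = 0
    · subst hn
      rw [h0]
      simp
    · rw [if_neg hn, if_neg hn, hr n (Nat.one_le_iff_ne_zero.mpr hn), zero_add]
      congr 1
  obtain ⟨w, hw⟩ := l3_formal p hp0 c hpc m hm a a' haa
  -- the analytic input
  have hqH : qExpansion 1 H = PowerSeries.map l3_iota a := by
    ext n
    rw [ha, PowerSeries.coeff_map]
    rfl
  have hΔp : IsMF G1 (12 * (p : ℤ)) ((ModularForm.discriminant : ℍ → ℂ) ^ p) :=
    l3_isMF_disc.pow p
  obtain ⟨F₃, hF₃, hq₃⟩ := hTR3 (12 * (p : ℤ)) _ hΔp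
  obtain ⟨F₂, hF₂, hq₂⟩ := hTR2 (12 * (p : ℤ)) H _ hH hΔp
  have hc3 : (p : ℂ) ^ (1 - 12 * (p : ℤ)) = l3_iota (c ^ (12 * p - 1)) := by
    rw [hc, l3_iota_pow_neg]
    congr 1
    have : 1 ≤ 12 * p := by omega
    push_cast [this]
    ring
  have hc2 : (p : ℂ) ^ (-(12 * (p : ℤ))) = l3_iota (c ^ (12 * p)) := by
    rw [hc, l3_iota_pow_neg]
    congr 1
  have hq₃' : qExpansion 1 F₃ = PowerSeries.map l3_iota (l3_f3 p c) := by
    rw [hq₃, l3_qexp_D, l3_f3, map_add, map_mul, PowerSeries.map_C, tr16_V_map, tr16_U_map,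
      PowerSeries.smul_eq_C_mul, hc3]
  have hq₂' : qExpansion 1 F₂ = PowerSeries.map l3_iota (l3_f2 p c a) := by
    rw [hq₂, l3_qexp_D, hqH, l3_f2, map_sub, map_mul, map_mul, PowerSeries.map_C, tr16_V_map,
      tr16_U_map, ← map_mul (PowerSeries.map l3_iota) (l3_D p), tr16_U_map,
      PowerSeries.smul_eq_C_mul, hc2]
  -- the avatars
  obtain ⟨P, hP⟩ := l3_avatar_loc 3 p F₃ hF₃ (l3_f3 p c) (fun n => by
    rw [hq₃', PowerSeries.coeff_map]
    rfl)
  have hF₂' : IsMF G1 (12 * ((p + 1 : ℕ) : ℤ)) (F₂ * (E₄ : ℍ → ℂ) * (E₆ : ℍ → ℂ)) :=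
    ((hF₂.mul isMF_E4).mul isMF_E6).cast (by push_cast; ring)
  set e4 : PowerSeries l3_R := PowerSeries.map (Int.castRingHom l3_R) (1 + 240 * l3_sig 3)
    with he4
  set e6 : PowerSeries l3_R := PowerSeries.map (Int.castRingHom l3_R) (1 - 504 * l3_sig 5)
    with he6
  have hqE4 : qExpansion 1 (E₄ : ℍ → ℂ) = PowerSeries.map l3_iota e4 := by
    rw [he4, l3_map_map, l3_qexp_E4]
    congr 2
  have hqE6 : qExpansion 1 (E₆ : ℍ → ℂ) = PowerSeries.map l3_iota e6 := by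
    rw [he6, l3_map_map, l3_qexp_E6]
    congr 1
    simp [sub_eq_add_neg]
  obtain ⟨Q, hQ⟩ := l3_avatar_loc 3 (p + 1) _ hF₂' (l3_f2 p c a * e4 * e6) (fun n => by
    rw [(hF₂.isNice_G1.mul isNice_E4).qExpansion_mul isNice_E6,
      hF₂.isNice_G1.qExpansion_mul isNice_E4, hq₂', hqE4, hqE6, ← map_mul, ← map_mul,
      PowerSeries.coeff_map]
    rfl)
  -- the algebraic core
  have h3' : (p : LaurentSeries l3_R) * HahnSeries.ofPowerSeries ℤ l3_R (l3_f2 p c a) +
      HahnSeries.ofPowerSeries ℤ l3_R (l3_f3 p c) = 9 * HahnSeries.ofPowerSeries ℤ l3_R w := by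
    have := congrArg (HahnSeries.ofPowerSeries ℤ l3_R) hw
    rw [map_add, map_mul, map_mul, map_ofNat] at this
    rw [← this]
    congr 2
    rw [map_natCast (PowerSeries.C (R := l3_R)) p, map_natCast]
  have hcore := l3_core p P Q (HahnSeries.ofPowerSeries ℤ l3_R (l3_f2 p c a))
    (HahnSeries.ofPowerSeries ℤ l3_R (l3_f3 p c)) (HahnSeries.ofPowerSeries ℤ l3_R w) hP
    (by rw [← hQ, map_mul, map_mul]; rfl) h3'
  -- the contradiction
  have h := congrArg (fun s : LaurentSeries (ZMod 3) => s.coeff ((1 : ℕ) : ℤ)) hcore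
  simp only [redO_red_coeff, HahnSeries.coeff_zero] at h
  rw [HahnSeries.ofPowerSeries_apply_coeff, l3_f3_coeff_one p hp2 c] at h
  exact l3_res_pinv_ne_zero p hcop hp0 (12 * p - 1) h

/-- **[L3]**: for a prime `p` with `9 ∣ p + 1` there is no modular form of weight `2` and level
`Γ₀(p)` with `q`-expansion in `1 + 9 q ℤ_(3)[[q]]`. -/
theorem l3_noH (p : ℕ) (hp : p.Prime) (h9 : 9 ∣ p + 1) : s16g_NoH p 3 2 :=
  l3_noH_of p hp h9 (fun _ _ _ hG hh => tr16_fin_TR2 hp hG hh)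
    (fun _ _ hh => tr16_fin_TR3 hp hh)

end Fermat.Agent.S16
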