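import Mathlib
import Fermat.Prelude.Def_GaloisRep_Flat

/-!
# S16, package [LP]: the Eisenstein series `E_{p-1}` modulo `p`

For a prime `p ≥ 5` the `q`-expansion of the normalised Eisenstein series `E_{p-1}` of level one
has `p`-integral rational coefficients and lies in `1 + p q ℤ_(p)[[q]]` (von Staudt–Clausen).
-/

set_option autoImplicit false

namespace Fermat.Agent.S16

open GaloisRep ModularForm ModularFormClass UpperHalfPlane

/-- The inverse of an integer prime to `ℓ` is `ℓ`-integral. -/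
theorem s16lp_inv_intCast_mem (ℓ : ℕ) (c : ℤ) (hc : Nat.Coprime c.natAbs ℓ) :
    ((c : ℚ))⁻¹ ∈ ratLocalizedAt ℓ := by
  show (((c : ℚ))⁻¹).den.Coprime ℓ
  rw [Rat.inv_intCast_den]
  split_ifs with h
  · exact Nat.coprime_one_left ℓ
  · exact hc

/-- The inverse of a prime `q ≠ ℓ` is `ℓ`-integral. -/
theorem s16lp_inv_prime_mem (ℓ : ℕ) (hℓ : ℓ.Prime) (q : ℕ) (hq : q.Prime) (hne : q ≠ ℓ) :
    (1 : ℚ) / q ∈ ratLocalizedAt ℓ := by
  rw [one_div]
  have := s16lp_inv_intCast_mem ℓ (q : ℤ) (by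
    rw [Int.natAbs_natCast]
    exact (Nat.coprime_primes hq hℓ).2 hne)
  simpa using this

/-- `x = -1 + ℓ w` with `w` an `ℓ`-integral rational number: `x⁻¹` is `ℓ`-integral. -/
theorem s16lp_inv_mem (ℓ : ℕ) (hℓ : ℓ.Prime) (w : ℚ) (hw : w ∈ ratLocalizedAt ℓ) :
    (-1 + (ℓ : ℚ) * w)⁻¹ ∈ ratLocalizedAt ℓ := by
  have hb : w.den.Coprime ℓ := hw
  have hbne : (w.den : ℚ) ≠ 0 := by exact_mod_cast w.den_nz
  have hx : (-1 + (ℓ : ℚ) * w) = ((-(w.den : ℤ) + ℓ * w.num : ℤ) : ℚ) / (w.den : ℚ) := by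
    conv_lhs => rw [← Rat.num_div_den w]
    push_cast
    field_simp
  rw [hx, inv_div]
  rw [div_eq_mul_inv]
  refine mul_mem (natCast_mem _ _) (s16lp_inv_intCast_mem ℓ _ ?_)
  rw [Nat.coprime_comm, Nat.Prime.coprime_iff_not_dvd hℓ]
  intro hd
  have hd' : (ℓ : ℤ) ∣ -(w.den : ℤ) + ℓ * w.num := Int.natCast_dvd.2 hd
  have h2 : (ℓ : ℤ) ∣ (w.den : ℤ) := by
    have h3 : (ℓ : ℤ) ∣ (ℓ : ℤ) * w.num - (-(w.den : ℤ) + ℓ * w.num) :=
      dvd_sub (dvd_mul_right _ _) hd'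
    simpa using h3
  have h4 : ℓ ∣ w.den := Int.natCast_dvd_natCast.1 h2
  exact (Nat.Prime.coprime_iff_not_dvd hℓ).1 hb.symm h4

/-- von Staudt–Clausen at the prime `p`: `p B_{p-1} = -1 + p w` with `w` a `p`-integral rational
number. -/
theorem s16lp_bernoulli (p : ℕ) (hp : p.Prime) (hodd : p ≠ 2) :
    ∃ w : ℚ, w ∈ ratLocalizedAt p ∧ (p : ℚ) * bernoulli (p - 1) = -1 + (p : ℚ) * w := by
  classical
  obtain ⟨k, hk⟩ : ∃ k, p - 1 = 2 * k := by
    rcases hp.eq_two_or_odd with h | h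
    · exact absurd h hodd
    · exact ⟨(p - 1) / 2, by omega⟩
  obtain ⟨m, hm⟩ := Bernoulli.vonStaudt_clausen k
  have hp1 : 1 ≤ p := hp.one_lt.le
  have hmem : p ∈ (Finset.range (2 * k + 2)).filter fun q => q.Prime ∧ (q - 1) ∣ 2 * k := by
    rw [Finset.mem_filter, Finset.mem_range]
    refine ⟨by omega, hp, ?_⟩
    rw [← hk]
  rw [← Finset.add_sum_erase _ _ hmem] at hm
  set y : ℚ := ∑ q ∈ ((Finset.range (2 * k + 2)).filter fun q => q.Prime ∧ (q - 1) ∣ 2 * k).erase p,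
    (1 : ℚ) / q with hy
  have hymem : y ∈ ratLocalizedAt p := by
    refine Subring.sum_mem _ fun q hq => ?_
    rw [Finset.mem_erase, Finset.mem_filter] at hq
    exact s16lp_inv_prime_mem p hp q hq.2.2.1 hq.1
  refine ⟨(m : ℚ) - y, sub_mem (intCast_mem _ m) hymem, ?_⟩
  have hpne : (p : ℚ) ≠ 0 := by exact_mod_cast hp.ne_zero
  rw [hk]
  have hB : bernoulli (2 * k) = (m : ℚ) - (1 / (p : ℚ) + y) := by
    rw [hm]; ring
  rw [hB]
  field_simp
  ring

/-- `2 (p - 1) / B_{p-1} = p r` with `r` a `p`-integral rational number. -/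
theorem s16lp_two_mul_div_bernoulli (p : ℕ) (hp : p.Prime) (hodd : p ≠ 2) :
    ∃ r : ℚ, r ∈ ratLocalizedAt p ∧
      2 * ((p - 1 : ℕ) : ℚ) / bernoulli (p - 1) = (p : ℚ) * r := by
  obtain ⟨w, hw, hB⟩ := s16lp_bernoulli p hp hodd
  have hpne : (p : ℚ) ≠ 0 := by exact_mod_cast hp.ne_zero
  have hinv := s16lp_inv_mem p hp w hw
  refine ⟨2 * ((p - 1 : ℕ) : ℚ) * (-1 + (p : ℚ) * w)⁻¹,
    mul_mem (mul_mem (by exact_mod_cast natCast_mem (ratLocalizedAt p) 2) (natCast_mem _ _)) hinv, ?_⟩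
  have hB' : bernoulli (p - 1) = (-1 + (p : ℚ) * w) / p := by
    rw [← hB]; field_simp
  rw [hB']
  rw [div_div_eq_mul_div]
  ring

/-- **`E_{p-1} ≡ 1 mod p`.**  For a prime `p ≥ 5`, the `q`-expansion of `E_{p-1}` has
`p`-integral rational coefficients, constant term `1`, and all higher coefficients divisible by
`p` in `ℤ_(p)`. -/
theorem s16lp_E_coeff (p : ℕ) (hp : p.Prime) (h5 : 5 ≤ p) (hk : 3 ≤ p - 1) :
    ∃ e : PowerSeries ↥(ratLocalizedAt p),
      (∀ n, (qExpansion 1 (E hk)).coeff n =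
        (((PowerSeries.coeff n e : ↥(ratLocalizedAt p)) : ℚ) : ℂ)) ∧
      PowerSeries.coeff 0 e = 1 ∧
      ∀ n, 1 ≤ n → ∃ r : ↥(ratLocalizedAt p),
        PowerSeries.coeff n e = (p : ↥(ratLocalizedAt p)) * r := by
  classical
  have hodd : p ≠ 2 := by omega
  have heven : Even (p - 1) := by
    rcases hp.eq_two_or_odd with h | h
    · exact absurd h hodd
    · exact ⟨(p - 1) / 2, by omega⟩
  obtain ⟨r, hr, hrB⟩ := s16lp_two_mul_div_bernoulli p hp hodd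
  refine ⟨PowerSeries.mk fun n => if n = 0 then 1 else
    (p : ↥(ratLocalizedAt p)) * (⟨-r, neg_mem hr⟩ * ((ArithmeticFunction.sigma (p - 1 - 1) n : ℕ) :
      ↥(ratLocalizedAt p))), ?_, ?_, ?_⟩
  · intro n
    rw [EisensteinSeries.E_qExpansion_coeff hk heven n, PowerSeries.coeff_mk]
    split_ifs with h
    · simp
    · push_cast
      have : (2 * ((p - 1 : ℕ) : ℂ) / (bernoulli (p - 1) : ℂ)) = ((p : ℚ) * r : ℚ) := by
        rw [← hrB]; push_cast; rfl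
      rw [this]
      push_cast
      ring
  · simp
  · intro n hn
    refine ⟨⟨-r, neg_mem hr⟩ * ((ArithmeticFunction.sigma (p - 1 - 1) n : ℕ) :
      ↥(ratLocalizedAt p)), ?_⟩
    rw [PowerSeries.coeff_mk, if_neg (by omega)]

end Fermat.Agent.S16
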