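import Mathlib
import Fermat.Agent.S16.GlueDefs
import Fermat.Agent.S16.LPEis

/-!
# S16, package [LP]: (C2) at `ℓ = p` (Serre's trace trick), assembly

For a prime `p ≥ 5` there is no modular form `H` of weight 2 and level `Γ₀(p)` with
`q`-expansion in `1 + p q ℤ_(p)[[q]]`.

Proof.  Let `E = E_{p-1}` (level one, `E ≡ 1 mod p`).  The trace to level one of
`H (E - p^(p-1) V_p E)` is the level-one form `F` of weight `p + 1` with `q`-expansion
`U_p(E U_p H) - p^(p-1) H V_p E`; it has `p`-integral coefficients, unit constant term and all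
higher coefficients divisible by `p`.  As `gcd(p + 1, p - 1) = 2`, this contradicts the level-one
weight obstruction [SWD].

The two inputs are taken as interface statements:
* `s16lp_TraceAt p` ([TRACE], (T2)): `U_p(h U_p H) - p^k H V_p h` is the `q`-expansion of a
  level-one form of weight `k + 2`, for `H ∈ M_2(Γ₀(p))` and `h ∈ M_k(SL₂(ℤ))`;
* `s16lp_SwdAt p` ([SWD]): no level-one form of weight `k` with `gcd(k, p - 1) = 2` has a
  `q`-expansion in `u + p q ℤ_(p)[[q]]`, `u` a unit.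
-/

set_option autoImplicit false

namespace Fermat.Agent.S16

open UpperHalfPlane ModularFormClass CongruenceSubgroup GaloisRep
open Fermat.Agent.S22 (IsMF IsNice G0 G1 IsIntQ)

/-- [TRACE], statement (T2) at the prime `p`, coefficientwise: for `H ∈ M_2(Γ₀(p))` and
`h ∈ M_k(SL₂(ℤ))` the series `U_p(h U_p H) - p^k H V_p h` is the `q`-expansion of a level-one
form of weight `k + 2`. -/
def s16lp_TraceAt (p : ℕ) : Prop :=
  ∀ H : ℍ → ℂ, IsMF (G0 p) 2 H → ∀ (k : ℕ) (h : ℍ → ℂ), IsMF G1 (k : ℤ) h →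
    ∃ F : ℍ → ℂ, IsMF G1 ((k : ℤ) + 2) F ∧ ∀ n,
      (qExpansion 1 F).coeff n =
        ∑ x ∈ Finset.HasAntidiagonal.antidiagonal (p * n),
            (qExpansion 1 h).coeff x.1 * (qExpansion 1 H).coeff (p * x.2)
          - (p : ℂ) ^ k * ∑ x ∈ (Finset.HasAntidiagonal.antidiagonal n).filter (fun x => p ∣ x.2),
            (qExpansion 1 H).coeff x.1 * (qExpansion 1 h).coeff (x.2 / p)

/-- [SWD] at the prime `p`: the level-one weight obstruction modulo `p`, in the rational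
shape. -/
def s16lp_SwdAt (p : ℕ) : Prop :=
  ∀ k : ℕ, Nat.gcd k (p - 1) = 2 → ∀ F : ℍ → ℂ, IsMF G1 (k : ℤ) F →
    ∀ a : PowerSeries ↥(ratLocalizedAt p),
      (∀ n, (qExpansion 1 F).coeff n =
        (((PowerSeries.coeff n a : ↥(ratLocalizedAt p)) : ℚ) : ℂ)) →
      IsUnit (PowerSeries.coeff 0 a) →
      (∀ n, 1 ≤ n → ∃ r : ↥(ratLocalizedAt p),
        PowerSeries.coeff n a = (p : ↥(ratLocalizedAt p)) * r) → False

/-- `1 - p^(m+1)` is a unit of `ℤ_(p)`. -/
theorem s16lp_isUnit_one_sub (p : ℕ) (hp : p.Prime) (m : ℕ) :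
    IsUnit ((1 : ↥(ratLocalizedAt p)) - (p : ↥(ratLocalizedAt p)) ^ (m + 1)) := by
  have hmem : ((p : ℚ) ^ m) ∈ ratLocalizedAt p := pow_mem (natCast_mem _ p) m
  have hinv := s16lp_inv_mem p hp _ hmem
  have hne : (-1 + (p : ℚ) * (p : ℚ) ^ m) ≠ 0 := by
    have h1 : (1 : ℚ) < (p : ℚ) * (p : ℚ) ^ m := by
      have h2 : (1 : ℚ) < (p : ℚ) := by exact_mod_cast hp.one_lt
      have h3 : (1 : ℚ) ≤ (p : ℚ) ^ m := one_le_pow₀ h2.le
      calc (1 : ℚ) < (p : ℚ) * 1 := by simpa using h2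
        _ ≤ (p : ℚ) * (p : ℚ) ^ m := by
          apply mul_le_mul_of_nonneg_left h3 (by linarith)
    intro h
    linarith
  refine IsUnit.of_mul_eq_one (⟨-(-1 + (p : ℚ) * (p : ℚ) ^ m)⁻¹, neg_mem hinv⟩) ?_
  apply Subtype.ext
  push_cast
  field_simp
  ring

/-- **(C2) at `ℓ = p` from [TRACE] and [SWD].** -/
theorem s16lp_noH_of (p : ℕ) (hp : p.Prime) (h5 : 5 ≤ p) (hT : s16lp_TraceAt p)
    (hW : s16lp_SwdAt p) : s16g_NoH p p 1 := by
  classical
  intro H hH a ha ha0 ha1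
  have hk3 : 3 ≤ p - 1 := by omega
  obtain ⟨e, he, he0, he1⟩ := s16lp_E_coeff p hp h5 hk3
  obtain ⟨F, hF, hFc⟩ := hT H hH (p - 1) (⇑(ModularForm.E hk3)) ⟨ModularForm.E hk3, rfl⟩
  -- divisibility of the higher coefficients
  have ha1' : ∀ n, 1 ≤ n → (p : ↥(ratLocalizedAt p)) ∣ PowerSeries.coeff n a := by
    intro n hn
    obtain ⟨r, hr⟩ := ha1 n hn
    exact ⟨r, by rw [hr, pow_one]⟩
  have he1' : ∀ n, 1 ≤ n → (p : ↥(ratLocalizedAt p)) ∣ PowerSeries.coeff n e := by
    intro n hn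
    obtain ⟨r, hr⟩ := he1 n hn
    exact ⟨r, hr⟩
  -- the coefficient series of `F`
  set b : ℕ → ↥(ratLocalizedAt p) := fun n =>
    ∑ x ∈ Finset.HasAntidiagonal.antidiagonal (p * n),
        PowerSeries.coeff x.1 e * PowerSeries.coeff (p * x.2) a
      - (p : ↥(ratLocalizedAt p)) ^ (p - 1) *
        ∑ x ∈ (Finset.HasAntidiagonal.antidiagonal n).filter (fun x => p ∣ x.2),
          PowerSeries.coeff x.1 a * PowerSeries.coeff (x.2 / p) e with hb
  have hp1 : p - 1 = (p - 2) + 1 := by omega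
  have hweight : ((p - 1 : ℕ) : ℤ) + 2 = ((p + 1 : ℕ) : ℤ) := by
    have : 1 ≤ p := by omega
    push_cast [Nat.cast_sub this]
    ring
  rw [hweight] at hF
  refine hW (p + 1) ?_ F hF (PowerSeries.mk b) ?_ ?_ ?_
  · -- gcd (p + 1) (p - 1) = 2
    rcases hp.eq_two_or_odd with h | h
    · omega
    · obtain ⟨t, ht⟩ : ∃ t, p = 2 * t + 1 := ⟨p / 2, by omega⟩
      subst ht
      have h1 : 2 * t + 1 + 1 = 2 * t + 2 := by ring
      have h2 : 2 * t + 1 - 1 = 2 * t := by omega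
      rw [h1, h2]
      have h3 : Nat.gcd (2 * t + 2) (2 * t) = Nat.gcd 2 (2 * t) := by
        rw [Nat.gcd_comm, Nat.gcd_comm 2, add_comm]
        exact Nat.gcd_add_self_right (2 * t) 2
      rw [h3]
      exact Nat.gcd_eq_left (dvd_mul_right 2 t)
  · intro n
    rw [hFc n, PowerSeries.coeff_mk, hb]
    simp only [he, ha]
    push_cast
    rfl
  · rw [PowerSeries.coeff_mk, hb]
    simp only [mul_zero, Finset.Nat.antidiagonal_zero]
    rw [Finset.filter_true_of_mem (by
      intro x hx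
      rw [Finset.mem_singleton] at hx
      subst hx
      exact dvd_zero p)]
    simp only [Finset.sum_singleton, mul_zero, Nat.zero_div, he0, ha0, mul_one]
    rw [hp1]
    exact s16lp_isUnit_one_sub p hp (p - 2)
  · intro n hn
    rw [PowerSeries.coeff_mk]
    show (p : ↥(ratLocalizedAt p)) ∣ b n
    rw [hb]
    refine dvd_sub (Finset.dvd_sum fun x hx => ?_) ?_
    · rw [Finset.HasAntidiagonal.mem_antidiagonal] at hx
      rcases Nat.eq_zero_or_pos x.1 with h0 | hpos
      · refine dvd_mul_of_dvd_right (ha1' _ ?_) _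
        have hx2 : x.2 = p * n := by omega
        rw [hx2]
        have : 1 ≤ p := by omega
        exact Nat.one_le_iff_ne_zero.2 (by positivity)
      · exact dvd_mul_of_dvd_left (he1' _ hpos) _
    · rw [hp1, pow_succ]
      exact dvd_mul_of_dvd_left (dvd_mul_left _ _) _

end Fermat.Agent.S16
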