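import Mathlib
import Fermat.Agent.S16.TraceDefs
import Fermat.Agent.S16.LP

/-!
# S16, package [LP]: bridge from the operator shape of [TRACE] (TR2)

`s16lp_TR2At p` is the statement (TR2) of [TRACE] in the shape of `TraceDefs.lean`
(`tr16_U`, `tr16_V`); `s16lp_traceAt_of_TR2` turns it into the coefficientwise interface
`s16lp_TraceAt p` of `LP.lean`, and `s16lp_noH_of_TR2` is (C2) at `ℓ = p` from (TR2) and [SWD].
-/

set_option autoImplicit false

namespace Fermat.Agent.S16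

open UpperHalfPlane ModularFormClass CongruenceSubgroup GaloisRep
open Fermat.Agent.S22 (IsMF IsNice G0 G1 IsIntQ)

/-- A scalar multiple of a level-one modular form is a level-one modular form. -/
theorem s16lp_isMF_smul {k : ℤ} {f : ℍ → ℂ} (c : ℂ)
    (hf : IsMF G1 k f) : IsMF G1 k (c • f) := by
  obtain ⟨F, rfl⟩ := hf
  exact ⟨c • F, rfl⟩

/-- [TRACE] (TR2) at the prime `p`, operator shape: for `G ∈ M_2(Γ₀(p))` and `h ∈ M_k(SL₂(ℤ))`
the series `G V_p h - p^(-k) U_p(h U_p G)` is the `q`-expansion of a level-one form of weight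
`k + 2`. -/
def s16lp_TR2At (p : ℕ) : Prop :=
  ∀ G : ℍ → ℂ, IsMF (G0 p) 2 G → ∀ (k : ℤ) (h : ℍ → ℂ), IsMF G1 k h →
    ∃ F : ℍ → ℂ, IsMF G1 (k + 2) F ∧
      qExpansion 1 F = qExpansion 1 G * tr16_V p (qExpansion 1 h)
        - ((p : ℂ) ^ (-k)) • tr16_U p (qExpansion 1 h * tr16_U p (qExpansion 1 G))

/-- The coefficientwise interface of `LP.lean` from the operator shape of (TR2). -/
theorem s16lp_traceAt_of_TR2 (p : ℕ) (hp : p ≠ 0) (hTR2 : s16lp_TR2At p) :
    s16lp_TraceAt p := by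
  classical
  intro H hH k h hh
  obtain ⟨F, hF, hFq⟩ := hTR2 H hH (k : ℤ) h hh
  have hpk : ((p : ℂ) ^ k) ≠ 0 := pow_ne_zero _ (by exact_mod_cast hp)
  refine ⟨(-((p : ℂ) ^ k)) • F, s16lp_isMF_smul _ hF, fun n => ?_⟩
  obtain ⟨F', rfl⟩ := hF
  have hsmul : qExpansion 1 ((-((p : ℂ) ^ k)) • ⇑F') = (-((p : ℂ) ^ k)) • qExpansion 1 ⇑F' := by
    have := ModularForm.qExpansion_smul (h := 1) (by norm_num) (by simp) (-((p : ℂ) ^ k)) F'
    simpa using this
  rw [hsmul, hFq, zpow_neg, zpow_natCast]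
  simp only [PowerSeries.coeff_smul, map_sub, smul_eq_mul, PowerSeries.coeff_mul, tr16_U_coeff,
    tr16_V_coeff]
  rw [Finset.sum_filter]
  have : ∀ x : ℕ × ℕ, (PowerSeries.coeff x.1 (qExpansion 1 H) *
      if p ∣ x.2 then PowerSeries.coeff (x.2 / p) (qExpansion 1 h) else 0) =
      if p ∣ x.2 then PowerSeries.coeff x.1 (qExpansion 1 H) *
        PowerSeries.coeff (x.2 / p) (qExpansion 1 h) else 0 := by
    intro x; split_ifs <;> simp
  simp only [this]
  field_simp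
  ring

/-- **(C2) at `ℓ = p` from (TR2) and [SWD].** -/
theorem s16lp_noH_of_TR2 (p : ℕ) (hp : p.Prime) (h5 : 5 ≤ p) (hTR2 : s16lp_TR2At p)
    (hW : s16lp_SwdAt p) : s16g_NoH p p 1 :=
  s16lp_noH_of p hp h5 (s16lp_traceAt_of_TR2 p hp.ne_zero hTR2) hW

end Fermat.Agent.S16
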