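import Mathlib
import Fermat.Agent.S16.TraceDefs
import Fermat.Agent.S16.LPBridge

/-!
# S16, package [LP]: (TR2) from the trace formula, (T1) and the `K`-rules

Pure glue: the statement (TR2) of [TRACE] (in the shape `s16lp_TR2At p` of `LPBridge.lean`)
follows from
* the trace formula `qExp (Tr F) = qExp F + p • U_p (qExp (K F))` (any weight),
* (T1) `qExp (K G) = -p⁻¹ • U_p (qExp G)` in weight 2,
* the rules `K (F * G) = K F * K G`, `K (h ∘ p) = p^(-k) • h` for `h` of level one, and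
  `K F ∈ M_k(Γ₀(p))`.
All five inputs are hypotheses, in the shapes of the statements of `TraceDefs.lean`.
-/

set_option autoImplicit false

namespace Fermat.Agent.S16

open UpperHalfPlane ModularFormClass CongruenceSubgroup GaloisRep
open Fermat.Agent.S22 (IsMF IsNice G0 G1 IsIntQ)

/-- The `q`-expansion of `z ↦ h (p z)` is `V_p` of the `q`-expansion of `h`. -/
theorem s16lp_qExpansion_comp_diag {f : ℍ → ℂ} (hf : IsNice f) {p : ℕ} (hp : p ≠ 0) :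
    qExpansion 1 (fun z => f (ModularForm.heckeDiagMatrix p • z)) =
      tr16_V p (qExpansion 1 f) := by
  ext n
  rw [Fermat.Agent.S22.DN.qExpansion_comp_diag_coeff hf hp, tr16_V_coeff]

/-- The `q`-expansion of `U_p f` is `U_p` of the `q`-expansion of `f`. -/
theorem s16lp_qExpansion_heckeU {f : ℍ → ℂ} (hf : IsNice f) (k : ℤ) {p : ℕ} (hp : p ≠ 0) :
    qExpansion 1 (ModularForm.heckeU k p f) = tr16_U p (qExpansion 1 f) := by
  ext n
  have h2 := UpperHalfPlane.qCoeff_heckeU hf.per hf.holo hf.bdd k hp n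
  simp only [ModularFormClass.qCoeff, ModularForm.coeffHeckeU_apply] at h2
  rw [h2, tr16_U_coeff, mul_comm]

/-- **(T1) from 'the trace to level one vanishes in weight 2' and the `K`-rules**, function
level: `K G = -p⁻¹ U_p G` for `G ∈ M_2(Γ₀(p))`. -/
theorem s16lp_T1_fun_of (p : ℕ) [NeZero p]
    (htwo : ∀ F : ℍ → ℂ, IsMF (G0 p) 2 F →
      F + (p : ℂ) • ModularForm.heckeU 2 p (tr16_K p 2 F) = 0)
    (hK5 : ∀ (k : ℤ) (F : ℍ → ℂ), IsMF (G0 p) k F →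
      tr16_K p k (tr16_K p k F) = ((p : ℂ) ^ (-k)) • F)
    (hK6 : ∀ (k : ℤ) (F : ℍ → ℂ), IsMF (G0 p) k F → IsMF (G0 p) k (tr16_K p k F))
    (G : ℍ → ℂ) (hG : IsMF (G0 p) 2 G) :
    tr16_K p 2 G = (-(p : ℂ)⁻¹) • ModularForm.heckeU 2 p G := by
  have hp : p ≠ 0 := NeZero.ne p
  have hpC : (p : ℂ) ≠ 0 := by exact_mod_cast hp
  have h1 := htwo (tr16_K p 2 G) (hK6 2 G hG)
  rw [hK5 2 G hG, ModularForm.heckeU_smul, smul_smul] at h1
  have h2 : tr16_K p 2 G = -(((p : ℂ) * (p : ℂ) ^ (-(2 : ℤ))) • ModularForm.heckeU 2 p G) :=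
    eq_neg_of_add_eq_zero_left h1
  have h3 : (p : ℂ) * (p : ℂ) ^ (-(2 : ℤ)) = (p : ℂ)⁻¹ := by
    rw [zpow_neg]
    field_simp
  rw [h2, h3]
  funext z
  simp only [Pi.neg_apply, Pi.smul_apply, smul_eq_mul]
  ring

/-- (T1), series level. -/
theorem s16lp_T1_of (p : ℕ) [NeZero p]
    (htwo : ∀ F : ℍ → ℂ, IsMF (G0 p) 2 F →
      F + (p : ℂ) • ModularForm.heckeU 2 p (tr16_K p 2 F) = 0)
    (hK5 : ∀ (k : ℤ) (F : ℍ → ℂ), IsMF (G0 p) k F →
      tr16_K p k (tr16_K p k F) = ((p : ℂ) ^ (-k)) • F)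
    (hK6 : ∀ (k : ℤ) (F : ℍ → ℂ), IsMF (G0 p) k F → IsMF (G0 p) k (tr16_K p k F))
    (G : ℍ → ℂ) (hG : IsMF (G0 p) 2 G) :
    qExpansion 1 (tr16_K p 2 G) = (-(p : ℂ)⁻¹) • tr16_U p (qExpansion 1 G) := by
  rw [s16lp_T1_fun_of p htwo hK5 hK6 G hG,
    (Fermat.Agent.S22.DN.isNice_heckeU hG.isNice_G0 2 p).qExpansion_smul,
    s16lp_qExpansion_heckeU hG.isNice_G0 2 (NeZero.ne p)]

/-- **(TR2) from the trace formula, (T1) and the `K`-rules.** -/
theorem s16lp_TR2At_of (p : ℕ) [NeZero p]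
    (hTr : ∀ (k : ℤ) (F : ℍ → ℂ), IsMF (G0 p) k F → ∃ T : ℍ → ℂ, IsMF G1 k T ∧
      qExpansion 1 T = qExpansion 1 F + (p : ℂ) • tr16_U p (qExpansion 1 (tr16_K p k F)))
    (hT1 : ∀ G : ℍ → ℂ, IsMF (G0 p) 2 G →
      qExpansion 1 (tr16_K p 2 G) = (-(p : ℂ)⁻¹) • tr16_U p (qExpansion 1 G))
    (hK2 : ∀ (k l : ℤ) (F G : ℍ → ℂ),
      tr16_K p (k + l) (F * G) = tr16_K p k F * tr16_K p l G)
    (hK4 : ∀ (k : ℤ) (h : ℍ → ℂ), IsMF G1 k h →
      tr16_K p k (fun z => h (ModularForm.heckeDiagMatrix p • z)) = ((p : ℂ) ^ (-k)) • h)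
    (hK6 : ∀ (k : ℤ) (F : ℍ → ℂ), IsMF (G0 p) k F → IsMF (G0 p) k (tr16_K p k F)) :
    s16lp_TR2At p := by
  intro G hG k h hh
  have hp : p ≠ 0 := NeZero.ne p
  have hpC : (p : ℂ) ≠ 0 := by exact_mod_cast hp
  have hVh : IsMF (G0 p) k (fun z => h (ModularForm.heckeDiagMatrix p • z)) :=
    Fermat.Agent.S22.DN.isMF_comp_diag p hh
  have hf : IsMF (G0 p) (2 + k) (G * fun z => h (ModularForm.heckeDiagMatrix p • z)) :=
    hG.mul hVh
  obtain ⟨T, hT, hTq⟩ := hTr (2 + k) _ hf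
  refine ⟨T, hT.cast (by ring), ?_⟩
  have hKG : IsNice (tr16_K p 2 G) := (hK6 2 G hG).isNice_G0
  have hh' : IsNice h := hh.isNice_G1
  rw [hTq, hK2 2 k, hK4 k h hh, hG.isNice_G0.qExpansion_mul hVh.isNice_G0,
    s16lp_qExpansion_comp_diag hh' hp, hKG.qExpansion_mul (hh'.smul _),
    hh'.qExpansion_smul, hT1 G hG]
  ext n
  simp only [map_add, map_sub, PowerSeries.coeff_smul, tr16_U_coeff, smul_eq_mul,
    PowerSeries.coeff_mul, Finset.mul_sum]
  rw [sub_eq_add_neg]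
  congr 1
  rw [← Finset.sum_neg_distrib]
  rw [← Finset.sum_equiv (Equiv.prodComm ℕ ℕ) (s := Finset.HasAntidiagonal.antidiagonal (p * n))
    (t := Finset.HasAntidiagonal.antidiagonal (p * n))
    (f := fun x => (p : ℂ) * ((-(p : ℂ)⁻¹) * PowerSeries.coeff (p * x.1) (qExpansion 1 G) *
      ((p : ℂ) ^ (-k) * PowerSeries.coeff x.2 (qExpansion 1 h))))
    (g := fun x => -((p : ℂ) ^ (-k) * (PowerSeries.coeff x.1 (qExpansion 1 h) *
      PowerSeries.coeff (p * x.2) (qExpansion 1 G))))]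
  · intro x
    simp only [Finset.HasAntidiagonal.mem_antidiagonal, Equiv.prodComm_apply, Prod.fst_swap,
      Prod.snd_swap]
    rw [add_comm]
  · intro x _
    simp only [Equiv.prodComm_apply, Prod.fst_swap, Prod.snd_swap]
    field_simp

end Fermat.Agent.S16
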