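import Fermat.Agent.S16.Swd
import Fermat.Agent.S28.RedO

/-!
# S16, (C2), package [SWD]: rational shapes

The level-one weight obstruction `s16w_cong` / `s16w_no_const` for `q`-expansions with
coefficients in `ℤ_(ℓ) = GaloisRep.ratLocalizedAt ℓ`, congruences modulo `ℓ`.
-/

set_option autoImplicit false

open UpperHalfPlane ModularForm EisensteinSeries ModularFormClass
open scoped MatrixGroups

noncomputable section

namespace Fermat.Agent.S16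

open Fermat.Agent.S22 Fermat.Agent.S28

/-- The embedding `ℤ_(ℓ) → ℂ`. -/
def s16w_iotaC (ℓ : ℕ) : ↥(GaloisRep.ratLocalizedAt ℓ) →+* ℂ :=
  (algebraMap ℚ ℂ).comp (GaloisRep.ratLocalizedAt ℓ).subtype

theorem s16w_iotaC_apply (ℓ : ℕ) (r : ↥(GaloisRep.ratLocalizedAt ℓ)) :
    s16w_iotaC ℓ r = ((r : ℚ) : ℂ) := rfl

theorem s16w_iotaC_injective (ℓ : ℕ) : Function.Injective (s16w_iotaC ℓ) := by
  intro a b h
  rw [s16w_iotaC_apply, s16w_iotaC_apply] at h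
  exact Subtype.ext (Rat.cast_injective h)

theorem s16w_iotaC_surj (ℓ : ℕ) (q : ℚ) (hq : q ∈ GaloisRep.ratLocalizedAt ℓ) :
    ∃ a : ↥(GaloisRep.ratLocalizedAt ℓ), s16w_iotaC ℓ a = (q : ℂ) :=
  ⟨⟨q, hq⟩, rfl⟩

theorem s16w_qExp_eq_map (ℓ : ℕ) (F : ℍ → ℂ) (a : PowerSeries ↥(GaloisRep.ratLocalizedAt ℓ))
    (ha : ∀ n, (qExpansion 1 F).coeff n =
      (((PowerSeries.coeff n a : ↥(GaloisRep.ratLocalizedAt ℓ)) : ℚ) : ℂ)) :
    qExpansion 1 F = a.map (s16w_iotaC ℓ) := by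
  ext n
  rw [PowerSeries.coeff_map, s16w_iotaC_apply]
  exact ha n

/-- **Level-one weight obstruction modulo `ℓ`, rational shape.**  Two level-one forms with
`ℓ`-integral `q`-expansions, of weights `k ≤ k'` with `gcd (k' - k, ℓ - 1) = 2`, congruent
modulo `ℓ`, both vanish modulo `ℓ`. -/
theorem s16w_cong_rat (ℓ : ℕ) (hℓ : ℓ.Prime) (h5 : 5 ≤ ℓ) (k k' : ℕ) (hkk : k ≤ k')
    (hk : Nat.gcd (k' - k) (ℓ - 1) = 2) (f g : ℍ → ℂ) (hf : IsMF G1 (k : ℤ) f)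
    (hg : IsMF G1 (k' : ℤ) g) (a b : PowerSeries ↥(GaloisRep.ratLocalizedAt ℓ))
    (ha : ∀ n, (qExpansion 1 f).coeff n =
      (((PowerSeries.coeff n a : ↥(GaloisRep.ratLocalizedAt ℓ)) : ℚ) : ℂ))
    (hb : ∀ n, (qExpansion 1 g).coeff n =
      (((PowerSeries.coeff n b : ↥(GaloisRep.ratLocalizedAt ℓ)) : ℚ) : ℂ))
    (hc : ∀ n, ∃ r : ↥(GaloisRep.ratLocalizedAt ℓ),
      PowerSeries.coeff n a - PowerSeries.coeff n b = (ℓ : ↥(GaloisRep.ratLocalizedAt ℓ)) * r) :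
    ∀ n, ∃ r : ↥(GaloisRep.ratLocalizedAt ℓ),
      PowerSeries.coeff n a = (ℓ : ↥(GaloisRep.ratLocalizedAt ℓ)) * r := by
  have : Fact ℓ.Prime := ⟨hℓ⟩
  have hmap : a.map (redO_res ℓ) = b.map (redO_res ℓ) := by
    ext n
    rw [PowerSeries.coeff_map, PowerSeries.coeff_map]
    obtain ⟨r, hr⟩ := hc n
    have := congrArg (redO_res ℓ) hr
    rw [map_sub, map_mul, redO_res_natCast_self, zero_mul] at this
    exact sub_eq_zero.mp this
  have h0 := s16w_cong ℓ hℓ h5 (s16w_iotaC ℓ) (s16w_iotaC_injective ℓ) (s16w_iotaC_surj ℓ)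
    (redO_res ℓ) k k' hkk hk f g hf hg a b (s16w_qExp_eq_map ℓ f a ha)
    (s16w_qExp_eq_map ℓ g b hb) hmap
  intro n
  have hn := congrArg (PowerSeries.coeff n) h0
  rw [PowerSeries.coeff_map, map_zero] at hn
  exact redO_res_eq_zero ℓ _ hn

/-- **No level-one form of weight `k` with `gcd (k, ℓ - 1) = 2` and `ℓ`-integral
`q`-expansion is congruent to a unit constant modulo `ℓ`.** -/
theorem s16w_no_const_rat (ℓ : ℕ) (hℓ : ℓ.Prime) (h5 : 5 ≤ ℓ) (k : ℕ)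
    (hk : Nat.gcd k (ℓ - 1) = 2) (F : ℍ → ℂ) (hF : IsMF G1 (k : ℤ) F)
    (a : PowerSeries ↥(GaloisRep.ratLocalizedAt ℓ))
    (ha : ∀ n, (qExpansion 1 F).coeff n =
      (((PowerSeries.coeff n a : ↥(GaloisRep.ratLocalizedAt ℓ)) : ℚ) : ℂ))
    (h0 : IsUnit (PowerSeries.coeff 0 a))
    (h1 : ∀ n, 1 ≤ n → ∃ r : ↥(GaloisRep.ratLocalizedAt ℓ),
      PowerSeries.coeff n a = (ℓ : ↥(GaloisRep.ratLocalizedAt ℓ)) * r) : False := by
  have : Fact ℓ.Prime := ⟨hℓ⟩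
  refine s16w_no_const ℓ hℓ h5 (s16w_iotaC ℓ) (s16w_iotaC_injective ℓ) (s16w_iotaC_surj ℓ)
    (redO_res ℓ) k hk F hF a (s16w_qExp_eq_map ℓ F a ha) (h0.map (redO_res ℓ)).ne_zero ?_
  intro n hn
  obtain ⟨r, hr⟩ := h1 n hn
  rw [hr, map_mul, redO_res_natCast_self, zero_mul]

end Fermat.Agent.S16
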