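import Mathlib
import Fermat.Agent.S16.TraceDefs

/-!
# S16, package [TR-CORE]: pointwise rules for the Fricke transform `tr16_K`

`K_F(z) = (p z)^(-k) F(-1/(p z)) = (F ∣[k] S)(p z)`.

* (K1) `tr16_K_add`, `tr16_K_smul` (also `tr16_K_zero`, `tr16_K_neg`, `tr16_K_sub`);
* (K2) `tr16_K_mul`        : `K_(F G) = K_F K_G` (weights add);
* (K3) `tr16_K_levelOne`   : `K_h = V h` for `h` of level one;
* (K4) `tr16_K_comp_diag`  : `K_(V h) = p^(-k) h` for `h` of level one;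
* (K7) `tr16_qExp_comp_diag` : `qExpansion (V h) = tr16_V p (qExpansion h)`.
-/

set_option autoImplicit false

noncomputable section

namespace Fermat.Agent.S16

open UpperHalfPlane ModularFormClass CongruenceSubgroup Matrix.SpecialLinearGroup
open scoped MatrixGroups ModularForm Manifold
open Fermat.Agent.S22 (IsMF IsCF G0 G1 IsNice)

/-! ### (K1) linearity -/

theorem tr16_K_add (p : ℕ) (k : ℤ) (F G : ℍ → ℂ) :
    tr16_K p k (F + G) = tr16_K p k F + tr16_K p k G := by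
  funext z
  simp only [tr16_K_def, Pi.add_apply, SlashAction.add_slash]

theorem tr16_K_smul (p : ℕ) (k : ℤ) (c : ℂ) (F : ℍ → ℂ) :
    tr16_K p k (c • F) = c • tr16_K p k F := by
  funext z
  simp only [tr16_K_def, Pi.smul_apply, ModularForm.SL_smul_slash]

theorem tr16_K_zero (p : ℕ) (k : ℤ) : tr16_K p k (0 : ℍ → ℂ) = 0 := by
  funext z
  simp only [tr16_K_def, SlashAction.zero_slash, Pi.zero_apply]

theorem tr16_K_neg (p : ℕ) (k : ℤ) (F : ℍ → ℂ) :
    tr16_K p k (-F) = -tr16_K p k F := by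
  funext z
  simp only [tr16_K_def, SlashAction.neg_slash, Pi.neg_apply]

theorem tr16_K_sub (p : ℕ) (k : ℤ) (F G : ℍ → ℂ) :
    tr16_K p k (F - G) = tr16_K p k F - tr16_K p k G := by
  rw [sub_eq_add_neg, tr16_K_add, tr16_K_neg, sub_eq_add_neg]

/-! ### (K2) multiplicativity -/

theorem tr16_K_mul (p : ℕ) (k l : ℤ) (F G : ℍ → ℂ) :
    tr16_K p (k + l) (F * G) = tr16_K p k F * tr16_K p l G := by
  funext z
  simp only [tr16_K_def, Pi.mul_apply, ModularForm.mul_slash_SL2]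

/-! ### (K3), (K4) level one -/

/-- Slash invariance of a level one form under `SL(2,ℤ)`. -/
theorem tr16_slash_levelOne {k : ℤ} {h : ℍ → ℂ} (hh : IsMF G1 k h) (γ : SL(2, ℤ)) :
    h ∣[k] γ = h := by
  obtain ⟨H, rfl⟩ := hh
  exact H.slash_action_eq' _ ⟨γ, rfl⟩

theorem tr16_K_levelOne (p : ℕ) {k : ℤ} {h : ℍ → ℂ} (hh : IsMF G1 k h) :
    tr16_K p k h = fun z => h (ModularForm.heckeDiagMatrix p • z) := by
  funext z
  rw [tr16_K_def, tr16_slash_levelOne hh]

/-- `D_p • S • D_p • z = S • z`. -/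
theorem tr16_diag_S_diag {p : ℕ} (hp : p ≠ 0) (z : ℍ) :
    ModularForm.heckeDiagMatrix p • (ModularGroup.S • (ModularForm.heckeDiagMatrix p • z)) =
      ModularGroup.S • z := by
  apply UpperHalfPlane.ext
  have hpC : (p : ℂ) ≠ 0 := by exact_mod_cast hp
  have hz : (z : ℂ) ≠ 0 := UpperHalfPlane.ne_zero z
  rw [ModularForm.coe_heckeDiagMatrix_smul hp, UpperHalfPlane.modular_S_smul,
    UpperHalfPlane.modular_S_smul]
  show (p : ℂ) * (-((ModularForm.heckeDiagMatrix p • z : ℍ) : ℂ))⁻¹ = (-(z : ℂ))⁻¹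
  rw [ModularForm.coe_heckeDiagMatrix_smul hp]
  field_simp

theorem tr16_K_comp_diag {p : ℕ} (hp : p ≠ 0) {k : ℤ} {h : ℍ → ℂ} (hh : IsMF G1 k h) :
    tr16_K p k (fun z => h (ModularForm.heckeDiagMatrix p • z)) = ((p : ℂ) ^ (-k)) • h := by
  funext z
  have hpC : (p : ℂ) ≠ 0 := by exact_mod_cast hp
  have hz : (z : ℂ) ≠ 0 := UpperHalfPlane.ne_zero z
  rw [tr16_K_apply hp, tr16_diag_S_diag hp, Pi.smul_apply, smul_eq_mul]
  have h1 := congrFun (tr16_slash_levelOne hh ModularGroup.S) z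
  rw [ModularForm.SL_slash_apply, ModularGroup.denom_S] at h1
  have h2 : h (ModularGroup.S • z) = (z : ℂ) ^ k * h z := by
    rw [← h1, mul_comm (h (ModularGroup.S • z)), ← mul_assoc, ← zpow_add₀ hz]
    simp
  rw [h2, mul_zpow, ← mul_assoc, mul_assoc ((p : ℂ) ^ (-k)), ← zpow_add₀ hz]
  simp

/-! ### (K7) the `q`-expansion of `V h` -/

theorem tr16_qExp_comp_diag_of_isNice {p : ℕ} (hp : p ≠ 0) {h : ℍ → ℂ} (hh : IsNice h) :
    qExpansion 1 (fun z => h (ModularForm.heckeDiagMatrix p • z)) = tr16_V p (qExpansion 1 h) := by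
  ext n
  rw [Fermat.Agent.S22.DN.qExpansion_comp_diag_coeff hh hp, tr16_V_coeff]

theorem tr16_qExp_comp_diag {p : ℕ} (hp : p ≠ 0) {k : ℤ} {h : ℍ → ℂ} (hh : IsMF G1 k h) :
    qExpansion 1 (fun z => h (ModularForm.heckeDiagMatrix p • z)) = tr16_V p (qExpansion 1 h) :=
  tr16_qExp_comp_diag_of_isNice hp hh.isNice_G1

end Fermat.Agent.S16
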