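import Mathlib
import Fermat.Agent.S16.SwdRat
import Fermat.Agent.S16.TraceMain
import Fermat.Agent.S16.TraceK
import Fermat.Agent.S16.LPTrace
import Fermat.Agent.S16.Final

/-!
# S16, package [LP]: (C2) at `ℓ = p`

`s16lp_noH`: for a prime `p ≥ 5` there is no modular form of weight 2 and level `Γ₀(p)` with
`q`-expansion in `1 + p q ℤ_(p)[[q]]` (Serre's trace trick), and the export `s16lp_fin` in the
shape `s16fin_LP` of `Final.lean`.

Inputs: [TRACE] (`tr16_trace`, `tr16_T1`, `tr16_K_mul`, `tr16_K_comp_diag`, `tr16_K_isMF`),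
[SWD] (`s16w_no_const_rat`), [EK] (`s16lp_E_coeff`).
-/

set_option autoImplicit false

namespace Fermat.Agent.S16

open UpperHalfPlane ModularFormClass CongruenceSubgroup GaloisRep
open Fermat.Agent.S22 (IsMF IsNice G0 G1 IsIntQ)

/-- [TRACE] (TR2) at the prime `p`. -/
theorem s16lp_TR2At_main (p : ℕ) (hp : p.Prime) : s16lp_TR2At p :=
  haveI : NeZero p := ⟨hp.ne_zero⟩
  s16lp_TR2At_of p (fun _ _ hF => tr16_trace hp hF) (fun _ hG => by
      have := tr16_T1 hp hG
      simpa using this)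
    (fun k l F G => tr16_K_mul p k l F G) (fun _ _ hh => tr16_K_comp_diag hp.ne_zero hh)
    (fun _ _ hF => tr16_K_isMF hp.ne_zero hF)

/-- [TRACE] in the coefficientwise shape of `LP.lean`. -/
theorem s16lp_traceAt (p : ℕ) (hp : p.Prime) : s16lp_TraceAt p :=
  s16lp_traceAt_of_TR2 p hp.ne_zero (s16lp_TR2At_main p hp)

/-- [SWD] at the prime `p`. -/
theorem s16lp_swdAt (p : ℕ) (hp : p.Prime) (h5 : 5 ≤ p) : s16lp_SwdAt p :=
  fun k hk F hF a ha h0 h1 => s16w_no_const_rat p hp h5 k hk F hF a ha h0 h1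

/-- **(C2) at `ℓ = p`.**  For a prime `p ≥ 5` there is no modular form of weight 2 and level
`Γ₀(p)` with `q`-expansion in `1 + p q ℤ_(p)[[q]]`. -/
theorem s16lp_noH (p : ℕ) (hp : p.Prime) (h5 : 5 ≤ p) : s16g_NoH p p 1 :=
  s16lp_noH_of p hp h5 (s16lp_traceAt p hp) (s16lp_swdAt p hp h5)

/-- The export of package [LP] in the shape of `Final.lean`. -/
theorem s16lp_fin : s16fin_LP := fun p hp h5 => s16lp_noH p hp h5

end Fermat.Agent.S16
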