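import Mathlib

/-!
# S16, (C2) at `ℓ = 2`: field identities behind the level-3 parametrisation

In a field `k` of characteristic `0` let `g, e4, e6, δ, j, h` satisfy

* `e4 ^ 2 + 18 g ^ 2 e4 + 8 g e6 = 27 g ^ 4`   (weight-8 identity at level 3),
* `1728 δ = e4 ^ 3 - e6 ^ 2`,  `j δ = e4 ^ 3`,  `g ≠ 0`, `δ ≠ 0`.

Put `A := (9 g ^ 2 - e4) / 8`, `ν := A ^ 3 / (27 δ)`, `K := h ν / g`, `L := K ^ 3 / ν`,
`θ := h ^ 6 / δ`.  Then

* `27 ν (ν + 8) ^ 3 = j (ν - 1) ^ 3`,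
* `K ^ 6 = θ ν ^ 2 (ν - 1) ^ 3 / 27`, `L ^ 2 = θ (ν - 1) ^ 3 / 27`, `K ^ 3 = ν L`,
* `K (ν + 8) - (ν ^ 2 - 20 ν - 8) = ν ^ 2 (h e4 - e6) / g ^ 3`.
-/

set_option autoImplicit false

namespace Fermat.Agent.S16

section

variable {k : Type*} [Field k] [CharZero k]

/-- Data of the level-3 parametrisation. -/
structure s16l_Data (g e4 e6 δ j : k) : Prop where
  id8 : e4 ^ 2 + 18 * g ^ 2 * e4 + 8 * g * e6 = 27 * g ^ 4
  del : 1728 * δ = e4 ^ 3 - e6 ^ 2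
  jd : j * δ = e4 ^ 3
  g0 : g ≠ 0
  δ0 : δ ≠ 0

variable {g e4 e6 δ j : k}

/-- `A = (9 g² - e4) / 8`. -/
def s16l_A (g e4 : k) : k := (9 * g ^ 2 - e4) / 8

/-- `ν = A³ / (27 δ)`. -/
def s16l_nu (g e4 δ : k) : k := s16l_A g e4 ^ 3 / (27 * δ)

/-- `x = (e4 - g²) / (8 g²)`. -/
def s16l_x (g e4 : k) : k := (e4 - g ^ 2) / (8 * g ^ 2)

namespace s16l_Data

variable (D : s16l_Data g e4 e6 δ j)
include D

theorem e4_eq : e4 = g ^ 2 * (1 + 8 * s16l_x g e4) := by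
  have := D.g0
  unfold s16l_x
  field_simp
  ring

theorem e6_eq : e6 = g ^ 3 * (1 - 20 * s16l_x g e4 - 8 * s16l_x g e4 ^ 2) := by
  have hg := D.g0
  have h8 : (8 : k) * g ≠ 0 := mul_ne_zero (by norm_num) hg
  apply mul_left_cancel₀ h8
  have h := D.id8
  have hx : s16l_x g e4 * (8 * g ^ 2) = e4 - g ^ 2 := by
    unfold s16l_x; field_simp
  have he4 : e4 = g ^ 2 + s16l_x g e4 * (8 * g ^ 2) := by rw [hx]; ring
  generalize s16l_x g e4 = x at he4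
  subst he4
  linear_combination h

theorem A_eq : s16l_A g e4 = g ^ 2 * (1 - s16l_x g e4) := by
  have := D.g0
  unfold s16l_A s16l_x
  field_simp
  ring

/-- `27 δ = g⁶ x (1 - x)³`. -/
theorem delta_eq : 27 * δ = g ^ 6 * s16l_x g e4 * (1 - s16l_x g e4) ^ 3 := by
  have h1 := D.e4_eq
  have h2 := D.e6_eq
  have h3 := D.del
  generalize s16l_x g e4 = x at h1 h2
  subst h1 h2
  linear_combination (1 / 64 : k) * h3

theorem x_ne_zero : s16l_x g e4 ≠ 0 := by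
  intro h
  have := D.delta_eq
  rw [h] at this
  have h27 : (27 : k) * δ ≠ 0 := mul_ne_zero (by norm_num) D.δ0
  exact h27 (by rw [this]; ring)

theorem one_sub_x_ne_zero : 1 - s16l_x g e4 ≠ 0 := by
  intro h
  have := D.delta_eq
  rw [h] at this
  have h27 : (27 : k) * δ ≠ 0 := mul_ne_zero (by norm_num) D.δ0
  exact h27 (by rw [this]; ring)

/-- `x · A³ = 27 δ`. -/
theorem x_mul_A_cube : s16l_x g e4 * s16l_A g e4 ^ 3 = 27 * δ := by
  rw [D.A_eq, D.delta_eq]; ring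

/-- `ν · x = 1`. -/
theorem nu_mul_x : s16l_nu g e4 δ * s16l_x g e4 = 1 := by
  have h27 : (27 : k) * δ ≠ 0 := mul_ne_zero (by norm_num) D.δ0
  unfold s16l_nu
  rw [div_mul_eq_mul_div, mul_comm, D.x_mul_A_cube, div_self h27]

theorem nu_ne_zero : s16l_nu g e4 δ ≠ 0 := left_ne_zero_of_mul_eq_one D.nu_mul_x

theorem x_eq_inv : s16l_x g e4 = (s16l_nu g e4 δ)⁻¹ :=
  eq_inv_of_mul_eq_one_right D.nu_mul_x

theorem nu_sub_one_ne_zero : s16l_nu g e4 δ - 1 ≠ 0 := by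
  intro h
  have h1 : s16l_nu g e4 δ = 1 := sub_eq_zero.mp h
  have h2 := D.nu_mul_x
  rw [h1, one_mul] at h2
  exact D.one_sub_x_ne_zero (by rw [h2]; ring)

/-- **The `j`-equation**: `27 ν (ν + 8)³ = j (ν - 1)³`. -/
theorem j_eq : 27 * s16l_nu g e4 δ * (s16l_nu g e4 δ + 8) ^ 3 =
    j * (s16l_nu g e4 δ - 1) ^ 3 := by
  have hν := D.nu_ne_zero
  have hx := D.x_eq_inv
  have h1 := D.e4_eq
  have h3 := D.delta_eq
  have hj := D.jd
  have hδ := D.δ0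
  have hg := D.g0
  set ν := s16l_nu g e4 δ with hνdef
  rw [hx] at h1 h3
  -- `j = e4³ / δ`
  have hj' : j = e4 ^ 3 / δ := by field_simp; exact hj
  have hδ' : δ = g ^ 6 * ν⁻¹ * (1 - ν⁻¹) ^ 3 / 27 := by
    field_simp
    field_simp at h3
    linear_combination h3
  have hne : (1 : k) - ν⁻¹ ≠ 0 := by
    rw [← hx]; exact D.one_sub_x_ne_zero
  have hne' : ν - 1 ≠ 0 := D.nu_sub_one_ne_zero
  rw [hj', h1, hδ']
  field_simp

/-- `27 δ ν⁴ = g⁶ (ν - 1)³`. -/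
theorem key : 27 * δ * s16l_nu g e4 δ ^ 4 = g ^ 6 * (s16l_nu g e4 δ - 1) ^ 3 := by
  have hν := D.nu_ne_zero
  have hx := D.x_eq_inv
  have h3 := D.delta_eq
  set ν := s16l_nu g e4 δ with hνdef
  rw [hx] at h3
  rw [h3]
  field_simp

/-- `K ^ 6 = θ ν² (ν - 1)³ / 27` for `K = h ν / g`, `θ = h ^ 6 / δ`. -/
theorem K_pow_six (h : k) :
    (h * s16l_nu g e4 δ / g) ^ 6 =
      h ^ 6 / δ * s16l_nu g e4 δ ^ 2 * (s16l_nu g e4 δ - 1) ^ 3 / 27 := by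
  have hν := D.nu_ne_zero
  have hg := D.g0
  have hδ := D.δ0
  have hk := D.key
  set ν := s16l_nu g e4 δ with hνdef
  field_simp
  linear_combination (h ^ 6) * hk

/-- `L ^ 2 = θ (ν - 1)³ / 27` for `L = K ^ 3 / ν`. -/
theorem L_sq (h : k) :
    ((h * s16l_nu g e4 δ / g) ^ 3 / s16l_nu g e4 δ) ^ 2 =
      h ^ 6 / δ * (s16l_nu g e4 δ - 1) ^ 3 / 27 := by
  have hν := D.nu_ne_zero
  have hg := D.g0
  have hδ := D.δ0
  have hk := D.key
  set ν := s16l_nu g e4 δ with hνdef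
  field_simp
  linear_combination (h ^ 6) * hk

/-- `K ^ 3 = ν L`. -/
theorem K_cube (h : k) :
    (h * s16l_nu g e4 δ / g) ^ 3 =
      s16l_nu g e4 δ * ((h * s16l_nu g e4 δ / g) ^ 3 / s16l_nu g e4 δ) := by
  have hν := D.nu_ne_zero
  field_simp

/-- **The congruence element**: `K (ν + 8) - (ν² - 20 ν - 8) = ν² (h e4 - e6) / g³`. -/
theorem V_eq (h : k) :
    (h * s16l_nu g e4 δ / g) * (s16l_nu g e4 δ + 8) -
        (s16l_nu g e4 δ ^ 2 - 20 * s16l_nu g e4 δ - 8) =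
      s16l_nu g e4 δ ^ 2 * (h * e4 - e6) / g ^ 3 := by
  have hν := D.nu_ne_zero
  have hg := D.g0
  have hx := D.x_eq_inv
  have h1 := D.e4_eq
  have h2 := D.e6_eq
  set ν := s16l_nu g e4 δ with hνdef
  rw [hx] at h1 h2
  have e1 : e4 = g ^ 2 * (ν + 8) / ν := by
    rw [h1]; field_simp
  have e2 : e6 = g ^ 3 * (ν ^ 2 - 20 * ν - 8) / ν ^ 2 := by
    rw [h2]; field_simp
  rw [e1, e2]
  field_simp

end s16l_Data

end

end Fermat.Agent.S16
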