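import Mathlib
import Fermat.Prelude.Thm_ModularForm_sturm_bound_Gamma0
import Fermat.Agent.S22.Basic
import Fermat.Agent.S22.Forms
import Fermat.Agent.S22.Nice
import Fermat.Agent.S22.LevelOne
import Fermat.Agent.S24.CombIndex

/-!
# S16, (C2) at `ℓ = 2`: the weight-8 identity at level `Γ₀(3)`

For a weight-2 form `G` on `Γ₀(3)` with `q`-expansion `1 + 12 q + 36 q² + …`
(i.e. `G = (3 E₂(3z) - E₂(z)) / 2`) we prove

  `E₄² + 18 G² E₄ + 8 G E₆ = 27 G⁴`

by the Sturm bound at level `Γ₀(3)`, weight `8` (index `4`, so three coefficients).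
-/

set_option autoImplicit false

noncomputable section

namespace Fermat.Agent.S16

open UpperHalfPlane ModularFormClass CongruenceSubgroup Matrix.SpecialLinearGroup
open Fermat.Agent.S22 ModularForm EisensteinSeries
open scoped MatrixGroups ModularForm Manifold

/-- The `2`-jet of the `q`-expansion of `f`. -/
def s16g_J3 (f : ℍ → ℂ) (a b c : ℂ) : Prop :=
  (qExpansion 1 f).coeff 0 = a ∧ (qExpansion 1 f).coeff 1 = b ∧ (qExpansion 1 f).coeff 2 = c

namespace s16g_J3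

variable {f g : ℍ → ℂ} {a b c a' b' c' : ℂ}

theorem mul (hf : IsNice f) (hg : IsNice g) (h : s16g_J3 f a b c) (h' : s16g_J3 g a' b' c') :
    s16g_J3 (f * g) (a * a') (a * b' + b * a') (a * c' + b * b' + c * a') := by
  obtain ⟨h0, h1, h2⟩ := h
  obtain ⟨h0', h1', h2'⟩ := h'
  refine ⟨?_, ?_, ?_⟩
  · rw [hf.qExpansion_mul hg, PowerSeries.coeff_mul]
    simp [h0, h0']
  · rw [hf.qExpansion_mul hg, PowerSeries.coeff_mul]
    simp [Finset.Nat.antidiagonal_succ, h0, h0', h1, h1']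
  · rw [hf.qExpansion_mul hg, PowerSeries.coeff_mul]
    simp [Finset.Nat.antidiagonal_succ, h0, h0', h1, h1', h2, h2']
    ring

theorem add (hf : IsNice f) (hg : IsNice g) (h : s16g_J3 f a b c) (h' : s16g_J3 g a' b' c') :
    s16g_J3 (f + g) (a + a') (b + b') (c + c') := by
  obtain ⟨h0, h1, h2⟩ := h
  obtain ⟨h0', h1', h2'⟩ := h'
  refine ⟨?_, ?_, ?_⟩ <;> rw [hf.qExpansion_add hg, map_add] <;> simp [*]

theorem sub (hf : IsNice f) (hg : IsNice g) (h : s16g_J3 f a b c) (h' : s16g_J3 g a' b' c') :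
    s16g_J3 (f - g) (a - a') (b - b') (c - c') := by
  obtain ⟨h0, h1, h2⟩ := h
  obtain ⟨h0', h1', h2'⟩ := h'
  refine ⟨?_, ?_, ?_⟩ <;> rw [hf.qExpansion_sub hg, map_sub] <;> simp [*]

theorem smul (r : ℂ) (hf : IsNice f) (h : s16g_J3 f a b c) :
    s16g_J3 (r • f) (r * a) (r * b) (r * c) := by
  obtain ⟨h0, h1, h2⟩ := h
  refine ⟨?_, ?_, ?_⟩ <;> rw [hf.qExpansion_smul r] <;> simp [*]

end s16g_J3

theorem s16g_J3_E4 : s16g_J3 (E₄ : ℍ → ℂ) 1 240 2160 := by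
  have hc : ∀ n : ℕ, (qExpansion 1 (E₄ : ℍ → ℂ)).coeff n =
      if n = 0 then 1 else 240 * (ArithmeticFunction.sigma 3 n : ℂ) := by
    intro n
    rw [E_qExpansion_coeff _ ⟨2, rfl⟩, show bernoulli 4 = -1 / 30 by decide +kernel]
    by_cases h : n = 0
    · simp [h]
    · simp only [h, if_false]
      push_cast
      norm_num
  refine ⟨?_, ?_, ?_⟩
  · rw [hc]; simp
  · rw [hc]; simp
  · rw [hc]
    have : ArithmeticFunction.sigma 3 2 = 9 := by decide
    simp [this]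
    norm_num

theorem s16g_J3_E6 : s16g_J3 (E₆ : ℍ → ℂ) 1 (-504) (-16632) := by
  have hc : ∀ n : ℕ, (qExpansion 1 (E₆ : ℍ → ℂ)).coeff n =
      if n = 0 then 1 else -504 * (ArithmeticFunction.sigma 5 n : ℂ) := by
    intro n
    rw [E_qExpansion_coeff _ ⟨3, rfl⟩, show bernoulli 6 = 1 / 42 by decide +kernel]
    by_cases h : n = 0
    · simp [h]
    · simp only [h, if_false]
      push_cast
      norm_num
  refine ⟨?_, ?_, ?_⟩
  · rw [hc]; simp
  · rw [hc]; simp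
  · rw [hc]
    have : ArithmeticFunction.sigma 5 2 = 33 := by decide
    simp [this]
    norm_num

theorem s16g_index_three : (CongruenceSubgroup.Gamma0 3).index = 4 := by
  have h := Fermat.Agent.S24.Comb.card_X 3 (by norm_num)
  have h3 : ModularCurve.dedekindPsi 3 = 4 := by
    have := Fermat.Agent.S24.Comb.dedekindPsi_prime_pow Nat.prime_three 0
    simpa using this
  rw [h3] at h
  exact h

theorem s16g_sturm_three :
    ((8 : ℤ) * ((CongruenceSubgroup.Gamma0 3).index : ℤ)).toNat / 12 = 2 := by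
  rw [s16g_index_three]
  rfl

/-- The `2`-jet of a function is determined pointwise. -/
theorem s16g_J3.congr {f : ℍ → ℂ} {a b c a' b' c' : ℂ} (h : s16g_J3 f a b c)
    (ha : a = a') (hb : b = b') (hc : c = c') : s16g_J3 f a' b' c' := by
  subst ha hb hc; exact h

/-- **The weight-8 identity at level `Γ₀(3)`.** -/
theorem s16g_identity (G : ℍ → ℂ) (hG : IsMF (G0 3) 2 G) (hJ : s16g_J3 G 1 12 36) :
    (E₄ : ℍ → ℂ) ^ 2 + (18 : ℂ) • (G ^ 2 * (E₄ : ℍ → ℂ)) + (8 : ℂ) • (G * (E₆ : ℍ → ℂ))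
      = (27 : ℂ) • G ^ 4 := by
  have hE4 : IsMF (G0 3) 4 (E₄ : ℍ → ℂ) := isMF_E4.restrict_G0 3
  have hE6 : IsMF (G0 3) 6 (E₆ : ℍ → ℂ) := isMF_E6.restrict_G0 3
  have nG := hG.isNice_G0
  have nE4 := isNice_E4
  have nE6 := isNice_E6
  -- the four terms
  have t1 : IsMF (G0 3) 8 ((E₄ : ℍ → ℂ) ^ 2) := (hE4.pow 2).cast (by norm_num)
  have t2 : IsMF (G0 3) 8 ((18 : ℂ) • (G ^ 2 * (E₄ : ℍ → ℂ))) :=
    (((hG.pow 2).mul hE4).cast (by norm_num)).smul 18
  have t3 : IsMF (G0 3) 8 ((8 : ℂ) • (G * (E₆ : ℍ → ℂ))) :=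
    ((hG.mul hE6).cast (by norm_num)).smul 8
  have t4 : IsMF (G0 3) 8 ((27 : ℂ) • G ^ 4) := ((hG.pow 4).cast (by norm_num)).smul 27
  have hF8 := ((t1.add t2).add t3).sub t4
  -- jets
  have j1 : s16g_J3 ((E₄ : ℍ → ℂ) ^ 2) 1 480 61920 := by
    have := s16g_J3_E4.mul nE4 nE4 s16g_J3_E4
    rw [← pow_two] at this
    exact this.congr (by norm_num) (by norm_num) (by norm_num)
  have jG2 : s16g_J3 (G ^ 2) 1 24 216 := by
    have := hJ.mul nG nG hJ
    rw [← pow_two] at this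
    exact this.congr (by norm_num) (by norm_num) (by norm_num)
  have jG4 : s16g_J3 (G ^ 4) 1 48 1008 := by
    have := jG2.mul (nG.pow 2) (nG.pow 2) jG2
    rw [← pow_add] at this
    exact this.congr (by norm_num) (by norm_num) (by norm_num)
  have j2 : s16g_J3 ((18 : ℂ) • (G ^ 2 * (E₄ : ℍ → ℂ))) 18 4752 146448 :=
    ((jG2.mul (nG.pow 2) nE4 s16g_J3_E4).smul 18 ((nG.pow 2).mul nE4)).congr
      (by norm_num) (by norm_num) (by norm_num)
  have j3 : s16g_J3 ((8 : ℂ) • (G * (E₆ : ℍ → ℂ))) 8 (-3936) (-181152) :=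
    ((hJ.mul nG nE6 s16g_J3_E6).smul 8 (nG.mul nE6)).congr
      (by norm_num) (by norm_num) (by norm_num)
  have j4 : s16g_J3 ((27 : ℂ) • G ^ 4) 27 1296 27216 :=
    (jG4.smul 27 (nG.pow 4)).congr (by norm_num) (by norm_num) (by norm_num)
  have jF : s16g_J3 ((E₄ : ℍ → ℂ) ^ 2 + (18 : ℂ) • (G ^ 2 * (E₄ : ℍ → ℂ))
      + (8 : ℂ) • (G * (E₆ : ℍ → ℂ)) - (27 : ℂ) • G ^ 4) 0 0 0 :=
    ((((j1.add t1.isNice_G0 t2.isNice_G0 j2).add (t1.add t2).isNice_G0 t3.isNice_G0 j3).sub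
      ((t1.add t2).add t3).isNice_G0 t4.isNice_G0 j4)).congr
      (by norm_num) (by norm_num) (by norm_num)
  obtain ⟨F, hF⟩ := hF8
  have hzero : F = 0 := by
    apply ModularForm.sturm_bound_Gamma0 3 F
    intro n hn
    rw [s16g_sturm_three] at hn
    rw [hF]
    obtain ⟨h0, h1, h2⟩ := jF
    interval_cases n
    · exact h0
    · exact h1
    · exact h2
  have hfun : (E₄ : ℍ → ℂ) ^ 2 + (18 : ℂ) • (G ^ 2 * (E₄ : ℍ → ℂ))
      + (8 : ℂ) • (G * (E₆ : ℍ → ℂ)) - (27 : ℂ) • G ^ 4 = 0 := by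
    rw [← hF, hzero]
    rfl
  exact sub_eq_zero.mp hfun

end Fermat.Agent.S16
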