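import Mathlib
import Fermat.Agent.S22.Basic
import Fermat.Agent.S22.Nice
import Fermat.Agent.S24.Bridge
import Fermat.Agent.S24.BridgeLaurent
import Fermat.Agent.S28.RedO
import Fermat.Agent.S28.UnitMem

/-!
# S16, (C2) at `ℓ = 2`: calculus of `2`-integral `q`-expansions

* `s16q_QE f a` : the function `f` has the `q`-expansion `a ∈ ℤ_(2)⟦q⟧`;
* `s16q_ser a` : the image of `a` in `ℚ((q))`; it lies in the ring `redO 2`, and it is a unit
  of that ring when `a` has constant term `1`;
* `s16q_HL u f` : `f` has the rational Laurent expansion `u` at `i∞`.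
-/

set_option autoImplicit false

noncomputable section

namespace Fermat.Agent.S16

open UpperHalfPlane ModularFormClass CongruenceSubgroup Matrix.SpecialLinearGroup Function
open ModularForm Filter
open scoped MatrixGroups ModularForm Manifold

open Fermat.Agent.S22 Fermat.Agent.S24 Fermat.Agent.S28 ModularCurve

set_option quotPrecheck false in
local notation "R₂" => ↥(GaloisRep.ratLocalizedAt 2)

local notation "Δ" => ModularForm.discriminant

/-! ### `q`-expansions with coefficients in `ℤ_(2)` -/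

/-- The embedding `ℤ_(2) → ℂ`. -/
def s16q_phi : R₂ →+* ℂ := (algebraMap ℚ ℂ).comp (GaloisRep.ratLocalizedAt 2).subtype

theorem s16q_phi_apply (r : R₂) : s16q_phi r = (((r : R₂) : ℚ) : ℂ) := by
  simp [s16q_phi]

theorem s16q_phi_injective : Function.Injective s16q_phi := by
  intro a b h
  rw [s16q_phi_apply, s16q_phi_apply] at h
  exact Subtype.ext (by exact_mod_cast h)

/-- `f` has the `q`-expansion `a ∈ ℤ_(2)⟦q⟧`. -/
def s16q_QE (f : ℍ → ℂ) (a : PowerSeries R₂) : Prop :=
  ∀ n : ℕ, (qExpansion 1 f).coeff n = (((PowerSeries.coeff n a : R₂) : ℚ) : ℂ)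

theorem s16q_QE_iff {f : ℍ → ℂ} {a : PowerSeries R₂} :
    s16q_QE f a ↔ qExpansion 1 f = a.map s16q_phi := by
  constructor
  · intro h
    ext n
    rw [PowerSeries.coeff_map, s16q_phi_apply]
    exact h n
  · intro h n
    rw [h, PowerSeries.coeff_map, s16q_phi_apply]

namespace s16q_QE

variable {f g : ℍ → ℂ} {a b : PowerSeries R₂}

theorem unique (h : s16q_QE f a) (h' : s16q_QE f b) : a = b := by
  rw [s16q_QE_iff] at h h'
  rw [h] at h'
  exact PowerSeries.map_injective s16q_phi s16q_phi_injective h'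

theorem congr (h : s16q_QE f a) (e : f = g) : s16q_QE g a := e ▸ h

theorem one : s16q_QE (1 : ℍ → ℂ) 1 := by
  rw [s16q_QE_iff, qExpansion_one, map_one]

theorem add (hf : IsNice f) (hg : IsNice g) (h : s16q_QE f a) (h' : s16q_QE g b) :
    s16q_QE (f + g) (a + b) := by
  rw [s16q_QE_iff] at h h' ⊢
  rw [hf.qExpansion_add hg, h, h', map_add]

theorem sub (hf : IsNice f) (hg : IsNice g) (h : s16q_QE f a) (h' : s16q_QE g b) :
    s16q_QE (f - g) (a - b) := by
  rw [s16q_QE_iff] at h h' ⊢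
  rw [hf.qExpansion_sub hg, h, h', map_sub]

theorem mul (hf : IsNice f) (hg : IsNice g) (h : s16q_QE f a) (h' : s16q_QE g b) :
    s16q_QE (f * g) (a * b) := by
  rw [s16q_QE_iff] at h h' ⊢
  rw [hf.qExpansion_mul hg, h, h', map_mul]

theorem pow (hf : IsNice f) (h : s16q_QE f a) (n : ℕ) : s16q_QE (f ^ n) (a ^ n) := by
  rw [s16q_QE_iff] at h ⊢
  rw [hf.qExpansion_pow, h, map_pow]

theorem smul (c : R₂) (hf : IsNice f) (h : s16q_QE f a) :
    s16q_QE (s16q_phi c • f) (PowerSeries.C c * a) := by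
  rw [s16q_QE_iff] at h ⊢
  rw [hf.qExpansion_smul, h, map_mul, PowerSeries.map_C]
  ext n
  rw [PowerSeries.coeff_smul, PowerSeries.coeff_C_mul, smul_eq_mul]

end s16q_QE

/-! ### The image in `ℚ((q))` -/

/-- The image of a `2`-integral power series in `ℚ((q))`. -/
def s16q_ser : PowerSeries R₂ →+* LaurentSeries ℚ :=
  (redO_iota 2).comp (HahnSeries.ofPowerSeries ℤ R₂)

theorem s16q_ser_apply (a : PowerSeries R₂) :
    s16q_ser a = redO_iota 2 (HahnSeries.ofPowerSeries ℤ R₂ a) := rfl

theorem s16q_ser_mem (a : PowerSeries R₂) : s16q_ser a ∈ redO 2 := redO_intL 2 _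

theorem s16q_ser_injective : Function.Injective s16q_ser := by
  intro a b h
  exact HahnSeries.ofPowerSeries_injective (redO_iota_injective 2 h)

theorem s16q_coeffEmb_ser (a : PowerSeries R₂) :
    coeffEmb ℂ (s16q_ser a) = HahnSeries.ofPowerSeries ℤ ℂ (a.map s16q_phi) := by
  rw [s16q_ser_apply, redO_iota, coeffEmb, coeffMap_coeffMap, anA_coeffMap_ofPowerSeries]
  rfl

/-- The reduction mod `2` of a `2`-integral power series with constant term `1` is nonzero. -/
theorem s16q_red_ne_zero (a : PowerSeries R₂) (h0 : PowerSeries.coeff 0 a = 1) :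
    redO_red 2 (HahnSeries.ofPowerSeries ℤ R₂ a) ≠ 0 := by
  intro h
  have h1 := congrArg (fun x : LaurentSeries (ZMod 2) => x.coeff 0) h
  simp only [redO_red_coeff, HahnSeries.coeff_zero] at h1
  have h2 : (HahnSeries.ofPowerSeries ℤ R₂ a).coeff 0 = 1 := by
    have := PowerSeries.coeff_coe (R := R₂) a 0
    simpa [h0] using this
  rw [h2, map_one] at h1
  exact one_ne_zero h1

theorem s16q_ser_ne_zero (a : PowerSeries R₂) (h0 : PowerSeries.coeff 0 a = 1) :
    s16q_ser a ≠ 0 :=
  redO_iota_ne_zero_of_red 2 (s16q_red_ne_zero a h0)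

/-- A `2`-integral power series with constant term `1` is a unit of `redO 2`. -/
theorem s16q_ser_inv_mem (a : PowerSeries R₂) (h0 : PowerSeries.coeff 0 a = 1) :
    (s16q_ser a)⁻¹ ∈ redO 2 := by
  refine (redO_mem_iff 2).mpr ⟨1, HahnSeries.ofPowerSeries ℤ R₂ a, s16q_red_ne_zero a h0, ?_⟩
  rw [map_one, ← s16q_ser_apply]
  exact inv_mul_cancel₀ (s16q_ser_ne_zero a h0)

/-- Quotients by a `2`-integral power series with constant term `1`. -/
theorem s16q_div_mem {x : LaurentSeries ℚ} (hx : x ∈ redO 2) (a : PowerSeries R₂)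
    (h0 : PowerSeries.coeff 0 a = 1) : x / s16q_ser a ∈ redO 2 := by
  rw [div_eq_mul_inv]
  exact (redO 2).mul_mem hx (s16q_ser_inv_mem a h0)

/-! ### Rational Laurent expansions at `i∞` -/

/-- `f` has the rational Laurent expansion `u` at `i∞`. -/
def s16q_HL (u : LaurentSeries ℚ) (f : ℍ → ℂ) : Prop := anA_HasLaurent (coeffEmb ℂ u) f

theorem s16q_coeffEmb_injective : Function.Injective (coeffEmb ℂ) := by
  intro a b h
  ext n
  have := congrArg (fun x : LaurentSeries ℂ => x.coeff n) h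
  simp only [coeffEmb_coeff] at this
  exact (algebraMap ℚ ℂ).injective this

namespace s16q_HL

variable {u v : LaurentSeries ℚ} {f g : ℍ → ℂ}

theorem of_QE {a : PowerSeries R₂} (hf : IsNice f) (h : s16q_QE f a) :
    s16q_HL (s16q_ser a) f := by
  rw [s16q_HL, s16q_coeffEmb_ser, ← s16q_QE_iff.mp h]
  exact anA_HasLaurent.of_isNice hf

theorem unique (h : s16q_HL u f) (h' : s16q_HL v f) : u = v :=
  s16q_coeffEmb_injective (anA_HasLaurent.unique_series h h')

theorem congr (h : s16q_HL u f) (e : f = g) : s16q_HL u g := e ▸ h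

theorem add (h : s16q_HL u f) (h' : s16q_HL v g) : s16q_HL (u + v) (f + g) := by
  rw [s16q_HL, map_add]
  exact anA_HasLaurent.add h h'

theorem sub (h : s16q_HL u f) (h' : s16q_HL v g) : s16q_HL (u - v) (f - g) := by
  rw [s16q_HL, map_sub]
  exact anA_HasLaurent.sub h h'

theorem mul (h : s16q_HL u f) (h' : s16q_HL v g) : s16q_HL (u * v) (f * g) := by
  rw [s16q_HL, map_mul]
  exact anA_HasLaurent.mul h h'

theorem pow (h : s16q_HL u f) (n : ℕ) : s16q_HL (u ^ n) (f ^ n) := by
  rw [s16q_HL, map_pow]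
  exact umem_hasLaurent_pow h n

theorem natCast (n : ℕ) : s16q_HL (n : LaurentSeries ℚ) (fun _ => (n : ℂ)) := by
  rw [s16q_HL, map_natCast]
  have h := anA_HasLaurent.const (n : ℂ)
  rwa [map_natCast] at h

theorem disc : s16q_HL umem_deltaQ (Δ : ℍ → ℂ) := by
  rw [s16q_HL, umem_coeffEmb_deltaQ]
  exact umem_hasLaurent_disc

theorem disc_inv : s16q_HL umem_deltaQ⁻¹ (fun z => (Δ z)⁻¹) := by
  rw [s16q_HL, map_inv₀, umem_coeffEmb_deltaQ, umem_deltaC_inv]
  exact umem_hasLaurent_disc_inv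

theorem jfun : s16q_HL jq Fermat.Agent.S24.jfun := by
  rw [s16q_HL, umem_coeffEmb_jq]
  exact umem_hasLaurent_jfun

end s16q_HL

end Fermat.Agent.S16
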