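import Mathlib
import Fermat.Agent.S16.SerTwo
import Fermat.Agent.S16.LevelThreeId
import Fermat.Agent.S16.LevelThreeAlg
import Fermat.Agent.S28.UnitMemProd

/-!
# S16, (C2) at `ℓ = 2`, package [C22-P2]: the level-3 data in `ℚ((q))`

From the weight-8 identity at level `Γ₀(3)` (`s16g_identity`), the identity
`1728 Δ = E₄³ - E₆²` and the definition `j Δ = E₄³`, transferred to rational Laurent
expansions at `i∞`, we obtain the structure `s16l_Data` for the `q`-expansions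
`g = s16q_ser aG`, `e4 = s16q_ser a4`, `e6 = s16q_ser a6`, `δ = umem_deltaQ`, `j = jq`.

Main export: `s16c22d_data`.
-/

set_option autoImplicit false

noncomputable section

namespace Fermat.Agent.S16

open UpperHalfPlane ModularFormClass CongruenceSubgroup Matrix.SpecialLinearGroup Function
open ModularForm Filter
open scoped MatrixGroups ModularForm Manifold

open Fermat.Agent.S22 Fermat.Agent.S24 Fermat.Agent.S28 ModularCurve

set_option quotPrecheck false in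
local notation "R₂" => ↥(GaloisRep.ratLocalizedAt 2)

local notation "Δ" => ModularForm.discriminant

/-- Numerals as rational Laurent expansions of constant functions. -/
theorem s16c22d_HL_ofNat (n : ℕ) [n.AtLeastTwo] :
    s16q_HL (OfNat.ofNat n : LaurentSeries ℚ) (fun _ => (OfNat.ofNat n : ℂ)) := by
  have h := s16q_HL.natCast n
  rw [show ((n : ℕ) : LaurentSeries ℚ) = OfNat.ofNat n from Nat.cast_ofNat,
    show ((n : ℕ) : ℂ) = OfNat.ofNat n from Nat.cast_ofNat] at h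
  exact h

/-- The weight-8 identity at level `Γ₀(3)` in `ℚ((q))`. -/
theorem s16c22d_id8 (G : ℍ → ℂ) (hG : IsMF (G0 3) 2 G) (hJ : s16g_J3 G 1 12 36)
    {g e4 e6 : LaurentSeries ℚ} (hg : s16q_HL g G) (h4 : s16q_HL e4 (E₄ : ℍ → ℂ))
    (h6 : s16q_HL e6 (E₆ : ℍ → ℂ)) :
    e4 ^ 2 + 18 * g ^ 2 * e4 + 8 * g * e6 = 27 * g ^ 4 := by
  have hid := s16g_identity G hG hJ
  have hL : s16q_HL (e4 ^ 2 + 18 * g ^ 2 * e4 + 8 * g * e6)
      ((E₄ : ℍ → ℂ) ^ 2 + (fun _ => (18 : ℂ)) * G ^ 2 * (E₄ : ℍ → ℂ)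
        + (fun _ => (8 : ℂ)) * G * (E₆ : ℍ → ℂ)) :=
    ((h4.pow 2).add (((s16c22d_HL_ofNat 18).mul (hg.pow 2)).mul h4)).add
      (((s16c22d_HL_ofNat 8).mul hg).mul h6)
  have hR : s16q_HL (27 * g ^ 4) ((fun _ => (27 : ℂ)) * G ^ 4) :=
    (s16c22d_HL_ofNat 27).mul (hg.pow 4)
  have e : (E₄ : ℍ → ℂ) ^ 2 + (fun _ => (18 : ℂ)) * G ^ 2 * (E₄ : ℍ → ℂ)
        + (fun _ => (8 : ℂ)) * G * (E₆ : ℍ → ℂ) = (fun _ => (27 : ℂ)) * G ^ 4 := by
    funext z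
    have hz := congrFun hid z
    simp only [Pi.add_apply, Pi.mul_apply, Pi.pow_apply, Pi.smul_apply, smul_eq_mul] at hz ⊢
    linear_combination hz
  exact (hL.congr e).unique hR

/-- `1728 Δ = E₄³ - E₆²` in `ℚ((q))`. -/
theorem s16c22d_del {e4 e6 : LaurentSeries ℚ} (h4 : s16q_HL e4 (E₄ : ℍ → ℂ))
    (h6 : s16q_HL e6 (E₆ : ℍ → ℂ)) :
    1728 * umem_deltaQ = e4 ^ 3 - e6 ^ 2 := by
  have hL : s16q_HL (1728 * umem_deltaQ) ((fun _ => (1728 : ℂ)) * (Δ : ℍ → ℂ)) :=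
    (s16c22d_HL_ofNat 1728).mul s16q_HL.disc
  have hR : s16q_HL (e4 ^ 3 - e6 ^ 2) ((E₄ : ℍ → ℂ) ^ 3 - (E₆ : ℍ → ℂ) ^ 2) :=
    (h4.pow 3).sub (h6.pow 2)
  have e : (fun _ => (1728 : ℂ)) * (Δ : ℍ → ℂ) = (E₄ : ℍ → ℂ) ^ 3 - (E₆ : ℍ → ℂ) ^ 2 := by
    funext z
    have hz := Dfun_eq_discriminant z
    simp only [Dfun] at hz
    simp only [Pi.sub_apply, Pi.mul_apply, Pi.pow_apply]
    exact hz.symm
  exact (hL.congr e).unique hR

/-- `j Δ = E₄³` in `ℚ((q))`. -/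
theorem s16c22d_jd {e4 : LaurentSeries ℚ} (h4 : s16q_HL e4 (E₄ : ℍ → ℂ)) :
    jq * umem_deltaQ = e4 ^ 3 := by
  have hL : s16q_HL (jq * umem_deltaQ) (Fermat.Agent.S24.jfun * (Δ : ℍ → ℂ)) :=
    s16q_HL.jfun.mul s16q_HL.disc
  have hR : s16q_HL (e4 ^ 3) ((E₄ : ℍ → ℂ) ^ 3) := h4.pow 3
  have e : Fermat.Agent.S24.jfun * (Δ : ℍ → ℂ) = (E₄ : ℍ → ℂ) ^ 3 := by
    funext z
    simp only [Pi.mul_apply, Pi.pow_apply, Fermat.Agent.S24.jfun]
    exact div_mul_cancel₀ _ (discriminant_ne_zero z)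
  exact (hL.congr e).unique hR

/-- **[C22-P2]** The level-3 data in `ℚ((q))`. -/
theorem s16c22d_data (G : ℍ → ℂ) (hG : IsMF (G0 3) 2 G) (hJ : s16g_J3 G 1 12 36)
    (aG a4 a6 : PowerSeries R₂) (hGa : s16q_QE G aG) (h4 : s16q_QE (E₄ : ℍ → ℂ) a4)
    (h6 : s16q_QE (E₆ : ℍ → ℂ) a6) (h0 : PowerSeries.coeff 0 aG = 1) :
    s16l_Data (s16q_ser aG) (s16q_ser a4) (s16q_ser a6) umem_deltaQ jq := by
  have HG : s16q_HL (s16q_ser aG) G := s16q_HL.of_QE hG.isNice_G0 hGa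
  have H4 : s16q_HL (s16q_ser a4) (E₄ : ℍ → ℂ) := s16q_HL.of_QE isNice_E4 h4
  have H6 : s16q_HL (s16q_ser a6) (E₆ : ℍ → ℂ) := s16q_HL.of_QE isNice_E6 h6
  exact
    { id8 := s16c22d_id8 G hG hJ HG H4 H6
      del := s16c22d_del H4 H6
      jd := s16c22d_jd H4
      g0 := s16q_ser_ne_zero aG h0
      δ0 := umem_deltaQ_ne_zero }

end Fermat.Agent.S16
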