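import Mathlib
import Fermat.Agent.S16.SerTwo
import Fermat.Agent.S16.Eis
import Fermat.Agent.S16.LevelThreeId
import Fermat.Agent.S16.TauModThree

/-!
# S16 [C22], piece P1: the level-3 Eisenstein series `G` and the `2`-integral `q`-expansions

* `s16c22_G = (1/2) (3 E₂(3z) - E₂(z)) = 1 + 12 q + 36 q² + …`, a modular form of weight `2` and
  level `Γ₀(3)`, with `q`-expansion in `1 + 12 ℤ_(2)⟦q⟧`;
* `E₄ ∈ 1 + 240 ℤ_(2)⟦q⟧`, `E₆ ∈ 1 - 504 ℤ_(2)⟦q⟧`;
* bookkeeping: `1 + 8 q ℤ_(2)⟦q⟧ ⊆ 1 + 8 ℤ_(2)⟦q⟧`, division by `8`, the inverse of `27`.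
-/

set_option autoImplicit false

noncomputable section

namespace Fermat.Agent.S16

open UpperHalfPlane ModularFormClass CongruenceSubgroup
open ModularForm EisensteinSeries
open scoped MatrixGroups ModularForm Manifold
open Fermat.Agent.S22 Fermat.Agent.S24

/-- The Eisenstein series `G = (3 E₂(3z) - E₂(z)) / 2` of weight `2` and level `Γ₀(3)`. -/
def s16c22_G : ℍ → ℂ := (1 / 2 : ℂ) • s16e_fun 3

theorem s16c22_G_isMF : IsMF (G0 3) 2 s16c22_G :=
  (s16e_isMF 3).smul _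

theorem s16c22_G_isNice : IsNice s16c22_G :=
  (s16e_isNice (by norm_num : (3 : ℕ) ≠ 0)).smul _

theorem s16c22_G_coeff (n : ℕ) :
    (qExpansion 1 s16c22_G).coeff n =
      (1 / 2 : ℂ) * (qExpansion 1 (s16e_fun 3)).coeff n := by
  rw [s16c22_G, (s16e_isNice (by norm_num : (3 : ℕ) ≠ 0)).qExpansion_smul,
    PowerSeries.coeff_smul, smul_eq_mul]

theorem s16c22_G_J3 : s16g_J3 s16c22_G 1 12 36 := by
  have h3 : (3 : ℕ) ≠ 0 := by norm_num
  refine ⟨?_, ?_, ?_⟩
  · rw [s16c22_G_coeff, s16e_coeff h3, if_pos rfl]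
    push_cast
    norm_num
  · rw [s16c22_G_coeff, s16e_coeff h3, if_neg (by norm_num), if_neg (by norm_num)]
    have : ArithmeticFunction.sigma 1 1 = 1 := by decide
    rw [this]
    push_cast
    norm_num
  · rw [s16c22_G_coeff, s16e_coeff h3, if_neg (by norm_num), if_neg (by norm_num)]
    have : ArithmeticFunction.sigma 1 2 = 3 := by decide
    rw [this]
    push_cast
    norm_num

/-- The integer sequence `σ₁(n) - 3 σ₁(n/3) [3 ∣ n]` (`0` at `n = 0`). -/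
def s16c22_sig (n : ℕ) : ℤ :=
  if n = 0 then 0
  else ((ArithmeticFunction.sigma 1 n : ℕ) : ℤ) -
    if 3 ∣ n then 3 * ((ArithmeticFunction.sigma 1 (n / 3) : ℕ) : ℤ) else 0

theorem s16c22_phi_intCast (m : ℤ) : s16q_phi (m : ↥(GaloisRep.ratLocalizedAt 2)) = (m : ℂ) := by
  rw [s16q_phi_apply]
  push_cast
  rfl

theorem s16c22_phi_ofNat (n : ℕ) [n.AtLeastTwo] :
    s16q_phi (OfNat.ofNat n : ↥(GaloisRep.ratLocalizedAt 2)) = (OfNat.ofNat n : ℂ) := map_ofNat s16q_phi n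

theorem s16c22_G_QE : ∃ s : PowerSeries ↥(GaloisRep.ratLocalizedAt 2), s16q_QE s16c22_G (1 + 12 * s) := by
  have h3 : (3 : ℕ) ≠ 0 := by norm_num
  refine ⟨PowerSeries.mk fun n => ((s16c22_sig n : ℤ) : ↥(GaloisRep.ratLocalizedAt 2)), ?_⟩
  rw [s16q_QE_iff]
  ext n
  rw [s16c22_G_coeff, s16e_coeff h3, PowerSeries.coeff_map, map_add, map_add,
    show (12 : PowerSeries ↥(GaloisRep.ratLocalizedAt 2)) = PowerSeries.C 12 from (map_ofNat PowerSeries.C 12).symm,
    PowerSeries.coeff_C_mul, PowerSeries.coeff_mk, PowerSeries.coeff_one, map_mul,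
    s16c22_phi_intCast, s16c22_phi_ofNat, s16c22_sig]
  by_cases h0 : n = 0
  · subst h0
    simp
    norm_num
  · rw [if_neg h0, if_neg h0, if_neg h0]
    by_cases hd : 3 ∣ n
    · rw [if_pos hd, if_pos hd]
      simp
      ring
    · rw [if_neg hd, if_neg hd]
      simp
      ring

theorem s16c22_map_int (s : PowerSeries ℤ) :
    (s.map (Int.castRingHom ↥(GaloisRep.ratLocalizedAt 2))).map s16q_phi = s.map (Int.castRingHom ℂ) := by
  ext n
  simp [PowerSeries.coeff_map]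

theorem s16c22_E4_QE : ∃ t : PowerSeries ↥(GaloisRep.ratLocalizedAt 2), s16q_QE (E₄ : ℍ → ℂ) (1 + 240 * t) := by
  refine ⟨(s16as_S 3).map (Int.castRingHom ↥(GaloisRep.ratLocalizedAt 2)), ?_⟩
  have h : (1 + 240 * (s16as_S 3).map (Int.castRingHom ↥(GaloisRep.ratLocalizedAt 2)) :
      PowerSeries ↥(GaloisRep.ratLocalizedAt 2)) =
      (1 + PowerSeries.C 240 * s16as_S 3).map (Int.castRingHom ↥(GaloisRep.ratLocalizedAt 2)) := by
    rw [map_add, map_one, map_mul, map_ofNat, map_ofNat]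
  rw [s16q_QE_iff, s16as_qExp_E4, h, s16c22_map_int]

theorem s16c22_E6_QE : ∃ u : PowerSeries ↥(GaloisRep.ratLocalizedAt 2), s16q_QE (E₆ : ℍ → ℂ) (1 - 504 * u) := by
  refine ⟨(s16as_S 5).map (Int.castRingHom ↥(GaloisRep.ratLocalizedAt 2)), ?_⟩
  have h : (1 - 504 * (s16as_S 5).map (Int.castRingHom ↥(GaloisRep.ratLocalizedAt 2)) :
      PowerSeries ↥(GaloisRep.ratLocalizedAt 2)) =
      (1 + PowerSeries.C (-504) * s16as_S 5).map
        (Int.castRingHom ↥(GaloisRep.ratLocalizedAt 2)) := by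
    rw [map_add, map_one, map_mul, map_neg, map_neg, map_ofNat, map_ofNat]
    ring
  rw [s16q_QE_iff, s16as_qExp_E6, h, s16c22_map_int]

theorem s16c22_H_split (a : PowerSeries ↥(GaloisRep.ratLocalizedAt 2)) (h0 : PowerSeries.coeff 0 a = 1)
    (h8 : ∀ n, 1 ≤ n → ∃ r : ↥(GaloisRep.ratLocalizedAt 2), PowerSeries.coeff n a = ((2 : ℕ) : ↥(GaloisRep.ratLocalizedAt 2)) ^ 3 * r) :
    ∃ a' : PowerSeries ↥(GaloisRep.ratLocalizedAt 2), a = 1 + 8 * a' := by
  classical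
  refine ⟨PowerSeries.mk fun n => if h : 1 ≤ n then Classical.choose (h8 n h) else 0, ?_⟩
  refine PowerSeries.ext fun n => ?_
  rw [map_add,
    show (8 : PowerSeries ↥(GaloisRep.ratLocalizedAt 2)) = PowerSeries.C 8 from
      (map_ofNat PowerSeries.C 8).symm,
    PowerSeries.coeff_C_mul, PowerSeries.coeff_mk, PowerSeries.coeff_one]
  by_cases hn : 1 ≤ n
  · rw [dif_pos hn, if_neg (by omega), zero_add]
    refine (Classical.choose_spec (h8 n hn)).trans ?_
    congr 1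
  · have : n = 0 := by omega
    subst this
    rw [dif_neg hn, if_pos rfl, h0, mul_zero, add_zero]

theorem s16c22_eighth {f : ℍ → ℂ} (hf : IsNice f) {b : PowerSeries ↥(GaloisRep.ratLocalizedAt 2)}
    (h : s16q_QE f (8 * b)) : s16q_QE ((1 / 8 : ℂ) • f) b := by
  rw [s16q_QE_iff] at h ⊢
  rw [hf.qExpansion_smul, h, map_mul, map_ofNat]
  ext n
  rw [PowerSeries.coeff_smul, smul_eq_mul,
    show (8 : PowerSeries ℂ) = PowerSeries.C 8 from (map_ofNat PowerSeries.C 8).symm,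
    PowerSeries.coeff_C_mul]
  ring

theorem s16c22_c27 : ∃ c : ↥(GaloisRep.ratLocalizedAt 2), 27 * c = 1 ∧ s16q_phi c = (1 / 27 : ℂ) := by
  have hmem : (1 / 27 : ℚ) ∈ GaloisRep.ratLocalizedAt 2 := by
    change ((1 / 27 : ℚ).den).Coprime 2
    have : (1 / 27 : ℚ).den = 27 := by norm_num
    rw [this]
    decide
  refine ⟨⟨1 / 27, hmem⟩, ?_, ?_⟩
  · apply Subtype.ext
    have h27 : (((27 : ↥(GaloisRep.ratLocalizedAt 2)) : ↥(GaloisRep.ratLocalizedAt 2)) : ℚ) = 27 :=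
      rfl
    rw [Subring.coe_mul, h27, Subring.coe_one]
    norm_num
  · rw [s16q_phi_apply]
    push_cast
    norm_num

end Fermat.Agent.S16
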