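/-
S16, package [INT] (owner: helper14), part 1: descent of monic relations from `ℂ((q))` to `ℚ((q))`.

If `u, t ∈ ℚ((q))` satisfy a monic relation `∑ₖ (-1)^k Pₖ(t) u^(n-k) = 0` with `Pₖ ∈ ℂ[X]`, `P₀ = 1`,
in `ℂ((q))`, then they satisfy one with `Pₖ ∈ ℚ[X]`, `P₀ = 1` in `ℚ((q))`: apply a `ℚ`-linear
retraction `ℂ → ℚ` coefficientwise.
-/
import Mathlib
import Fermat.Prelude.Def_ModularCurve_LaurentCoeff

set_option autoImplicit false

noncomputable section

namespace Fermat.Agent.S16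

open Polynomial ModularCurve

/-- A `ℚ`-linear retraction of `ℚ → ℂ`. -/
theorem s16i_exists_retraction : ∃ π : ℂ →ₗ[ℚ] ℚ, ∀ r : ℚ, π (r : ℂ) = r := by
  have hinj : LinearMap.ker (Algebra.linearMap ℚ ℂ) = ⊥ :=
    LinearMap.ker_eq_bot.mpr (algebraMap ℚ ℂ).injective
  obtain ⟨g, hg⟩ := LinearMap.exists_leftInverse_of_injective (Algebra.linearMap ℚ ℂ) hinj
  refine ⟨g, fun r => ?_⟩
  have := congrArg (fun f : ℚ →ₗ[ℚ] ℚ => f r) hg
  simpa using this

/-- Coefficientwise application of a `ℚ`-linear map to a polynomial. -/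
def s16i_polyProj (π : ℂ →ₗ[ℚ] ℚ) (p : ℂ[X]) : ℚ[X] :=
  ∑ i ∈ p.support, monomial i (π (p.coeff i))

theorem s16i_polyProj_coeff (π : ℂ →ₗ[ℚ] ℚ) (p : ℂ[X]) (j : ℕ) :
    (s16i_polyProj π p).coeff j = π (p.coeff j) := by
  rw [s16i_polyProj, finsetSum_coeff]
  simp only [coeff_monomial]
  rw [Finset.sum_ite_eq' p.support j (fun i => π (p.coeff i))]
  split_ifs with hj
  · rfl
  · rw [notMem_support_iff.mp hj, map_zero]

theorem s16i_polyProj_add (π : ℂ →ₗ[ℚ] ℚ) (p q : ℂ[X]) :
    s16i_polyProj π (p + q) = s16i_polyProj π p + s16i_polyProj π q := by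
  ext j
  rw [coeff_add, s16i_polyProj_coeff, s16i_polyProj_coeff, s16i_polyProj_coeff, coeff_add,
    map_add]

theorem s16i_polyProj_monomial (π : ℂ →ₗ[ℚ] ℚ) (i : ℕ) (c : ℂ) :
    s16i_polyProj π (monomial i c) = monomial i (π c) := by
  ext j
  rw [s16i_polyProj_coeff, coeff_monomial, coeff_monomial]
  split_ifs
  · rfl
  · exact map_zero π

theorem s16i_polyProj_one (π : ℂ →ₗ[ℚ] ℚ) (hπ : ∀ r : ℚ, π (r : ℂ) = r) :
    s16i_polyProj π 1 = 1 := by
  have h : (1 : ℂ[X]) = monomial 0 (1 : ℂ) := rfl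
  rw [h, s16i_polyProj_monomial]
  have := hπ 1
  rw [Rat.cast_one] at this
  rw [this]
  rfl

theorem s16i_coeff_C_mul {R : Type*} [CommRing R] (c : R) (f : LaurentSeries R) (m : ℤ) :
    (HahnSeries.C c * f).coeff m = c * f.coeff m := by
  have := HahnSeries.coeff_single_mul_add (r := c) (x := f) (a := m) (b := (0 : ℤ))
  rw [add_zero] at this
  exact this

theorem s16i_coeff_algebraMap_mul (c : ℚ) (f : LaurentSeries ℚ) (m : ℤ) :
    (algebraMap ℚ (LaurentSeries ℚ) c * f).coeff m = c * f.coeff m := by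
  have h1 : algebraMap ℚ (PowerSeries ℚ) c = PowerSeries.C c := by simp
  rw [HahnSeries.algebraMap_apply', h1, HahnSeries.ofPowerSeries_C]
  exact s16i_coeff_C_mul c f m

/-- The basic compatibility: coefficients of `p(t) w` and of `p^π(t) w`. -/
theorem s16i_proj_coeff (π : ℂ →ₗ[ℚ] ℚ) (t w : LaurentSeries ℚ) (p : ℂ[X]) (m : ℤ) :
    π ((p.eval₂ (HahnSeries.C : ℂ →+* LaurentSeries ℂ) (coeffEmb ℂ t) * coeffEmb ℂ w).coeff m) =
      (aeval t (s16i_polyProj π p) * w).coeff m := by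
  induction p using Polynomial.induction_on' with
  | add p q hp hq =>
    rw [eval₂_add, add_mul, HahnSeries.coeff_add, map_add, hp, hq, s16i_polyProj_add, map_add,
      add_mul, HahnSeries.coeff_add]
  | monomial i c =>
    rw [eval₂_monomial, s16i_polyProj_monomial, aeval_monomial, mul_assoc, ← map_pow, ← map_mul,
      s16i_coeff_C_mul, coeffEmb_coeff, mul_assoc, s16i_coeff_algebraMap_mul]
    have e2 : c * (algebraMap ℚ ℂ) ((t ^ i * w).coeff m) = ((t ^ i * w).coeff m) • c := by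
      rw [Algebra.smul_def, mul_comm]
    rw [e2, map_smul, smul_eq_mul, mul_comm]

theorem s16i_neg_one_pow_mul_coeff {R : Type*} [CommRing R] (k : ℕ) (f : LaurentSeries R)
    (m : ℤ) : ((-1 : LaurentSeries R) ^ k * f).coeff m = (-1 : R) ^ k * f.coeff m := by
  rcases neg_one_pow_eq_or ℤ k with hk | hk
  · have e1 : (-1 : LaurentSeries R) ^ k = 1 := by
      have := congrArg (fun x : ℤ => (x : LaurentSeries R)) hk
      simpa using this
    have e2 : (-1 : R) ^ k = 1 := by
      have := congrArg (fun x : ℤ => (x : R)) hk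
      simpa using this
    rw [e1, e2, one_mul, one_mul]
  · have e1 : (-1 : LaurentSeries R) ^ k = -1 := by
      have := congrArg (fun x : ℤ => (x : LaurentSeries R)) hk
      simpa using this
    have e2 : (-1 : R) ^ k = -1 := by
      have := congrArg (fun x : ℤ => (x : R)) hk
      simpa using this
    rw [e1, e2, neg_one_mul, neg_one_mul, HahnSeries.coeff_neg]

/-- **Descent of monic relations.** -/
theorem s16i_descent (t u : LaurentSeries ℚ) (n : ℕ) (P : ℕ → ℂ[X]) (hP0 : P 0 = 1)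
    (h : ∑ k ∈ Finset.range (n + 1), (-1 : LaurentSeries ℂ) ^ k *
      ((P k).eval₂ (HahnSeries.C : ℂ →+* LaurentSeries ℂ) (coeffEmb ℂ t) *
        coeffEmb ℂ u ^ (n - k)) = 0) :
    ∃ P' : ℕ → ℚ[X], P' 0 = 1 ∧
      ∑ k ∈ Finset.range (n + 1), (-1 : LaurentSeries ℚ) ^ k *
        (aeval t (P' k) * u ^ (n - k)) = 0 := by
  obtain ⟨π, hπ⟩ := s16i_exists_retraction
  refine ⟨fun k => s16i_polyProj π (P k), ?_, ?_⟩
  · simp only [hP0]
    exact s16i_polyProj_one π hπ
  · ext m
    rw [HahnSeries.coeff_zero, HahnSeries.coeff_sum]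
    have h1 := congrArg (fun f : LaurentSeries ℂ => π (f.coeff m)) h
    simp only [HahnSeries.coeff_sum, HahnSeries.coeff_zero, map_zero, map_sum] at h1
    rw [← h1]
    refine Finset.sum_congr rfl fun k _ => ?_
    rw [s16i_neg_one_pow_mul_coeff, s16i_neg_one_pow_mul_coeff, ← map_pow,
      ← s16i_proj_coeff π t (u ^ (n - k)) (P k) m]
    rcases neg_one_pow_eq_or ℤ k with hk | hk
    · have e1 : (-1 : ℚ) ^ k = 1 := by
        have := congrArg (fun x : ℤ => (x : ℚ)) hk
        simpa using this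
      have e2 : (-1 : ℂ) ^ k = 1 := by
        have := congrArg (fun x : ℤ => (x : ℂ)) hk
        simpa using this
      rw [e1, e2, one_mul, one_mul]
    · have e1 : (-1 : ℚ) ^ k = -1 := by
        have := congrArg (fun x : ℤ => (x : ℚ)) hk
        simpa using this
      have e2 : (-1 : ℂ) ^ k = -1 := by
        have := congrArg (fun x : ℤ => (x : ℂ)) hk
        simpa using this
      rw [e1, e2, neg_one_mul, neg_one_mul, map_neg]

end Fermat.Agent.S16
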