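import Mathlib
import Fermat.Prelude.Def_ModularCurve_IgusaScheme
import Fermat.Prelude.Def_ModularCurve_X0ModL
import Fermat.Agent.S28.RedKer
import Fermat.Agent.S28.ChiH
import Fermat.Agent.S28.DegQ

/-!
# The chart `B = chartAlgFin N ℓ` and reduction of `q`-expansions mod `ℓ`

Owner: helper27.

Corollaries of the `q`-expansion principle for the chart `B` (integral closure of `ℤ_(ℓ)[j]` in
the function field `F = ℚ(X₀(N))`), `ℓ ∤ N` (S28: `redK_core` + KEY `chiH_key` + DEG-Q):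

* `redB_rho N ℓ : B →+* 𝔽_ℓ((q))`, the reduction of `q`-expansions;
* `redB_ker`: its kernel is `ℓ B`;
* `redB_prime`: `ℓ` is a prime element of `B`;
* `redB_pow_dvd`: `b ∈ B` with `q`-expansion in `ℓ^k ℤ_(ℓ)((q))` lies in `ℓ^k B`;
* `redB_mem_chart`: `y ∈ F` integral over `ℚ[j]` with `ℓ`-integral `q`-expansion lies in `B`;
* `redB_mem_of_pow_mem`: `B` is integrally closed in `F`.
-/

set_option autoImplicit false

open ModularCurve ModularCurve.IgusaScheme Polynomial IntermediateField Fermat.Agent.S28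

noncomputable section

namespace Fermat.Agent.S16

section abstract

variable (ℓ : ℕ) [Fact ℓ.Prime]
variable {F : Type*} [Field F] [Algebra ℚ F]
variable {κ : Type*} [Field κ] [Algebra (ZMod ℓ) κ]
variable {O : ValuationSubring F} {ρ : O →+* κ}
variable [Algebra ↥(GaloisRep.ratLocalizedAt ℓ) F]
  [IsScalarTower ↥(GaloisRep.ratLocalizedAt ℓ) ℚ F]

open scoped IntermediateField.algebraAdjoinAdjoin in
/-- An element of `O` which is integral over `ℚ[t]` is integral over `ℤ_(ℓ)[t]`. -/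
theorem redB_core (hunit : ∀ x : O, ρ x ≠ 0 → (x : F)⁻¹ ∈ O)
    (t : O) (htr : Transcendental (ZMod ℓ) (ρ t))
    (K₀ : IntermediateField ℚ F) (hK₀ : K₀ = ℚ⟮(t : F)⟯) [FiniteDimensional K₀ F]
    (n : ℕ) (hn : Module.finrank K₀ F ≤ n) (u : Fin n → O)
    (hu : ∀ c : Fin n → O, (∀ i, (c i : F) ∈ K₀) → ∑ i, ρ (c i) * ρ (u i) = 0 →
      ∀ i, ρ (c i) = 0)
    (y : F) (hyO : y ∈ O) (hyB : IsIntegral (Algebra.adjoin ℚ {(t : F)}) y) :
    IsIntegral (Algebra.adjoin ↥(GaloisRep.ratLocalizedAt ℓ) {(t : F)}) y := by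
  subst hK₀
  have hyA := redK_isIntegral_comap hunit ℚ⟮(t : F)⟯ n hn u hu _ hyO
  have htrQ : Transcendental ℚ (t : F) := redK_transcendental ℓ hunit t htr
  have : IsIntegrallyClosed ↥(Algebra.adjoin ℚ {(t : F)}) :=
    IsIntegrallyClosed.of_equiv (Polynomial.algEquivOfTranscendental ℚ (t : F) htrQ).toRingEquiv
  have hcoeff : ∀ i, algebraMap ↥ℚ⟮(t : F)⟯ F ((minpoly ↥ℚ⟮(t : F)⟯ y).coeff i) ∈
      Set.range (algebraMap ↥(Algebra.adjoin ↥(GaloisRep.ratLocalizedAt ℓ) {(t : F)}) F) := by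
    intro i
    obtain ⟨a, ha⟩ := redK_minpoly_coeff_mem (K := ↥ℚ⟮(t : F)⟯) hyA i
    obtain ⟨b, hb⟩ := redK_minpoly_coeff_mem (K := ↥ℚ⟮(t : F)⟯) hyB i
    have haO : algebraMap ↥ℚ⟮(t : F)⟯ F ((minpoly ↥ℚ⟮(t : F)⟯ y).coeff i) ∈ O := by
      rw [← ha]
      exact a.2
    have hbB : algebraMap ↥ℚ⟮(t : F)⟯ F ((minpoly ↥ℚ⟮(t : F)⟯ y).coeff i) ∈
        Algebra.adjoin ℚ {(t : F)} := by
      rw [← hb]
      exact b.2
    rw [Algebra.adjoin_singleton_eq_range_aeval] at hbB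
    obtain ⟨P, hP⟩ := hbB
    have hP' : aeval (t : F) P ∈ O := by
      have : aeval (t : F) P = algebraMap ↥ℚ⟮(t : F)⟯ F ((minpoly ↥ℚ⟮(t : F)⟯ y).coeff i) := hP
      rw [this]
      exact haO
    obtain ⟨P', rfl⟩ := redK_gauss ℓ hunit t htr P hP'
    have h1 : aeval (t : F) P' ∈ Algebra.adjoin ↥(GaloisRep.ratLocalizedAt ℓ) {(t : F)} := by
      rw [Algebra.adjoin_singleton_eq_range_aeval]
      exact ⟨P', rfl⟩
    refine ⟨⟨_, h1⟩, ?_⟩
    show aeval (t : F) P' = _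
    rw [← aeval_map_algebraMap ℚ (t : F) P']
    exact hP
  have hl : (minpoly ↥ℚ⟮(t : F)⟯ y).map (algebraMap ↥ℚ⟮(t : F)⟯ F) ∈
      Polynomial.lifts
        (algebraMap ↥(Algebra.adjoin ↥(GaloisRep.ratLocalizedAt ℓ) {(t : F)}) F) := by
    rw [Polynomial.lifts_iff_coeff_lifts]
    intro i
    rw [coeff_map]
    exact hcoeff i
  have hyK : IsIntegral ↥ℚ⟮(t : F)⟯ y := IsIntegral.of_finite _ _
  have hmonic : ((minpoly ↥ℚ⟮(t : F)⟯ y).map (algebraMap ↥ℚ⟮(t : F)⟯ F)).Monic :=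
    (minpoly.monic hyK).map _
  obtain ⟨q, hq, -, hqm⟩ := Polynomial.lifts_and_natDegree_eq_and_monic hl hmonic
  refine ⟨q, hqm, ?_⟩
  rw [← Polynomial.eval_map, hq, Polynomial.eval_map, ← Polynomial.aeval_def, minpoly.aeval]

end abstract

section chart

variable (N : ℕ) [NeZero N] (ℓ : ℕ) [Fact ℓ.Prime]

open scoped ModularCurve.IgusaScheme

/-- The reduction of `q`-expansions on the chart `B = chartAlgFin N ℓ`. -/
def redB_rho : ↥(chartAlgFin N ℓ) →+* LaurentSeries (ZMod ℓ) :=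
  redK_restrict N ℓ (chartAlgFin N ℓ) (redK_chartFin_le N ℓ)

/-- The `q`-expansion of an element of the chart lies in `redO ℓ`. -/
theorem redB_mem_redO (b : ↥(chartAlgFin N ℓ)) :
    ((b : ↥(modularFunctionFieldFull N)) : LaurentSeries ℚ) ∈ redO ℓ :=
  redK_chartFin_le N ℓ b b.2

theorem redB_rho_apply (b : ↥(chartAlgFin N ℓ)) :
    redB_rho N ℓ b = redO_rho ℓ ⟨_, redB_mem_redO N ℓ b⟩ := rfl

/-- The reduction of an element whose `q`-expansion has coefficients in `ℤ_(ℓ)`. -/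
theorem redB_rho_intL (b : ↥(chartAlgFin N ℓ))
    (G : LaurentSeries ↥(GaloisRep.ratLocalizedAt ℓ))
    (h : ((b : ↥(modularFunctionFieldFull N)) : LaurentSeries ℚ) = redO_iota ℓ G) :
    redB_rho N ℓ b = redO_red ℓ G := by
  rw [redB_rho_apply, ← redO_rho_intL ℓ G]
  congr 1
  exact Subtype.ext h

/-- The reduction of an element whose `q`-expansion has integer coefficients. -/
theorem redB_rho_int (b : ↥(chartAlgFin N ℓ)) (G : LaurentSeries ℤ)
    (h : ((b : ↥(modularFunctionFieldFull N)) : LaurentSeries ℚ) =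
      coeffMap (Int.castRingHom ℚ) G) :
    redB_rho N ℓ b = coeffMap (Int.castRingHom (ZMod ℓ)) G := by
  rw [redB_rho_apply, ← redO_rho_int ℓ G]
  congr 1
  exact Subtype.ext h

theorem redB_rho_j : redB_rho N ℓ (jChartFin N ℓ) = jqModC (ZMod ℓ) :=
  redK_rhoF_tj N ℓ

theorem redB_rho_natCast_self : redB_rho N ℓ ((ℓ : ℕ) : ↥(chartAlgFin N ℓ)) = 0 := by
  rw [map_natCast]
  have : ((ℓ : ℕ) : LaurentSeries (ZMod ℓ)) = HahnSeries.C ((ℓ : ℕ) : ZMod ℓ) :=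
    (map_natCast (HahnSeries.C : ZMod ℓ →+* _) ℓ).symm
  rw [this, ZMod.natCast_self, map_zero]

theorem redB_natCast_ne_zero : ((ℓ : ℕ) : ↥(chartAlgFin N ℓ)) ≠ 0 := by
  intro h
  have h1 := congrArg (fun b : ↥(chartAlgFin N ℓ) => (b : ↥(modularFunctionFieldFull N))) h
  simp only [redK_coe_natCast, ZeroMemClass.coe_zero] at h1
  exact redK_natCast_ne_zero N ℓ h1

/-- **(b0)** The kernel of the reduction is `ℓ B`. -/
theorem redB_ker (hℓN : ¬ ℓ ∣ N) (b : ↥(chartAlgFin N ℓ)) (h : redB_rho N ℓ b = 0) :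
    ∃ b' : ↥(chartAlgFin N ℓ), b = ((ℓ : ℕ) : ↥(chartAlgFin N ℓ)) * b' := by
  obtain ⟨g, hg, hkey⟩ := chiH_key N ℓ hℓN
  have hfin := degQ_finite N
  obtain ⟨u, hu⟩ := redK_huF N ℓ _ g hg hkey
  have hℓ := redK_natCast_ne_zero N ℓ
  have h1 := redK_core ℓ (redK_hunitF N ℓ) (redK_hkerF N ℓ) (redK_tj N ℓ) (redK_htr_tj N ℓ)
    ℚ⟮jFull N⟯ rfl _ (degQ_finrank_le N) u hu
    ⟨(b : ↥(modularFunctionFieldFull N)), redK_chartFin_le N ℓ b b.2⟩ b.2 h
  refine ⟨⟨_, h1⟩, Subtype.ext ?_⟩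
  rw [Subalgebra.coe_mul, redK_coe_natCast]
  show (b : ↥(modularFunctionFieldFull N)) = _
  field_simp

/-- **(b1)** `ℓ` is a prime element of the chart. -/
theorem redB_prime (hℓN : ¬ ℓ ∣ N) : Prime ((ℓ : ℕ) : ↥(chartAlgFin N ℓ)) := by
  refine ⟨redB_natCast_ne_zero N ℓ, ?_, ?_⟩
  · intro hu
    have h1 := hu.map (redB_rho N ℓ)
    rw [redB_rho_natCast_self] at h1
    exact not_isUnit_zero h1
  · intro a b hab
    obtain ⟨c, hc⟩ := hab
    have h1 := congrArg (redB_rho N ℓ) hc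
    rw [map_mul, map_mul, redB_rho_natCast_self, zero_mul] at h1
    rcases mul_eq_zero.mp h1 with h | h
    · obtain ⟨a', ha'⟩ := redB_ker N ℓ hℓN a h
      exact Or.inl ⟨a', ha'⟩
    · obtain ⟨b', hb'⟩ := redB_ker N ℓ hℓN b h
      exact Or.inr ⟨b', hb'⟩

/-- **(b2)** An element of the chart whose `q`-expansion lies in `ℓ^k ℤ_(ℓ)((q))` lies in
`ℓ^k B`. -/
theorem redB_pow_dvd (hℓN : ¬ ℓ ∣ N) (k : ℕ) :
    ∀ (b : ↥(chartAlgFin N ℓ)) (G : LaurentSeries ↥(GaloisRep.ratLocalizedAt ℓ)),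
      ((b : ↥(modularFunctionFieldFull N)) : LaurentSeries ℚ) =
        ((ℓ : ℕ) : LaurentSeries ℚ) ^ k * redO_iota ℓ G →
      ∃ b' : ↥(chartAlgFin N ℓ), b = ((ℓ : ℕ) : ↥(chartAlgFin N ℓ)) ^ k * b' := by
  induction k with
  | zero =>
    intro b G _
    exact ⟨b, by rw [pow_zero, one_mul]⟩
  | succ k ih =>
    intro b G h
    have hℓL := redO_natCast_ne_zero ℓ
    have h0 : redB_rho N ℓ b = 0 := by
      have h' : ((b : ↥(modularFunctionFieldFull N)) : LaurentSeries ℚ) =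
          redO_iota ℓ (((ℓ : ℕ) : LaurentSeries ↥(GaloisRep.ratLocalizedAt ℓ)) ^ (k + 1) * G) := by
        rw [h, map_mul, map_pow, map_natCast]
      rw [redB_rho_intL N ℓ b _ h', map_mul, map_pow, redO_red_natCast_self, pow_succ,
        mul_zero, zero_mul]
    obtain ⟨b₁, hb₁⟩ := redB_ker N ℓ hℓN b h0
    have h1 : ((b₁ : ↥(modularFunctionFieldFull N)) : LaurentSeries ℚ) =
        ((ℓ : ℕ) : LaurentSeries ℚ) ^ k * redO_iota ℓ G := by
      have e1 : (b : ↥(modularFunctionFieldFull N)) =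
          ((ℓ : ℕ) : ↥(modularFunctionFieldFull N)) * (b₁ : ↥(modularFunctionFieldFull N)) := by
        rw [hb₁, Subalgebra.coe_mul, redK_coe_natCast]
      have h3 : (((ℓ : ℕ) : ↥(modularFunctionFieldFull N)) : LaurentSeries ℚ) =
          ((ℓ : ℕ) : LaurentSeries ℚ) := by
        simp
      have e2 : ((b : ↥(modularFunctionFieldFull N)) : LaurentSeries ℚ) =
          ((ℓ : ℕ) : LaurentSeries ℚ) *
            ((b₁ : ↥(modularFunctionFieldFull N)) : LaurentSeries ℚ) := by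
        rw [e1, IntermediateField.coe_mul, h3]
      apply mul_left_cancel₀ hℓL
      rw [← e2, h, pow_succ]
      ring
    obtain ⟨b', hb'⟩ := ih b₁ G h1
    exact ⟨b', by rw [hb₁, hb', pow_succ]; ring⟩

/-- **(b3)** An element of `F` which is integral over `ℚ[j]` and whose `q`-expansion is
`ℓ`-integral lies in the chart. -/
theorem redB_mem_chart (hℓN : ¬ ℓ ∣ N) (y : ↥(modularFunctionFieldFull N))
    (hint : IsIntegral (Algebra.adjoin ℚ {jFull N}) y)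
    (hO : ((y : ↥(modularFunctionFieldFull N)) : LaurentSeries ℚ) ∈ redO ℓ) :
    y ∈ chartAlgFin N ℓ := by
  obtain ⟨g, hg, hkey⟩ := chiH_key N ℓ hℓN
  have hfin := degQ_finite N
  obtain ⟨u, hu⟩ := redK_huF N ℓ _ g hg hkey
  exact redB_core ℓ (redK_hunitF N ℓ) (redK_tj N ℓ) (redK_htr_tj N ℓ)
    ℚ⟮jFull N⟯ rfl _ (degQ_finrank_le N) u hu y hO hint

omit [Fact ℓ.Prime] in
/-- **(b4)** The chart is integrally closed in `F`. -/
theorem redB_mem_of_pow_mem (y : ↥(modularFunctionFieldFull N)) (n : ℕ) (hn : 0 < n)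
    (h : y ^ n ∈ chartAlgFin N ℓ) : y ∈ chartAlgFin N ℓ :=
  IsIntegral.of_pow hn h

end chart

end Fermat.Agent.S16
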