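/-
S16, package [INT] (owner: helper14), part 2: holomorphic modular functions for `Γ₀(N)` with
rational, `ℓ`-integral `q`-expansion lie in the chart `chartAlgFin N ℓ` (`ℓ ∤ N`).

* `s16i_isModFun_of_dvd` : level change `Γ₀(M) ⊇ Γ₀(N)` for `M ∣ N`
* `s16i_root_series`     : a modular function is a root of a monic polynomial over `ℂ[j]`,
                           as an identity of Laurent series
* `s16i_mem_full`        : `q`-expansion principle (membership in `modularFunctionFieldFull N`)
* `s16i_isIntegral`      : integrality over `ℚ[j]`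
* `s16i_mem_chart`       : membership in `chartAlgFin N ℓ`
-/
import Mathlib
import Fermat.Agent.S28.UnitMem
import Fermat.Agent.S28.ChiHDeg
import Fermat.Agent.S16.IntDescent
import Fermat.Agent.S16.RedB

set_option autoImplicit false

noncomputable section

namespace Fermat.Agent.S16

open UpperHalfPlane ModularFormClass CongruenceSubgroup Matrix.SpecialLinearGroup Function
open ModularForm Filter Asymptotics
open scoped MatrixGroups ModularForm Manifold Real Topology Polynomial

open Fermat.Agent.S24 Fermat.Agent.S22 Fermat.Agent.S28 ModularCurve ModularCurve.IgusaScheme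

local notation "Δ" => ModularForm.discriminant

/-- **(I4)** Level change: a modular function for `Γ₀(M)` is one for `Γ₀(N)` when `M ∣ N`. -/
theorem s16i_isModFun_of_dvd {M N : ℕ} (h : M ∣ N) {f : ℍ → ℂ} (hf : anB_IsModFun M f) :
    anB_IsModFun N f where
  holo := hf.holo
  inv := by
    intro γ hγ z
    refine hf.inv γ ?_ z
    rw [Gamma0_mem] at hγ ⊢
    obtain ⟨c, rfl⟩ := h
    have h1 : ((γ 1 0 : ℤ) : ZMod (M * c)) = 0 := by exact_mod_cast hγ
    rw [ZMod.intCast_zmod_eq_zero_iff_dvd] at h1 ⊢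
    exact dvd_trans (by push_cast; exact dvd_mul_right _ _) h1
  growth := hf.growth

theorem s16i_hasLaurent_neg_one_pow (k : ℕ) :
    anA_HasLaurent ((-1 : LaurentSeries ℂ) ^ k) (fun _ : ℍ => (-1 : ℂ) ^ k) := by
  have h1 : anA_HasLaurent (-1 : LaurentSeries ℂ) (-(1 : ℍ → ℂ)) := anA_HasLaurent.one.neg
  have h2 := umem_hasLaurent_pow h1 k
  refine (congrArg (anA_HasLaurent _) ?_).mp h2
  funext z
  simp

/-- A modular function for `Γ₀(N)` is a root of a monic polynomial over `ℂ[j]`: identity of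
Laurent series. -/
theorem s16i_root_series (N : ℕ) [NeZero N] {f : ℍ → ℂ} (hf : anB_IsModFun N f)
    {U : LaurentSeries ℂ} (hU : anA_HasLaurent U f) :
    ∃ (n : ℕ) (P : ℕ → ℂ[X]), P 0 = 1 ∧
      ∑ k ∈ Finset.range (n + 1), (-1 : LaurentSeries ℂ) ^ k *
        ((P k).eval₂ (HahnSeries.C : ℂ →+* LaurentSeries ℂ) anA_jSeries * U ^ (n - k)) = 0 := by
  classical
  have hfin : Finite (XN N) := Comb.finite_X N (NeZero.ne N)
  let _ : Fintype (XN N) := Fintype.ofFinite (XN N)
  obtain ⟨P, hP0, -, hroot⟩ := anD_exists_charPoly (anB_tr N f)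
    (fun x => anB_tr_mdiff hf.holo x) (fun x => anB_tr_growth hf x)
    (fun γ => ⟨MulAction.toPerm γ⁻¹, fun x z => anB_tr_smul hf.inv γ x z⟩)
  refine ⟨Fintype.card (XN N), P, hP0, ?_⟩
  have hx₀ : anB_tr N f (QuotientGroup.mk 1 : XN N) = f := anB_tr_one hf.inv
  have hsum : anA_HasLaurent
      (∑ k ∈ Finset.range (Fintype.card (XN N) + 1), (-1 : LaurentSeries ℂ) ^ k *
        ((P k).eval₂ (HahnSeries.C : ℂ →+* LaurentSeries ℂ) anA_jSeries *
          U ^ (Fintype.card (XN N) - k)))
      (∑ k ∈ Finset.range (Fintype.card (XN N) + 1), (fun _ : ℍ => (-1 : ℂ) ^ k) *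
        ((fun z => (P k).eval (jfun z)) * f ^ (Fintype.card (XN N) - k))) :=
    anA_HasLaurent.sum _ fun k _ =>
      (s16i_hasLaurent_neg_one_pow k).mul
        ((umem_hasLaurent_eval umem_hasLaurent_jfun (P k)).mul (umem_hasLaurent_pow hU _))
  have hzero : (∑ k ∈ Finset.range (Fintype.card (XN N) + 1), (fun _ : ℍ => (-1 : ℂ) ^ k) *
        ((fun z => (P k).eval (jfun z)) * f ^ (Fintype.card (XN N) - k))) = 0 := by
    funext z
    have := hroot (QuotientGroup.mk 1 : XN N) z
    rw [hx₀] at this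
    simp only [Finset.sum_apply, Pi.mul_apply, Pi.pow_apply, Pi.zero_apply]
    exact this
  rw [hzero] at hsum
  exact hsum.series_eq_zero

/-- **(I1)** `q`-expansion principle: a modular function for `Γ₀(N)` with rational
`q`-expansion lies in the function field `ℚ(j(q^d) : d ∣ N)`. -/
theorem s16i_mem_full (N : ℕ) [NeZero N] {f : ℍ → ℂ} (hf : anB_IsModFun N f)
    (u : LaurentSeries ℚ) (hu : anA_HasLaurent (coeffEmb ℂ u) f) :
    u ∈ modularFunctionFieldFull N :=
  modularFunctionField_le_full N (umem_mem_of_hasLaurent N u f hf hu)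

/-- A monic relation over `ℚ[j]` in `ℚ((q))` gives integrality over `ℚ[j]` in the function
field. -/
theorem s16i_isIntegral_of_relation (N : ℕ) [NeZero N] (y : ↥(modularFunctionFieldFull N))
    (n : ℕ) (P : ℕ → ℚ[X]) (hP0 : P 0 = 1)
    (h : ∑ k ∈ Finset.range (n + 1), (-1 : LaurentSeries ℚ) ^ k *
      (Polynomial.aeval jq (P k) * (y : LaurentSeries ℚ) ^ (n - k)) = 0) :
    IsIntegral (Algebra.adjoin ℚ {jFull N}) y := by
  set A := Algebra.adjoin ℚ {jFull N} with hA
  let jA : A := ⟨jFull N, Algebra.subset_adjoin (Set.mem_singleton _)⟩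
  let φ : ℚ[X] →+* A := (Polynomial.aeval jA).toRingHom
  refine ⟨(chiHd_chi n P).map φ, (chiHd_monic n P hP0).map φ, ?_⟩
  rw [Polynomial.eval₂_map, Polynomial.eval₂_eq_eval_map, chiHd_eval_map]
  apply Subtype.val_injective
  have hφ : ∀ p : ℚ[X], ((((algebraMap A ↥(modularFunctionFieldFull N)).comp φ) p :
      ↥(modularFunctionFieldFull N)) : LaurentSeries ℚ) = Polynomial.aeval jq p := by
    intro p
    induction p using Polynomial.induction_on' with
    | add p q hp hq =>
      rw [map_add, map_add]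
      push_cast
      rw [hp, hq]
    | monomial i c =>
      simp only [RingHom.comp_apply, φ, AlgHom.toRingHom_eq_coe, RingHom.coe_coe,
        Polynomial.aeval_monomial, map_mul, map_pow]
      have e1 : (((algebraMap A ↥(modularFunctionFieldFull N)) ((algebraMap ℚ ↥A) c) :
          ↥(modularFunctionFieldFull N)) : LaurentSeries ℚ) =
          algebraMap ℚ (LaurentSeries ℚ) c := by
        rw [← IsScalarTower.algebraMap_apply ℚ A ↥(modularFunctionFieldFull N) c,
          eq_ratCast (algebraMap ℚ ↥(modularFunctionFieldFull N)) c,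
          eq_ratCast (algebraMap ℚ (LaurentSeries ℚ)) c]
        norm_cast
      have e2 : (((algebraMap A ↥(modularFunctionFieldFull N)) jA :
          ↥(modularFunctionFieldFull N)) : LaurentSeries ℚ) = jq := rfl
      push_cast
      rw [e1, e2]
  push_cast
  rw [← h]
  refine Finset.sum_congr rfl fun k _ => ?_
  rw [hφ]

/-- **(I2)** A modular function for `Γ₀(N)` with rational `q`-expansion is integral over
`ℚ[j]`. -/
theorem s16i_isIntegral (N : ℕ) [NeZero N] {f : ℍ → ℂ} (hf : anB_IsModFun N f)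
    (u : LaurentSeries ℚ) (hu : anA_HasLaurent (coeffEmb ℂ u) f) :
    IsIntegral (Algebra.adjoin ℚ {jFull N})
      (⟨u, s16i_mem_full N hf u hu⟩ : ↥(modularFunctionFieldFull N)) := by
  obtain ⟨n, P, hP0, hroot⟩ := s16i_root_series N hf hu
  rw [← umem_coeffEmb_jq] at hroot
  obtain ⟨P', hP'0, hrel⟩ := s16i_descent jq u n P hP0 hroot
  exact s16i_isIntegral_of_relation N ⟨u, s16i_mem_full N hf u hu⟩ n P' hP'0 hrel

/-- **(I3)** A modular function for `Γ₀(N)` whose `q`-expansion is rational and `ℓ`-integral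
(`ℓ ∤ N`) lies in the chart `chartAlgFin N ℓ` (the integral closure of `ℤ_(ℓ)[j]` in the
function field). -/
theorem s16i_mem_chart (N ℓ : ℕ) [NeZero N] [Fact ℓ.Prime] (hℓN : ¬ ℓ ∣ N) {f : ℍ → ℂ}
    (hf : anB_IsModFun N f) (u : LaurentSeries ℚ) (hu : anA_HasLaurent (coeffEmb ℂ u) f)
    (hO : u ∈ redO ℓ) :
    (⟨u, s16i_mem_full N hf u hu⟩ : ↥(modularFunctionFieldFull N)) ∈ chartAlgFin N ℓ :=
  redB_mem_chart N ℓ hℓN _ (s16i_isIntegral N hf u hu) hO

end Fermat.Agent.S16
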