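import Mathlib
import Fermat.Agent.S20.Conj
import Fermat.Agent.S24.InvPoly
import Fermat.Agent.S24.Translate
import Fermat.Agent.S28.UnitMemAN
import Fermat.Agent.S16.IntClos
import Fermat.Agent.S16.SerTwo

/-!
# S16, (C2) at `ℓ = 2`: from modular forms of weight `12` to the chart

For a modular form `f` of weight `12` and level `Γ₀(M)`, `M ∣ N`, `2 ∤ N`, with `2`-integral
`q`-expansion `a`, the function `f / Δ` is a modular function of level `N` and its
`q`-expansion `a / Δ(q)` lies in the chart `chartAlgFin N 2`.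
-/

set_option autoImplicit false

noncomputable section

namespace Fermat.Agent.S16

open UpperHalfPlane ModularFormClass CongruenceSubgroup Matrix.SpecialLinearGroup Function
open ModularForm Filter Asymptotics
open scoped MatrixGroups ModularForm Manifold Real Topology

open Fermat.Agent.S22 Fermat.Agent.S24 Fermat.Agent.S28 Fermat.Agent.S20 ModularCurve
open ModularCurve.IgusaScheme

set_option quotPrecheck false in
local notation "R₂" => ↥(GaloisRep.ratLocalizedAt 2)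

local notation "Δ" => ModularForm.discriminant

/-- `Γ₀(N) ≤ Γ₀(M)` for `M ∣ N`. -/
theorem s16f_Gamma0_le {M N : ℕ} (h : M ∣ N) : Gamma0 N ≤ Gamma0 M := by
  intro γ hγ
  rw [Gamma0_mem] at hγ ⊢
  obtain ⟨c, rfl⟩ := h
  have h1 : ((γ 1 0 : ℤ) : ZMod (M * c)) = 0 := by exact_mod_cast hγ
  rw [ZMod.intCast_zmod_eq_zero_iff_dvd] at h1 ⊢
  exact dvd_trans (by push_cast; exact dvd_mul_right _ _) h1

theorem s16f_G0_le {M N : ℕ} (h : M ∣ N) : G0 N ≤ G0 M :=
  Subgroup.map_mono (s16f_Gamma0_le h)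

/-- Level raising for forms. -/
theorem s16f_isMF_of_dvd {M N : ℕ} (h : M ∣ N) {k : ℤ} {f : ℍ → ℂ} (hf : IsMF (G0 M) k f) :
    IsMF (G0 N) k f :=
  hf.restrict (s16f_G0_le h)

/-- The translates of `f / Δ`. -/
theorem s16f_quot_smul (f : ℍ → ℂ) (γ : SL(2, ℤ)) (z : ℍ) :
    f (γ • z) / Δ (γ • z) = (f ∣[(12 : ℤ)] γ) z / Δ z := by
  have hden : denom γ z ≠ 0 := denom_ne_zero γ z
  have hΔ : Δ z ≠ 0 := discriminant_ne_zero z
  rw [ModularForm.SL_slash_apply, anC_discriminant_smul, zpow_neg]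
  field_simp

/-- **(I5)** For a form `f` of weight `12` and level `Γ₀(M)`, `f / Δ` is a modular function of
level `M`. -/
theorem s16f_isModFun (M : ℕ) [NeZero M] {f : ℍ → ℂ} (hf : IsMF (G0 M) 12 f) :
    anB_IsModFun M (fun z => f z / Δ z) where
  holo := (conj_mdiff_of_isMF hf).div anC_discriminant_mdiff discriminant_ne_zero
  inv := by
    intro γ hγ z
    rw [s16f_quot_smul, conj_slash_Gamma0 hf γ hγ]
  growth := by
    intro γ
    have hfun : (fun z : ℍ => f (γ • z) / Δ (γ • z)) =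
        fun z : ℍ => (f ∣[(12 : ℤ)] γ) z * (Δ z)⁻¹ := by
      funext z
      rw [s16f_quot_smul, div_eq_mul_inv]
    rw [hfun]
    have hb : IsBoundedAtImInfty (f ∣[(12 : ℤ)] γ) := isBoundedAtImInfty_slash_of_isMF hf γ
    have h1 := (show (f ∣[(12 : ℤ)] γ) =O[atImInfty] (1 : ℍ → ℝ) from hb).mul umem_inv_disc_isBigO
    refine ⟨1, h1.congr_right fun z => ?_⟩
    simp

/-! ### The `q`-expansion of `Δ⁻¹` is integral -/

/-- The integral Laurent series `q⁻¹ ∏ (1 - qⁿ)⁻²⁴`. -/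
def s16f_deltaInvZ : LaurentSeries ℤ :=
  HahnSeries.single (-1 : ℤ) (1 : ℤ) * HahnSeries.ofPowerSeries ℤ ℤ dedekindEtaUnitInv

/-- The integral Laurent series `q ∏ (1 - qⁿ)²⁴`. -/
def s16f_deltaZ : LaurentSeries ℤ :=
  HahnSeries.single (1 : ℤ) (1 : ℤ) * HahnSeries.ofPowerSeries ℤ ℤ dedekindEtaUnit

theorem s16f_deltaZ_mul_inv : s16f_deltaZ * s16f_deltaInvZ = 1 := by
  rw [s16f_deltaZ, s16f_deltaInvZ]
  have h1 : HahnSeries.ofPowerSeries ℤ ℤ dedekindEtaUnit *
      HahnSeries.ofPowerSeries ℤ ℤ dedekindEtaUnitInv = 1 := by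
    rw [← map_mul, dedekindEtaUnit_mul_inv, map_one]
  have h2 : HahnSeries.single (1 : ℤ) (1 : ℤ) * HahnSeries.single (-1 : ℤ) (1 : ℤ) = 1 := by
    rw [HahnSeries.single_mul_single, one_mul]
    rfl
  calc HahnSeries.single (1 : ℤ) (1 : ℤ) * HahnSeries.ofPowerSeries ℤ ℤ dedekindEtaUnit *
        (HahnSeries.single (-1 : ℤ) (1 : ℤ) * HahnSeries.ofPowerSeries ℤ ℤ dedekindEtaUnitInv)
      = (HahnSeries.single (1 : ℤ) (1 : ℤ) * HahnSeries.single (-1 : ℤ) (1 : ℤ)) *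
        (HahnSeries.ofPowerSeries ℤ ℤ dedekindEtaUnit *
          HahnSeries.ofPowerSeries ℤ ℤ dedekindEtaUnitInv) := by ring
    _ = 1 := by rw [h1, h2, mul_one]

theorem s16f_coeffMap_deltaZ : coeffMap (Int.castRingHom ℚ) s16f_deltaZ = umem_deltaQ := by
  rw [s16f_deltaZ, umem_deltaQ, map_mul, coeffMap_single, map_one, anA_coeffMap_ofPowerSeries]

theorem s16f_deltaQ_inv : umem_deltaQ⁻¹ = coeffMap (Int.castRingHom ℚ) s16f_deltaInvZ := by
  apply inv_eq_of_mul_eq_one_right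
  rw [← s16f_coeffMap_deltaZ, ← map_mul, s16f_deltaZ_mul_inv, map_one]

theorem s16f_deltaQ_mem : umem_deltaQ ∈ redO 2 := by
  rw [← s16f_coeffMap_deltaZ]
  exact redO_int 2 _

theorem s16f_deltaQ_inv_mem : umem_deltaQ⁻¹ ∈ redO 2 := by
  rw [s16f_deltaQ_inv]
  exact redO_int 2 _

/-! ### The bridge -/

theorem s16f_hasLaurent {f : ℍ → ℂ} (hf : IsNice f) (a : PowerSeries R₂) (ha : s16q_QE f a) :
    s16q_HL (s16q_ser a / umem_deltaQ) (fun z => f z / Δ z) := by
  have h := (s16q_HL.of_QE hf ha).mul s16q_HL.disc_inv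
  rw [div_eq_mul_inv]
  refine h.congr ?_
  funext z
  simp only [Pi.mul_apply, div_eq_mul_inv]

theorem s16f_ser_div_mem (a : PowerSeries R₂) : s16q_ser a / umem_deltaQ ∈ redO 2 := by
  rw [div_eq_mul_inv]
  exact (redO 2).mul_mem (s16q_ser_mem a) s16f_deltaQ_inv_mem

/-- **(I5)** The bridge: a form of weight `12` and level `Γ₀(M)`, `M ∣ N`, `2 ∤ N`, with
`2`-integral `q`-expansion `a` gives the element `a / Δ(q)` of the chart `chartAlgFin N 2`. -/
theorem s16f_mem_chart (M N : ℕ) [NeZero M] [NeZero N] (hMN : M ∣ N) (h2 : ¬ 2 ∣ N)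
    {f : ℍ → ℂ} (hf : IsMF (G0 M) 12 f) (a : PowerSeries R₂) (ha : s16q_QE f a) :
    ∃ h : s16q_ser a / umem_deltaQ ∈ modularFunctionFieldFull N,
      (⟨s16q_ser a / umem_deltaQ, h⟩ : ↥(modularFunctionFieldFull N)) ∈ chartAlgFin N 2 := by
  have hmod : anB_IsModFun N (fun z => f z / Δ z) :=
    s16i_isModFun_of_dvd hMN (s16f_isModFun M hf)
  have hL := s16f_hasLaurent hf.isNice_G0 a ha
  exact ⟨s16i_mem_full N hmod _ hL,
    s16i_mem_chart N 2 h2 hmod _ hL (s16f_ser_div_mem a)⟩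

end Fermat.Agent.S16
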