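import Mathlib

/-!
# S16, (C2) at `ℓ = 2`: the abstract commutative-algebra core

Let `B` be a domain in which `2` is a prime element, and `ν, K, L ∈ B` with

* `K ^ 3 = ν * L` (exact relation),
* `2 ∤ ν`,
* `8 ∣ K * (ν + 8) - (ν ^ 2 - 20 * ν - 8)` (the congruence coming from `H·E₄ ≡ E₆ mod 8`).

Then `1 ∈ (2, ν)`  (`s16a_one_mem_span`).  If moreover `27 ν (ν + 8)³ = j (ν - 1)³` and there is a
ring homomorphism `ρ : B → E` to a field of characteristic `2` such that `ρ j` is transcendental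
over `𝔽₂` and every `ρ b` is integral over `𝔽₂[ρ j]`, this is absurd (`s16a_false`).
-/

set_option autoImplicit false

open Polynomial

namespace Fermat.Agent.S16

section prime

variable {B : Type*} [CommRing B] [IsDomain B]

/-- If `π` is prime, `π ∤ ν` and `π ^ k * a = ν * w`, then `ν ∣ a`. -/
theorem s16a_dvd_of_pow_mul_eq {π ν : B} (hπ : Prime π) (hν : ¬ π ∣ ν) (k : ℕ) (a w : B)
    (h : π ^ k * a = ν * w) : ν ∣ a := by
  have h1 : π ^ k ∣ ν * w := ⟨a, h.symm⟩
  obtain ⟨w', rfl⟩ := hπ.pow_dvd_of_dvd_mul_left k hν h1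
  refine ⟨w', ?_⟩
  have hk : π ^ k ≠ 0 := pow_ne_zero _ hπ.ne_zero
  apply mul_left_cancel₀ hk
  rw [h]
  ring

/-- **Core.** `1 ∈ (2, ν)`. -/
theorem s16a_one_mem_span (h2 : Prime (2 : B)) (ν K L : B) (hKL : K ^ 3 = ν * L)
    (hν : ¬ (2 : B) ∣ ν)
    (hV : (8 : B) ∣ K * (ν + 8) - (ν ^ 2 - 20 * ν - 8)) :
    ∃ y₁ y₂ : B, 1 = 2 * y₁ + ν * y₂ := by
  -- step 1: `8 ∣ ν * (K - ν + 20)`
  have h8 : (2 : B) ^ 3 ∣ ν * (K - ν + 20) := by
    obtain ⟨c, hc⟩ := hV
    refine ⟨c - K - 1, ?_⟩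
    have : ν * (K - ν + 20) = (K * (ν + 8) - (ν ^ 2 - 20 * ν - 8)) - 8 * (K + 1) := by ring
    rw [this, hc]
    ring
  -- step 2: `8 ∣ K - ν + 20`
  obtain ⟨z, hz⟩ := h2.pow_dvd_of_dvd_mul_left 3 hν h8
  -- `K = ν + 4 u`, `u = -5 + 2 z`
  set u : B := -5 + 2 * z with hu
  have hK : K = ν + 4 * u := by
    have : K = (K - ν + 20) + ν - 20 := by ring
    rw [this, hz, hu]
    ring
  -- step 3: `64 u ^ 3 ∈ ν B`
  have h64 : (2 : B) ^ 6 * u ^ 3 = ν * (L - ν ^ 2 - 12 * ν * u - 48 * u ^ 2) := by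
    have h3 : (ν + 4 * u) ^ 3 = ν * L := by rw [← hK]; exact hKL
    have : (2 : B) ^ 6 * u ^ 3 = (ν + 4 * u) ^ 3 - ν * (ν ^ 2 + 12 * ν * u + 48 * u ^ 2) := by
      ring
    rw [this, h3]
    ring
  obtain ⟨y₂, hy₂⟩ := s16a_dvd_of_pow_mul_eq h2 hν 6 (u ^ 3) _ h64
  -- step 4: `u ^ 3 = 1 + 2 c`
  refine ⟨-((z - 3) * (u ^ 2 + u + 1)), y₂, ?_⟩
  rw [← hy₂, hu]
  ring

end prime

section unit

variable {k E : Type*} [Field k] [Field E] [Algebra k E]

/-- **Unit trick**: if `t` is transcendental over `k`, then `t` has no inverse that is integral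
over `k[t]`. -/
theorem s16a_unit_trick (t c : E) (htr : Transcendental k t) (htc : t * c = 1)
    (hint : IsIntegral (Algebra.adjoin k {t}) c) : False := by
  classical
  set A := Algebra.adjoin k {t} with hA
  have htA : t ∈ A := Algebra.subset_adjoin rfl
  have ht0 : t ≠ 0 := left_ne_zero_of_mul_eq_one htc
  have hc : c = t⁻¹ := eq_inv_of_mul_eq_one_right htc
  -- `c ∈ A`
  have hcA : c ∈ A := by
    obtain ⟨p, hp, hroot⟩ := hint
    have hc0 : c ≠ 0 := right_ne_zero_of_mul_eq_one htc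
    let _ : Invertible c := invertibleOfNonzero hc0
    have hinv : (⅟ c : E) = t := by
      rw [invOf_eq_inv, hc, inv_inv]
    -- the reversed polynomial vanishes at `t`
    have hrev : eval₂ (algebraMap A E) t p.reverse = 0 := by
      have h1 := (Polynomial.eval₂_reverse_eq_zero_iff (algebraMap A E) c p).mpr hroot
      rwa [hinv] at h1
    obtain ⟨q, hq⟩ : X ∣ p.reverse - C (p.reverse.coeff 0) := Polynomial.X_dvd_sub_C
    have hp1 : p.reverse.coeff 0 = 1 := by
      rw [Polynomial.coeff_zero_reverse]; exact hp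
    have hrev' : p.reverse = C 1 + X * q := by
      rw [← hq, hp1]; ring
    rw [hrev', eval₂_add, eval₂_C, eval₂_mul, eval₂_X, map_one] at hrev
    -- `c = - q(t)`
    have hcq : c = - eval₂ (algebraMap A E) t q := by
      have h2 : t * (- eval₂ (algebraMap A E) t q) = 1 := by
        linear_combination - hrev
      rw [hc]
      exact (eq_inv_of_mul_eq_one_right h2).symm ▸ rfl
    have hqA : eval₂ (algebraMap A E) t q ∈ A := by
      have h3 := Polynomial.hom_eval₂ q (RingHom.id A) (algebraMap A E) ⟨t, htA⟩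
      rw [RingHom.comp_id] at h3
      have h4 : (algebraMap A E) ⟨t, htA⟩ = t := rfl
      rw [h4] at h3
      rw [← h3]
      exact (eval₂ (RingHom.id A) ⟨t, htA⟩ q).2
    rw [hcq]
    exact neg_mem hqA
  -- `c = P(t)` contradicts transcendence
  rw [hA, Algebra.adjoin_singleton_eq_range_aeval] at hcA
  obtain ⟨P, hP⟩ := hcA
  have hinj := transcendental_iff_injective.mp htr
  have h0 : aeval t (X * P - 1 : k[X]) = 0 := by
    have hP' : (aeval t) P = c := hP
    rw [map_sub, map_mul, aeval_X, map_one, hP', htc, sub_self]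
  have h1 : (X * P - 1 : k[X]) = 0 := hinj (by rw [h0, map_zero])
  have h2 := congrArg (fun r : k[X] => r.coeff 0) h1
  simp at h2

end unit

section final

variable {B : Type*} [CommRing B] [IsDomain B] {E : Type*} [Field E] [Algebra (ZMod 2) E]

/-- **(C2) at `ℓ = 2`, abstract form.** -/
theorem s16a_false (h2 : Prime (2 : B)) (ν K L j : B) (hKL : K ^ 3 = ν * L)
    (hν : ¬ (2 : B) ∣ ν)
    (hV : (8 : B) ∣ K * (ν + 8) - (ν ^ 2 - 20 * ν - 8))
    (hj : 27 * ν * (ν + 8) ^ 3 = j * (ν - 1) ^ 3)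
    (ρ : B →+* E)
    (hint : ∀ b, IsIntegral (Algebra.adjoin (ZMod 2) {ρ j}) (ρ b))
    (htr : Transcendental (ZMod 2) (ρ j)) : False := by
  obtain ⟨y₁, y₂, h1⟩ := s16a_one_mem_span h2 ν K L hKL hν hV
  have hE2 : (2 : E) = 0 := by
    have h : (2 : ZMod 2) = 0 := by decide
    have := congrArg (algebraMap (ZMod 2) E) h
    rwa [map_ofNat, map_zero] at this
  have hρ1 : ρ ν * ρ y₂ = 1 := by
    have := congrArg ρ h1
    rw [map_one, map_add, map_mul, map_mul, map_ofNat, hE2, zero_mul, zero_add] at this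
    exact this.symm
  have hρj : ρ ν ^ 4 = ρ j * (ρ ν - 1) ^ 3 := by
    have := congrArg ρ hj
    simp only [map_mul, map_pow, map_add, map_sub, map_one, map_ofNat] at this
    have h27 : (27 : E) = 1 := by
      have : (27 : E) = 2 * 13 + 1 := by norm_num
      rw [this, hE2]; ring
    have h8 : (8 : E) = 0 := by
      have : (8 : E) = 2 * 4 := by norm_num
      rw [this, hE2]; ring
    rw [h27, h8] at this
    rw [← this]; ring
  -- `ρ j * c = 1` with `c = (ρ ν - 1) ^ 3 * ρ y₂ ^ 4`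
  have hc : ρ j * ρ ((ν - 1) ^ 3 * y₂ ^ 4) = 1 := by
    simp only [map_mul, map_pow, map_sub, map_one]
    calc ρ j * ((ρ ν - 1) ^ 3 * ρ y₂ ^ 4) = (ρ j * (ρ ν - 1) ^ 3) * ρ y₂ ^ 4 := by ring
      _ = ρ ν ^ 4 * ρ y₂ ^ 4 := by rw [hρj]
      _ = (ρ ν * ρ y₂) ^ 4 := by ring
      _ = 1 := by rw [hρ1, one_pow]
  exact s16a_unit_trick (ρ j) _ htr hc (hint _)

end final

end Fermat.Agent.S16
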