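import Mathlib
import Fermat.Prelude.Def_ModularCurve_IgusaScheme
import Fermat.Prelude.Def_ModularCurve_X0ModL
import Fermat.Agent.S28.RedKer
import Fermat.Agent.S16.RedB

/-!
# The chart `B = chartAlgFin N ℓ`: further consequences of the `q`-expansion principle

Owner: helper27.

* `redB_pow_dvd'`: set-level form of `redB_pow_dvd`;
* `redB_rho_isIntegral`: the reduction of an element of the chart is integral over `𝔽_ℓ[j̄]`;
* `redB_rho_j_transcendental`: `j̄` is transcendental over `𝔽_ℓ`;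
* `redB_not_dvd_of_red_ne_zero`: an element whose `q`-expansion is nonzero mod `ℓ` is not
  divisible by `ℓ` in the chart.
-/

set_option autoImplicit false

open ModularCurve ModularCurve.IgusaScheme Polynomial IntermediateField Fermat.Agent.S28

noncomputable section

namespace Fermat.Agent.S16

/-- Integrality is preserved by a ring homomorphism defined on a subring containing the image
of the base ring, if the images of the base ring land in the image of the new base ring. -/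
theorem redB_isIntegral_map {R₁ S₁ R₂ E : Type*} [CommRing R₁] [CommRing S₁] [Algebra R₁ S₁]
    [CommRing R₂] [CommRing E] [Algebra R₂ E] (B : Subring S₁)
    (hB : ∀ a : R₁, algebraMap R₁ S₁ a ∈ B) (ρ : B →+* E)
    (hρ : ∀ a : R₁, ρ ⟨algebraMap R₁ S₁ a, hB a⟩ ∈ Set.range (algebraMap R₂ E))
    (b : B) (hb : IsIntegral R₁ (b : S₁)) : IsIntegral R₂ (ρ b) := by
  obtain ⟨p, hp, hpb⟩ := hb
  let θ : R₁ →+* B := (algebraMap R₁ S₁).codRestrict B hB
  have h1 : Polynomial.eval₂ θ b p = 0 := by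
    apply Subtype.ext
    have e : B.subtype.comp θ = algebraMap R₁ S₁ := RingHom.ext fun _ => rfl
    have := Polynomial.hom_eval₂ p θ B.subtype b
    rw [e] at this
    show B.subtype (Polynomial.eval₂ θ b p) = 0
    rw [this]
    exact hpb
  have h2 : Polynomial.eval₂ (ρ.comp θ) (ρ b) p = 0 := by
    rw [← Polynomial.hom_eval₂, h1, map_zero]
  have hl : p.map (ρ.comp θ) ∈ Polynomial.lifts (algebraMap R₂ E) := by
    rw [Polynomial.lifts_iff_coeff_lifts]
    intro i
    rw [coeff_map]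
    exact hρ _
  obtain ⟨q, hq, -, hqm⟩ := Polynomial.lifts_and_natDegree_eq_and_monic hl (hp.map _)
  refine ⟨q, hqm, ?_⟩
  rw [← Polynomial.eval_map, hq, Polynomial.eval_map]
  exact h2

section chart

variable (N : ℕ) [NeZero N] (ℓ : ℕ) [Fact ℓ.Prime]

open scoped ModularCurve.IgusaScheme

/-- **(b6)** `j̄` is transcendental over `𝔽_ℓ`. -/
theorem redB_rho_j_transcendental :
    Transcendental (ZMod ℓ) (redB_rho N ℓ (jChartFin N ℓ)) :=
  redK_htr_tj N ℓ

/-- **(b7)** An element of the chart whose `q`-expansion is nonzero mod `ℓ` is not divisible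
by `ℓ`. -/
theorem redB_not_dvd_of_rho_ne_zero (b : ↥(chartAlgFin N ℓ)) (h : redB_rho N ℓ b ≠ 0) :
    ¬ ((ℓ : ℕ) : ↥(chartAlgFin N ℓ)) ∣ b := by
  rintro ⟨c, rfl⟩
  apply h
  rw [map_mul, redB_rho_natCast_self, zero_mul]

/-- **(b7)** An element of the chart whose `q`-expansion is nonzero mod `ℓ` is not divisible
by `ℓ`. -/
theorem redB_not_dvd_of_red_ne_zero (b : ↥(chartAlgFin N ℓ))
    (G : LaurentSeries ↥(GaloisRep.ratLocalizedAt ℓ))
    (h : ((b : ↥(modularFunctionFieldFull N)) : LaurentSeries ℚ) = redO_iota ℓ G)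
    (hG : redO_red ℓ G ≠ 0) : ¬ ((ℓ : ℕ) : ↥(chartAlgFin N ℓ)) ∣ b := by
  apply redB_not_dvd_of_rho_ne_zero
  rw [redB_rho_intL N ℓ b G h]
  exact hG

/-- The reduction of an element of `ℤ_(ℓ)[j]` lies in `𝔽_ℓ[j̄]`. -/
theorem redB_rho_adjoin (a : ↥(modularFunctionFieldFull N))
    (ha : a ∈ Algebra.adjoin ↥(GaloisRep.ratLocalizedAt ℓ) {jFull N})
    (haO : a ∈ redK_OF N ℓ) :
    redK_rhoF N ℓ ⟨a, haO⟩ ∈ Algebra.adjoin (ZMod ℓ) {jqModC (ZMod ℓ)} := by
  rw [Algebra.adjoin_singleton_eq_range_aeval] at ha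
  obtain ⟨P, hP⟩ := ha
  have hP' : aeval (jFull N) P = a := hP
  have h1 : (⟨a, haO⟩ : ↥(redK_OF N ℓ)) =
      redK_evalO ℓ (redK_hunitF N ℓ) (redK_tj N ℓ) P := by
    apply Subtype.ext
    rw [redK_evalO_coe, aeval_map_algebraMap]
    exact hP'.symm
  rw [h1, redK_rho_evalO, redK_rhoF_tj, Algebra.adjoin_singleton_eq_range_aeval]
  exact ⟨_, rfl⟩

/-- **(b5)** The reduction of an element of the chart is integral over `𝔽_ℓ[j̄]`. -/
theorem redB_rho_isIntegral' (b : ↥(chartAlgFin N ℓ)) :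
    IsIntegral (Algebra.adjoin (ZMod ℓ) {jqModC (ZMod ℓ)}) (redB_rho N ℓ b) := by
  have hB : ∀ a : ↥(Algebra.adjoin ↥(GaloisRep.ratLocalizedAt ℓ) {jFull N}),
      algebraMap ↥(Algebra.adjoin ↥(GaloisRep.ratLocalizedAt ℓ) {jFull N})
        ↥(modularFunctionFieldFull N) a ∈ (redK_OF N ℓ).toSubring := fun a =>
    redK_adjoin_le_O ℓ (redK_hunitF N ℓ) (redK_tj N ℓ) _ a.2
  exact redB_isIntegral_map (redK_OF N ℓ).toSubring hB (redK_rhoF N ℓ)
    (fun a => ⟨⟨_, redB_rho_adjoin N ℓ _ a.2 (hB a)⟩, rfl⟩)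
    ⟨(b : ↥(modularFunctionFieldFull N)), redK_chartFin_le N ℓ b b.2⟩ b.2

/-- **(b5)** The reduction of an element of the chart is integral over `𝔽_ℓ[j̄]`. -/
theorem redB_rho_isIntegral (b : ↥(chartAlgFin N ℓ)) :
    IsIntegral (Algebra.adjoin (ZMod ℓ) {redB_rho N ℓ (jChartFin N ℓ)}) (redB_rho N ℓ b) := by
  rw [redB_rho_j]
  exact redB_rho_isIntegral' N ℓ b

/-- **(b2)**, set-level form: an element `b` of the chart with `b / ℓ^k ∈ redO ℓ` lies in
`ℓ^k B`. -/
theorem redB_pow_dvd' (hℓN : ¬ ℓ ∣ N) (k : ℕ) :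
    ∀ (b : ↥(modularFunctionFieldFull N)), b ∈ chartAlgFin N ℓ →
      ((b : ↥(modularFunctionFieldFull N)) : LaurentSeries ℚ) / ((ℓ : ℕ) : LaurentSeries ℚ) ^ k
        ∈ redO ℓ →
      ∃ b' ∈ chartAlgFin N ℓ, b = ((ℓ : ℕ) : ↥(modularFunctionFieldFull N)) ^ k * b' := by
  induction k with
  | zero =>
    intro b hb _
    exact ⟨b, hb, by rw [pow_zero, one_mul]⟩
  | succ k ih =>
    intro b hb hO
    have hℓL := redO_natCast_ne_zero ℓ
    have hℓF := redK_natCast_ne_zero N ℓ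
    have h3 : (((ℓ : ℕ) : ↥(modularFunctionFieldFull N)) : LaurentSeries ℚ) =
        ((ℓ : ℕ) : LaurentSeries ℚ) := by
      simp
    -- `b / ℓ ∈ redO`
    have h1 : ((b : ↥(modularFunctionFieldFull N)) : LaurentSeries ℚ) /
        ((ℓ : ℕ) : LaurentSeries ℚ) ∈ redO ℓ := by
      have := (redO ℓ).mul_mem (pow_mem (redO_natCast_mem ℓ ℓ) k) hO
      have e : ((ℓ : ℕ) : LaurentSeries ℚ) ^ k *
          (((b : ↥(modularFunctionFieldFull N)) : LaurentSeries ℚ) /
            ((ℓ : ℕ) : LaurentSeries ℚ) ^ (k + 1)) =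
          ((b : ↥(modularFunctionFieldFull N)) : LaurentSeries ℚ) /
            ((ℓ : ℕ) : LaurentSeries ℚ) := by
        field_simp
        ring
      rwa [e] at this
    -- hence `ρ b = 0`
    have h0 : redB_rho N ℓ ⟨b, hb⟩ = 0 := by
      rw [redB_rho_apply]
      have e : (⟨((b : ↥(modularFunctionFieldFull N)) : LaurentSeries ℚ),
          redB_mem_redO N ℓ ⟨b, hb⟩⟩ : ↥(redO ℓ)) =
          ⟨((ℓ : ℕ) : LaurentSeries ℚ), redO_natCast_mem ℓ ℓ⟩ * ⟨_, h1⟩ := by
        apply Subtype.ext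
        show ((b : ↥(modularFunctionFieldFull N)) : LaurentSeries ℚ) =
          ((ℓ : ℕ) : LaurentSeries ℚ) *
            (((b : ↥(modularFunctionFieldFull N)) : LaurentSeries ℚ) /
              ((ℓ : ℕ) : LaurentSeries ℚ))
        field_simp
      rw [e, map_mul, redO_rho_natCast_self, zero_mul]
    obtain ⟨b₁, hb₁⟩ := redB_ker N ℓ hℓN ⟨b, hb⟩ h0
    have e1 : b = ((ℓ : ℕ) : ↥(modularFunctionFieldFull N)) *
        (b₁ : ↥(modularFunctionFieldFull N)) := by
      have := congrArg Subtype.val hb₁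
      rw [Subalgebra.coe_mul, redK_coe_natCast] at this
      exact this
    have h2 : (((b₁ : ↥(modularFunctionFieldFull N)) : ↥(modularFunctionFieldFull N)) :
        LaurentSeries ℚ) / ((ℓ : ℕ) : LaurentSeries ℚ) ^ k ∈ redO ℓ := by
      have e : (((b₁ : ↥(modularFunctionFieldFull N)) : ↥(modularFunctionFieldFull N)) :
          LaurentSeries ℚ) / ((ℓ : ℕ) : LaurentSeries ℚ) ^ k =
          ((b : ↥(modularFunctionFieldFull N)) : LaurentSeries ℚ) /
            ((ℓ : ℕ) : LaurentSeries ℚ) ^ (k + 1) := by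
        rw [e1, IntermediateField.coe_mul, h3]
        field_simp
        ring
      rw [e]
      exact hO
    obtain ⟨b', hb', hb''⟩ := ih (b₁ : ↥(modularFunctionFieldFull N)) b₁.2 h2
    refine ⟨b', hb', ?_⟩
    rw [e1, hb'', pow_succ]
    ring

end chart

end Fermat.Agent.S16
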