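import Mathlib
import Fermat.Agent.S16.AlgTwo
import Fermat.Agent.S16.LevelThreeAlg
import Fermat.Agent.S16.RedB
import Fermat.Agent.S16.RedB2
import Fermat.Agent.S28.UnitMem
import Fermat.Agent.S28.UnitMemProd

/-!
# S16, (C2) at `ℓ = 2`: the wiring into the abstract core

Given the level-3 data `g, e4, e6, δ, j` in `ℚ((q))`, a series `h`, elements `ν, θ' ∈ B`
(`B = chartAlgFin N 2`) and `b₁, b₃` of the function field of level `N` with the expected
`q`-expansions, and the two integrality facts `x ∈ O`, `(h e4 - e6) / 8 / g³ ∈ O`, we derive a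
contradiction from `s16a_false`.
-/

set_option autoImplicit false

noncomputable section

namespace Fermat.Agent.S16

open Fermat.Agent.S28 ModularCurve ModularCurve.IgusaScheme
open scoped ModularCurve.IgusaScheme

instance s16n_charZero : CharZero (LaurentSeries ℚ) :=
  charZero_of_injective_algebraMap (algebraMap ℚ (LaurentSeries ℚ)).injective

section

variable (N : ℕ) [NeZero N]

/-- The inclusion of the function field in `ℚ((q))`. -/
def s16n_iF : ↥(modularFunctionFieldFull N) →+* LaurentSeries ℚ where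
  toFun x := (x : LaurentSeries ℚ)
  map_one' := rfl
  map_mul' _ _ := rfl
  map_zero' := rfl
  map_add' _ _ := rfl

/-- The inclusion of the chart in the function field. -/
def s16n_iB : ↥(chartAlgFin N 2) →+* ↥(modularFunctionFieldFull N) where
  toFun x := (x : ↥(modularFunctionFieldFull N))
  map_one' := rfl
  map_mul' _ _ := rfl
  map_zero' := rfl
  map_add' _ _ := rfl

omit [NeZero N] in
theorem s16n_iF_apply (x : ↥(modularFunctionFieldFull N)) :
    s16n_iF N x = (x : LaurentSeries ℚ) := rfl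

theorem s16n_iB_apply (x : ↥(chartAlgFin N 2)) :
    s16n_iB N x = (x : ↥(modularFunctionFieldFull N)) := rfl

omit [NeZero N] in
theorem s16n_iF_injective : Function.Injective (s16n_iF N) := Subtype.val_injective

theorem s16n_iB_injective : Function.Injective (s16n_iB N) := Subtype.val_injective

variable {N}

/-- **The wiring.** -/
theorem s16n_wiring (h2N : ¬ 2 ∣ N) (g e4 e6 h : LaurentSeries ℚ)
    (D : s16l_Data g e4 e6 umem_deltaQ jq)
    (νF θF b1F b3F : ↥(modularFunctionFieldFull N))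
    (hνB : νF ∈ chartAlgFin N 2) (hθB : θF ∈ chartAlgFin N 2)
    (hν : (νF : LaurentSeries ℚ) = s16l_nu g e4 umem_deltaQ)
    (hθ : (θF : LaurentSeries ℚ) = h ^ 6 / umem_deltaQ / 27)
    (hb1 : (b1F : LaurentSeries ℚ) = g ^ 6 / umem_deltaQ)
    (hb3 : (b3F : LaurentSeries ℚ) = h * g ^ 5 / umem_deltaQ)
    (hx : s16l_x g e4 ∈ redO 2)
    (hw : (h * e4 - e6) / 8 / g ^ 3 ∈ redO 2) : False := by
  have hg := D.g0
  have hδ := D.δ0
  have hν0 := D.nu_ne_zero
  have hνF0 : νF ≠ 0 := by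
    intro h0
    apply hν0
    rw [← hν, h0]
    rfl
  -- the element `K`
  have hK : s16n_iF N (νF * b3F / b1F) = h * s16l_nu g e4 umem_deltaQ / g := by
    rw [map_div₀, map_mul, s16n_iF_apply, s16n_iF_apply, s16n_iF_apply, hν, hb1, hb3]
    field_simp
  have hK6 : (νF * b3F / b1F) ^ 6 = θF * νF ^ 2 * (νF - 1) ^ 3 := by
    apply s16n_iF_injective
    rw [map_pow, hK, D.K_pow_six h, map_mul, map_mul, map_pow, map_pow, map_sub, map_one,
      s16n_iF_apply, s16n_iF_apply, hν, hθ]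
    ring
  have hKB : νF * b3F / b1F ∈ chartAlgFin N 2 := by
    refine redB_mem_of_pow_mem N 2 _ 6 (by norm_num) ?_
    rw [hK6]
    exact mul_mem (mul_mem hθB (pow_mem hνB 2)) (pow_mem (sub_mem hνB (one_mem _)) 3)
  -- the element `L`
  have hL2 : ((νF * b3F / b1F) ^ 3 / νF) ^ 2 = θF * (νF - 1) ^ 3 := by
    apply s16n_iF_injective
    rw [map_pow, map_div₀, map_pow, hK, s16n_iF_apply, hν, D.L_sq h, map_mul, map_pow, map_sub,
      map_one, s16n_iF_apply, s16n_iF_apply, hν, hθ]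
    ring
  have hLB : (νF * b3F / b1F) ^ 3 / νF ∈ chartAlgFin N 2 := by
    refine redB_mem_of_pow_mem N 2 _ 2 (by norm_num) ?_
    rw [hL2]
    exact mul_mem hθB (pow_mem (sub_mem hνB (one_mem _)) 3)
  -- the elements of `B`
  set νB : ↥(chartAlgFin N 2) := ⟨νF, hνB⟩ with hνBdef
  set KB : ↥(chartAlgFin N 2) := ⟨νF * b3F / b1F, hKB⟩ with hKBdef
  set LB : ↥(chartAlgFin N 2) := ⟨(νF * b3F / b1F) ^ 3 / νF, hLB⟩ with hLBdef
  have h2 : Prime (2 : ↥(chartAlgFin N 2)) := by
    have := redB_prime N 2 h2N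
    rwa [Nat.cast_ofNat] at this
  have hKL : KB ^ 3 = νB * LB := by
    apply s16n_iB_injective
    rw [map_pow, map_mul, s16n_iB_apply, s16n_iB_apply, s16n_iB_apply]
    show (νF * b3F / b1F) ^ 3 = νF * ((νF * b3F / b1F) ^ 3 / νF)
    field_simp
  -- `2 ∤ ν`
  have hνred : ¬ (2 : ↥(chartAlgFin N 2)) ∣ νB := by
    have h1 := redB_not_dvd_of_rho_ne_zero N 2 νB ?_
    · rwa [Nat.cast_ofNat] at h1
    · rw [redB_rho_apply]
      have hmul : (⟨_, redB_mem_redO N 2 νB⟩ : ↥(redO 2)) * ⟨_, hx⟩ = 1 := by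
        apply Subtype.ext
        show ((νB : ↥(modularFunctionFieldFull N)) : LaurentSeries ℚ) * s16l_x g e4 = 1
        show (νF : LaurentSeries ℚ) * s16l_x g e4 = 1
        rw [hν]
        exact D.nu_mul_x
      have := congrArg (redO_rho 2) hmul
      rw [map_mul, map_one] at this
      exact left_ne_zero_of_mul_eq_one this
  -- the congruence
  have hV : (8 : ↥(chartAlgFin N 2)) ∣ KB * (νB + 8) - (νB ^ 2 - 20 * νB - 8) := by
    have hb : (νF * b3F / b1F) * (νF + 8) - (νF ^ 2 - 20 * νF - 8) ∈ chartAlgFin N 2 :=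
      (KB * (νB + 8) - (νB ^ 2 - 20 * νB - 8)).2
    have hbL : s16n_iF N ((νF * b3F / b1F) * (νF + 8) - (νF ^ 2 - 20 * νF - 8)) =
        s16l_nu g e4 umem_deltaQ ^ 2 * (h * e4 - e6) / g ^ 3 := by
      rw [map_sub, map_mul, hK, map_add, map_sub, map_sub, map_pow, map_mul, map_ofNat,
        map_ofNat, s16n_iF_apply, hν]
      exact D.V_eq h
    have hνO : s16l_nu g e4 umem_deltaQ ∈ redO 2 := by
      rw [← hν]
      exact redB_mem_redO N 2 νB
    have hO : ((((νF * b3F / b1F) * (νF + 8) - (νF ^ 2 - 20 * νF - 8) :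
        ↥(modularFunctionFieldFull N)) : LaurentSeries ℚ)) / ((2 : ℕ) : LaurentSeries ℚ) ^ 3
          ∈ redO 2 := by
      rw [← s16n_iF_apply, hbL]
      have e : s16l_nu g e4 umem_deltaQ ^ 2 * (h * e4 - e6) / g ^ 3 /
          ((2 : ℕ) : LaurentSeries ℚ) ^ 3 =
          s16l_nu g e4 umem_deltaQ ^ 2 * ((h * e4 - e6) / 8 / g ^ 3) := by
        push_cast
        field_simp
        ring
      rw [e]
      exact (redO 2).mul_mem ((redO 2).pow_mem hνO 2) hw
    obtain ⟨b', hb'B, hbb'⟩ := redB_pow_dvd' N 2 h2N 3 _ hb hO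
    refine ⟨⟨b', hb'B⟩, ?_⟩
    apply s16n_iB_injective
    rw [map_mul, map_ofNat, s16n_iB_apply, s16n_iB_apply]
    show (νF * b3F / b1F) * (νF + 8) - (νF ^ 2 - 20 * νF - 8) = 8 * b'
    rw [hbb']
    push_cast
    norm_num
  -- the `j`-equation
  have hj : 27 * νB * (νB + 8) ^ 3 = jChartFin N 2 * (νB - 1) ^ 3 := by
    apply s16n_iB_injective
    apply s16n_iF_injective
    show 27 * (νF : LaurentSeries ℚ) * ((νF : LaurentSeries ℚ) + 8) ^ 3 =
      jq * ((νF : LaurentSeries ℚ) - 1) ^ 3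
    rw [hν]
    exact D.j_eq
  exact s16a_false h2 νB KB LB (jChartFin N 2) hKL hνred hV hj (redB_rho N 2)
    (redB_rho_isIntegral N 2) (redB_rho_j_transcendental N 2)

end

end Fermat.Agent.S16
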