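import Mathlib
import Fermat.Agent.S16.SerTwo
import Fermat.Agent.S16.FormChart
import Fermat.Agent.S16.C22Eis
import Fermat.Agent.S16.NoEightWire
import Fermat.Agent.S16.GlueDefs
import Fermat.Agent.S16.C22Data

/-!
# S16, (C2) at `ℓ = 2`: there is no form `H ≡ 1 mod 8` of weight 2 and level `Γ₀(p)`

The four elements `ν = A³ / (27 Δ)`, `Θ' = H⁶ / (27 Δ)`, `b₁ = G⁶ / Δ`, `b₃ = H G⁵ / Δ` of the
function field of level `3p`, the two integrality facts, and the export.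
-/

set_option autoImplicit false

noncomputable section

namespace Fermat.Agent.S16

open UpperHalfPlane ModularFormClass CongruenceSubgroup Matrix.SpecialLinearGroup Function
open ModularForm EisensteinSeries
open scoped MatrixGroups ModularForm Manifold

open Fermat.Agent.S22 Fermat.Agent.S24 Fermat.Agent.S28 ModularCurve ModularCurve.IgusaScheme
open scoped ModularCurve.IgusaScheme

set_option quotPrecheck false in
local notation "R₂" => ↥(GaloisRep.ratLocalizedAt 2)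

theorem s16n_QE_ofNat_smul {f : ℍ → ℂ} {a : PowerSeries R₂} (n : ℕ) [n.AtLeastTwo]
    (hf : IsNice f) (h : s16q_QE f a) :
    s16q_QE ((OfNat.ofNat n : ℂ) • f) ((OfNat.ofNat n : PowerSeries R₂) * a) := by
  have h1 := s16q_QE.smul (OfNat.ofNat n : R₂) hf h
  rwa [map_ofNat s16q_phi n, map_ofNat (PowerSeries.C (R := R₂)) n] at h1

theorem s16n_coeff_zero_pow (a : PowerSeries R₂) (h0 : PowerSeries.coeff 0 a = 1) (n : ℕ) :
    PowerSeries.coeff 0 (a ^ n) = 1 := by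
  rw [PowerSeries.coeff_zero_eq_constantCoeff_apply] at h0 ⊢
  rw [map_pow, h0, one_pow]

/-- The core of the argument, with the data of the level-3 parametrisation as hypotheses. -/
theorem s16n_core (p : ℕ) (hp : p.Prime) (h5 : 5 ≤ p)
    (G : ℍ → ℂ) (hG : IsMF (G0 3) 2 G) (s t u a' : PowerSeries R₂)
    (hGa : s16q_QE G (1 + 12 * s)) (hG0 : PowerSeries.coeff 0 (1 + 12 * s) = 1)
    (h4 : s16q_QE (E₄ : ℍ → ℂ) (1 + 240 * t))
    (D : s16l_Data (s16q_ser (1 + 12 * s)) (s16q_ser (1 + 240 * t)) (s16q_ser (1 - 504 * u))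
      umem_deltaQ jq)
    (c27 : R₂) (hc : 27 * c27 = 1) (hc' : s16q_phi c27 = (1 / 27 : ℂ))
    (H : ℍ → ℂ) (hH : IsMF (G0 p) 2 H) (hHa : s16q_QE H (1 + 8 * a')) : False := by
  have : NeZero p := ⟨hp.ne_zero⟩
  have : NeZero (3 * p) := ⟨by have := hp.pos; omega⟩
  have h2N : ¬ 2 ∣ 3 * p := by
    intro h
    rcases (Nat.Prime.dvd_mul Nat.prime_two).mp h with h | h
    · omega
    · have := (Nat.prime_dvd_prime_iff_eq Nat.prime_two hp).mp h
      omega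
  have nG := hG.isNice_G0
  have nH := hH.isNice_G0
  have n4 := isNice_E4
  have n6 := isNice_E6
  have h4mf : IsMF (G0 3) 4 (E₄ : ℍ → ℂ) := isMF_E4.restrict_G0 3
  -- the series
  have hA8 : 9 * (1 + 12 * s) ^ 2 - (1 + 240 * t) =
      8 * (1 + 27 * s + 162 * s ^ 2 - 30 * t) := by ring
  have hx8 : (1 + 240 * t) - (1 + 12 * s) ^ 2 = 8 * (30 * t - 3 * s - 18 * s ^ 2) := by ring
  have hw8 : (1 + 8 * a') * (1 + 240 * t) - (1 - 504 * u) =
      8 * (a' + 30 * t + 240 * a' * t + 63 * u) := by ring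
  -- the form `A = (9 G² - E₄) / 8`
  have hA0mf : IsMF (G0 3) 4 ((9 : ℂ) • G ^ 2 - (E₄ : ℍ → ℂ)) :=
    (((hG.pow 2).cast (by norm_num)).smul 9).sub h4mf
  have hA0qe : s16q_QE ((9 : ℂ) • G ^ 2 - (E₄ : ℍ → ℂ))
      (8 * (1 + 27 * s + 162 * s ^ 2 - 30 * t)) := by
    rw [← hA8]
    exact s16q_QE.sub ((nG.pow 2).smul 9) n4 (s16n_QE_ofNat_smul 9 (nG.pow 2) (hGa.pow nG 2)) h4
  have hAmf : IsMF (G0 3) 4 ((1 / 8 : ℂ) • ((9 : ℂ) • G ^ 2 - (E₄ : ℍ → ℂ))) := hA0mf.smul _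
  have hAqe := s16c22_eighth hA0mf.isNice_G0 hA0qe
  have nA := hAmf.isNice_G0
  -- the four forms of weight 12
  have hfν : IsMF (G0 3) 12
      ((1 / 27 : ℂ) • ((1 / 8 : ℂ) • ((9 : ℂ) • G ^ 2 - (E₄ : ℍ → ℂ))) ^ 3) :=
    ((hAmf.pow 3).cast (by norm_num)).smul _
  have hQν : s16q_QE ((1 / 27 : ℂ) • ((1 / 8 : ℂ) • ((9 : ℂ) • G ^ 2 - (E₄ : ℍ → ℂ))) ^ 3)
      (PowerSeries.C c27 * (1 + 27 * s + 162 * s ^ 2 - 30 * t) ^ 3) := by
    have := s16q_QE.smul c27 (nA.pow 3) (hAqe.pow nA 3)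
    rwa [hc'] at this
  have hfθ : IsMF (G0 p) 12 ((1 / 27 : ℂ) • H ^ 6) := ((hH.pow 6).cast (by norm_num)).smul _
  have hQθ : s16q_QE ((1 / 27 : ℂ) • H ^ 6) (PowerSeries.C c27 * (1 + 8 * a') ^ 6) := by
    have := s16q_QE.smul c27 (nH.pow 6) (hHa.pow nH 6)
    rwa [hc'] at this
  have hf1 : IsMF (G0 3) 12 (G ^ 6) := (hG.pow 6).cast (by norm_num)
  have hQ1 : s16q_QE (G ^ 6) ((1 + 12 * s) ^ 6) := hGa.pow nG 6
  have hf3 : IsMF (G0 (3 * p)) 12 (H * G ^ 5) :=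
    ((s16f_isMF_of_dvd (dvd_mul_left p 3) hH).mul
      ((s16f_isMF_of_dvd (dvd_mul_right 3 p) hG).pow 5)).cast (by norm_num)
  have hQ3 : s16q_QE (H * G ^ 5) ((1 + 8 * a') * (1 + 12 * s) ^ 5) :=
    hHa.mul nH (nG.pow 5) (hGa.pow nG 5)
  obtain ⟨hνF, hνB⟩ := s16f_mem_chart 3 (3 * p) (dvd_mul_right 3 p) h2N hfν _ hQν
  obtain ⟨hθF, hθB⟩ := s16f_mem_chart p (3 * p) (dvd_mul_left p 3) h2N hfθ _ hQθ
  obtain ⟨hb1F, -⟩ := s16f_mem_chart 3 (3 * p) (dvd_mul_right 3 p) h2N hf1 _ hQ1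
  obtain ⟨hb3F, -⟩ := s16f_mem_chart (3 * p) (3 * p) dvd_rfl h2N hf3 _ hQ3
  -- the constant `1 / 27`
  have hκ : 27 * s16q_ser (PowerSeries.C c27) = 1 := by
    have h1 : (27 : PowerSeries R₂) * PowerSeries.C c27 = 1 := by
      rw [← map_ofNat (PowerSeries.C (R := R₂)) 27, ← map_mul, hc, map_one]
    have h2 := congrArg s16q_ser h1
    rwa [map_mul, map_ofNat, map_one] at h2
  have hδ := D.δ0
  have hg := D.g0
  have hserA : s16q_ser (1 + 27 * s + 162 * s ^ 2 - 30 * t) =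
      s16l_A (s16q_ser (1 + 12 * s)) (s16q_ser (1 + 240 * t)) := by
    have h1 := congrArg s16q_ser hA8
    rw [map_sub, map_mul, map_pow, map_ofNat, map_mul, map_ofNat] at h1
    unfold s16l_A
    rw [h1]
    field_simp
  refine s16n_wiring h2N (s16q_ser (1 + 12 * s)) (s16q_ser (1 + 240 * t))
    (s16q_ser (1 - 504 * u)) (s16q_ser (1 + 8 * a')) D ⟨_, hνF⟩ ⟨_, hθF⟩ ⟨_, hb1F⟩ ⟨_, hb3F⟩
    hνB hθB ?_ ?_ ?_ ?_ ?_ ?_
  · -- `ν`
    show s16q_ser (PowerSeries.C c27 * (1 + 27 * s + 162 * s ^ 2 - 30 * t) ^ 3) / umem_deltaQ = _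
    unfold s16l_nu
    rw [map_mul, map_pow, hserA]
    field_simp
    linear_combination
      (s16l_A (s16q_ser (1 + 12 * s)) (s16q_ser (1 + 240 * t)) ^ 3) * hκ
  · -- `Θ'`
    show s16q_ser (PowerSeries.C c27 * (1 + 8 * a') ^ 6) / umem_deltaQ = _
    rw [map_mul, map_pow]
    field_simp
    linear_combination (s16q_ser (1 + 8 * a') ^ 6) * hκ
  · -- `b₁`
    show s16q_ser ((1 + 12 * s) ^ 6) / umem_deltaQ = _
    rw [map_pow]
  · -- `b₃`
    show s16q_ser ((1 + 8 * a') * (1 + 12 * s) ^ 5) / umem_deltaQ = _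
    rw [map_mul, map_pow]
  · -- `x ∈ O`
    have h1 := congrArg s16q_ser hx8
    rw [map_sub, map_pow, map_mul, map_ofNat] at h1
    have e : s16l_x (s16q_ser (1 + 12 * s)) (s16q_ser (1 + 240 * t)) =
        s16q_ser (30 * t - 3 * s - 18 * s ^ 2) / s16q_ser ((1 + 12 * s) ^ 2) := by
      unfold s16l_x
      rw [h1, map_pow]
      field_simp
    rw [e]
    exact s16q_div_mem (s16q_ser_mem _) _ (s16n_coeff_zero_pow _ hG0 2)
  · -- the congruence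
    have h1 := congrArg s16q_ser hw8
    rw [map_sub, map_mul, map_mul, map_ofNat] at h1
    have e : (s16q_ser (1 + 8 * a') * s16q_ser (1 + 240 * t) - s16q_ser (1 - 504 * u)) / 8 /
        s16q_ser (1 + 12 * s) ^ 3 =
        s16q_ser (a' + 30 * t + 240 * a' * t + 63 * u) / s16q_ser ((1 + 12 * s) ^ 3) := by
      rw [h1, map_pow]
      field_simp
    rw [e]
    exact s16q_div_mem (s16q_ser_mem _) _ (s16n_coeff_zero_pow _ hG0 3)

/-- **(C2) at `ℓ = 2`**: for a prime `p ≥ 5` there is no modular form of weight 2 and level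
`Γ₀(p)` whose `q`-expansion lies in `1 + 8 q ℤ_(2)[[q]]`. -/
theorem s16n_noH (p : ℕ) (hp : p.Prime) (h5 : 5 ≤ p) : s16g_NoH p 2 3 := by
  intro H hH a ha h0 h8
  obtain ⟨s, hs⟩ := s16c22_G_QE
  obtain ⟨t, ht⟩ := s16c22_E4_QE
  obtain ⟨u, hu⟩ := s16c22_E6_QE
  obtain ⟨a', ha'⟩ := s16c22_H_split a h0 h8
  obtain ⟨c, hc, hc'⟩ := s16c22_c27
  have hG0 : PowerSeries.coeff 0 (1 + 12 * s) = 1 := by
    have h1 := s16c22_G_J3.1
    have h2 := hs 0
    rw [h1] at h2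
    have h3 : ((PowerSeries.coeff 0 (1 + 12 * s) : R₂) : ℚ) = 1 := by exact_mod_cast h2.symm
    exact Subtype.ext h3
  have D := s16c22d_data s16c22_G s16c22_G_isMF s16c22_G_J3 _ _ _ hs ht hu hG0
  have hHa : s16q_QE H (1 + 8 * a') := ha' ▸ ha
  exact s16n_core p hp h5 s16c22_G s16c22_G_isMF s t u a' hs hG0 ht D c hc hc' H hH hHa

end Fermat.Agent.S16
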