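import Mathlib
import Fermat.Agent.S16.NoEight
import Fermat.Agent.S16.Final

/-!
# S16, package B6 [C22]: export in the architect's shape
-/

set_option autoImplicit false

namespace Fermat.Agent.S16

/-- **B6 [C22]**: no form `≡ 1 mod 8` of weight 2 and level `Γ₀(p)`, `p ≥ 5` prime. -/
theorem s16n_fin_C22 : s16fin_C22 := fun p hp h5 => s16n_noH p hp h5

end Fermat.Agent.S16
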