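import Fermat.Agent.S16.SwdL5
import Fermat.Agent.S16.TraceFin
import Fermat.Agent.S16.Final

/-!
# S16, (C2), package [L5]: the export

`s16w_noH_five`: for primes `p`, `ℓ ≥ 5`, `ℓ ∣ p + 1`, there is no modular form of weight `2`
and level `Γ₀(p)` with `q`-expansion in `1 + ℓ q ℤ_(ℓ)[[q]]`; `s16w_fin_L5 : s16fin_L5`.
-/

set_option autoImplicit false

namespace Fermat.Agent.S16

/-- (TR2) in the operator shape, from the trace package. -/
theorem s16w_TR2At (p : ℕ) (hp : p.Prime) : s16lp_TR2At p :=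
  fun _ hG _ _ hh => tr16_fin_TR2 hp hG hh

/-- **(C2) at `ℓ ≥ 5`, `ℓ ∣ p + 1`.** -/
theorem s16w_noH_five (p l : ℕ) (hp : p.Prime) (_h5p : 5 ≤ p) (hl : l.Prime) (h5 : 5 ≤ l)
    (_hne : l ≠ p) (hd : l ∣ p + 1) : s16g_NoH p l 1 :=
  s16w_noH_five_of p l hp hl h5 hd (s16w_TR2At p hp)

theorem s16w_fin_L5 : s16fin_L5 :=
  fun p l hp h5p hl h5 hne hd => s16w_noH_five p l hp h5p hl h5 hne hd

end Fermat.Agent.S16
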