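import Mathlib
import Fermat.Prelude.Def_ModularCurve_X0
import Fermat.Agent.S22.Basic
import Fermat.Agent.S22.Nice
import Fermat.Agent.S22.Forms
import Fermat.Agent.S22.LevelOne
import Fermat.Agent.S24.BridgeEta
import Fermat.Agent.S16.TauModThree

set_option autoImplicit false

noncomputable section

namespace Fermat.Agent.S16

open UpperHalfPlane ModularFormClass ModularForm EisensteinSeries
open scoped MatrixGroups ModularForm Manifold
open Fermat.Agent.S22 Fermat.Agent.S24

/-- The integral `q`-expansion of `E₄`. -/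
def av16_E4 : PowerSeries ℤ := 1 + PowerSeries.C 240 * s16as_S 3

/-- The integral `q`-expansion of `E₆`. -/
def av16_E6 : PowerSeries ℤ := 1 + PowerSeries.C (-504) * s16as_S 5

theorem av16_qExp_E4 :
    qExpansion 1 (E₄ : ℍ → ℂ) = av16_E4.map (Int.castRingHom ℂ) := s16as_qExp_E4

theorem av16_qExp_E6 :
    qExpansion 1 (E₆ : ℍ → ℂ) = av16_E6.map (Int.castRingHom ℂ) := s16as_qExp_E6

theorem av16_isNice_disc : IsNice (ModularForm.discriminant : ℍ → ℂ) := by
  have h : (ModularForm.discriminant : ℍ → ℂ) = anA_qfun * anA_etaF ^ 24 := by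
    funext z
    rw [anA_discriminant_eq]
    rfl
  rw [h]
  exact anA_isNice_qfun.mul (anA_isNice_etaF.pow 24)

theorem av16_qExp_disc :
    qExpansion 1 (ModularForm.discriminant : ℍ → ℂ) = s16as_delta.map (Int.castRingHom ℂ) := by
  have h : (ModularForm.discriminant : ℍ → ℂ) = anA_qfun * anA_etaF ^ 24 := by
    funext z
    rw [anA_discriminant_eq]
    rfl
  rw [h, anA_isNice_qfun.qExpansion_mul (anA_isNice_etaF.pow 24), anA_isNice_etaF.qExpansion_pow,
    anA_qExpansion_qfun, anA_qExpansion_etaF, s16as_delta, map_mul, map_pow, PowerSeries.map_X]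

theorem av16_constantCoeff_E4 : PowerSeries.constantCoeff av16_E4 = 1 := by
  rw [← PowerSeries.coeff_zero_eq_constantCoeff, av16_E4, s16as_coeff_one_add]
  simp

theorem av16_constantCoeff_E6 : PowerSeries.constantCoeff av16_E6 = 1 := by
  rw [← PowerSeries.coeff_zero_eq_constantCoeff, av16_E6, s16as_coeff_one_add]
  simp

/-- `Δ = q · u`, `u = ∏ (1 - qⁿ)²⁴` with inverse `dedekindEtaUnitInv`. -/
theorem av16_delta_mul_inv :
    s16as_delta * ModularCurve.dedekindEtaUnitInv = PowerSeries.X := by
  rw [s16as_delta, mul_assoc]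
  have := ModularCurve.dedekindEtaUnit_mul_inv
  rw [ModularCurve.dedekindEtaUnit] at this
  rw [this, mul_one]

section Core

variable {A : Type*} [CommRing A] (φ : A →+* ℂ)

theorem av16_map_comp (s : PowerSeries ℤ) :
    (s.map (Int.castRingHom A)).map φ = s.map (Int.castRingHom ℂ) := by
  ext n
  simp [PowerSeries.coeff_map]

theorem av16_map_injective (hφ : Function.Injective φ) :
    Function.Injective (PowerSeries.map φ) := by
  intro a b h
  ext n
  have := congrArg (PowerSeries.coeff n) h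
  rw [PowerSeries.coeff_map, PowerSeries.coeff_map] at this
  exact hφ this

/-- Weight `0`: a level one form with `q`-expansion `a` is the constant `a₀`. -/
theorem av16_weight_zero (hφ : Function.Injective φ) (f : ℍ → ℂ) (hf : IsMF G1 0 f)
    (a : PowerSeries A) (ha : qExpansion 1 f = a.map φ) :
    a = PowerSeries.C (PowerSeries.coeff 0 a) := by
  apply av16_map_injective φ hφ
  rw [← ha, PowerSeries.map_C]
  have hc : IsMF G1 0 (fun _ : ℍ => φ (PowerSeries.coeff 0 a)) := IsMF.const _
  have hg : IsMF G1 0 (f - fun _ : ℍ => φ (PowerSeries.coeff 0 a)) := hf.sub hc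
  obtain ⟨G, hG⟩ := hg
  have hqc : qExpansion 1 (fun _ : ℍ => φ (PowerSeries.coeff 0 a)) =
      PowerSeries.C (φ (PowerSeries.coeff 0 a)) := by
    have : (fun _ : ℍ => φ (PowerSeries.coeff 0 a)) =
        (φ (PowerSeries.coeff 0 a)) • (1 : ℍ → ℂ) := by
      funext z
      simp
    rw [this, IsNice.one.qExpansion_smul, UpperHalfPlane.qExpansion_one]
    ext n
    simp [PowerSeries.coeff_C, PowerSeries.coeff_one]
  have hq : qExpansion 1 (G : ℍ → ℂ) =
      qExpansion 1 f - PowerSeries.C (φ (PowerSeries.coeff 0 a)) := by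
    rw [hG, hf.isNice_G1.qExpansion_sub (IsNice.const _), hqc]
  have h0 : PowerSeries.coeff 0 (qExpansion 1 (G : ℍ → ℂ)) = 0 := by
    rw [hq, ha, map_sub, PowerSeries.coeff_map, PowerSeries.coeff_C]
    simp
  have hG0 : G = 0 := by
    apply ModularForm.sturm_bound_levelOne
    have : (1 : ℕ∞) ≤ (qExpansion 1 (G : ℍ → ℂ)).order := by
      apply PowerSeries.nat_le_order
      intro i hi
      have : i = 0 := by omega
      subst this
      exact h0
    refine lt_of_lt_of_le ?_ this
    norm_num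
  have : qExpansion 1 (G : ℍ → ℂ) = 0 := by
    rw [hG0]
    exact UpperHalfPlane.qExpansion_zero 1
  rw [hq] at this
  exact sub_eq_zero.mp this
theorem av16_delta_mul_inv_map :
    s16as_delta.map (Int.castRingHom A) *
      ModularCurve.dedekindEtaUnitInv.map (Int.castRingHom A) = PowerSeries.X := by
  rw [← map_mul, av16_delta_mul_inv, PowerSeries.map_X]

/-- **Level-one avatar, core form.**  A level one form of weight `12 m` whose `q`-expansion has
coefficients in `A ⊆ ℂ` is an `A`-linear combination of `E₄^(3i) Δ^(m-i)`, `0 ≤ i ≤ m`. -/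
theorem av16_core (hφ : Function.Injective φ) :
    ∀ (m : ℕ) (k : ℤ), k = 12 * (m : ℤ) → ∀ (f : ℍ → ℂ), IsMF G1 k f →
      ∀ a : PowerSeries A, qExpansion 1 f = a.map φ →
        ∃ c : ℕ → A, a = ∑ i ∈ Finset.range (m + 1),
          PowerSeries.C (c i) * (av16_E4.map (Int.castRingHom A)) ^ (3 * i) *
            (s16as_delta.map (Int.castRingHom A)) ^ (m - i) := by
  intro m
  induction m with
  | zero =>
    intro k hk f hf a ha
    refine ⟨fun _ => PowerSeries.coeff 0 a, ?_⟩
    have h := av16_weight_zero φ hφ f (hf.cast (by rw [hk]; simp)) a ha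
    simpa using h
  | succ m ih =>
    intro k hk f hf a ha
    have hE : IsMF G1 k ((E₄ : ℍ → ℂ) ^ (3 * (m + 1))) :=
      (isMF_E4.pow _).cast (by rw [hk]; push_cast; ring)
    have hg : IsMF G1 k (f - φ (PowerSeries.coeff 0 a) • (E₄ : ℍ → ℂ) ^ (3 * (m + 1))) :=
      hf.sub (hE.smul _)
    obtain ⟨G, hG⟩ := hg
    have hq : qExpansion 1 (G : ℍ → ℂ) =
        (a - PowerSeries.C (PowerSeries.coeff 0 a) *
          (av16_E4.map (Int.castRingHom A)) ^ (3 * (m + 1))).map φ := by
      rw [hG, hf.isNice_G1.qExpansion_sub ((isNice_E4.pow _).smul _),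
        (isNice_E4.pow _).qExpansion_smul, isNice_E4.qExpansion_pow, av16_qExp_E4, ha, map_sub,
        map_mul, map_pow, av16_map_comp, PowerSeries.map_C]
      congr 1
      ext n
      simp [PowerSeries.coeff_C_mul]
    have hb0 : PowerSeries.constantCoeff (a - PowerSeries.C (PowerSeries.coeff 0 a) *
          (av16_E4.map (Int.castRingHom A)) ^ (3 * (m + 1))) = 0 := by
      rw [map_sub, map_mul, map_pow, PowerSeries.constantCoeff_C]
      have : PowerSeries.constantCoeff (av16_E4.map (Int.castRingHom A)) = 1 := by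
        rw [← PowerSeries.coeff_zero_eq_constantCoeff, PowerSeries.coeff_map,
          PowerSeries.coeff_zero_eq_constantCoeff, av16_constantCoeff_E4]
        simp
      rw [this, one_pow, mul_one, PowerSeries.coeff_zero_eq_constantCoeff, sub_self]
    have h0 : PowerSeries.coeff 0 (qExpansion 1 (G : ℍ → ℂ)) = 0 := by
      rw [hq, PowerSeries.coeff_map, PowerSeries.coeff_zero_eq_constantCoeff_apply, hb0, map_zero]
    obtain ⟨b', hb'⟩ : ∃ b' : PowerSeries A,
        a - PowerSeries.C (PowerSeries.coeff 0 a) *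
          (av16_E4.map (Int.castRingHom A)) ^ (3 * (m + 1)) = PowerSeries.X * b' :=
      PowerSeries.X_dvd_iff.mpr hb0
    have hdiv := ModularForm.qExpansion_eq_qExpansion_discriminant_mul G h0
    have hq' : qExpansion 1
        ((CuspForm.discriminantEquiv (ModularForm.toCuspForm G h0) :
          ModularForm 𝒮ℒ (k - 12)) : ℍ → ℂ) =
        (ModularCurve.dedekindEtaUnitInv.map (Int.castRingHom A) * b').map φ := by
      rw [hq, hb', av16_qExp_disc, s16as_delta, map_mul, map_mul, PowerSeries.map_X,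
        PowerSeries.map_X, mul_assoc] at hdiv
      have h1 := mul_left_cancel₀ (PowerSeries.X_ne_zero) hdiv
      have h2 : ModularCurve.dedekindEtaUnitInv.map (Int.castRingHom ℂ) *
          (ModularCurve.etaProd ^ 24).map (Int.castRingHom ℂ) = 1 := by
        rw [← map_mul, mul_comm]
        have := ModularCurve.dedekindEtaUnit_mul_inv
        rw [ModularCurve.dedekindEtaUnit] at this
        rw [this, map_one]
      rw [map_mul, av16_map_comp, h1, ← mul_assoc, h2, one_mul]
    obtain ⟨c, hc⟩ := ih (k - 12) (by rw [hk]; push_cast; ring) _ ⟨_, rfl⟩ _ hq'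
    refine ⟨fun i => if i = m + 1 then PowerSeries.coeff 0 a else c i, ?_⟩
    beta_reduce
    rw [Finset.sum_range_succ]
    have hsum : ∑ i ∈ Finset.range (m + 1),
        PowerSeries.C (if i = m + 1 then PowerSeries.coeff 0 a else c i) *
          (av16_E4.map (Int.castRingHom A)) ^ (3 * i) *
            (s16as_delta.map (Int.castRingHom A)) ^ (m + 1 - i) =
        s16as_delta.map (Int.castRingHom A) *
          ∑ i ∈ Finset.range (m + 1), PowerSeries.C (c i) *
            (av16_E4.map (Int.castRingHom A)) ^ (3 * i) *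
              (s16as_delta.map (Int.castRingHom A)) ^ (m - i) := by
      rw [Finset.mul_sum]
      refine Finset.sum_congr rfl fun i hi => ?_
      have hi' : i < m + 1 := Finset.mem_range.mp hi
      have h1 : i ≠ m + 1 := by omega
      have h2 : m + 1 - i = (m - i) + 1 := by omega
      rw [if_neg h1, h2, pow_succ]
      ring
    rw [hsum, ← hc, if_pos rfl, Nat.sub_self, pow_zero, mul_one, ← mul_assoc,
      av16_delta_mul_inv_map, ← hb']
    ring

end Core

/-! ### Coefficients in a subring of `ℚ` -/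

section Rat

open Polynomial

/-- The embedding of a subring of `ℚ` into `ℂ`. -/
def av16_phi (A : Subring ℚ) : ↥A →+* ℂ := (algebraMap ℚ ℂ).comp A.subtype

theorem av16_phi_apply (A : Subring ℚ) (x : ↥A) : av16_phi A x = (((x : ↥A) : ℚ) : ℂ) := rfl

theorem av16_phi_injective (A : Subring ℚ) : Function.Injective (av16_phi A) := by
  intro x y h
  rw [av16_phi_apply, av16_phi_apply] at h
  exact Subtype.ext (Rat.cast_injective h)

theorem av16_qExp_eq_map (A : Subring ℚ) (f : ℍ → ℂ) (a : PowerSeries ↥A)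
    (ha : ∀ n, (qExpansion 1 f).coeff n = (((PowerSeries.coeff n a : ↥A) : ℚ) : ℂ)) :
    qExpansion 1 f = a.map (av16_phi A) := by
  ext n
  rw [PowerSeries.coeff_map, av16_phi_apply]
  exact ha n

/-- The polynomial with prescribed coefficients `c 0, …, c m`. -/
def av16_poly {A : Type*} [CommRing A] (m : ℕ) (c : ℕ → A) : A[X] :=
  ∑ i ∈ Finset.range (m + 1), Polynomial.monomial i (c i)

theorem av16_poly_natDegree {A : Type*} [CommRing A] (m : ℕ) (c : ℕ → A) :
    (av16_poly m c).natDegree ≤ m := by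
  rw [av16_poly]
  refine Polynomial.natDegree_sum_le_of_forall_le _ _ fun i hi => ?_
  exact (Polynomial.natDegree_monomial_le _).trans (Nat.lt_succ_iff.mp (Finset.mem_range.mp hi))

theorem av16_poly_coeff {A : Type*} [CommRing A] (m : ℕ) (c : ℕ → A) (i : ℕ)
    (hi : i ∈ Finset.range (m + 1)) : (av16_poly m c).coeff i = c i := by
  rw [av16_poly, Polynomial.finsetSum_coeff]
  rw [Finset.sum_eq_single i]
  · rw [Polynomial.coeff_monomial, if_pos rfl]
  · intro j _ hji
    rw [Polynomial.coeff_monomial, if_neg hji]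
  · intro h
    exact absurd hi h

/-- **Level-one avatar over a subring of `ℚ`**, power series form. -/
theorem av16_rat (A : Subring ℚ) (m : ℕ) (f : ℍ → ℂ) (hf : IsMF G1 (12 * (m : ℤ)) f)
    (a : PowerSeries ↥A)
    (ha : ∀ n, (qExpansion 1 f).coeff n = (((PowerSeries.coeff n a : ↥A) : ℚ) : ℂ)) :
    ∃ P : (↥A)[X], P.natDegree ≤ m ∧
      a = ∑ i ∈ Finset.range (m + 1), PowerSeries.C (P.coeff i) *
        (av16_E4.map (Int.castRingHom ↥A)) ^ (3 * i) *
          (s16as_delta.map (Int.castRingHom ↥A)) ^ (m - i) := by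
  obtain ⟨c, hc⟩ := av16_core (av16_phi A) (av16_phi_injective A) m _ rfl f hf a
    (av16_qExp_eq_map A f a ha)
  refine ⟨av16_poly m c, av16_poly_natDegree m c, ?_⟩
  rw [hc]
  refine Finset.sum_congr rfl fun i hi => ?_
  rw [av16_poly_coeff m c i hi]

/-- The weight `12 m + 2` variant: multiply by `E₄ E₆`. -/
theorem av16_rat_two (A : Subring ℚ) (m : ℕ) (f : ℍ → ℂ) (hf : IsMF G1 (12 * (m : ℤ) + 2) f)
    (a : PowerSeries ↥A)
    (ha : ∀ n, (qExpansion 1 f).coeff n = (((PowerSeries.coeff n a : ↥A) : ℚ) : ℂ)) :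
    ∃ Q : (↥A)[X], Q.natDegree ≤ m + 1 ∧
      a * (av16_E4.map (Int.castRingHom ↥A)) * (av16_E6.map (Int.castRingHom ↥A)) =
        ∑ i ∈ Finset.range (m + 2), PowerSeries.C (Q.coeff i) *
          (av16_E4.map (Int.castRingHom ↥A)) ^ (3 * i) *
            (s16as_delta.map (Int.castRingHom ↥A)) ^ (m + 1 - i) := by
  have hF : IsMF G1 (12 * ((m + 1 : ℕ) : ℤ)) (f * (E₄ : ℍ → ℂ) * (E₆ : ℍ → ℂ)) :=
    ((hf.mul isMF_E4).mul isMF_E6).cast (by push_cast; ring)
  have hq : qExpansion 1 (f * (E₄ : ℍ → ℂ) * (E₆ : ℍ → ℂ)) =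
      (a * (av16_E4.map (Int.castRingHom ↥A)) * (av16_E6.map (Int.castRingHom ↥A))).map
        (av16_phi A) := by
    rw [(hf.isNice_G1.mul isNice_E4).qExpansion_mul isNice_E6,
      hf.isNice_G1.qExpansion_mul isNice_E4, av16_qExp_E4, av16_qExp_E6,
      av16_qExp_eq_map A f a ha, map_mul, map_mul, av16_map_comp, av16_map_comp]
  obtain ⟨c, hc⟩ := av16_core (av16_phi A) (av16_phi_injective A) (m + 1) _ rfl _ hF _ hq
  refine ⟨av16_poly (m + 1) c, av16_poly_natDegree (m + 1) c, ?_⟩
  rw [hc]
  refine Finset.sum_congr rfl fun i hi => ?_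
  rw [av16_poly_coeff (m + 1) c i hi]

end Rat

end Fermat.Agent.S16
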