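import Mathlib
import Fermat.Prelude.Def_ModularCurve_JqCoeff
import Fermat.Agent.S16.Avatar

/-!
# S16 (L3b): Laurent form of the level-one avatar and congruences modulo `9`

* `av16_laurent`: `∑ Pᵢ E₄^(3i) Δ^(m-i) = Δ^m P(j)` in `B((q))`;
* integral congruences in `ℤ⟦q⟧`: `E₄³ = 1 + 9 T₁`, `E₄ E₆ = 1 + 6 S₃ + 9 T₂`, `E₆ = 1 + 9 T₃`;
* over a ring with `9 = 0`: `E₄³ = 1`, `E₆ = 1`, `E₄ E₆ = 1 + 6 S₃`, `j Δ = 1`;
* over a ring with `3 = 0`: `E₄ = E₆ = 1`.
-/

set_option autoImplicit false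

noncomputable section

namespace Fermat.Agent.S16

open ModularCurve Polynomial

/-! ### Integral congruences -/

theorem av16_E4_eq : av16_E4 = eisenstein4 := by
  ext n
  rw [av16_E4, s16as_coeff_one_add, eisenstein4, PowerSeries.coeff_mk,
    ArithmeticFunction.sigma_apply]
  push_cast
  rfl

/-- `E₄³ = 1 + 9 T₁`. -/
def av16_T1 : PowerSeries ℤ :=
  PowerSeries.C 80 * s16as_S 3 + PowerSeries.C 19200 * s16as_S 3 ^ 2 +
    PowerSeries.C 1536000 * s16as_S 3 ^ 3

theorem av16_E4_cube : av16_E4 ^ 3 = 1 + PowerSeries.C 9 * av16_T1 := by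
  rw [av16_E4, av16_T1]
  simp only [map_ofNat]
  ring

/-- `E₆ = 1 + 9 T₃`. -/
def av16_T3 : PowerSeries ℤ := PowerSeries.C (-56) * s16as_S 5

theorem av16_E6_eq : av16_E6 = 1 + PowerSeries.C 9 * av16_T3 := by
  rw [av16_E6, av16_T3, ← mul_assoc, ← map_mul]
  norm_num

/-- `E₄ E₆ = 1 + 6 S₃ + 9 T₂`. -/
def av16_T2 : PowerSeries ℤ :=
  PowerSeries.C 26 * s16as_S 3 - PowerSeries.C 56 * s16as_S 5 -
    PowerSeries.C 13440 * (s16as_S 3 * s16as_S 5)

theorem av16_E4_mul_E6 :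
    av16_E4 * av16_E6 = 1 + PowerSeries.C 6 * s16as_S 3 + PowerSeries.C 9 * av16_T2 := by
  rw [av16_E4, av16_E6, av16_T2]
  simp only [map_ofNat, map_neg]
  ring

/-- `E₄ = 1 + 3 T₀`. -/
theorem av16_E4_eq_three : av16_E4 = 1 + PowerSeries.C 3 * (PowerSeries.C 80 * s16as_S 3) := by
  rw [av16_E4, ← mul_assoc, ← map_mul]
  norm_num

section Ring

variable (B : Type*) [CommRing B]

/-- The image of an integral series in `B⟦q⟧`. -/
abbrev av16_m (s : PowerSeries ℤ) : PowerSeries B := s.map (Int.castRingHom B)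

theorem av16_C_map (n : ℤ) : (PowerSeries.C n).map (Int.castRingHom B) = PowerSeries.C (n : B) := by
  rw [PowerSeries.map_C]
  rfl

/-! ### Modulo `9` -/

theorem av16_nine_E4_cube (h9 : (9 : B) = 0) : av16_m B av16_E4 ^ 3 = 1 := by
  rw [av16_m, ← map_pow, av16_E4_cube, map_add, map_one, map_mul, av16_C_map]
  have : ((9 : ℤ) : B) = 0 := by exact_mod_cast h9
  rw [this, map_zero, zero_mul, add_zero]

theorem av16_nine_E6 (h9 : (9 : B) = 0) : av16_m B av16_E6 = 1 := by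
  rw [av16_m, av16_E6_eq, map_add, map_one, map_mul, av16_C_map]
  have : ((9 : ℤ) : B) = 0 := by exact_mod_cast h9
  rw [this, map_zero, zero_mul, add_zero]

theorem av16_nine_E4_mul_E6 (h9 : (9 : B) = 0) :
    av16_m B av16_E4 * av16_m B av16_E6 = 1 + PowerSeries.C 6 * av16_m B (s16as_S 3) := by
  rw [av16_m, av16_m, ← map_mul, av16_E4_mul_E6, map_add, map_add, map_one, map_mul, map_mul,
    av16_C_map, av16_C_map]
  have : ((9 : ℤ) : B) = 0 := by exact_mod_cast h9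
  rw [this, map_zero, zero_mul, add_zero]
  norm_num

/-! ### Modulo `3` -/

theorem av16_three_E4 (h3 : (3 : B) = 0) : av16_m B av16_E4 = 1 := by
  rw [av16_m, av16_E4_eq_three, map_add, map_one, map_mul, av16_C_map]
  have : ((3 : ℤ) : B) = 0 := by exact_mod_cast h3
  rw [this, map_zero, zero_mul, add_zero]

theorem av16_three_E6 (h3 : (3 : B) = 0) : av16_m B av16_E6 = 1 := by
  apply av16_nine_E6
  have : (9 : B) = 3 * 3 := by norm_num
  rw [this, h3, zero_mul]

/-! ### The Laurent form -/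

/-- `Δ` as a Laurent series over `B`. -/
def av16_DL : LaurentSeries B := HahnSeries.ofPowerSeries ℤ B (av16_m B s16as_delta)

/-- `E₄` as a Laurent series over `B`. -/
def av16_E4L : LaurentSeries B := HahnSeries.ofPowerSeries ℤ B (av16_m B av16_E4)

theorem av16_DL_eq :
    av16_DL B = HahnSeries.single (1 : ℤ) (1 : B) *
      HahnSeries.ofPowerSeries ℤ B (dedekindEtaUnit.map (Int.castRingHom B)) := by
  rw [av16_DL, av16_m, s16as_delta, dedekindEtaUnit, map_mul, PowerSeries.map_X, map_mul,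
    HahnSeries.ofPowerSeries_X]

theorem av16_J_mul_DL : jqModC B * av16_DL B = av16_E4L B ^ 3 := by
  rw [av16_DL_eq, jqModC, jNum, av16_E4L, av16_m, av16_E4_eq, map_mul, map_pow, map_mul, map_pow]
  have h : dedekindEtaUnitInv.map (Int.castRingHom B) * dedekindEtaUnit.map (Int.castRingHom B)
      = 1 := by
    rw [← map_mul, mul_comm, dedekindEtaUnit_mul_inv, map_one]
  have h' : HahnSeries.ofPowerSeries ℤ B (dedekindEtaUnitInv.map (Int.castRingHom B)) *
      HahnSeries.ofPowerSeries ℤ B (dedekindEtaUnit.map (Int.castRingHom B)) = 1 := by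
    rw [← map_mul, h, map_one]
  have hs : HahnSeries.single (-1 : ℤ) (1 : B) * HahnSeries.single (1 : ℤ) (1 : B) = 1 := by
    rw [HahnSeries.single_mul_single, mul_one, neg_add_cancel]
    rfl
  calc HahnSeries.single (-1 : ℤ) (1 : B) *
        (HahnSeries.ofPowerSeries ℤ B (eisenstein4.map (Int.castRingHom B)) ^ 3 *
          HahnSeries.ofPowerSeries ℤ B (dedekindEtaUnitInv.map (Int.castRingHom B))) *
        (HahnSeries.single (1 : ℤ) (1 : B) *
          HahnSeries.ofPowerSeries ℤ B (dedekindEtaUnit.map (Int.castRingHom B)))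
      = (HahnSeries.single (-1 : ℤ) (1 : B) * HahnSeries.single (1 : ℤ) (1 : B)) *
          (HahnSeries.ofPowerSeries ℤ B (dedekindEtaUnitInv.map (Int.castRingHom B)) *
            HahnSeries.ofPowerSeries ℤ B (dedekindEtaUnit.map (Int.castRingHom B))) *
          HahnSeries.ofPowerSeries ℤ B (eisenstein4.map (Int.castRingHom B)) ^ 3 := by ring
    _ = _ := by rw [hs, h', one_mul, one_mul]

/-- **Laurent form of the avatar**: `∑ Pᵢ E₄^(3i) Δ^(m-i) = Δ^m · P(j)`. -/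
theorem av16_laurent (m : ℕ) (P : B[X]) (hP : P.natDegree ≤ m) :
    HahnSeries.ofPowerSeries ℤ B
        (∑ i ∈ Finset.range (m + 1), PowerSeries.C (P.coeff i) * av16_m B av16_E4 ^ (3 * i) *
          av16_m B s16as_delta ^ (m - i)) =
      av16_DL B ^ m * Polynomial.aeval (jqModC B) P := by
  rw [Polynomial.aeval_eq_sum_range' (Nat.lt_succ_of_le hP), map_sum, Finset.mul_sum]
  refine Finset.sum_congr rfl fun i hi => ?_
  have hi' : i ≤ m := Nat.lt_succ_iff.mp (Finset.mem_range.mp hi)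
  rw [map_mul, map_mul, map_pow, map_pow, HahnSeries.ofPowerSeries_C, Algebra.smul_def]
  have hC : (algebraMap B (LaurentSeries B)) (P.coeff i) = HahnSeries.C (P.coeff i) := by
    rw [HahnSeries.algebraMap_apply', ← HahnSeries.ofPowerSeries_C]
    rfl
  rw [hC]
  have h1 : av16_DL B ^ m = av16_DL B ^ (m - i) * av16_DL B ^ i := by
    rw [← pow_add, Nat.sub_add_cancel hi']
  have h2 : HahnSeries.ofPowerSeries ℤ B (av16_m B av16_E4) ^ (3 * i) =
      (jqModC B * av16_DL B) ^ i := by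
    rw [av16_J_mul_DL, av16_E4L, ← pow_mul]
  rw [h1, h2, mul_pow]
  change _ * _ * av16_DL B ^ (m - i) = _
  ring

/-- Over a ring with `9 = 0`: `j Δ = 1`. -/
theorem av16_nine_J_mul_DL (h9 : (9 : B) = 0) : jqModC B * av16_DL B = 1 := by
  rw [av16_J_mul_DL, av16_E4L, ← map_pow, av16_nine_E4_cube B h9, map_one]

end Ring

/-! ### The avatar over a subring of `ℚ`, Laurent form -/

section Rat

open UpperHalfPlane Fermat.Agent.S22

/-- **Level-one avatar**, weight `12 m`: `a = Δ^m P(j)` with `P ∈ A[X]`, `deg P ≤ m`. -/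
theorem av16_rat_laurent (A : Subring ℚ) (m : ℕ) (f : ℍ → ℂ) (hf : IsMF G1 (12 * (m : ℤ)) f)
    (a : PowerSeries ↥A)
    (ha : ∀ n, (qExpansion 1 f).coeff n = (((PowerSeries.coeff n a : ↥A) : ℚ) : ℂ)) :
    ∃ P : (↥A)[X], P.natDegree ≤ m ∧
      HahnSeries.ofPowerSeries ℤ ↥A a = av16_DL ↥A ^ m * Polynomial.aeval (jqModC ↥A) P := by
  obtain ⟨P, hP, h⟩ := av16_rat A m f hf a ha
  refine ⟨P, hP, ?_⟩
  rw [← av16_laurent ↥A m P hP]
  exact congrArg _ h

/-- **Level-one avatar**, weight `12 m + 2`: `a E₄ E₆ = Δ^(m+1) Q(j)`, `deg Q ≤ m + 1`. -/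
theorem av16_rat_two_laurent (A : Subring ℚ) (m : ℕ) (f : ℍ → ℂ)
    (hf : IsMF G1 (12 * (m : ℤ) + 2) f) (a : PowerSeries ↥A)
    (ha : ∀ n, (qExpansion 1 f).coeff n = (((PowerSeries.coeff n a : ↥A) : ℚ) : ℂ)) :
    ∃ Q : (↥A)[X], Q.natDegree ≤ m + 1 ∧
      HahnSeries.ofPowerSeries ℤ ↥A (a * av16_m ↥A av16_E4 * av16_m ↥A av16_E6) =
        av16_DL ↥A ^ (m + 1) * Polynomial.aeval (jqModC ↥A) Q := by
  obtain ⟨Q, hQ, h⟩ := av16_rat_two A m f hf a ha
  refine ⟨Q, hQ, ?_⟩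
  rw [← av16_laurent ↥A (m + 1) Q hQ]
  exact congrArg _ h

end Rat

end Fermat.Agent.S16
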