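/-
Binary theta inversion (generic tool, Mathlib only).

* `c1i_inv_one`   : one-dimensional theta inversion with a real characteristic and a complex
                    linear term (from `Complex.tsum_exp_neg_quadratic`);
* `c1i_inversion` : inversion formula for the theta series of a positive definite real binary
                    quadratic form `a x² + b x y + c y²` with real characteristics `(u, v)`.
-/
import Mathlib

set_option autoImplicit false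

namespace Fermat.Agent.S16

open Complex Real

noncomputable section

/-- One-dimensional theta inversion with a real characteristic `s` and a complex linear term `w`. -/
theorem c1i_inv_one {α : ℝ} (hα : 0 < α) {z : ℂ} (hz : 0 < z.im) (s : ℝ) (w : ℂ) :
    (∑' n : ℤ, cexp (2 * π * I * z * α * ((n : ℂ) + s) ^ 2 + 2 * π * I * w * ((n : ℂ) + s))) =
      1 / (-(2 * I) * α * z) ^ (1 / 2 : ℂ) *
        ∑' n : ℤ, cexp (-(π * I) * ((n : ℂ) - w) ^ 2 / (2 * α * z) + 2 * π * I * s * n) := by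
  have hz0 : z ≠ 0 := by
    rintro rfl
    simp at hz
  have hα0 : (α : ℂ) ≠ 0 := by exact_mod_cast hα.ne'
  have hA : 0 < (-(2 * I) * α * z).re := by
    have : (-(2 * I) * α * z).re = 2 * α * z.im := by
      simp [mul_re, mul_im]
    rw [this]
    positivity
  have key := Complex.tsum_exp_neg_quadratic hA (2 * I * α * z * s + I * w)
  have hL : ∀ n : ℤ, cexp (2 * π * I * z * α * ((n : ℂ) + s) ^ 2 + 2 * π * I * w * ((n : ℂ) + s)) =
      cexp (2 * π * I * α * z * s ^ 2 + 2 * π * I * w * s) *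
        cexp (-π * (-(2 * I) * α * z) * (n : ℂ) ^ 2 + 2 * π * (2 * I * α * z * s + I * w) * n) := by
    intro n
    rw [← Complex.exp_add]
    congr 1
    ring
  have hR : ∀ n : ℤ, cexp (-(π * I) * ((n : ℂ) - w) ^ 2 / (2 * α * z) + 2 * π * I * s * n) =
      cexp (2 * π * I * α * z * s ^ 2 + 2 * π * I * w * s) *
        cexp (-π / (-(2 * I) * α * z) * ((n : ℂ) + I * (2 * I * α * z * s + I * w)) ^ 2) := by
    intro n
    rw [← Complex.exp_add]
    congr 1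
    field_simp
    ring_nf
    simp only [I_sq, I_pow_four]
    ring
  simp_rw [hL, hR]
  rw [tsum_mul_left, tsum_mul_left, key]
  ring

/-- A real Gaussian with a shift is summable over `ℤ`. -/
theorem c1i_summable_gauss {α : ℝ} (hα : 0 < α) (s : ℝ) :
    Summable (fun n : ℤ => rexp (-α * ((n : ℝ) + s) ^ 2)) := by
  have him : 0 < (I * ((α / π : ℝ) : ℂ)).im := by
    simp only [mul_im, I_re, I_im, ofReal_re, ofReal_im, zero_mul, one_mul, zero_add]
    positivity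
  have h := ((summable_jacobiTheta₂_term_iff (I * ((α * s / π : ℝ) : ℂ))
    (I * ((α / π : ℝ) : ℂ))).mpr him).norm
  simp only [norm_jacobiTheta₂_term, mul_im, I_re, I_im, ofReal_re, ofReal_im, zero_mul, one_mul,
    zero_add] at h
  have hfun : (fun n : ℤ => rexp (-α * ((n : ℝ) + s) ^ 2)) =
      fun n : ℤ => rexp (-α * s ^ 2) *
        rexp (-π * (n : ℝ) ^ 2 * (α / π) - 2 * π * (n : ℝ) * (α * s / π)) := by
    funext n
    rw [← Real.exp_add]
    congr 1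
    field_simp
    ring
  rw [hfun]
  exact h.mul_left _

/-- A positive definite binary Gaussian with shifts is summable over `ℤ × ℤ`. -/
theorem c1i_summable_two {a b c : ℝ} (ha : 0 < a) (hD : 0 < 4 * a * c - b ^ 2) {t : ℝ}
    (ht : 0 < t) (u v : ℝ) :
    Summable (fun p : ℤ × ℤ => rexp (-t * (a * ((p.1 : ℝ) + u) ^ 2 +
      b * ((p.1 : ℝ) + u) * ((p.2 : ℝ) + v) + c * ((p.2 : ℝ) + v) ^ 2))) := by
  have hc : 0 < c := by nlinarith [sq_nonneg b]
  have hac : 0 < a + c := by linarith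
  set lam := (4 * a * c - b ^ 2) / (4 * (a + c)) with hlam
  have hlam0 : 0 < lam := by positivity
  have hkey : ∀ X Y : ℝ, lam * (X ^ 2 + Y ^ 2) ≤ a * X ^ 2 + b * X * Y + c * Y ^ 2 := by
    intro X Y
    rw [hlam, div_mul_eq_mul_div, div_le_iff₀ (by positivity)]
    nlinarith [sq_nonneg (2 * a * X + b * Y), sq_nonneg (b * X + 2 * c * Y)]
  refine Summable.of_nonneg_of_le (fun p => (Real.exp_pos _).le) (fun p => ?_)
    ((c1i_summable_gauss (mul_pos ht hlam0) u).mul_of_nonneg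
      (c1i_summable_gauss (mul_pos ht hlam0) v) (fun _ => (Real.exp_pos _).le)
      (fun _ => (Real.exp_pos _).le))
  rw [← Real.exp_add]
  apply Real.exp_le_exp.mpr
  nlinarith [hkey ((p.1 : ℝ) + u) ((p.2 : ℝ) + v)]

/-- `‖exp (2πi z r + i θ)‖ = exp (-2π (Im z) r)` for real `r`, `θ`. -/
theorem c1i_norm_cexp (z : ℂ) (r θ : ℝ) :
    ‖cexp (2 * π * I * z * r + I * θ)‖ = rexp (-(2 * π * z.im) * r) := by
  rw [Complex.norm_exp]
  congr 1
  simp only [add_re, mul_re, mul_im, I_re, I_im, ofReal_re, ofReal_im, re_ofNat, im_ofNat]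
  ring

/-- the product of two principal square roots of positive multiples of `w` -/
theorem c1i_sqrt_mul {r₁ r₂ : ℝ} (h₁ : 0 < r₁) (h₂ : 0 < r₂) {w : ℂ} (hw : w ≠ 0) :
    ((r₁ : ℂ) * w) ^ (1 / 2 : ℂ) * ((r₂ : ℂ) * w) ^ (1 / 2 : ℂ) = (√(r₁ * r₂) : ℝ) * w := by
  have h1 : (r₁ : ℂ) ≠ 0 := by exact_mod_cast h₁.ne'
  have h2 : (r₂ : ℂ) ≠ 0 := by exact_mod_cast h₂.ne'
  rw [Complex.cpow_def_of_ne_zero (mul_ne_zero h1 hw), Complex.cpow_def_of_ne_zero (mul_ne_zero h2 hw),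
    Complex.log_ofReal_mul h₁ hw, Complex.log_ofReal_mul h₂ hw, ← Complex.exp_add]
  have : ((Real.log r₁ : ℂ) + log w) * (1 / 2) + ((Real.log r₂ : ℂ) + log w) * (1 / 2) =
      ((Real.log (√(r₁ * r₂)) : ℝ) : ℂ) + log w := by
    rw [Real.log_sqrt (by positivity), Real.log_mul h₁.ne' h₂.ne']
    push_cast
    ring
  rw [this, Complex.exp_add, Complex.exp_log hw, ← Complex.ofReal_exp,
    Real.exp_log (by positivity)]

/-- term of the binary theta series of `a x² + b x y + c y²` with characteristics `(u, v)` -/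
def c1i_term (a b c u v : ℝ) (z : ℂ) (p : ℤ × ℤ) : ℂ :=
  cexp (2 * π * I * z * (a * ((p.1 : ℂ) + u) ^ 2 + b * ((p.1 : ℂ) + u) * ((p.2 : ℂ) + v) +
    c * ((p.2 : ℂ) + v) ^ 2))

/-- term of the dual series -/
def c1i_dual (a b c u v : ℝ) (z : ℂ) (p : ℤ × ℤ) : ℂ :=
  cexp (-(2 * π * I) * (c * (p.1 : ℂ) ^ 2 - b * (p.1 : ℂ) * (p.2 : ℂ) + a * (p.2 : ℂ) ^ 2) /
    ((4 * a * c - b ^ 2) * z) + 2 * π * I * ((p.1 : ℂ) * u + (p.2 : ℂ) * v))

theorem c1i_norm_term (a b c u v : ℝ) (z : ℂ) (p : ℤ × ℤ) :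
    ‖c1i_term a b c u v z p‖ = rexp (-(2 * π * z.im) * (a * ((p.1 : ℝ) + u) ^ 2 +
      b * ((p.1 : ℝ) + u) * ((p.2 : ℝ) + v) + c * ((p.2 : ℝ) + v) ^ 2)) := by
  rw [← c1i_norm_cexp z _ 0, c1i_term]
  congr 2
  push_cast
  ring

theorem c1i_summable_term {a b c : ℝ} (ha : 0 < a) (hD : 0 < 4 * a * c - b ^ 2) (u v : ℝ)
    {z : ℂ} (hz : 0 < z.im) : Summable (c1i_term a b c u v z) := by
  refine Summable.of_norm ?_
  simp_rw [c1i_norm_term]
  exact c1i_summable_two ha hD (by positivity) u v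

theorem c1i_im_neg_inv {z : ℂ} (hz : 0 < z.im) : 0 < (-1 / z).im := by
  rw [neg_div, neg_im, one_div, inv_im, neg_div, neg_neg]
  have : z ≠ 0 := by rintro rfl; simp at hz
  exact div_pos hz (normSq_pos.mpr this)

theorem c1i_norm_dual {a b c : ℝ} (hD : 0 < 4 * a * c - b ^ 2) (u v : ℝ) {z : ℂ}
    (hz : 0 < z.im) (p : ℤ × ℤ) :
    ‖c1i_dual a b c u v z p‖ = rexp (-(2 * π * (-1 / z).im) *
      (c / (4 * a * c - b ^ 2) * ((p.1 : ℝ) + 0) ^ 2 +
        -b / (4 * a * c - b ^ 2) * ((p.1 : ℝ) + 0) * ((p.2 : ℝ) + 0) +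
        a / (4 * a * c - b ^ 2) * ((p.2 : ℝ) + 0) ^ 2)) := by
  have hz0 : z ≠ 0 := by rintro rfl; simp at hz
  have hD0 : ((4 * a * c - b ^ 2 : ℝ) : ℂ) ≠ 0 := by exact_mod_cast hD.ne'
  rw [← c1i_norm_cexp (-1 / z) _ (2 * π * ((p.1 : ℝ) * u + (p.2 : ℝ) * v)), c1i_dual]
  congr 2
  push_cast at hD0 ⊢
  field_simp
  ring

theorem c1i_summable_dual {a b c : ℝ} (ha : 0 < a) (hD : 0 < 4 * a * c - b ^ 2) (u v : ℝ)
    {z : ℂ} (hz : 0 < z.im) : Summable (c1i_dual a b c u v z) := by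
  have hc : 0 < c := by nlinarith [sq_nonneg b]
  refine Summable.of_norm ?_
  simp_rw [c1i_norm_dual hD u v hz]
  refine c1i_summable_two (a := c / (4 * a * c - b ^ 2)) (b := -b / (4 * a * c - b ^ 2))
    (c := a / (4 * a * c - b ^ 2)) (by positivity) ?_
    (mul_pos (by positivity) (c1i_im_neg_inv hz)) 0 0
  have : 4 * (c / (4 * a * c - b ^ 2)) * (a / (4 * a * c - b ^ 2)) -
      (-b / (4 * a * c - b ^ 2)) ^ 2 = 1 / (4 * a * c - b ^ 2) := by
    field_simp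
  rw [this]
  positivity

/-- the intermediate (half-transformed) family, indexed by `(y, ξ)` -/
def c1i_mid (a b c u v : ℝ) (z : ℂ) (p : ℤ × ℤ) : ℂ :=
  cexp (2 * π * I * z * (((4 * a * c - b ^ 2) / (4 * a) * ((p.1 : ℝ) + v) ^ 2 : ℝ) : ℂ) +
      I * ((0 : ℝ) : ℂ)) *
    cexp (2 * π * I * (-1 / z) * (((1 / (4 * a)) * ((p.2 : ℝ) + 0) ^ 2 : ℝ) : ℂ) +
      I * ((2 * π * ((u + b * ((p.1 : ℝ) + v) / (2 * a)) * (p.2 : ℝ)) : ℝ) : ℂ))

theorem c1i_norm_mid (a b c u v : ℝ) (z : ℂ) (p : ℤ × ℤ) :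
    ‖c1i_mid a b c u v z p‖ =
      rexp (-(2 * π * z.im * ((4 * a * c - b ^ 2) / (4 * a))) * ((p.1 : ℝ) + v) ^ 2) *
        rexp (-(2 * π * (-1 / z).im * (1 / (4 * a))) * ((p.2 : ℝ) + 0) ^ 2) := by
  rw [c1i_mid, norm_mul, c1i_norm_cexp, c1i_norm_cexp]
  congr 2 <;> ring

theorem c1i_summable_mid {a b c : ℝ} (ha : 0 < a) (hD : 0 < 4 * a * c - b ^ 2) (u v : ℝ)
    {z : ℂ} (hz : 0 < z.im) : Summable (c1i_mid a b c u v z) := by
  refine Summable.of_norm ?_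
  simp_rw [c1i_norm_mid]
  have h1 : 0 < 2 * π * z.im * ((4 * a * c - b ^ 2) / (4 * a)) := by positivity
  have h2 : 0 < 2 * π * (-1 / z).im * (1 / (4 * a)) := by
    have := c1i_im_neg_inv hz
    positivity
  exact (c1i_summable_gauss h1 v).mul_of_nonneg (c1i_summable_gauss h2 0)
    (fun _ => (Real.exp_pos _).le) (fun _ => (Real.exp_pos _).le)

/-- first step: inversion in the variable `x` -/
theorem c1i_step_one {a b c : ℝ} (ha : 0 < a) (u v : ℝ) {z : ℂ} (hz : 0 < z.im) (y : ℤ) :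
    ∑' x : ℤ, c1i_term a b c u v z (x, y) =
      1 / (-(2 * I) * a * z) ^ (1 / 2 : ℂ) * ∑' ξ : ℤ, c1i_mid a b c u v z (y, ξ) := by
  have hz0 : z ≠ 0 := by rintro rfl; simp at hz
  have ha0 : (a : ℂ) ≠ 0 := by exact_mod_cast ha.ne'
  have hL : ∀ x : ℤ, c1i_term a b c u v z (x, y) =
      cexp (2 * π * I * z * (((4 * a * c - b ^ 2) / (4 * a) * ((y : ℝ) + v) ^ 2 : ℝ) : ℂ)) *
        cexp (2 * π * I * z * a * ((x : ℂ) + ((u + b * ((y : ℝ) + v) / (2 * a) : ℝ) : ℂ)) ^ 2 +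
          2 * π * I * 0 * ((x : ℂ) + ((u + b * ((y : ℝ) + v) / (2 * a) : ℝ) : ℂ))) := by
    intro x
    rw [c1i_term, ← Complex.exp_add]
    congr 1
    push_cast
    field_simp
    ring
  have hR : ∀ ξ : ℤ, c1i_mid a b c u v z (y, ξ) =
      cexp (2 * π * I * z * (((4 * a * c - b ^ 2) / (4 * a) * ((y : ℝ) + v) ^ 2 : ℝ) : ℂ)) *
        cexp (-(π * I) * ((ξ : ℂ) - 0) ^ 2 / (2 * a * z) +
          2 * π * I * ((u + b * ((y : ℝ) + v) / (2 * a) : ℝ) : ℂ) * ξ) := by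
    intro ξ
    rw [c1i_mid, ← Complex.exp_add, ← Complex.exp_add]
    congr 1
    push_cast
    field_simp
    ring
  simp_rw [hL, hR]
  rw [tsum_mul_left, tsum_mul_left, c1i_inv_one ha hz]
  ring

/-- second step: inversion in the variable `y` -/
theorem c1i_step_two {a b c : ℝ} (ha : 0 < a) (hD : 0 < 4 * a * c - b ^ 2) (u v : ℝ) {z : ℂ}
    (hz : 0 < z.im) (ξ : ℤ) :
    ∑' y : ℤ, c1i_mid a b c u v z (y, ξ) =
      1 / (-(2 * I) * (((4 * a * c - b ^ 2) / (4 * a) : ℝ) : ℂ) * z) ^ (1 / 2 : ℂ) *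
        ∑' η : ℤ, c1i_dual a b c u v z (ξ, η) := by
  have hz0 : z ≠ 0 := by rintro rfl; simp at hz
  have ha0 : (a : ℂ) ≠ 0 := by exact_mod_cast ha.ne'
  have hD0 : (4 * (a : ℂ) * c - (b : ℂ) ^ 2) ≠ 0 := by exact_mod_cast hD.ne'
  have hL : ∀ y : ℤ, c1i_mid a b c u v z (y, ξ) =
      cexp (-(π * I) * (ξ : ℂ) ^ 2 / (2 * a * z) + 2 * π * I * u * ξ) *
        cexp (2 * π * I * z * (((4 * a * c - b ^ 2) / (4 * a) : ℝ) : ℂ) * ((y : ℂ) + (v : ℝ)) ^ 2 +
          2 * π * I * ((b : ℂ) * ξ / (2 * a)) * ((y : ℂ) + (v : ℝ))) := by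
    intro y
    rw [c1i_mid, ← Complex.exp_add, ← Complex.exp_add]
    congr 1
    push_cast
    field_simp
    ring
  have hR : ∀ η : ℤ, c1i_dual a b c u v z (ξ, η) =
      cexp (-(π * I) * (ξ : ℂ) ^ 2 / (2 * a * z) + 2 * π * I * u * ξ) *
        cexp (-(π * I) * ((η : ℂ) - ((b : ℂ) * ξ / (2 * a))) ^ 2 /
          (2 * (((4 * a * c - b ^ 2) / (4 * a) : ℝ) : ℂ) * z) + 2 * π * I * (v : ℝ) * η) := by
    intro η
    have hD1 : (a : ℂ) * c * 4 - (b : ℂ) ^ 2 ≠ 0 := by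
      intro h
      apply hD0
      rw [← h]
      ring
    rw [c1i_dual, ← Complex.exp_add]
    congr 1
    push_cast
    field_simp
    ring_nf
    field_simp
    ring
  simp_rw [hL, hR]
  rw [tsum_mul_left, tsum_mul_left, c1i_inv_one (by positivity) hz]
  ring

/-- **Inversion formula** for the theta series of a positive definite real binary quadratic
form with real characteristics. -/
theorem c1i_inversion {a b c : ℝ} (ha : 0 < a) (hD : 0 < 4 * a * c - b ^ 2) (u v : ℝ)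
    {z : ℂ} (hz : 0 < z.im) :
    ∑' p : ℤ × ℤ, c1i_term a b c u v z p =
      I / (z * (√(4 * a * c - b ^ 2) : ℝ)) * ∑' p : ℤ × ℤ, c1i_dual a b c u v z p := by
  have hz0 : z ≠ 0 := by rintro rfl; simp at hz
  have hterm := c1i_summable_term ha hD u v hz
  have hmid := c1i_summable_mid ha hD u v hz
  have hdual := c1i_summable_dual ha hD u v hz
  -- sum over `x` first
  have e1 : ∑' p : ℤ × ℤ, c1i_term a b c u v z p =
      ∑' y : ℤ, ∑' x : ℤ, c1i_term a b c u v z (x, y) := by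
    rw [← (Equiv.prodComm ℤ ℤ).tsum_eq]
    exact Summable.tsum_prod ((Equiv.prodComm ℤ ℤ).summable_iff.mpr hterm)
  have e2 : ∑' y : ℤ, ∑' ξ : ℤ, c1i_mid a b c u v z (y, ξ) =
      ∑' ξ : ℤ, ∑' y : ℤ, c1i_mid a b c u v z (y, ξ) :=
    (Summable.tsum_comm (f := fun y ξ => c1i_mid a b c u v z (y, ξ)) hmid).symm
  have e3 : ∑' ξ : ℤ, ∑' η : ℤ, c1i_dual a b c u v z (ξ, η) =
      ∑' p : ℤ × ℤ, c1i_dual a b c u v z p := (Summable.tsum_prod hdual).symm
  simp_rw [e1, c1i_step_one ha u v hz]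
  rw [tsum_mul_left, e2]
  simp_rw [c1i_step_two ha hD u v hz]
  rw [tsum_mul_left, e3, ← mul_assoc]
  congr 1
  -- the prefactor
  have hw : -I * z ≠ 0 := mul_ne_zero (neg_ne_zero.mpr I_ne_zero) hz0
  have h2a : (0 : ℝ) < 2 * a := by positivity
  have hDa : (0 : ℝ) < (4 * a * c - b ^ 2) / (2 * a) := by positivity
  have hs := c1i_sqrt_mul h2a hDa hw
  have hsq : √(2 * a * ((4 * a * c - b ^ 2) / (2 * a))) = √(4 * a * c - b ^ 2) := by
    congr 1
    field_simp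
  have hD' : (0 : ℝ) < √(4 * a * c - b ^ 2) := Real.sqrt_pos.mpr hD
  have hD0 : ((√(4 * a * c - b ^ 2) : ℝ) : ℂ) ≠ 0 := by exact_mod_cast hD'.ne'
  have f1 : -(2 * I) * (a : ℂ) * z = ((2 * a : ℝ) : ℂ) * (-I * z) := by push_cast; ring
  have f2 : -(2 * I) * (((4 * a * c - b ^ 2) / (4 * a) : ℝ) : ℂ) * z =
      (((4 * a * c - b ^ 2) / (2 * a) : ℝ) : ℂ) * (-I * z) := by
    have ha0 : (a : ℂ) ≠ 0 := by exact_mod_cast ha.ne'
    push_cast
    field_simp
    ring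
  rw [f1, f2, one_div_mul_one_div, hs, hsq]
  field_simp
  ring_nf
  simp [I_sq]

end

end Fermat.Agent.S16
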