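import Mathlib
import Fermat.Prelude.Def_ModularCurve_PeriodHomPair
import Fermat.Agent.S16.Duality
import Fermat.Agent.S16.Eis
import Fermat.Agent.S21.Prim

/-!
# S16, (C1) lower bound by integral cohomology of `Γ₀(p)`: interfaces

Route [COH].  `E := s16e_fun p = p E₂(pz) - E₂(z)` (weight 2 on `Γ₀(p)`, `a₀ = p - 1`,
`aₙ = 24 σ'(n)`), `F` any holomorphic primitive of `E` on `ℍ`, `χ(γ) := F(γ z) - F(z)` (the
Eisenstein period; it does not depend on `F`, `z`).

* `coh_PrimStatement`     : `E` has a primitive.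
* `coh_IntStatement`      : `χ` is integer valued (`exp (2πi F) = const · Δ(pz)/Δ(z)`).
* `coh_TransferStatement` : the Hecke transfer: for every prime `ℓ` and `γ ∈ Γ₀(p)` there are
  finitely many `γ'ᵢ ∈ Γ₀(p)` such that the periods of `T_ℓ f` (`U_p f`) at `γ` are the sums of
  the periods of `f` at the `γ'ᵢ`, for cusp forms and for `E` (eigenvalue `1 + ℓ`, resp. `1`).
* `coh_PsiStatement`      : there is `ψ : Γ₀(p) → ℤ` with `(p - 1) ψ = χ` on the elements of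
  trace `±2` (`T` is primitive in `H₁` modulo torsion).
* `coh_ContentStatement`  : if `m` divides all values of `χ` then `m ∣ 12`.
* `coh_LowerStatement`    : the conclusion, `hL` of `dual16_card`.
-/

set_option autoImplicit false

noncomputable section

namespace Fermat.Agent.S16

open UpperHalfPlane CongruenceSubgroup ModularCurve ModularCurve.Period CuspForm
open Fermat.Agent.S21
open scoped MatrixGroups

/-- (PRIM-E) the Eisenstein series of level `p` has a holomorphic primitive. -/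
def coh_PrimStatement (p : ℕ) : Prop :=
  ∃ F : ℍ → ℂ, IsPrimOf F (s16e_fun p)

/-- (INT) the Eisenstein periods are integers. -/
def coh_IntStatement (p : ℕ) : Prop :=
  ∀ F : ℍ → ℂ, IsPrimOf F (s16e_fun p) → ∀ (γ : Gamma0 p) (z : ℍ),
    ∃ k : ℤ, F ((γ : SL(2, ℤ)) • z) - F z = (k : ℂ)

/-- The operator on cusp forms of the generator `X_ℓ` (`T_ℓ` for `ℓ ≠ p`, `U_p` for `ℓ = p`). -/
def coh_op (p : ℕ) [NeZero p] (ℓ : Nat.Primes) :
    Module.End ℂ (CuspForm (Gamma0 p) 2) :=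
  ((heckeFormsGen p 2 ℓ : heckeAlgebra p 2 ∅) :
    Module.End ℂ (CuspForm (Gamma0 p) 2))

/-- (TR) the Hecke transfer on periods. -/
def coh_TransferStatement (p : ℕ) [NeZero p] : Prop :=
  ∀ (ℓ : Nat.Primes) (γ : Gamma0 p),
    ∃ (ι : Type) (_ : Fintype ι) (g' : ι → Gamma0 p),
      (∀ f g : CuspForm (Gamma0 p) 2,
        periodHomPair p (coh_op p ℓ f, coh_op p ℓ g) (Additive.ofMul γ) =
          ∑ i, periodHomPair p (f, g) (Additive.ofMul (g' i))) ∧
      (∀ F : ℍ → ℂ, IsPrimOf F (s16e_fun p) → ∀ z : ℍ,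
        ((eisensteinSystem p ℓ : ℤ) : ℂ) * (F ((γ : SL(2, ℤ)) • z) - F z) =
          ∑ i, (F (((g' i : Gamma0 p) : SL(2, ℤ)) • z) - F z))

/-- (PSI) an integral class which is `χ / (p - 1)` on the parabolic elements. -/
def coh_PsiStatement (p : ℕ) : Prop :=
  ∃ ψ : Additive (Gamma0 p) →+ ℤ, ∀ F : ℍ → ℂ, IsPrimOf F (s16e_fun p) →
    ∀ γ : Gamma0 p, (((γ : SL(2, ℤ)) : Matrix (Fin 2) (Fin 2) ℤ)).trace ^ 2 = 4 →
      ∀ z : ℍ, ((p : ℂ) - 1) * ((ψ (Additive.ofMul γ) : ℤ) : ℂ) =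
        F ((γ : SL(2, ℤ)) • z) - F z

/-- (PSI-G), pure group theory: a homomorphism `Γ₀(p) → ℤ` with prescribed values on the
parabolic elements `g T^k g⁻¹`. -/
def coh_PsiGroupStatement (p : ℕ) : Prop :=
  ∃ ψ : Additive (Gamma0 p) →+ ℤ, ∀ (g : SL(2, ℤ)) (k : ℤ)
    (h : g * ModularGroup.T ^ k * g⁻¹ ∈ Gamma0 p),
    ψ (Additive.ofMul ⟨g * ModularGroup.T ^ k * g⁻¹, h⟩) =
      if (p : ℤ) ∣ g 1 0 then k else -(k / p)

/-- (PAR-Φ), analysis: the Eisenstein periods of the parabolic elements `g T^k g⁻¹`. -/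
def coh_ParStatement (p : ℕ) : Prop :=
  ∀ F : ℍ → ℂ, IsPrimOf F (s16e_fun p) → ∀ (g : SL(2, ℤ)) (k : ℤ),
    g * ModularGroup.T ^ k * g⁻¹ ∈ Gamma0 p → ∀ z : ℍ,
      F ((g * ModularGroup.T ^ k * g⁻¹) • z) - F z =
        ((p : ℂ) - 1) * (((if (p : ℤ) ∣ g 1 0 then k else -(k / p) : ℤ)) : ℂ)

/-- (CONTENT) the content of the Eisenstein period divides `12`. -/
def coh_ContentStatement (p : ℕ) : Prop :=
  ∀ F : ℍ → ℂ, IsPrimOf F (s16e_fun p) → ∀ m : ℕ, 0 < m →
    (∀ (γ : Gamma0 p) (z : ℍ), ∃ k : ℤ, F ((γ : SL(2, ℤ)) • z) - F z = (m : ℂ) * (k : ℂ)) →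
    m ∣ 12

/-- (SPAN) a polynomial in the Hecke operators which kills the integral lattice kills all cusp
forms. -/
def coh_SpanStatement (p : ℕ) [Fact p.Prime] : Prop :=
  ∀ P : HeckeAlg, dual16_phi p P = 0 →
    ((heckeEvalForms p 2 P : heckeAlgebra p 2 ∅) :
      Module.End ℂ (CuspForm (Gamma0 p) 2)) = 0

/-- (ES) Eichler–Shimura (S21): the parabolic classes are periods of pairs of cusp forms. -/
def coh_ESStatement (p : ℕ) : Prop :=
  ∀ φ : Additive (Gamma0 p) →+ ℂ, φ ∈ parabolicHoms ℂ (Gamma0 p) ℂ →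
    ∃ f g : CuspForm (Gamma0 p) 2, periodHomPair p (f, g) = φ

/-- **(C1)** in the form consumed by `dual16_card`. -/
def coh_LowerStatement (p : ℕ) [Fact p.Prime] : Prop :=
  ∀ P : HeckeAlg, dual16_phi p P = 0 → ((eisensteinNumerator p : ℕ) : ℤ) ∣ dual16_ev p P

end Fermat.Agent.S16
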