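import Mathlib
import Fermat.Agent.S16.CohDefs

/-!
# S16, (C1) by integral cohomology: the assembly

`coh_lower_of`: (PRIM-E) + (INT) + (TR) + (PSI) + (CONTENT) + (SPAN) + (ES) ⟹ (C1).
-/

set_option autoImplicit false

noncomputable section

namespace Fermat.Agent.S16

open UpperHalfPlane CongruenceSubgroup ModularCurve ModularCurve.Period CuspForm
open Fermat.Agent.S21
open scoped MatrixGroups

/-- A primitive of the Eisenstein series of level `p` is `Γ₀(p)`-equivariant. -/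
theorem coh_isEquivariantPrimitive (p : ℕ) [NeZero p] {F : ℍ → ℂ}
    (hF : IsPrimOf F (s16e_fun p)) : IsEquivariantPrimitive (Gamma0 p) F := by
  intro γ
  refine ⟨F ((γ : SL(2, ℤ)) • UpperHalfPlane.I) - F UpperHalfPlane.I, fun z => ?_⟩
  have h1 : IsPrimOf (fun w : ℍ => F ((γ : SL(2, ℤ)) • w)) (s16e_fun p) := by
    have := hF.comp_smul (γ : SL(2, ℤ))
    rwa [s16e_slash_gamma0 p (Nat.pos_of_ne_zero (NeZero.ne p)) (γ : SL(2, ℤ)) γ.2] at this
  exact prim_sub_const h1 hF z UpperHalfPlane.I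

/-- The Eisenstein period homomorphism of a primitive. -/
def coh_chi (p : ℕ) [NeZero p] {F : ℍ → ℂ} (hF : IsPrimOf F (s16e_fun p)) :
    Additive (Gamma0 p) →+ ℂ :=
  (coh_isEquivariantPrimitive p hF).periodHom

theorem coh_chi_apply (p : ℕ) [NeZero p] {F : ℍ → ℂ} (hF : IsPrimOf F (s16e_fun p))
    (γ : Gamma0 p) (z : ℍ) :
    coh_chi p hF (Additive.ofMul γ) = F ((γ : SL(2, ℤ)) • z) - F z := by
  rw [coh_chi, IsEquivariantPrimitive.periodHom_apply,
    ← IsEquivariantPrimitive.sub_eq_period _ γ z]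

/-- The operator on cusp forms of a polynomial in the Hecke operators. -/
def coh_opP (p : ℕ) [NeZero p] (P : HeckeAlg) : Module.End ℂ (CuspForm (Gamma0 p) 2) :=
  ((heckeEvalForms p 2 P : heckeAlgebra p 2 ∅) : Module.End ℂ (CuspForm (Gamma0 p) 2))

theorem coh_opP_C (p : ℕ) [NeZero p] (a : ℤ) (f : CuspForm (Gamma0 p) 2) :
    coh_opP p (MvPolynomial.C a) f = a • f := by
  rw [coh_opP, heckeEvalForms_C]
  simp

theorem coh_opP_add (p : ℕ) [NeZero p] (P Q : HeckeAlg) (f : CuspForm (Gamma0 p) 2) :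
    coh_opP p (P + Q) f = coh_opP p P f + coh_opP p Q f := by
  rw [coh_opP, map_add]
  rfl

theorem coh_opP_mul_X (p : ℕ) [NeZero p] (P : HeckeAlg) (ℓ : Nat.Primes)
    (f : CuspForm (Gamma0 p) 2) :
    coh_opP p (P * MvPolynomial.X ℓ) f = coh_opP p P (coh_op p ℓ f) := by
  have h : heckeEvalForms p 2 (MvPolynomial.X ℓ) = heckeFormsGen p 2 ℓ :=
    heckeEvalForms_heckeGen p 2 ℓ
  rw [coh_opP, map_mul, h]
  rfl

/-- The lattice `𝓛` of the assembly is stable under the polynomials in the Hecke operators. -/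
theorem coh_lattice_stable (p : ℕ) [NeZero p] (htr : coh_TransferStatement p)
    {F : ℍ → ℂ} (hF : IsPrimOf F (s16e_fun p)) (P : HeckeAlg) :
    ∀ (f g : CuspForm (Gamma0 p) 2) (c : ℂ),
      (∀ γ : Gamma0 p, ∃ k : ℤ,
        periodHomPair p (f, g) (Additive.ofMul γ) + c * coh_chi p hF (Additive.ofMul γ) = k) →
      ∀ γ : Gamma0 p, ∃ k : ℤ,
        periodHomPair p (coh_opP p P f, coh_opP p P g) (Additive.ofMul γ) +
          ((MvPolynomial.aeval (eisensteinSystem p) P : ℤ) : ℂ) * c *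
            coh_chi p hF (Additive.ofMul γ) = k := by
  induction P using MvPolynomial.induction_on with
  | C a =>
    intro f g c h γ
    obtain ⟨k, hk⟩ := h γ
    refine ⟨a * k, ?_⟩
    rw [coh_opP_C, coh_opP_C, MvPolynomial.aeval_C]
    have e : ((a • f, a • g) : CuspForm (Gamma0 p) 2 × CuspForm (Gamma0 p) 2) = a • (f, g) := rfl
    rw [e, map_zsmul]
    simp only [AddMonoidHom.coe_smul, Pi.smul_apply, zsmul_eq_mul, algebraMap_int_eq,
      Int.cast_mul, eq_intCast, Int.cast_id]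
    rw [← hk]
    ring
  | add P Q hP hQ =>
    intro f g c h γ
    obtain ⟨k₁, hk₁⟩ := hP f g c h γ
    obtain ⟨k₂, hk₂⟩ := hQ f g c h γ
    refine ⟨k₁ + k₂, ?_⟩
    rw [coh_opP_add, coh_opP_add, map_add]
    have e : ((coh_opP p P f + coh_opP p Q f, coh_opP p P g + coh_opP p Q g) :
        CuspForm (Gamma0 p) 2 × CuspForm (Gamma0 p) 2) =
        (coh_opP p P f, coh_opP p P g) + (coh_opP p Q f, coh_opP p Q g) := rfl
    rw [e, map_add, AddMonoidHom.add_apply]
    push_cast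
    rw [← hk₁, ← hk₂]
    ring
  | mul_X P ℓ hP =>
    intro f g c h γ
    have h' : ∀ γ : Gamma0 p, ∃ k : ℤ,
        periodHomPair p (coh_op p ℓ f, coh_op p ℓ g) (Additive.ofMul γ) +
          (((eisensteinSystem p ℓ : ℤ) : ℂ) * c) * coh_chi p hF (Additive.ofMul γ) = k := by
      intro γ
      obtain ⟨ι, hι, g', h1, h2⟩ := htr ℓ γ
      choose k hk using fun i => h (g' i)
      refine ⟨∑ i, k i, ?_⟩
      rw [h1 f g]
      have h3 := h2 F hF UpperHalfPlane.I
      rw [← coh_chi_apply p hF γ UpperHalfPlane.I] at h3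
      have h4 : ((eisensteinSystem p ℓ : ℤ) : ℂ) * c * coh_chi p hF (Additive.ofMul γ) =
          ∑ i, c * coh_chi p hF (Additive.ofMul (g' i)) := by
        rw [mul_right_comm, h3, Finset.sum_mul]
        refine Finset.sum_congr rfl fun i _ => ?_
        rw [coh_chi_apply p hF (g' i) UpperHalfPlane.I]
        ring
      rw [h4, ← Finset.sum_add_distrib]
      push_cast
      exact Finset.sum_congr rfl fun i _ => hk i
    obtain ⟨k, hk⟩ := hP (coh_op p ℓ f) (coh_op p ℓ g) (((eisensteinSystem p ℓ : ℤ) : ℂ) * c) h' γ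
    refine ⟨k, ?_⟩
    rw [coh_opP_mul_X, coh_opP_mul_X, ← hk, map_mul, MvPolynomial.aeval_X]
    push_cast
    ring

/-- Arithmetic at the end of the assembly. -/
theorem coh_arith (p : ℕ) (hp : 2 ≤ p) (e : ℤ)
    (hcont : ∀ m : ℕ, 0 < m → (∀ k : ℤ, ((p : ℤ) - 1) ∣ e * k → (m : ℤ) ∣ k) → m ∣ Nat.gcd (p - 1) 12) :
    (((p - 1) / Nat.gcd (p - 1) 12 : ℕ) : ℤ) ∣ e := by
  have hp1 : 0 < p - 1 := by omega
  by_cases he : e = 0
  · rw [he]
    exact dvd_zero _
  set g : ℕ := Nat.gcd (p - 1) e.natAbs with hg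
  have hg0 : 0 < g := Nat.gcd_pos_of_pos_left _ hp1
  obtain ⟨a, ha⟩ : g ∣ p - 1 := Nat.gcd_dvd_left _ _
  obtain ⟨b, hb⟩ : g ∣ e.natAbs := Nat.gcd_dvd_right _ _
  have ha0 : 0 < a := by
    rcases Nat.eq_zero_or_pos a with h | h
    · rw [h, mul_zero] at ha
      omega
    · exact h
  have hcop : Nat.Coprime a b := by
    have h1 : Nat.gcd (g * a) (g * b) = g := by rw [← ha, ← hb]
    rw [Nat.gcd_mul_left] at h1
    have h2 : g * Nat.gcd a b = g * 1 := by rw [h1, mul_one]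
    exact Nat.eq_of_mul_eq_mul_left hg0 h2
  have hm := hcont a ha0 (fun k hk => by
    have hpa : ((p : ℤ) - 1) = (g : ℤ) * a := by
      have : ((p - 1 : ℕ) : ℤ) = (p : ℤ) - 1 := by
        rw [Nat.cast_sub (by omega)]
        simp
      rw [← this, ha]
      push_cast
      ring
    have hea : (g : ℤ) * b ∣ e := by
      have : ((g * b : ℕ) : ℤ) ∣ e := by
        rw [← hb]
        exact Int.natAbs_dvd.mpr dvd_rfl
      simpa using this
    obtain ⟨e', he'⟩ := hea
    have hbe : (e.natAbs : ℤ) ∣ e := Int.natAbs_dvd.mpr dvd_rfl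
    -- `a ∣ b' k` with `b' = e / g`, and `gcd(a, b') = 1`
    have h3 : (a : ℤ) ∣ ((b : ℤ) * e') * k := by
      rw [hpa, he'] at hk
      have h4 : (g : ℤ) * a ∣ (g : ℤ) * ((b : ℤ) * e' * k) := by
        convert hk using 1
        ring
      exact (mul_dvd_mul_iff_left (by exact_mod_cast hg0.ne')).mp h4
    have he'u : IsUnit e' := by
      have h5 : (e.natAbs : ℤ) = (g : ℤ) * b := by rw [hb]; push_cast; ring
      have h6 : (e.natAbs : ℤ) = |e| := Int.natCast_natAbs e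
      have h7 : |e| = |(g : ℤ) * b| * |e'| := by rw [he', abs_mul]
      rw [← h6, h5, abs_of_nonneg (by positivity)] at h7
      have hgb : (g : ℤ) * b ≠ 0 := by
        rw [← h5]
        exact_mod_cast Int.natAbs_ne_zero.mpr he
      have h8 : |e'| = 1 := by
        have : (g : ℤ) * b * 1 = (g : ℤ) * b * |e'| := by rw [mul_one]; exact h7
        exact (mul_left_cancel₀ hgb this).symm
      exact Int.isUnit_iff_abs_eq.mpr h8
    have hcopZ : IsCoprime (a : ℤ) ((b : ℤ) * e') := by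
      have h9 : IsCoprime (a : ℤ) (b : ℤ) := Nat.isCoprime_iff_coprime.mpr hcop
      rw [mul_comm]
      exact (isCoprime_mul_unit_left_right he'u (a : ℤ) (b : ℤ)).mpr h9
    exact hcopZ.dvd_of_dvd_mul_left h3)
  -- `a ∣ gcd (p-1) 12`, so `(p-1)/gcd(p-1,12) ∣ (p-1)/a = g ∣ e`
  obtain ⟨c, hc⟩ := hm
  have hG : Nat.gcd (p - 1) 12 ∣ p - 1 := Nat.gcd_dvd_left _ _
  obtain ⟨n, hn⟩ := hG
  have hG0 : 0 < Nat.gcd (p - 1) 12 := Nat.gcd_pos_of_pos_left _ hp1
  have hdiv : (p - 1) / Nat.gcd (p - 1) 12 = n :=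
    Nat.div_eq_of_eq_mul_right hG0 hn
  rw [hdiv]
  have hgn : g = n * c := by
    have h1 : g * a = a * c * n := ha.symm.trans (hn.trans (by rw [hc]))
    have h2 : a * g = a * (n * c) := by rw [mul_comm a g, h1]; ring
    exact Nat.eq_of_mul_eq_mul_left ha0 h2
  have hge : (g : ℤ) ∣ e := by
    have : (g : ℤ) ∣ (e.natAbs : ℤ) := by exact_mod_cast Nat.gcd_dvd_right (p - 1) e.natAbs
    exact Int.dvd_natAbs.mp this
  exact Dvd.dvd.trans ⟨c, by rw [hgn]; push_cast; ring⟩ hge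

/-- **The assembly of route [COH].** -/
theorem coh_lower_of (p : ℕ) [Fact p.Prime] (hprim : coh_PrimStatement p)
    (hint : coh_IntStatement p) (htr : coh_TransferStatement p) (hpsi : coh_PsiStatement p)
    (hcont : coh_ContentStatement p) (hspan : coh_SpanStatement p) (hes : coh_ESStatement p) :
    coh_LowerStatement p := by
  intro P hP
  have hp2 : 2 ≤ p := (Fact.out : p.Prime).two_le
  obtain ⟨F, hF⟩ := hprim
  obtain ⟨ψ, hψ⟩ := hpsi
  have hp1 : ((p : ℂ) - 1) ≠ 0 := by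
    have h1 : (1 : ℝ) < p := by exact_mod_cast hp2
    intro h0
    have h2 : ((p : ℂ)) = 1 := by linear_combination h0
    have h3 : (p : ℝ) = 1 := by exact_mod_cast h2
    linarith
  -- the parabolic class `ψ - χ / (p - 1)`
  let ψC : Additive (Gamma0 p) →+ ℂ := (Int.castAddHom ℂ).comp ψ
  let φ₀ : Additive (Gamma0 p) →+ ℂ := ψC - ((p : ℂ) - 1)⁻¹ • coh_chi p hF
  have hφ₀ : φ₀ ∈ parabolicHoms ℂ (Gamma0 p) ℂ := by
    rw [mem_parabolicHoms_iff]
    intro γ hγ
    have h1 := hψ F hF γ hγ UpperHalfPlane.I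
    rw [← coh_chi_apply p hF γ UpperHalfPlane.I] at h1
    show ψC (Additive.ofMul γ) - ((p : ℂ) - 1)⁻¹ * coh_chi p hF (Additive.ofMul γ) = 0
    rw [← h1]
    show ((ψ (Additive.ofMul γ) : ℤ) : ℂ) - _ = 0
    field_simp
    ring
  obtain ⟨f₀, g₀, h₀⟩ := hes φ₀ hφ₀
  have hL : ∀ γ : Gamma0 p, ∃ k : ℤ,
      periodHomPair p (f₀, g₀) (Additive.ofMul γ) +
        ((p : ℂ) - 1)⁻¹ * coh_chi p hF (Additive.ofMul γ) = k := by
    intro γ
    refine ⟨ψ (Additive.ofMul γ), ?_⟩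
    rw [h₀]
    show ψC (Additive.ofMul γ) - ((p : ℂ) - 1)⁻¹ * coh_chi p hF (Additive.ofMul γ) +
      ((p : ℂ) - 1)⁻¹ * coh_chi p hF (Additive.ofMul γ) = _
    rw [sub_add_cancel]
    rfl
  have h1 := coh_lattice_stable p htr hF P f₀ g₀ _ hL
  have hop : coh_opP p P = 0 := hspan P hP
  have h2 : ∀ γ : Gamma0 p, ∃ k : ℤ,
      ((MvPolynomial.aeval (eisensteinSystem p) P : ℤ) : ℂ) *
        coh_chi p hF (Additive.ofMul γ) = ((p : ℂ) - 1) * k := by
    intro γ
    obtain ⟨k, hk⟩ := h1 γ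
    refine ⟨k, ?_⟩
    rw [hop] at hk
    simp only [LinearMap.zero_apply] at hk
    have e0 : ((0 : CuspForm (Gamma0 p) 2), (0 : CuspForm (Gamma0 p) 2)) = 0 := rfl
    rw [e0, map_zero, AddMonoidHom.zero_apply, zero_add] at hk
    rw [← hk]
    field_simp
  have hmain := coh_arith p hp2 (MvPolynomial.aeval (eisensteinSystem p) P) (fun m hm hk => by
    have hm1 : m ∣ p - 1 := by
      have h3 := hk ((p : ℤ) - 1) (Dvd.intro_left _ rfl)
      have h4 : ((p - 1 : ℕ) : ℤ) = (p : ℤ) - 1 := by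
        rw [Nat.cast_sub (by omega)]
        simp
      rw [← h4] at h3
      exact_mod_cast h3
    have hm12 : m ∣ 12 := by
      refine hcont F hF m hm fun γ z => ?_
      obtain ⟨k, hk1⟩ := hint F hF γ z
      obtain ⟨k', hk'⟩ := h2 γ
      rw [coh_chi_apply p hF γ z, hk1] at hk'
      have h5 : (MvPolynomial.aeval (eisensteinSystem p) P : ℤ) * k = ((p : ℤ) - 1) * k' := by
        exact_mod_cast hk'
      obtain ⟨k'', hk''⟩ := hk k ⟨k', h5⟩
      refine ⟨k'', ?_⟩
      rw [hk1, hk'']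
      push_cast
      ring
    exact Nat.dvd_gcd hm1 hm12)
  exact hmain

end Fermat.Agent.S16
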