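import Mathlib
import Fermat.Agent.S16.CohDefs
import Fermat.Agent.S21
import Fermat.Agent.S23

/-!
# S16, route [COH]: the inputs (SPAN) and (ES) from S23 and S21
-/

set_option autoImplicit false

noncomputable section

namespace Fermat.Agent.S16

open UpperHalfPlane CongruenceSubgroup ModularCurve ModularCurve.Period CuspForm
open scoped MatrixGroups

/-- (SPAN) from the integral structure (S23). -/
theorem coh_span (p : ℕ) [Fact p.Prime] : coh_SpanStatement p := by
  intro P hP
  have hint : HasIntegralStructure p 2 := Fermat.Agent.S23.result p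
  have h1 : latticeRestrictHom p ∅ (heckeEvalForms p 2 P) = 0 := hP
  have h2 : heckeEvalForms p 2 P = 0 :=
    (latticeRestrictHom_bijective p ∅ hint).1 (h1.trans (map_zero _).symm)
  rw [h2]
  rfl

/-- (ES) from Eichler–Shimura (S21). -/
theorem coh_es (p : ℕ) [NeZero p] : coh_ESStatement p := by
  intro φ hφ
  have h := (Fermat.Agent.S21.result p).2
  rw [← h] at hφ
  obtain ⟨⟨f, g⟩, hfg⟩ := hφ
  exact ⟨f, g, hfg⟩

end Fermat.Agent.S16
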