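/-
S16, route [COH], package (PAR-Φ): the Eisenstein periods of the parabolic elements
`g T^k g⁻¹ ∈ Γ₀(p)`.

* `cohPar_tendsto_E2`    : `E₂ → 1` at `i∞`;
* `cohPar_tendsto_slash` : every translate `E ∣[2] g` of the Eisenstein series of level `N` has
                           the limit `A / D - 1` at `i∞` (`A = gcd (N, c)`, `A D = N`);
* `cohPar_const_eq`      : a primitive of a function with limit `c₀` at `i∞` whose increment under
                           `T ^ k` is a constant `c` has `c = k c₀` (FTC on a horizontal segment);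
* `cohPar_statement`     : `coh_ParStatement p` for every prime `p`.
-/
import Fermat.Agent.S16.CohDefs

set_option autoImplicit false

noncomputable section

namespace Fermat.Agent.S16

open UpperHalfPlane CongruenceSubgroup Filter Function
open EisensteinSeries
open Fermat.Agent.S21
open Fermat.Agent.S22 (IsMF IsNice G0 G1)
open scoped MatrixGroups ModularForm Topology

/-- `E₂ → 1` at `i∞`. -/
theorem cohPar_tendsto_E2 : Tendsto E2 atImInfty (𝓝 1) := by
  have hn := s16e_E2_isNice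
  have han := hn.analyticAt
  have h1 : Tendsto (fun τ : ℍ => cuspFunction 1 E2 (Function.Periodic.qParam 1 (τ : ℂ)))
      atImInfty (𝓝 (cuspFunction 1 E2 0)) :=
    han.continuousAt.tendsto.comp (qParam_tendsto_atImInfty one_pos)
  have h2 : cuspFunction 1 E2 0 = 1 := by
    have h3 := s16e_E2_coeff 0
    rw [qExpansion_coeff] at h3
    simpa using h3
  rw [h2] at h1
  refine h1.congr (fun τ => ?_)
  exact eq_cuspFunction τ one_ne_zero hn.per

/-- `z ↦ (A z + B) / D` tends to `i∞` at `i∞`. -/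
theorem cohPar_tendsto_affine (A D : ℕ) (B : ℤ) (hA : 0 < A) (hD : 0 < D) :
    Tendsto (fun z : ℍ => ofComplex (((A : ℂ) * z + B) / D)) atImInfty atImInfty := by
  have hAr : (0 : ℝ) < A := by exact_mod_cast hA
  have hDr : (0 : ℝ) < D := by exact_mod_cast hD
  rw [Filter.tendsto_def]
  intro S hS
  obtain ⟨Y, hY⟩ := (atImInfty_mem S).mp hS
  rw [atImInfty_mem]
  refine ⟨max Y 0 * D / A, fun z hz => ?_⟩
  have hw : 0 < ((((A : ℤ) : ℂ) * (z : ℂ) + (B : ℂ)) / ((D : ℤ) : ℂ)).im :=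
    s16e_im_pos B (by exact_mod_cast hA) (by exact_mod_cast hD) z
  have hcoe : (((A : ℂ) * (z : ℂ) + (B : ℂ)) / (D : ℂ)) =
      ((((A : ℤ) : ℂ) * (z : ℂ) + (B : ℂ)) / ((D : ℤ) : ℂ)) := by push_cast; rfl
  show ofComplex (((A : ℂ) * z + B) / D) ∈ S
  rw [hcoe, ofComplex_apply_of_im_pos hw]
  apply hY
  show Y ≤ ((((A : ℤ) : ℂ) * (z : ℂ) + (B : ℂ)) / ((D : ℤ) : ℂ)).im
  have h1 : ((((A : ℤ) : ℂ) * (z : ℂ) + (B : ℂ)) / ((D : ℤ) : ℂ)) =
      ((((A : ℝ) : ℂ) * (z : ℂ) + ((B : ℝ) : ℂ)) / ((D : ℝ) : ℂ)) := by push_cast; rfl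
  have h2 : ((((A : ℝ) : ℂ) * (z : ℂ) + ((B : ℝ) : ℂ)) / ((D : ℝ) : ℂ)).im =
      (A : ℝ) * z.im / D := by
    rw [Complex.div_ofReal_im]
    simp
  rw [h1, h2, le_div_iff₀ hDr]
  have h3 : max Y 0 * D ≤ z.im * A := by
    rw [div_le_iff₀ hAr] at hz
    exact hz
  have h4 : Y * D ≤ max Y 0 * D := mul_le_mul_of_nonneg_right (le_max_left _ _) hDr.le
  linarith

/-- The limit at `i∞` of every `SL(2,ℤ)`-translate of the Eisenstein series of level `N`. -/
theorem cohPar_tendsto_slash (N : ℕ) (hN : 0 < N) (g : SL(2, ℤ)) :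
    ∃ A D : ℕ, 0 < A ∧ 0 < D ∧ A * D = N ∧ A = Int.gcd N (g 1 0) ∧
      Tendsto (s16e_fun N ∣[(2 : ℤ)] g) atImInfty (𝓝 ((A : ℂ) / D - 1)) := by
  obtain ⟨A, D, B, hA, hD, hAD, hAg, -, -, h⟩ := s16e_slash N hN g
  refine ⟨A, D, hA, hD, hAD, hAg, ?_⟩
  have hfun : s16e_fun N ∣[(2 : ℤ)] g =
      fun z : ℍ => (A : ℂ) / D * E2 (ofComplex (((A : ℂ) * z + B) / D)) - E2 z := by
    funext z
    rw [h z]
  rw [hfun]
  have h1 : Tendsto (fun z : ℍ => E2 (ofComplex (((A : ℂ) * z + B) / D))) atImInfty (𝓝 1) :=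
    cohPar_tendsto_E2.comp (cohPar_tendsto_affine A D B hA hD)
  have h2 := (h1.const_mul ((A : ℂ) / D)).sub cohPar_tendsto_E2
  simpa using h2

/-- A primitive of a function with limit `c₀` at `i∞` whose increment under `T ^ k` is a
constant `c`: then `c = k c₀`. -/
theorem cohPar_const_eq {G h : ℍ → ℂ} (hG : IsPrimOf G h) {c₀ : ℂ}
    (hlim : Tendsto h atImInfty (𝓝 c₀)) (k : ℤ) (c : ℂ)
    (hc : ∀ w : ℍ, G (ModularGroup.T ^ k • w) - G w = c) : c = k * c₀ := by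
  have hU : IsOpen {w : ℂ | 0 < w.im} := prim_isOpen_upper
  have hd : DifferentiableOn ℂ (G ∘ ofComplex) {w : ℂ | 0 < w.im} := fun x hx =>
    (hG ⟨x, hx⟩).differentiableAt.differentiableWithinAt
  have hderiv : ∀ x : ℂ, ∀ hx : 0 < x.im, deriv (G ∘ ofComplex) x = h ⟨x, hx⟩ := fun x hx =>
    (hG ⟨x, hx⟩).deriv
  have hcont : ContinuousOn (deriv (G ∘ ofComplex)) {w : ℂ | 0 < w.im} :=
    (hd.deriv hU).continuousOn
  -- it suffices to bound the difference by `ε |k|` for every `ε > 0`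
  by_contra hne
  have hpos : 0 < ‖c - k * c₀‖ := norm_pos_iff.mpr (sub_ne_zero.mpr hne)
  have hk0 : (k : ℝ) ≠ 0 := by
    intro hk
    have hk' : k = 0 := by exact_mod_cast hk
    have := hc UpperHalfPlane.I
    rw [hk'] at this hne
    simp at this hne
    exact hne this.symm
  have hkpos : 0 < |(k : ℝ)| := abs_pos.mpr hk0
  set ε : ℝ := ‖c - k * c₀‖ / (2 * |(k : ℝ)|) with hε
  have hεpos : 0 < ε := by positivity
  obtain ⟨Y, hY⟩ : ∃ Y : ℝ, ∀ w : ℍ, Y ≤ w.im → ‖h w - c₀‖ ≤ ε := by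
    have := (Metric.tendsto_nhds.mp hlim) ε hεpos
    obtain ⟨Y, hY⟩ := (atImInfty_mem _).mp this
    refine ⟨Y, fun w hw => ?_⟩
    have h1 : dist (h w) c₀ < ε := hY w hw
    rw [dist_eq_norm] at h1
    exact h1.le
  -- the base point
  have hy : 0 < max Y 1 := lt_of_lt_of_le one_pos (le_max_right _ _)
  set w₀ : ℂ := Complex.I * (max Y 1 : ℝ) with hw₀
  have him : ∀ t : ℝ, (w₀ + t).im = max Y 1 := by
    intro t
    simp [hw₀]
  have himpos : ∀ t : ℝ, 0 < (w₀ + t).im := fun t => by rw [him t]; exact hy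
  -- FTC
  have hFTC : ∫ t in (0 : ℝ)..(k : ℝ), deriv (G ∘ ofComplex) (w₀ + t) =
      (G ∘ ofComplex) (w₀ + (k : ℝ)) - (G ∘ ofComplex) (w₀ + (0 : ℝ)) := by
    refine intervalIntegral.integral_eq_sub_of_hasDerivAt (f := fun t : ℝ =>
      (G ∘ ofComplex) (w₀ + t)) (fun t _ => ?_) ?_
    · have h1 : HasDerivAt (G ∘ ofComplex) (deriv (G ∘ ofComplex) (w₀ + t)) (w₀ + (t : ℂ)) :=
        ((hd (w₀ + t) (himpos t)).differentiableAt (hU.mem_nhds (himpos t))).hasDerivAt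
      have h2 : HasDerivAt (fun x : ℂ => w₀ + x) 1 (t : ℂ) := by
        simpa using (hasDerivAt_id (t : ℂ)).const_add w₀
      have h3 := (h1.comp (t : ℂ) h2).comp_ofReal
      simpa using h3
    · apply Continuous.intervalIntegrable
      refine hcont.comp_continuous (by fun_prop) (fun t => himpos t)
  have hconst : ∫ _t in (0 : ℝ)..(k : ℝ), c₀ = k * c₀ := by
    rw [intervalIntegral.integral_const]
    simp
  have hval : (G ∘ ofComplex) (w₀ + (k : ℝ)) - (G ∘ ofComplex) (w₀ + (0 : ℝ)) = c := by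
    have h0 : 0 < w₀.im := by simpa using himpos 0
    have e1 : ofComplex (w₀ + ((0 : ℝ) : ℂ)) = ⟨w₀, h0⟩ := by
      simp [ofComplex_apply_of_im_pos h0]
    have e2 : ofComplex (w₀ + ((k : ℝ) : ℂ)) = ModularGroup.T ^ k • (⟨w₀, h0⟩ : ℍ) := by
      rw [ofComplex_apply_of_im_pos (himpos k)]
      ext
      rw [ModularGroup.coe_T_zpow_smul_eq]
      simp
    simp only [comp_apply, e1, e2]
    exact hc _
  have hint : IntervalIntegrable (fun t : ℝ => deriv (G ∘ ofComplex) (w₀ + t))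
      MeasureTheory.volume (0 : ℝ) (k : ℝ) := by
    apply Continuous.intervalIntegrable
    exact hcont.comp_continuous (by fun_prop) (fun t => himpos t)
  have hsub : c - k * c₀ = ∫ t in (0 : ℝ)..(k : ℝ), (deriv (G ∘ ofComplex) (w₀ + t) - c₀) := by
    rw [intervalIntegral.integral_sub hint intervalIntegrable_const, hFTC, hval, hconst]
  have hbound : ‖c - k * c₀‖ ≤ ε * |(k : ℝ) - 0| := by
    rw [hsub]
    refine intervalIntegral.norm_integral_le_of_norm_le_const (fun t _ => ?_)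
    rw [hderiv (w₀ + t) (himpos t)]
    apply hY
    show Y ≤ (w₀ + t).im
    rw [him t]
    exact le_max_left _ _
  rw [sub_zero, hε] at hbound
  have : ‖c - k * c₀‖ / (2 * |(k : ℝ)|) * |(k : ℝ)| = ‖c - k * c₀‖ / 2 := by
    field_simp
  rw [this] at hbound
  linarith

/-- The lower left entry of `g T^k g⁻¹` is `-k c²`. -/
theorem cohPar_entry (g : SL(2, ℤ)) (k : ℤ) :
    (g * ModularGroup.T ^ k * g⁻¹) 1 0 = -(k * (g 1 0) ^ 2) := by
  have hT : (ModularGroup.T ^ k : SL(2, ℤ)).1 = !![1, k; 0, 1] := ModularGroup.coe_T_zpow k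
  have hinv : (g⁻¹ : SL(2, ℤ)).1 = !![g 1 1, -g 0 1; -g 1 0, g 0 0] := by
    rw [Matrix.SpecialLinearGroup.coe_inv, Matrix.adjugate_fin_two]
  have hmul : (g * ModularGroup.T ^ k * g⁻¹ : SL(2, ℤ)).1 =
      g.1 * (ModularGroup.T ^ k : SL(2, ℤ)).1 * (g⁻¹ : SL(2, ℤ)).1 := by
    simp [Matrix.SpecialLinearGroup.coe_mul]
  show (g * ModularGroup.T ^ k * g⁻¹ : SL(2, ℤ)).1 1 0 = _
  rw [hmul, hT, hinv]
  simp [Matrix.mul_apply, Fin.sum_univ_two]
  ring

/-- If `g T^k g⁻¹ ∈ Γ₀(p)` and `p ∤ c` then `p ∣ k`. -/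
theorem cohPar_dvd {p : ℕ} (hp : p.Prime) (g : SL(2, ℤ)) (k : ℤ)
    (hγ : g * ModularGroup.T ^ k * g⁻¹ ∈ Gamma0 p) (hpc : ¬ (p : ℤ) ∣ g 1 0) : (p : ℤ) ∣ k := by
  have h1 : (p : ℤ) ∣ (g * ModularGroup.T ^ k * g⁻¹) 1 0 :=
    (ZMod.intCast_zmod_eq_zero_iff_dvd _ p).1 (Gamma0_mem.1 hγ)
  rw [cohPar_entry, dvd_neg] at h1
  have hp' : Prime (p : ℤ) := Nat.prime_iff_prime_int.mp hp
  rcases hp'.dvd_or_dvd h1 with h | h
  · exact h
  · exact absurd (hp'.dvd_of_dvd_pow h) hpc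

/-- **(PAR-Φ)**: the Eisenstein periods of the parabolic elements `g T^k g⁻¹` of `Γ₀(p)`. -/
theorem cohPar_statement (p : ℕ) (hp : p.Prime) : coh_ParStatement p := by
  intro F hF g k hγ z
  have hp0 : 0 < p := hp.pos
  set γ : SL(2, ℤ) := g * ModularGroup.T ^ k * g⁻¹ with hγdef
  -- the period of `γ` does not depend on the base point
  have hinv : s16e_fun p ∣[(2 : ℤ)] γ = s16e_fun p := s16e_slash_gamma0 p hp0 γ hγ
  have hFγ : IsPrimOf (fun w : ℍ => F (γ • w)) (s16e_fun p) := by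
    have := hF.comp_smul γ
    rwa [hinv] at this
  have hconst : ∀ z₁ z₂ : ℍ, F (γ • z₁) - F z₁ = F (γ • z₂) - F z₂ := fun z₁ z₂ =>
    prim_sub_const hFγ hF z₁ z₂
  -- transport to `g`
  have hG : IsPrimOf (fun w : ℍ => F (g • w)) (s16e_fun p ∣[(2 : ℤ)] g) := hF.comp_smul g
  have hc : ∀ w : ℍ, (fun w : ℍ => F (g • w)) (ModularGroup.T ^ k • w) -
      (fun w : ℍ => F (g • w)) w = F (γ • z) - F z := by
    intro w
    have e : g • (ModularGroup.T ^ k • w) = γ • (g • w) := by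
      rw [hγdef, ← mul_smul, ← mul_smul]
      congr 1
      group
    show F (g • (ModularGroup.T ^ k • w)) - F (g • w) = _
    rw [e]
    exact hconst _ _
  obtain ⟨A, D, hA, hD, hAD, hAg, hlim⟩ := cohPar_tendsto_slash p hp0 g
  have hval := cohPar_const_eq hG hlim k _ hc
  rw [hval]
  by_cases hpc : (p : ℤ) ∣ g 1 0
  · -- `A = p`, `D = 1`
    have hAp : A = p := by
      rw [hAg]
      have := Int.gcd_eq_natAbs_left_iff_dvd.mpr hpc
      simpa using this
    have hD1 : D = 1 := by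
      rw [hAp] at hAD
      exact Nat.eq_of_mul_eq_mul_left hp0 (by rw [hAD, mul_one])
    rw [if_pos hpc, hAp, hD1]
    push_cast
    ring
  · -- `A = 1`, `D = p`
    have hA1 : A = 1 := by
      rw [hAg]
      have hcop : IsCoprime (p : ℤ) (g 1 0) :=
        ((Nat.prime_iff_prime_int.mp hp).coprime_iff_not_dvd).mpr hpc
      exact Int.isCoprime_iff_gcd_eq_one.mp hcop
    have hDp : D = p := by
      rw [hA1, one_mul] at hAD
      exact hAD
    obtain ⟨k', rfl⟩ := cohPar_dvd hp g k hγ hpc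
    have hpne : (p : ℂ) ≠ 0 := by exact_mod_cast hp.ne_zero
    have hpz : (p : ℤ) ≠ 0 := by exact_mod_cast hp.ne_zero
    rw [if_neg hpc, hA1, hDp, Int.mul_ediv_cancel_left _ hpz]
    push_cast
    field_simp
    ring

end Fermat.Agent.S16
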