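/-
S16, route [COH], package [PSI], part 2 (helper8): the crossing number with the `Γ₀(N)`-orbit of
the Farey edge `(0 → ∞)` and the homomorphism `psi16_hom N : Γ₀(N) → ℤ`.

`psi16_cross N z₀ z₁ = ∑ over γ ∈ Γ₀(N) of (side γ z₁ - side γ z₀)` (a finite sum); it is additive
in the pair of points, `Γ₀(N)`-invariant and even (`γ` and `-γ` give the same edge).  Hence
`δ ↦ psi16_cross N z (δ • z) / 2` is a homomorphism, independent of the base point `z`.
-/
import Fermat.Agent.S16.PsiSide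

set_option autoImplicit false

open scoped MatrixGroups
open UpperHalfPlane Matrix CongruenceSubgroup

namespace Fermat.Agent.S16

/-- the summand of the crossing number -/
noncomputable def psi16_term (z₀ z₁ : ℍ) (g : SL(2, ℤ)) : ℤ :=
  psi16_side g z₁ - psi16_side g z₀

theorem psi16_term_add (z₀ z₁ z₂ : ℍ) (g : SL(2, ℤ)) :
    psi16_term z₀ z₂ g = psi16_term z₀ z₁ g + psi16_term z₁ z₂ g := by
  unfold psi16_term; ring

theorem psi16_term_self (z : ℍ) (g : SL(2, ℤ)) : psi16_term z z g = 0 := by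
  unfold psi16_term; ring

theorem psi16_term_smul (h g : SL(2, ℤ)) (z₀ z₁ : ℍ) :
    psi16_term (h • z₀) (h • z₁) g = psi16_term z₀ z₁ (h⁻¹ * g) := by
  unfold psi16_term
  rw [psi16_side_inv_mul, psi16_side_inv_mul]

theorem psi16_term_neg (z₀ z₁ : ℍ) (g : SL(2, ℤ)) :
    psi16_term z₀ z₁ (-g) = psi16_term z₀ z₁ g := by
  unfold psi16_term
  rw [psi16_side_neg, psi16_side_neg]

theorem psi16_term_hasFiniteSupport (z₀ z₁ : ℍ) :
    Function.HasFiniteSupport (psi16_term z₀ z₁) :=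
  psi16_side_sub_finite z₀ z₁

theorem psi16_term_hasFiniteSupport' (N : ℕ) (z₀ z₁ : ℍ) :
    Function.HasFiniteSupport (fun γ : Gamma0 N => psi16_term z₀ z₁ (γ : SL(2, ℤ))) :=
  (psi16_term_hasFiniteSupport z₀ z₁).comp_of_injective Subtype.val_injective

/-- the crossing number of the pair `(z₀, z₁)` with the `Γ₀(N)`-orbit of the edge `(0 → ∞)`,
each edge counted twice -/
noncomputable def psi16_cross (N : ℕ) (z₀ z₁ : ℍ) : ℤ :=
  ∑ᶠ γ : Gamma0 N, psi16_term z₀ z₁ (γ : SL(2, ℤ))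

theorem psi16_cross_add (N : ℕ) (z₀ z₁ z₂ : ℍ) :
    psi16_cross N z₀ z₂ = psi16_cross N z₀ z₁ + psi16_cross N z₁ z₂ := by
  unfold psi16_cross
  rw [← finsum_add_distrib (psi16_term_hasFiniteSupport' N z₀ z₁)
    (psi16_term_hasFiniteSupport' N z₁ z₂)]
  exact finsum_congr fun γ => psi16_term_add z₀ z₁ z₂ _

theorem psi16_cross_self (N : ℕ) (z : ℍ) : psi16_cross N z z = 0 := by
  unfold psi16_cross
  simp only [psi16_term_self]
  exact finsum_zero

theorem psi16_cross_symm (N : ℕ) (z₀ z₁ : ℍ) :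
    psi16_cross N z₁ z₀ = - psi16_cross N z₀ z₁ := by
  have h := psi16_cross_add N z₀ z₁ z₀
  rw [psi16_cross_self] at h
  linarith

theorem psi16_cross_smul (N : ℕ) (δ : SL(2, ℤ)) (hδ : δ ∈ Gamma0 N) (z₀ z₁ : ℍ) :
    psi16_cross N (δ • z₀) (δ • z₁) = psi16_cross N z₀ z₁ := by
  unfold psi16_cross
  let δ' : Gamma0 N := ⟨δ, hδ⟩
  rw [← finsum_comp_equiv (Equiv.mulLeft δ'⁻¹)
    (f := fun γ : Gamma0 N => psi16_term z₀ z₁ (γ : SL(2, ℤ)))]
  refine finsum_congr fun γ => ?_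
  rw [psi16_term_smul]
  rfl

theorem psi16_neg_ne (g : SL(2, ℤ)) : -g ≠ g := by
  intro h
  have hdet := psi16_det g
  have e : ∀ i j, g i j = 0 := by
    intro i j
    have h1 : (-g) i j = g i j := by rw [h]
    have h2 : (-g) i j = -(g i j) := by
      simp
    rw [h2] at h1
    omega
  rw [e 0 0, e 0 1] at hdet
  simp at hdet

theorem psi16_neg_mem (N : ℕ) (g : SL(2, ℤ)) (hg : g ∈ Gamma0 N) : -g ∈ Gamma0 N := by
  rw [Gamma0_mem] at hg ⊢
  have : (-g) 1 0 = -(g 1 0) := by simp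
  rw [this]
  push_cast
  rw [hg, neg_zero]

/-- the crossing number is even -/
theorem psi16_cross_even (N : ℕ) (z₀ z₁ : ℍ) : (2 : ℤ) ∣ psi16_cross N z₀ z₁ := by
  classical
  unfold psi16_cross
  have hfin := psi16_term_hasFiniteSupport' N z₀ z₁
  rw [finsum_eq_sum _ hfin]
  suffices h : ((∑ i ∈ Set.Finite.toFinset hfin, psi16_term z₀ z₁ (i : SL(2, ℤ)) : ℤ) : ZMod 2)
      = 0 by
    have := (ZMod.intCast_zmod_eq_zero_iff_dvd _ 2).mp h
    exact_mod_cast this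
  push_cast
  let neg' : Gamma0 N → Gamma0 N := fun γ => ⟨-(γ : SL(2, ℤ)), psi16_neg_mem N _ γ.2⟩
  refine Finset.sum_involution (fun γ _ => neg' γ) ?_ ?_ ?_ ?_
  · intro γ _
    have : psi16_term z₀ z₁ ((neg' γ : Gamma0 N) : SL(2, ℤ)) = psi16_term z₀ z₁ (γ : SL(2, ℤ)) :=
      psi16_term_neg z₀ z₁ _
    rw [this]
    have h2 : (2 : ZMod 2) = 0 := rfl
    calc ((psi16_term z₀ z₁ (γ : SL(2, ℤ)) : ℤ) : ZMod 2) + (psi16_term z₀ z₁ (γ : SL(2, ℤ)) : ℤ)
        = 2 * ((psi16_term z₀ z₁ (γ : SL(2, ℤ)) : ℤ) : ZMod 2) := by ring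
      _ = 0 := by rw [h2, zero_mul]
  · intro γ _ _ h
    have : ((neg' γ : Gamma0 N) : SL(2, ℤ)) = (γ : SL(2, ℤ)) := congrArg Subtype.val h
    exact psi16_neg_ne _ this
  · intro γ hγ
    rw [Set.Finite.mem_toFinset, Function.mem_support] at hγ ⊢
    have : psi16_term z₀ z₁ ((neg' γ : Gamma0 N) : SL(2, ℤ)) = psi16_term z₀ z₁ (γ : SL(2, ℤ)) :=
      psi16_term_neg z₀ z₁ _
    rw [this]
    exact hγ
  · intro γ _
    apply Subtype.ext
    show -(-(γ : SL(2, ℤ))) = γ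
    exact neg_neg _

/-- base point independence -/
theorem psi16_cross_base (N : ℕ) (δ : SL(2, ℤ)) (hδ : δ ∈ Gamma0 N) (z w : ℍ) :
    psi16_cross N z (δ • z) = psi16_cross N w (δ • w) := by
  have h1 := psi16_cross_add N z w (δ • z)
  have h2 := psi16_cross_add N w (δ • w) (δ • z)
  have h3 := psi16_cross_smul N δ hδ w z
  have h4 := psi16_cross_symm N z w
  rw [h1, h2, h3, h4]
  ring

/-- twice the homomorphism -/
theorem psi16_cross_mul (N : ℕ) (δ δ' : SL(2, ℤ)) (hδ : δ ∈ Gamma0 N) (z : ℍ) :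
    psi16_cross N z ((δ * δ') • z) = psi16_cross N z (δ • z) + psi16_cross N z (δ' • z) := by
  rw [psi16_cross_add N z (δ • z) ((δ * δ') • z), mul_smul, psi16_cross_smul N δ hδ]

/-- the crossing-number homomorphism `Γ₀(N) → ℤ` -/
noncomputable def psi16_hom (N : ℕ) : Additive (Gamma0 N) →+ ℤ where
  toFun γ := psi16_cross N UpperHalfPlane.I (((Additive.toMul γ : Gamma0 N) : SL(2, ℤ)) •
    UpperHalfPlane.I) / 2
  map_zero' := by
    show psi16_cross N UpperHalfPlane.I (((1 : Gamma0 N) : SL(2, ℤ)) • UpperHalfPlane.I) / 2 = 0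
    rw [Subgroup.coe_one, one_smul, psi16_cross_self]
    rfl
  map_add' := by
    intro x y
    show psi16_cross N UpperHalfPlane.I
        ((((Additive.toMul x * Additive.toMul y : Gamma0 N)) : SL(2, ℤ)) • UpperHalfPlane.I) / 2 =
      psi16_cross N UpperHalfPlane.I (((Additive.toMul x : Gamma0 N) : SL(2, ℤ)) •
        UpperHalfPlane.I) / 2 +
      psi16_cross N UpperHalfPlane.I (((Additive.toMul y : Gamma0 N) : SL(2, ℤ)) •
        UpperHalfPlane.I) / 2
    rw [Subgroup.coe_mul, psi16_cross_mul N _ _ (Additive.toMul x).2]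
    obtain ⟨a, ha⟩ := psi16_cross_even N UpperHalfPlane.I
      (((Additive.toMul x : Gamma0 N) : SL(2, ℤ)) • UpperHalfPlane.I)
    obtain ⟨b, hb⟩ := psi16_cross_even N UpperHalfPlane.I
      (((Additive.toMul y : Gamma0 N) : SL(2, ℤ)) • UpperHalfPlane.I)
    rw [ha, hb]
    omega

theorem psi16_two_mul_hom (N : ℕ) (γ : SL(2, ℤ)) (hγ : γ ∈ Gamma0 N) (z : ℍ) :
    2 * psi16_hom N (Additive.ofMul ⟨γ, hγ⟩) = psi16_cross N z (γ • z) := by
  rw [psi16_cross_base N γ hγ z UpperHalfPlane.I]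
  show 2 * (psi16_cross N UpperHalfPlane.I (γ • UpperHalfPlane.I) / 2) = _
  obtain ⟨a, ha⟩ := psi16_cross_even N UpperHalfPlane.I (γ • UpperHalfPlane.I)
  rw [ha]
  omega

end Fermat.Agent.S16
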