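/-
S16, route [COH], package [PSI], part 3 (helper8): the one-step lemma.

The crossing number of `(h • i, h • (i + 1))` with the `Γ₀(N)`-orbit of the edge `(0 → ∞)` is
`2 [h ∈ Γ₀(N)] - 2 [h T S ∈ Γ₀(N)]`: among all Farey edges only `±1 (0 → ∞)` (the line `x = 0`...
counted `+1`) and `± T S (0 → ∞)` (the line `x = 1`, reversed, counted `-1`) separate `i` from
`i + 1`.
-/
import Fermat.Agent.S16.PsiHom

set_option autoImplicit false

open scoped MatrixGroups
open UpperHalfPlane Matrix CongruenceSubgroup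

namespace Fermat.Agent.S16


/-- the inverse of `T * S`, explicitly -/
def psi16_U' : SL(2, ℤ) := ⟨!![0, 1; -1, 1], by simp [Matrix.det_fin_two]⟩

theorem psi16_U'_mul : psi16_U' * (ModularGroup.T * ModularGroup.S) = 1 := by
  decide

theorem psi16_U'_eq : psi16_U' = (ModularGroup.T * ModularGroup.S)⁻¹ := by
  symm
  exact inv_eq_of_mul_eq_one_left psi16_U'_mul

@[simp] theorem psi16_U'_00 : psi16_U' 0 0 = 0 := rfl
@[simp] theorem psi16_U'_01 : psi16_U' 0 1 = 1 := rfl
@[simp] theorem psi16_U'_10 : psi16_U' 1 0 = -1 := rfl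
@[simp] theorem psi16_U'_11 : psi16_U' 1 1 = 1 := rfl

theorem psi16_ext (g h : SL(2, ℤ)) (h00 : g 0 0 = h 0 0) (h01 : g 0 1 = h 0 1)
    (h10 : g 1 0 = h 1 0) (h11 : g 1 1 = h 1 1) : g = h := by
  ext i j
  fin_cases i <;> fin_cases j
  · exact h00
  · exact h01
  · exact h10
  · exact h11

theorem psi16_P_I (g : SL(2, ℤ)) :
    psi16_P g UpperHalfPlane.I = ((g 0 1 * g 1 1 + g 0 0 * g 1 0 : ℤ) : ℝ) := by
  unfold psi16_P
  simp [UpperHalfPlane.I_re, UpperHalfPlane.I_im]

theorem psi16_TI_re : (ModularGroup.T • UpperHalfPlane.I).re = 1 := by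
  rw [UpperHalfPlane.modular_T_smul, UpperHalfPlane.vadd_re, UpperHalfPlane.I_re, add_zero]

theorem psi16_TI_im : (ModularGroup.T • UpperHalfPlane.I).im = 1 := by
  rw [UpperHalfPlane.modular_T_smul, UpperHalfPlane.vadd_im, UpperHalfPlane.I_im]

theorem psi16_P_TI (g : SL(2, ℤ)) :
    psi16_P g (ModularGroup.T • UpperHalfPlane.I) =
      (((g 0 0 + g 0 1) * (g 1 0 + g 1 1) + g 0 0 * g 1 0 : ℤ) : ℝ) := by
  unfold psi16_P
  rw [psi16_TI_re, psi16_TI_im]
  push_cast
  ring

/-- Lemma A: the one-step crossing term, in terms of `g' = g⁻¹` -/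
theorem psi16_stepA (g : SL(2, ℤ)) :
    ((if 0 < psi16_P g (ModularGroup.T • UpperHalfPlane.I) then (1 : ℤ) else 0)
      - (if 0 < psi16_P g UpperHalfPlane.I then 1 else 0))
    = (if g = 1 ∨ g = -1 then 1 else 0) - (if g = psi16_U' ∨ g = -psi16_U' then 1 else 0) := by
  have hdet := psi16_det g
  by_cases ha : g 0 0 = 0
  · -- a = 0
    have hbc : g 0 1 * g 1 0 = -1 := by rw [ha] at hdet; linarith
    have hb : g 0 1 = 1 ∨ g 0 1 = -1 := by
      rcases Int.isUnit_iff.mp (IsUnit.of_mul_eq_one (-(g 1 0))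
        (by rw [mul_neg, hbc, neg_neg])) with h | h
      · exact Or.inl h
      · exact Or.inr h
    have h1 : ¬ (g = 1 ∨ g = -1) := by
      rintro (h | h)
      · have : g 0 0 = 1 := by rw [h]; simp
        omega
      · have : g 0 0 = -1 := by rw [h]; simp
        omega
    rw [if_neg h1, psi16_P_I, psi16_P_TI]
    simp only [Int.cast_pos]
    rw [ha]
    by_cases hbd : g 0 1 * g 1 1 = 1
    · have h2 : g = psi16_U' ∨ g = -psi16_U' := by
        rcases hb with hb | hb
        · left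
          apply psi16_ext <;> simp [ha, hb]
          · rw [hb] at hbc; linarith
          · rw [hb] at hbd; linarith
        · right
          apply psi16_ext <;> simp [ha, hb]
          · rw [hb] at hbc; linarith
          · rw [hb] at hbd; linarith
      rw [if_pos h2]
      have e1 : ¬ (0 < (0 + g 0 1) * (g 1 0 + g 1 1) + 0 * g 1 0) := by nlinarith
      have e2 : 0 < g 0 1 * g 1 1 + 0 * g 1 0 := by nlinarith
      rw [if_neg e1, if_pos e2]
    · have h2 : ¬ (g = psi16_U' ∨ g = -psi16_U') := by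
        rintro (h | h)
        · apply hbd; rw [h]; simp
        · apply hbd; rw [h]; simp
      rw [if_neg h2]
      have e : (0 < (0 + g 0 1) * (g 1 0 + g 1 1) + 0 * g 1 0) ↔
          (0 < g 0 1 * g 1 1 + 0 * g 1 0) := by
        have e3 : (0 + g 0 1) * (g 1 0 + g 1 1) + 0 * g 1 0 = g 0 1 * g 1 1 - 1 := by
          linear_combination hbc
        rw [e3]
        constructor
        · intro h; omega
        · intro h
          have : g 0 1 * g 1 1 ≠ 1 := hbd
          omega
      by_cases e0 : 0 < g 0 1 * g 1 1 + 0 * g 1 0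
      · rw [if_pos e0, if_pos (e.mpr e0)]; norm_num
      · rw [if_neg e0, if_neg (fun h => e0 (e.mp h))]
  by_cases hc : g 1 0 = 0
  · -- c = 0
    have had : g 0 0 * g 1 1 = 1 := by rw [hc] at hdet; linarith
    have hd : g 1 1 = 1 ∨ g 1 1 = -1 := by
      rcases Int.isUnit_iff.mp (IsUnit.of_mul_eq_one (g 0 0)
        (by rw [mul_comm]; exact had)) with h | h
      · exact Or.inl h
      · exact Or.inr h
    have h2 : ¬ (g = psi16_U' ∨ g = -psi16_U') := by
      rintro (h | h)
      · have : g 1 0 = -1 := by rw [h]; simp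
        omega
      · have : g 1 0 = 1 := by rw [h]; simp
        omega
    rw [if_neg h2, psi16_P_I, psi16_P_TI]
    simp only [Int.cast_pos]
    rw [hc]
    by_cases hb : g 0 1 = 0
    · have h1 : g = 1 ∨ g = -1 := by
        rcases hd with hd | hd
        · left
          apply psi16_ext <;> simp [hb, hc, hd]
          rw [hd] at had; linarith
        · right
          apply psi16_ext <;> simp [hb, hc, hd]
          rw [hd] at had; linarith
      rw [if_pos h1, hb]
      have e1 : 0 < (g 0 0 + 0) * (0 + g 1 1) + g 0 0 * 0 := by nlinarith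
      have e2 : ¬ (0 < 0 * g 1 1 + g 0 0 * 0) := by simp
      rw [if_pos e1, if_neg e2]
    · have h1 : ¬ (g = 1 ∨ g = -1) := by
        rintro (h | h)
        · apply hb; rw [h]; simp
        · apply hb; rw [h]; simp
      rw [if_neg h1]
      have hbd : g 0 1 * g 1 1 ≠ 0 := by
        rcases hd with hd | hd <;> rw [hd] <;> omega
      have e : (0 < (g 0 0 + g 0 1) * (0 + g 1 1) + g 0 0 * 0) ↔
          (0 < g 0 1 * g 1 1 + g 0 0 * 0) := by
        have e3 : (g 0 0 + g 0 1) * (0 + g 1 1) + g 0 0 * 0 = g 0 1 * g 1 1 + 1 := by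
          linear_combination had
        rw [e3]
        constructor
        · intro h; omega
        · intro h; omega
      by_cases e0 : 0 < g 0 1 * g 1 1 + g 0 0 * 0
      · rw [if_pos e0, if_pos (e.mpr e0)]; norm_num
      · rw [if_neg e0, if_neg (fun h => e0 (e.mp h))]
  · -- generic
    have h1 : ¬ (g = 1 ∨ g = -1) := by
      rintro (h | h)
      · apply hc; rw [h]; simp
      · apply hc; rw [h]; simp
    have h2 : ¬ (g = psi16_U' ∨ g = -psi16_U') := by
      rintro (h | h)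
      · apply ha; rw [h]; simp
      · apply ha; rw [h]; simp
    rw [if_neg h1, if_neg h2]
    have hac : (1 : ℝ) ≤ ((g 0 0 : ℝ) * (g 1 0 : ℝ)) ^ 2 := by
      have h3 : g 0 0 * g 1 0 ≠ 0 := mul_ne_zero ha hc
      have h4 : (1 : ℤ) ≤ (g 0 0 * g 1 0) ^ 2 := by
        have := sq_nonneg (g 0 0 * g 1 0)
        have h5 : (g 0 0 * g 1 0) ^ 2 ≠ 0 := pow_ne_zero 2 h3
        omega
      exact_mod_cast h4
    have eI := psi16_P_pos_iff_of_large g UpperHalfPlane.I (by
      rw [UpperHalfPlane.I_im]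
      nlinarith [sq_nonneg (2 * ((g 0 0 : ℝ) * (g 1 0 : ℝ)) * UpperHalfPlane.I.re
          + ((g 0 0 : ℝ) * (g 1 1 : ℝ) + (g 0 1 : ℝ) * (g 1 0 : ℝ)))])
    have eT := psi16_P_pos_iff_of_large g (ModularGroup.T • UpperHalfPlane.I) (by
      rw [psi16_TI_im]
      nlinarith [sq_nonneg (2 * ((g 0 0 : ℝ) * (g 1 0 : ℝ)) * (ModularGroup.T • UpperHalfPlane.I).re
          + ((g 0 0 : ℝ) * (g 1 1 : ℝ) + (g 0 1 : ℝ) * (g 1 0 : ℝ)))])
    by_cases e0 : 0 < (g 0 0 : ℝ) * (g 1 0 : ℝ)
    · rw [if_pos (eT.mpr e0), if_pos (eI.mpr e0)]; norm_num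
    · rw [if_neg (fun h => e0 (eT.mp h)), if_neg (fun h => e0 (eI.mp h))]

theorem psi16_neg_inv (g : SL(2, ℤ)) : (-g)⁻¹ = -g⁻¹ := by
  apply inv_eq_of_mul_eq_one_left
  simp

/-- Lemma B: the one-step crossing term -/
theorem psi16_stepB (g : SL(2, ℤ)) :
    psi16_term UpperHalfPlane.I (ModularGroup.T • UpperHalfPlane.I) g =
      (if g = 1 ∨ g = -1 then 1 else 0)
        - (if g = ModularGroup.T * ModularGroup.S ∨ g = -(ModularGroup.T * ModularGroup.S)
            then 1 else 0) := by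
  unfold psi16_term
  rw [psi16_side_eq, psi16_side_eq, psi16_stepA]
  have e1 : (g⁻¹ = 1 ∨ g⁻¹ = -1) ↔ (g = 1 ∨ g = -1) := by
    have a1 : g⁻¹ = 1 ↔ g = 1 := inv_eq_one
    have a2 : g⁻¹ = -1 ↔ g = -1 := by
      rw [inv_eq_iff_eq_inv, psi16_neg_inv, inv_one]
    rw [a1, a2]
  have e2 : (g⁻¹ = psi16_U' ∨ g⁻¹ = -psi16_U') ↔
      (g = ModularGroup.T * ModularGroup.S ∨ g = -(ModularGroup.T * ModularGroup.S)) := by
    have a1 : g⁻¹ = psi16_U' ↔ g = ModularGroup.T * ModularGroup.S := by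
      rw [inv_eq_iff_eq_inv, psi16_U'_eq, inv_inv]
    have a2 : g⁻¹ = -psi16_U' ↔ g = -(ModularGroup.T * ModularGroup.S) := by
      rw [inv_eq_iff_eq_inv, psi16_neg_inv, psi16_U'_eq, inv_inv]
    rw [a1, a2]
  simp only [e1, e2]

open scoped Classical in
/-- Lemma C: the finite sum of the indicator of `{h x, -h x}` over `Γ₀(N)` -/
theorem psi16_stepC (N : ℕ) (h x : SL(2, ℤ)) :
    (∑ᶠ γ : Gamma0 N, (if h⁻¹ * (γ : SL(2, ℤ)) = x ∨ h⁻¹ * (γ : SL(2, ℤ)) = -x
        then (1 : ℤ) else 0)) = if h * x ∈ Gamma0 N then 2 else 0 := by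
  have k1 : ∀ γ : SL(2, ℤ), h⁻¹ * γ = x ↔ γ = h * x := by
    intro γ
    constructor
    · intro e; rw [← e, mul_inv_cancel_left]
    · intro e; rw [e, inv_mul_cancel_left]
  have k2 : ∀ γ : SL(2, ℤ), h⁻¹ * γ = -x ↔ γ = -(h * x) := by
    intro γ
    constructor
    · intro e
      have : γ = h * -x := by rw [← e, mul_inv_cancel_left]
      rw [this]; simp
    · intro e
      rw [e]; simp
  simp only [k1, k2]
  by_cases hm : h * x ∈ Gamma0 N
  · rw [if_pos hm]
    let γ₁ : Gamma0 N := ⟨h * x, hm⟩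
    let γ₂ : Gamma0 N := ⟨-(h * x), psi16_neg_mem N _ hm⟩
    have hne : γ₁ ≠ γ₂ := by
      intro e
      have : h * x = -(h * x) := congrArg Subtype.val e
      exact psi16_neg_ne _ this.symm
    rw [finsum_eq_sum_of_support_subset (s := {γ₁, γ₂})]
    · rw [Finset.sum_pair hne]
      have c1 : ((γ₁ : SL(2, ℤ)) = h * x ∨ (γ₁ : SL(2, ℤ)) = -(h * x)) := Or.inl rfl
      have c2 : ((γ₂ : SL(2, ℤ)) = h * x ∨ (γ₂ : SL(2, ℤ)) = -(h * x)) := Or.inr rfl
      rw [if_pos c1, if_pos c2]
      rfl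
    · intro γ hγ
      rw [Function.mem_support] at hγ
      have : ((γ : SL(2, ℤ)) = h * x ∨ (γ : SL(2, ℤ)) = -(h * x)) := by
        by_contra hcon
        exact hγ (if_neg hcon)
      simp only [Finset.coe_insert, Finset.coe_singleton, Set.mem_insert_iff,
        Set.mem_singleton_iff]
      rcases this with e | e
      · left; exact Subtype.ext e
      · right; exact Subtype.ext e
  · rw [if_neg hm]
    have : ∀ γ : Gamma0 N, (if ((γ : SL(2, ℤ)) = h * x ∨ (γ : SL(2, ℤ)) = -(h * x))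
        then (1 : ℤ) else 0) = 0 := by
      intro γ
      apply if_neg
      rintro (e | e)
      · exact hm (e ▸ γ.2)
      · apply hm
        have h2 := psi16_neg_mem N _ γ.2
        rw [e, neg_neg] at h2
        exact h2
    simp only [this]
    exact finsum_zero

theorem psi16_stepC_finite (N : ℕ) (h x : SL(2, ℤ)) :
    Function.HasFiniteSupport (fun γ : Gamma0 N =>
      (if h⁻¹ * (γ : SL(2, ℤ)) = x ∨ h⁻¹ * (γ : SL(2, ℤ)) = -x then (1 : ℤ) else 0)) := by
  have hfin : ({h * x, h * -x} : Set SL(2, ℤ)).Finite := Set.toFinite _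
  refine (hfin.preimage Subtype.val_injective.injOn).subset ?_
  intro γ hγ
  rw [Function.mem_support] at hγ
  have : (h⁻¹ * (γ : SL(2, ℤ)) = x ∨ h⁻¹ * (γ : SL(2, ℤ)) = -x) := by
    by_contra hcon
    exact hγ (if_neg hcon)
  simp only [Set.mem_preimage, Set.mem_insert_iff, Set.mem_singleton_iff]
  rcases this with e | e
  · left; rw [← e, mul_inv_cancel_left]
  · right; rw [← e, mul_inv_cancel_left]

open scoped Classical in
/-- the one-step lemma -/
theorem psi16_step (N : ℕ) (h : SL(2, ℤ)) :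
    psi16_cross N (h • UpperHalfPlane.I) (h • (ModularGroup.T • UpperHalfPlane.I)) =
      (if h ∈ Gamma0 N then 2 else 0)
        - (if h * (ModularGroup.T * ModularGroup.S) ∈ Gamma0 N then 2 else 0) := by
  unfold psi16_cross
  simp only [psi16_term_smul, psi16_stepB]
  rw [finsum_sub_distrib (psi16_stepC_finite N h 1)
    (psi16_stepC_finite N h (ModularGroup.T * ModularGroup.S))]
  rw [psi16_stepC, psi16_stepC, mul_one]

end Fermat.Agent.S16
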