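/-
S16, route [COH], package [PSI], part 4 (helper8): the values of the crossing-number homomorphism
on the parabolic elements `g T^k g⁻¹`:

  `psi16_hom p ⟨g T^k g⁻¹, _⟩ = if p ∣ g 1 0 then k else -(k / p)`   (`p` prime).

Mathlib only.
-/
import Fermat.Agent.S16.PsiStep

set_option autoImplicit false

open scoped MatrixGroups
open UpperHalfPlane Matrix CongruenceSubgroup

namespace Fermat.Agent.S16

theorem psi16_mem_iff (N : ℕ) (g : SL(2, ℤ)) : g ∈ Gamma0 N ↔ (N : ℤ) ∣ g 1 0 := by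
  rw [Gamma0_mem, ZMod.intCast_zmod_eq_zero_iff_dvd]

theorem psi16_T_mem (N : ℕ) : ModularGroup.T ∈ Gamma0 N := by
  rw [psi16_mem_iff, ModularGroup.coe_T]
  simp

theorem psi16_mul_T_pow_10 (h : SL(2, ℤ)) (n : ℕ) : (h * ModularGroup.T ^ n) 1 0 = h 1 0 := by
  have e : (ModularGroup.T ^ n : SL(2, ℤ)) = ModularGroup.T ^ (n : ℤ) := (zpow_natCast _ _).symm
  rw [e, Matrix.SpecialLinearGroup.coe_mul, ModularGroup.coe_T_zpow]
  simp [Matrix.mul_apply, Fin.sum_univ_two]

theorem psi16_mul_T_pow_TS_10 (h : SL(2, ℤ)) (n : ℕ) :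
    (h * ModularGroup.T ^ n * (ModularGroup.T * ModularGroup.S)) 1 0 =
      h 1 0 * ((n : ℤ) + 1) + h 1 1 := by
  have e : (ModularGroup.T ^ n : SL(2, ℤ)) = ModularGroup.T ^ (n : ℤ) := (zpow_natCast _ _).symm
  rw [e, Matrix.SpecialLinearGroup.coe_mul, Matrix.SpecialLinearGroup.coe_mul,
    Matrix.SpecialLinearGroup.coe_mul, ModularGroup.coe_T_zpow, ModularGroup.coe_T,
    ModularGroup.coe_S]
  simp [Matrix.mul_apply, Fin.sum_univ_two]
  ring

theorem psi16_conj_10 (g : SL(2, ℤ)) (k : ℤ) :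
    (g * ModularGroup.T ^ k * g⁻¹) 1 0 = -(g 1 0 * g 1 0 * k) := by
  rw [Matrix.SpecialLinearGroup.coe_mul, Matrix.SpecialLinearGroup.coe_mul,
    ModularGroup.coe_T_zpow, Matrix.SpecialLinearGroup.coe_inv, Matrix.adjugate_fin_two]
  simp [Matrix.mul_apply, Fin.sum_univ_two]
  ring

open scoped Classical in
/-- the crossing number along `k` unit steps -/
theorem psi16_cross_pow (N : ℕ) (h : SL(2, ℤ)) (k : ℕ) :
    psi16_cross N (h • UpperHalfPlane.I) (h • (ModularGroup.T ^ k • UpperHalfPlane.I)) =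
      ∑ n ∈ Finset.range k, ((if h * ModularGroup.T ^ n ∈ Gamma0 N then (2 : ℤ) else 0)
        - (if h * ModularGroup.T ^ n * (ModularGroup.T * ModularGroup.S) ∈ Gamma0 N
            then 2 else 0)) := by
  induction k with
  | zero =>
    rw [pow_zero, one_smul, psi16_cross_self]
    simp
  | succ k ih =>
    rw [Finset.sum_range_succ, ← ih,
      psi16_cross_add N (h • UpperHalfPlane.I) (h • (ModularGroup.T ^ k • UpperHalfPlane.I))]
    congr 1
    rw [← psi16_step N (h * ModularGroup.T ^ k), mul_smul, mul_smul, pow_succ, mul_smul]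

theorem psi16_two_mul_hom_conj (N : ℕ) (g : SL(2, ℤ)) (k : ℕ)
    (h : g * ModularGroup.T ^ k * g⁻¹ ∈ Gamma0 N) :
    2 * psi16_hom N (Additive.ofMul ⟨g * ModularGroup.T ^ k * g⁻¹, h⟩) =
      psi16_cross N (g • UpperHalfPlane.I) (g • (ModularGroup.T ^ k • UpperHalfPlane.I)) := by
  rw [psi16_two_mul_hom N _ h (g • UpperHalfPlane.I)]
  congr 1
  rw [mul_smul, mul_smul, inv_smul_smul]

/-- the value on `g T^k g⁻¹` for `g ∈ Γ₀(N)`, `k ≥ 0` -/
theorem psi16_conj_mem (N : ℕ) (hN : 2 ≤ N) (g : SL(2, ℤ)) (hg : g ∈ Gamma0 N) (k : ℕ)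
    (h : g * ModularGroup.T ^ k * g⁻¹ ∈ Gamma0 N) :
    psi16_hom N (Additive.ofMul ⟨g * ModularGroup.T ^ k * g⁻¹, h⟩) = k := by
  classical
  have h2 := psi16_two_mul_hom_conj N g k h
  rw [psi16_cross_pow] at h2
  have hterm : ∀ n ∈ Finset.range k,
      ((if g * ModularGroup.T ^ n ∈ Gamma0 N then (2 : ℤ) else 0)
        - (if g * ModularGroup.T ^ n * (ModularGroup.T * ModularGroup.S) ∈ Gamma0 N
            then 2 else 0)) = 2 := by
    intro n _
    have m1 : g * ModularGroup.T ^ n ∈ Gamma0 N :=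
      mul_mem hg (pow_mem (psi16_T_mem N) n)
    have m2 : ¬ (g * ModularGroup.T ^ n * (ModularGroup.T * ModularGroup.S) ∈ Gamma0 N) := by
      rw [psi16_mem_iff, psi16_mul_T_pow_TS_10]
      intro hd
      have hc : (N : ℤ) ∣ g 1 0 := (psi16_mem_iff N g).mp hg
      have hd' : (N : ℤ) ∣ g 1 1 := by
        have := Dvd.dvd.mul_right hc ((n : ℤ) + 1)
        exact (Int.dvd_add_right this).mp hd
      have hdet := psi16_det g
      have h1 : (N : ℤ) ∣ 1 := by
        rw [← hdet]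
        exact Dvd.dvd.sub (Dvd.dvd.mul_left hd' _) (Dvd.dvd.mul_left hc _)
      have := Int.le_of_dvd one_pos h1
      omega
    rw [if_pos m1, if_neg m2]
    norm_num
  rw [Finset.sum_congr rfl hterm, Finset.sum_const, Finset.card_range] at h2
  simp only [nsmul_eq_mul] at h2
  linarith

/-- counting the solutions of `c (n + 1) + d ≡ 0 mod p` in a block of `p` consecutive `n` -/
theorem psi16_count_block (p : ℕ) (hp : p.Prime) (c d : ℤ) (hc : ¬ (p : ℤ) ∣ c) :
    ∑ n ∈ Finset.range p, (if (p : ℤ) ∣ c * ((n : ℤ) + 1) + d then (1 : ℤ) else 0) = 1 := by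
  have : Fact p.Prime := ⟨hp⟩
  have hc' : (c : ZMod p) ≠ 0 := by
    rwa [Ne, ZMod.intCast_zmod_eq_zero_iff_dvd]
  set t : ZMod p := -(d : ZMod p) * (c : ZMod p)⁻¹ - 1 with ht
  have key : ∀ n ∈ Finset.range p,
      ((p : ℤ) ∣ c * ((n : ℤ) + 1) + d ↔ n = t.val) := by
    intro n hn
    rw [Finset.mem_range] at hn
    rw [← ZMod.intCast_zmod_eq_zero_iff_dvd]
    push_cast
    constructor
    · intro e
      have e2 : (n : ZMod p) = t := by
        rw [ht]
        field_simp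
        linear_combination e
      rw [← e2, ZMod.val_natCast, Nat.mod_eq_of_lt hn]
    · intro e
      have e2 : (n : ZMod p) = t := by
        rw [e, ZMod.natCast_zmod_val]
      rw [e2, ht]
      field_simp
      ring
  rw [Finset.sum_congr rfl (fun n hn => by rw [if_congr (key n hn) rfl rfl])]
  rw [Finset.sum_ite_eq' (Finset.range p) t.val (fun _ => (1 : ℤ))]
  rw [if_pos (Finset.mem_range.mpr (ZMod.val_lt t))]

theorem psi16_count (p : ℕ) (hp : p.Prime) (c d : ℤ) (hc : ¬ (p : ℤ) ∣ c) (j : ℕ) :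
    ∑ n ∈ Finset.range (p * j), (if (p : ℤ) ∣ c * ((n : ℤ) + 1) + d then (1 : ℤ) else 0) = j := by
  induction j with
  | zero => simp
  | succ j ih =>
    rw [Nat.mul_succ, Finset.sum_range_add, ih]
    have : ∀ x ∈ Finset.range p,
        (if (p : ℤ) ∣ c * (((p * j + x : ℕ) : ℤ) + 1) + d then (1 : ℤ) else 0) =
        (if (p : ℤ) ∣ c * ((x : ℤ) + 1) + d then (1 : ℤ) else 0) := by
      intro x _
      apply if_congr _ rfl rfl
      have e : c * (((p * j + x : ℕ) : ℤ) + 1) + d =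
          (p : ℤ) * (c * j) + (c * ((x : ℤ) + 1) + d) := by
        push_cast; ring
      rw [e]
      exact (Int.dvd_add_right (Dvd.intro _ rfl))
    rw [Finset.sum_congr rfl this, psi16_count_block p hp c d hc]
    push_cast
    ring

/-- the value on `g T^k g⁻¹` for `g ∉ Γ₀(p)`, `k = p j ≥ 0` -/
theorem psi16_conj_not_mem (p : ℕ) (hp : p.Prime) (g : SL(2, ℤ)) (hg : ¬ (p : ℤ) ∣ g 1 0)
    (j : ℕ) (h : g * ModularGroup.T ^ (p * j) * g⁻¹ ∈ Gamma0 p) :
    psi16_hom p (Additive.ofMul ⟨g * ModularGroup.T ^ (p * j) * g⁻¹, h⟩) = -(j : ℤ) := by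
  classical
  have h2 := psi16_two_mul_hom_conj p g (p * j) h
  rw [psi16_cross_pow] at h2
  have hterm : ∀ n ∈ Finset.range (p * j),
      ((if g * ModularGroup.T ^ n ∈ Gamma0 p then (2 : ℤ) else 0)
        - (if g * ModularGroup.T ^ n * (ModularGroup.T * ModularGroup.S) ∈ Gamma0 p
            then 2 else 0)) =
      (-2) * (if (p : ℤ) ∣ g 1 0 * ((n : ℤ) + 1) + g 1 1 then (1 : ℤ) else 0) := by
    intro n _
    have m1 : ¬ (g * ModularGroup.T ^ n ∈ Gamma0 p) := by
      rw [psi16_mem_iff, psi16_mul_T_pow_10]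
      exact hg
    rw [if_neg m1]
    by_cases m2 : (p : ℤ) ∣ g 1 0 * ((n : ℤ) + 1) + g 1 1
    · have m2' : g * ModularGroup.T ^ n * (ModularGroup.T * ModularGroup.S) ∈ Gamma0 p := by
        rw [psi16_mem_iff, psi16_mul_T_pow_TS_10]
        exact m2
      rw [if_pos m2', if_pos m2]
      norm_num
    · have m2' : ¬ (g * ModularGroup.T ^ n * (ModularGroup.T * ModularGroup.S) ∈ Gamma0 p) := by
        rw [psi16_mem_iff, psi16_mul_T_pow_TS_10]
        exact m2
      rw [if_neg m2', if_neg m2]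
      norm_num
  rw [Finset.sum_congr rfl hterm, ← Finset.mul_sum, psi16_count p hp _ _ hg] at h2
  linarith

/-- (PSI-G): the values of `psi16_hom p` on the parabolic elements -/
theorem psi16_conj_T (p : ℕ) (hp : p.Prime) (g : SL(2, ℤ)) (k : ℤ)
    (h : g * ModularGroup.T ^ k * g⁻¹ ∈ Gamma0 p) :
    psi16_hom p (Additive.ofMul ⟨g * ModularGroup.T ^ k * g⁻¹, h⟩) =
      if (p : ℤ) ∣ g 1 0 then k else -(k / p) := by
  have hp0 : (p : ℤ) ≠ 0 := by exact_mod_cast hp.ne_zero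
  -- reduce to `k ≥ 0`
  have main : ∀ (n : ℕ) (hn : g * ModularGroup.T ^ n * g⁻¹ ∈ Gamma0 p),
      psi16_hom p (Additive.ofMul ⟨g * ModularGroup.T ^ n * g⁻¹, hn⟩) =
        if (p : ℤ) ∣ g 1 0 then (n : ℤ) else -((n : ℤ) / p) := by
    intro n hn
    by_cases hg : (p : ℤ) ∣ g 1 0
    · rw [if_pos hg]
      exact psi16_conj_mem p hp.two_le g ((psi16_mem_iff p g).mpr hg) n hn
    · rw [if_neg hg]
      have hdiv : (p : ℤ) ∣ (n : ℤ) := by
        have h1 := (psi16_mem_iff p _).mp hn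
        have e : (ModularGroup.T ^ n : SL(2, ℤ)) = ModularGroup.T ^ (n : ℤ) :=
          (zpow_natCast _ _).symm
        rw [e, psi16_conj_10, dvd_neg] at h1
        have hpp : Prime (p : ℤ) := Nat.prime_iff_prime_int.mp hp
        rcases hpp.dvd_or_dvd h1 with h3 | h3
        · rcases hpp.dvd_or_dvd h3 with h4 | h4
          · exact absurd h4 hg
          · exact absurd h4 hg
        · exact h3
      obtain ⟨j, hj⟩ : ∃ j : ℕ, n = p * j := by
        have : p ∣ n := by exact_mod_cast hdiv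
        exact this
      subst hj
      rw [psi16_conj_not_mem p hp g hg j hn]
      push_cast
      rw [Int.mul_ediv_cancel_left _ hp0]
  rcases Int.eq_nat_or_neg k with ⟨n, rfl | rfl⟩
  · have e : (ModularGroup.T ^ ((n : ℤ)) : SL(2, ℤ)) = ModularGroup.T ^ n := zpow_natCast _ _
    have hn : g * ModularGroup.T ^ n * g⁻¹ ∈ Gamma0 p := by rw [← e]; exact h
    have := main n hn
    simp only [e]
    exact this
  · have e : (ModularGroup.T ^ (-(n : ℤ)) : SL(2, ℤ)) = (ModularGroup.T ^ n)⁻¹ := by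
      rw [_root_.zpow_neg, zpow_natCast]
    have e2 : g * (ModularGroup.T ^ n)⁻¹ * g⁻¹ = (g * ModularGroup.T ^ n * g⁻¹)⁻¹ := by
      group
    have hn : g * ModularGroup.T ^ n * g⁻¹ ∈ Gamma0 p := by
      have h' := h
      rw [e, e2] at h'
      exact (Subgroup.inv_mem_iff _).mp h'
    have hm := main n hn
    have e3 : (⟨g * ModularGroup.T ^ (-(n : ℤ)) * g⁻¹, h⟩ : Gamma0 p) =
        (⟨g * ModularGroup.T ^ n * g⁻¹, hn⟩ : Gamma0 p)⁻¹ := by
      apply Subtype.ext
      show g * ModularGroup.T ^ (-(n : ℤ)) * g⁻¹ = (g * ModularGroup.T ^ n * g⁻¹)⁻¹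
      rw [e, e2]
    rw [e3, ofMul_inv, map_neg, hm]
    by_cases hg : (p : ℤ) ∣ g 1 0
    · rw [if_pos hg, if_pos hg]
    · rw [if_neg hg, if_neg hg]
      have hdiv : (p : ℤ) ∣ (n : ℤ) := by
        have h1 := (psi16_mem_iff p _).mp hn
        have e' : (ModularGroup.T ^ n : SL(2, ℤ)) = ModularGroup.T ^ (n : ℤ) :=
          (zpow_natCast _ _).symm
        rw [e', psi16_conj_10, dvd_neg] at h1
        have hpp : Prime (p : ℤ) := Nat.prime_iff_prime_int.mp hp
        rcases hpp.dvd_or_dvd h1 with h3 | h3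
        · rcases hpp.dvd_or_dvd h3 with h4 | h4
          · exact absurd h4 hg
          · exact absurd h4 hg
        · exact h3
      rw [Int.neg_ediv_of_dvd hdiv]

end Fermat.Agent.S16
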