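/-
S16, route [COH], package [PSI] (helper8): (PSI-G) in the shape of `CohDefs`.

`psi16_group p hp : coh_PsiGroupStatement p` - the crossing-number homomorphism
`psi16_hom p : Γ₀(p) → ℤ` takes the value `k` on `g T^k g⁻¹` for `g ∈ Γ₀(p)` and `-(k / p)` for
`g ∉ Γ₀(p)`.
-/
import Fermat.Agent.S16.CohDefs
import Fermat.Agent.S16.PsiParabolic

set_option autoImplicit false

open scoped MatrixGroups
open UpperHalfPlane Matrix CongruenceSubgroup

namespace Fermat.Agent.S16

theorem psi16_group (p : ℕ) (hp : p.Prime) : coh_PsiGroupStatement p :=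
  ⟨psi16_hom p, fun g k h => psi16_conj_T p hp g k h⟩

end Fermat.Agent.S16
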