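import Mathlib
import Fermat.Agent.S16.CohDefs
import Fermat.Agent.S16.PsiGroup
import Fermat.Agent.S16.CohPar
import Fermat.Agent.S21.Par

/-!
# S16, route [COH]: (PSI) from (PSI-G) and (PAR-Φ)

Every element of trace `±2` of `SL(2,ℤ)` is `±(δ T^n δ⁻¹)`; on these elements the crossing-number
homomorphism `ψ` (helper8's `psi16_group`) and the Eisenstein period (helper24's
`cohPar_statement`) are proportional with factor `p - 1`.
-/

set_option autoImplicit false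

noncomputable section

namespace Fermat.Agent.S16

open UpperHalfPlane CongruenceSubgroup ModularCurve ModularCurve.Period
open Fermat.Agent.S21
open scoped MatrixGroups

/-- An upper triangular element of `SL(2,ℤ)` is `± T^n`. -/
theorem cohPsi_upper (g : SL(2, ℤ)) (hc : g 1 0 = 0) :
    ∃ n : ℤ, g = ModularGroup.T ^ n ∨ g = -(ModularGroup.T ^ n) := by
  have hdet : g 0 0 * g 1 1 - g 0 1 * g 1 0 = 1 := by
    have := g.det_coe
    rwa [Matrix.det_fin_two] at this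
  have h1 : g 0 0 * g 1 1 = 1 := by
    rw [hc, mul_zero, sub_zero] at hdet
    exact hdet
  rcases Int.mul_eq_one_iff_eq_one_or_neg_one.mp h1 with ⟨ha, hd⟩ | ⟨ha, hd⟩
  · refine ⟨g 0 1, Or.inl ?_⟩
    apply Subtype.ext
    rw [ModularGroup.coe_T_zpow]
    ext i j
    fin_cases i <;> fin_cases j <;> simp [ha, hd, hc]
  · refine ⟨-g 0 1, Or.inr ?_⟩
    apply Subtype.ext
    rw [Matrix.SpecialLinearGroup.coe_neg, ModularGroup.coe_T_zpow]
    ext i j
    fin_cases i <;> fin_cases j <;> simp [ha, hd, hc]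

/-- An element of trace `±2` of `SL(2,ℤ)` is `± δ T^n δ⁻¹`. -/
theorem cohPsi_parabolic_form (γ : SL(2, ℤ))
    (hγ : ((γ : Matrix (Fin 2) (Fin 2) ℤ)).trace ^ 2 = 4) :
    ∃ (δ : SL(2, ℤ)) (n : ℤ), γ = δ * ModularGroup.T ^ n * δ⁻¹ ∨
      γ = -(δ * ModularGroup.T ^ n * δ⁻¹) := by
  obtain ⟨δ, hδ⟩ := par_exists_conj γ hγ
  obtain ⟨n, hn | hn⟩ := cohPsi_upper _ hδ
  · refine ⟨δ, n, Or.inl ?_⟩
    rw [← hn]
    group
  · refine ⟨δ, n, Or.inr ?_⟩
    have e : γ = δ * (δ⁻¹ * γ * δ) * δ⁻¹ := by group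
    rw [e, hn]
    simp

theorem cohPsi_neg_mem (N : ℕ) {γ : SL(2, ℤ)} (h : γ ∈ Gamma0 N) : -γ ∈ Gamma0 N := by
  rw [Gamma0_mem] at h ⊢
  simp only [Matrix.SpecialLinearGroup.coe_neg, Matrix.neg_apply, Int.cast_neg, h, neg_zero]

/-- A homomorphism to `ℤ` does not see the sign. -/
theorem cohPsi_hom_neg (N : ℕ) (ψ : Additive (Gamma0 N) →+ ℤ) (γ : Gamma0 N) :
    ψ (Additive.ofMul ⟨-(γ : SL(2, ℤ)), cohPsi_neg_mem N γ.2⟩) = ψ (Additive.ofMul γ) := by
  set m : Gamma0 N := ⟨-1, cohPsi_neg_mem N (one_mem _)⟩ with hm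
  have h1 : (⟨-(γ : SL(2, ℤ)), cohPsi_neg_mem N γ.2⟩ : Gamma0 N) = m * γ := by
    apply Subtype.ext
    simp [hm]
  have h2 : m * m = 1 := by
    apply Subtype.ext
    simp [hm]
  have h3 : ψ (Additive.ofMul m) + ψ (Additive.ofMul m) = 0 := by
    rw [← map_add, ← ofMul_mul, h2, ofMul_one, map_zero]
  have h4 : ψ (Additive.ofMul m) = 0 := by omega
  rw [h1, ofMul_mul, map_add, h4, zero_add]

/-- **(PSI)** from (PSI-G) and (PAR-Φ). -/
theorem cohPsi_of (p : ℕ) (hG : coh_PsiGroupStatement p) (hP : coh_ParStatement p) :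
    coh_PsiStatement p := by
  obtain ⟨ψ, hψ⟩ := hG
  refine ⟨ψ, fun F hF γ hγ z => ?_⟩
  obtain ⟨δ, n, h | h⟩ := cohPsi_parabolic_form (γ : SL(2, ℤ)) hγ
  · have hmem : δ * ModularGroup.T ^ n * δ⁻¹ ∈ Gamma0 p := h ▸ γ.2
    have e : γ = ⟨δ * ModularGroup.T ^ n * δ⁻¹, hmem⟩ := Subtype.ext h
    have h1 := hψ δ n hmem
    have h2 := hP F hF δ n hmem z
    rw [← e] at h1
    rw [h, h2, h1]
  · have hmem : δ * ModularGroup.T ^ n * δ⁻¹ ∈ Gamma0 p := by
      have := cohPsi_neg_mem p γ.2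
      rwa [h, neg_neg] at this
    have h1 := hψ δ n hmem
    have h2 := hP F hF δ n hmem z
    have e : γ = ⟨-(((⟨δ * ModularGroup.T ^ n * δ⁻¹, hmem⟩ : Gamma0 p)) : SL(2, ℤ)),
        cohPsi_neg_mem p hmem⟩ := Subtype.ext h
    have h3 := cohPsi_hom_neg p ψ ⟨δ * ModularGroup.T ^ n * δ⁻¹, hmem⟩
    rw [← e] at h3
    rw [h3, h1, h, ModularGroup.SL_neg_smul, h2]

/-- **(PSI)**. -/
theorem cohPsi_statement (p : ℕ) (hp : p.Prime) : coh_PsiStatement p :=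
  cohPsi_of p (psi16_group p hp) (cohPar_statement p hp)

end Fermat.Agent.S16
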