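import Mathlib
import Fermat.Agent.S16.CohDefs
import Fermat.Agent.S16.CohAsm

/-!
# S16, route [COH]: the Hecke transfer on periods, abstract part

For a finite family `α x` of real matrices of positive determinant and `f ↦ ∑ x, f ∣[2] α x`:

* `cohT_isPrimOf_comp_gl` : `F ∘ g` is a primitive of `f ∣[2] g`;
* `cohT_telescope`        : if `α x * γ = g' x * α (σ x)` with a permutation `σ`, then
  `F_T (γ z) - F_T z = ∑ x, (F (g' x • w x) - F (w x))`, `F_T = ∑ x, F ∘ α x`;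
* `cohT_transfer_cusp`    : the periods of `T f` at `γ` are the sums of the periods of `f`
  at the `g' x`;
* `cohT_core`             : the same for the conjugate by `diag(1,-1)`;
* `cohT_transfer_eis`     : the same for the Eisenstein series.
-/

set_option autoImplicit false

noncomputable section

namespace Fermat.Agent.S16

open UpperHalfPlane hiding I
open Complex Filter Function CongruenceSubgroup ModularCurve ModularCurve.Period
open Fermat.Agent.S21 Matrix.SpecialLinearGroup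
open scoped Topology MatrixGroups ModularForm

/-- The Möbius transformation of a real matrix, as a function on `ℂ`. -/
def cohT_moeb (g : GL (Fin 2) ℝ) (w : ℂ) : ℂ := num g w / denom g w

theorem cohT_hasDerivAt_moeb (g : GL (Fin 2) ℝ) (z : ℍ) :
    HasDerivAt (cohT_moeb g) (((g.det.val : ℝ) : ℂ) * (denom g z) ^ (-2 : ℤ)) (z : ℂ) := by
  have hden : denom g z ≠ 0 := denom_ne_zero g z
  have h1 : HasDerivAt (fun w : ℂ => num g w) ((g 0 0 : ℝ) : ℂ) (z : ℂ) := by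
    simpa [num] using ((hasDerivAt_id (z : ℂ)).const_mul ((g 0 0 : ℝ) : ℂ)).add_const
      ((g 0 1 : ℝ) : ℂ)
  have h2 : HasDerivAt (fun w : ℂ => denom g w) ((g 1 0 : ℝ) : ℂ) (z : ℂ) := by
    simpa [denom] using ((hasDerivAt_id (z : ℂ)).const_mul ((g 1 0 : ℝ) : ℂ)).add_const
      ((g 1 1 : ℝ) : ℂ)
  have h3 := h1.div h2 hden
  have hdet : ((g.det.val : ℝ) : ℂ) = ((g 0 0 : ℝ) : ℂ) * ((g 1 1 : ℝ) : ℂ)
      - ((g 0 1 : ℝ) : ℂ) * ((g 1 0 : ℝ) : ℂ) := by
    rw [Matrix.GeneralLinearGroup.val_det_apply, Matrix.det_fin_two]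
    push_cast
    ring
  have hval : (((g 0 0 : ℝ) : ℂ) * denom g z - num g z * ((g 1 0 : ℝ) : ℂ)) / (denom g z) ^ 2
      = ((g.det.val : ℝ) : ℂ) * (denom g z) ^ (-2 : ℤ) := by
    rw [zpow_neg, div_eq_mul_inv, hdet]
    congr 1
    · simp only [num, denom]
      ring
  rw [hval] at h3
  exact h3

/-- If `F` is a primitive of `f`, then `F ∘ g` is a primitive of `f ∣[2] g`
(`g` a real matrix of positive determinant). -/
theorem cohT_isPrimOf_comp_gl {F f : ℍ → ℂ} (hF : IsPrimOf F f) (g : GL (Fin 2) ℝ)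
    (hg : 0 < g.det.val) :
    IsPrimOf (fun w : ℍ => F (g • w)) (f ∣[(2 : ℤ)] g) := by
  intro τ
  have h1 : HasDerivAt (F ∘ ofComplex) (f (g • τ)) (cohT_moeb g τ) := by
    have := hF (g • τ)
    rwa [coe_smul_of_det_pos hg] at this
  have h2 := h1.comp (τ : ℂ) (cohT_hasDerivAt_moeb g τ)
  have hval : f (g • τ) * (((g.det.val : ℝ) : ℂ) * denom g τ ^ (-2 : ℤ)) = (f ∣[(2 : ℤ)] g) τ := by
    rw [ModularForm.slash_apply, UpperHalfPlane.σ, if_pos hg]
    simp only [ContinuousAlgEquiv.refl_apply]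
    rw [abs_of_pos hg]
    norm_num
    ring
  rw [hval] at h2
  refine h2.congr_of_eventuallyEq ?_
  filter_upwards [prim_isOpen_upper.mem_nhds τ.im_pos] with w hw
  have e : cohT_moeb g w = (((g • (⟨w, hw⟩ : ℍ) : ℍ)) : ℂ) :=
    (coe_smul_of_det_pos hg ⟨w, hw⟩).symm
  simp only [Function.comp_apply, ofComplex_apply_of_im_pos hw]
  rw [e, ofComplex_apply]

/-- Finite sums of primitives. -/
theorem cohT_isPrimOf_sum {X : Type*} [Fintype X] (F f : X → ℍ → ℂ)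
    (h : ∀ x, IsPrimOf (F x) (f x)) :
    IsPrimOf (fun w : ℍ => ∑ x, F x w) (∑ x, f x) := by
  intro τ
  have h1 := HasDerivAt.fun_sum (u := Finset.univ) (fun x _ => h x τ)
  rw [Finset.sum_apply]
  exact h1

/-- The telescoping identity. -/
theorem cohT_telescope {X : Type*} [Fintype X] (F : ℍ → ℂ) (α : X → GL (Fin 2) ℝ)
    (γ : SL(2, ℤ)) (σ : X ≃ X) (g' : X → SL(2, ℤ))
    (hmul : ∀ x, α x * mapGL ℝ γ = mapGL ℝ (g' x) * α (σ x)) (z : ℍ) :
    (∑ x, F (α x • (γ • z))) - ∑ x, F (α x • z) =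
      ∑ x, (F (g' x • (α (σ x) • z)) - F (α (σ x) • z)) := by
  have h1 : ∀ x, α x • (γ • z) = g' x • (α (σ x) • z) := by
    intro x
    rw [ModularGroup.sl_moeb, ModularGroup.sl_moeb, ← mul_smul, ← mul_smul]
    exact congrArg (· • z) (hmul x)
  rw [Finset.sum_sub_distrib, Equiv.sum_comp σ (fun x => F (α x • z))]
  simp only [h1]

/-- The period map is computed by ANY primitive. -/
theorem cohT_periodMap_eq (N : ℕ) [NeZero N] (f : CuspForm (Gamma0 N) 2) {G : ℍ → ℂ}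
    (hG : IsPrimOf G ⇑f) (γ : Gamma0 N) (z : ℍ) :
    periodMap N f (Additive.ofMul γ) = G ((γ : SL(2, ℤ)) • z) - G z := by
  obtain ⟨F, hF⟩ := prim N f
  rw [periodEq N f F hF γ z]
  have h1 : IsPrimOf F ⇑f := hF.1
  have := prim_sub_const hG h1 ((γ : SL(2, ℤ)) • z) z
  linear_combination -this

/-- The Hecke transfer for cusp forms. -/
theorem cohT_transfer_cusp (p : ℕ) [NeZero p] {X : Type*} [Fintype X] (α : X → GL (Fin 2) ℝ)
    (hdet : ∀ x, 0 < (α x).det.val) (f Tf : CuspForm (Gamma0 p) 2)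
    (hT : ⇑Tf = ∑ x, (⇑f) ∣[(2 : ℤ)] α x)
    (γ : Gamma0 p) (σ : X ≃ X) (g' : X → Gamma0 p)
    (hmul : ∀ x, α x * mapGL ℝ (γ : SL(2, ℤ)) = mapGL ℝ (g' x : SL(2, ℤ)) * α (σ x)) :
    periodMap p Tf (Additive.ofMul γ) = ∑ x, periodMap p f (Additive.ofMul (g' x)) := by
  obtain ⟨F, hF⟩ := prim p f
  have h1 : IsPrimOf F ⇑f := hF.1
  have hFT : IsPrimOf (fun w : ℍ => ∑ x, F (α x • w)) ⇑Tf := by
    rw [hT]
    exact cohT_isPrimOf_sum _ _ fun x => cohT_isPrimOf_comp_gl h1 (α x) (hdet x)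
  rw [cohT_periodMap_eq p Tf hFT γ UpperHalfPlane.I]
  have h2 := cohT_telescope F α (γ : SL(2, ℤ)) σ (fun x => (g' x : SL(2, ℤ))) hmul
    UpperHalfPlane.I
  rw [h2]
  refine Finset.sum_congr rfl fun x _ => ?_
  rw [periodEq p f F hF (g' x) (α (σ x) • UpperHalfPlane.I)]

/-- The Hecke transfer for the Eisenstein series. -/
theorem cohT_transfer_eis (p : ℕ) [NeZero p] {X : Type*} [Fintype X] (α : X → GL (Fin 2) ℝ)
    (hdet : ∀ x, 0 < (α x).det.val) (c : ℂ)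
    (hE : ∑ x, (s16e_fun p) ∣[(2 : ℤ)] α x = c • s16e_fun p)
    (γ : Gamma0 p) (σ : X ≃ X) (g' : X → Gamma0 p)
    (hmul : ∀ x, α x * mapGL ℝ (γ : SL(2, ℤ)) = mapGL ℝ (g' x : SL(2, ℤ)) * α (σ x))
    {F : ℍ → ℂ} (hF : IsPrimOf F (s16e_fun p)) (z : ℍ) :
    c * (F ((γ : SL(2, ℤ)) • z) - F z) = ∑ x, (F ((g' x : SL(2, ℤ)) • z) - F z) := by
  have hFT : IsPrimOf (fun w : ℍ => ∑ x, F (α x • w)) (c • s16e_fun p) := by
    rw [← hE]
    exact cohT_isPrimOf_sum _ _ fun x => cohT_isPrimOf_comp_gl hF (α x) (hdet x)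
  have h1 := prim_sub_const hFT (hF.const_smul c) ((γ : SL(2, ℤ)) • z) z
  have h2 := cohT_telescope F α (γ : SL(2, ℤ)) σ (fun x => (g' x : SL(2, ℤ))) hmul z
  have h3 : ∀ x, F ((g' x : SL(2, ℤ)) • (α (σ x) • z)) - F (α (σ x) • z) =
      F ((g' x : SL(2, ℤ)) • z) - F z := by
    intro x
    rw [← coh_chi_apply p hF (g' x) (α (σ x) • z), ← coh_chi_apply p hF (g' x) z]
  simp only [h3] at h2
  rw [← h2]
  simp only [Pi.smul_apply, smul_eq_mul] at h1
  linear_combination -h1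

/-- The matrix `diag(1,-1)`. -/
def cohT_J : GL (Fin 2) ℝ :=
  Matrix.GeneralLinearGroup.mkOfDetNeZero !![1, 0; 0, -1] (by simp [Matrix.det_fin_two_of])

theorem cohT_J_mul_J : cohT_J * cohT_J = 1 := by
  ext i j
  fin_cases i <;> fin_cases j <;> simp [cohT_J, Matrix.mul_apply, Fin.sum_univ_two]

theorem cohT_mapGL_jConj (g : SL(2, ℤ)) :
    (mapGL ℝ (jConjSL g) : GL (Fin 2) ℝ) = cohT_J * mapGL ℝ g * cohT_J := by
  ext i j
  fin_cases i <;> fin_cases j <;>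
    simp [cohT_J, Matrix.mul_apply, Fin.sum_univ_two, jConjMat, Matrix.vecMul, dotProduct]

theorem cohT_conj_mul (a b : GL (Fin 2) ℝ) :
    (cohT_J * a * cohT_J) * (cohT_J * b * cohT_J) = cohT_J * (a * b) * cohT_J := by
  have h : (cohT_J * a * cohT_J) * (cohT_J * b * cohT_J) =
      cohT_J * a * (cohT_J * cohT_J) * b * cohT_J := by group
  rw [h, cohT_J_mul_J]
  group

/-- The Hecke transfer for cusp forms, together with its conjugate by `diag(1,-1)`. -/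
theorem cohT_core (p : ℕ) [NeZero p] {X : Type*} [Fintype X] (α : X → GL (Fin 2) ℝ)
    (hdet : ∀ x, 0 < (α x).det.val) (ng : X ≃ X) (τ : X → Gamma0 p)
    (hJ : ∀ x, cohT_J * α x * cohT_J = mapGL ℝ (τ x : SL(2, ℤ)) * α (ng x))
    (f Tf : CuspForm (Gamma0 p) 2) (hT : ⇑Tf = ∑ x, (⇑f) ∣[(2 : ℤ)] α x)
    (γ : Gamma0 p) (σ : X ≃ X) (g' : X → Gamma0 p)
    (hmul : ∀ x, α x * mapGL ℝ (γ : SL(2, ℤ)) = mapGL ℝ (g' x : SL(2, ℤ)) * α (σ x)) :
    periodMap p Tf (Additive.ofMul γ) = ∑ x, periodMap p f (Additive.ofMul (g' x)) ∧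
    periodMap p Tf (Additive.ofMul (jConjGamma0 p γ)) =
      ∑ x, periodMap p f (Additive.ofMul (jConjGamma0 p (g' x))) := by
  refine ⟨cohT_transfer_cusp p α hdet f Tf hT γ σ g' hmul, ?_⟩
  -- the transfer data of the conjugate
  have hmul' : ∀ y, α y * mapGL ℝ ((jConjGamma0 p γ : Gamma0 p) : SL(2, ℤ)) =
      mapGL ℝ ((((τ (ng.symm y))⁻¹ * jConjGamma0 p (g' (ng.symm y)) * τ (σ (ng.symm y)) :
        Gamma0 p)) : SL(2, ℤ)) * α ((ng.symm.trans (σ.trans ng)) y) := by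
    intro y
    obtain ⟨x, rfl⟩ := ng.surjective y
    simp only [Equiv.symm_apply_apply, Equiv.trans_apply]
    have e1 : α (ng x) = (mapGL ℝ (τ x : SL(2, ℤ)))⁻¹ * (cohT_J * α x * cohT_J) := by
      rw [hJ x]
      group
    have e3 := hJ (σ x)
    rw [jConjGamma0_coe, cohT_mapGL_jConj, Subgroup.coe_mul, Subgroup.coe_mul,
      Subgroup.coe_inv, map_mul, map_mul, map_inv, jConjGamma0_coe, cohT_mapGL_jConj]
    calc α (ng x) * (cohT_J * mapGL ℝ (γ : SL(2, ℤ)) * cohT_J)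
        = (mapGL ℝ (τ x : SL(2, ℤ)))⁻¹ *
            ((cohT_J * α x * cohT_J) * (cohT_J * mapGL ℝ (γ : SL(2, ℤ)) * cohT_J)) := by
          rw [e1, mul_assoc]
      _ = (mapGL ℝ (τ x : SL(2, ℤ)))⁻¹ *
            ((cohT_J * mapGL ℝ (g' x : SL(2, ℤ)) * cohT_J) * (cohT_J * α (σ x) * cohT_J)) := by
          rw [cohT_conj_mul, cohT_conj_mul, hmul x]
      _ = (mapGL ℝ (τ x : SL(2, ℤ)))⁻¹ * (cohT_J * mapGL ℝ (g' x : SL(2, ℤ)) * cohT_J) *
            mapGL ℝ (τ (σ x) : SL(2, ℤ)) * α (ng (σ x)) := by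
          rw [e3]
          simp only [mul_assoc]
  have h1 := cohT_transfer_cusp p α hdet f Tf hT (jConjGamma0 p γ) (ng.symm.trans (σ.trans ng))
    (fun y => (τ (ng.symm y))⁻¹ * jConjGamma0 p (g' (ng.symm y)) * τ (σ (ng.symm y))) hmul'
  rw [h1, ← Equiv.sum_comp ng]
  simp only [Equiv.symm_apply_apply, ofMul_mul, ofMul_inv, map_add, map_neg]
  rw [Finset.sum_add_distrib, Finset.sum_add_distrib, Finset.sum_neg_distrib,
    Equiv.sum_comp σ (fun x => periodMap p f (Additive.ofMul (τ x)))]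
  ring

end Fermat.Agent.S16
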