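import Mathlib
import Fermat.Agent.S16.CohTrA
import Fermat.Agent.S21.Lin
import Fermat.Agent.S21.Final

/-!
# S16, route [COH]: the Hecke transfer on periods (TR)

`cohT_transfer : coh_EisHeckeStatement p → coh_TransferStatement p`, where
`coh_EisHeckeStatement p` says that the Eisenstein series `s16e_fun p` is an eigenfunction of
`T_ℓ` (`ℓ ≠ p`, eigenvalue `1 + ℓ`) and of `U_p` (eigenvalue `1`).

The coset representatives and their permutation by `Γ₀(p)` are those of the Prelude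
(`heckeRep_mul`, `heckeMatrix_mul_of_dvd`).
-/

set_option autoImplicit false

noncomputable section

namespace Fermat.Agent.S16

open UpperHalfPlane hiding I
open Complex Filter Function CongruenceSubgroup ModularCurve ModularCurve.Period
open Fermat.Agent.S21 Matrix.SpecialLinearGroup
open P2MW.S_ModularForm_heckeT_slash_eq_self_of_mem_Gamma0.ModularForm.HeckeSlashInvariance
open ModularForm (heckeMatrix heckeDiagMatrix heckeT heckeU)
open scoped Topology MatrixGroups ModularForm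

/-- The translation matrix `[[1, n], [0, 1]]`. -/
def cohT_transSL (n : ℤ) : SL(2, ℤ) :=
  ⟨!![1, n; 0, 1], by simp [Matrix.det_fin_two_of]⟩

@[simp] theorem cohT_transSL_apply_zero_zero (n : ℤ) : cohT_transSL n 0 0 = 1 := rfl
@[simp] theorem cohT_transSL_apply_zero_one (n : ℤ) : cohT_transSL n 0 1 = n := rfl
@[simp] theorem cohT_transSL_apply_one_zero (n : ℤ) : cohT_transSL n 1 0 = 0 := rfl
@[simp] theorem cohT_transSL_apply_one_one (n : ℤ) : cohT_transSL n 1 1 = 1 := rfl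

theorem cohT_transSL_mem (N : ℕ) (n : ℤ) : cohT_transSL n ∈ Gamma0 N := by
  rw [Gamma0_mem]
  simp

/-- The translation matrix `[[1, n], [0, 1]]`, as an element of `Γ₀(N)`. -/
def cohT_trans (N : ℕ) (n : ℤ) : Gamma0 N := ⟨cohT_transSL n, cohT_transSL_mem N n⟩

theorem cohT_conj_heckeMatrix (ℓ : ℕ) [NeZero ℓ] (N : ℕ) (j : ZMod ℓ) :
    ∃ t : Gamma0 N, cohT_J * heckeMatrix ℓ j.val * cohT_J =
      mapGL ℝ (t : SL(2, ℤ)) * heckeMatrix ℓ (-j).val := by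
  have hℓ : ℓ ≠ 0 := NeZero.ne ℓ
  obtain ⟨m, hm⟩ : (ℓ : ℤ) ∣ (j.val : ℤ) + ((-j).val : ℤ) := by
    rw [← ZMod.intCast_zmod_eq_zero_iff_dvd]
    push_cast
    rw [ZMod.natCast_zmod_val, ZMod.natCast_zmod_val]
    ring
  refine ⟨cohT_trans N (-m), ?_⟩
  have hm' : ((j.val : ℝ)) + ((-j).val : ℝ) = (ℓ : ℝ) * (m : ℝ) := by exact_mod_cast hm
  ext a b
  fin_cases a <;> fin_cases b <;>
    simp [cohT_J, cohT_trans, hℓ, Matrix.mul_apply, Fin.sum_univ_two, -ZMod.natCast_val]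
  linear_combination -hm'

theorem cohT_conj_heckeDiagMatrix (ℓ : ℕ) [NeZero ℓ] :
    cohT_J * heckeDiagMatrix ℓ * cohT_J = heckeDiagMatrix ℓ := by
  have hℓ : ℓ ≠ 0 := NeZero.ne ℓ
  ext a b
  fin_cases a <;> fin_cases b <;>
    simp [cohT_J, hℓ, Matrix.mul_apply, Fin.sum_univ_two]


theorem cohT_det_heckeRep_pos (ℓ : ℕ) (x : OnePoint (ZMod ℓ)) :
    0 < (heckeRep ℓ x).det.val := by
  induction x using OnePoint.rec with
  | infty => exact ModularForm.det_heckeDiagMatrix_pos ℓ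
  | coe j => exact ModularForm.det_heckeMatrix_pos ℓ j.val

/-- Negation on the projective line. -/
def cohT_negP (ℓ : ℕ) : OnePoint (ZMod ℓ) ≃ OnePoint (ZMod ℓ) :=
  Equiv.optionCongr (Equiv.neg (ZMod ℓ))

theorem cohT_conj_heckeRep (ℓ : ℕ) [NeZero ℓ] (N : ℕ) (x : OnePoint (ZMod ℓ)) :
    ∃ t : Gamma0 N, cohT_J * heckeRep ℓ x * cohT_J =
      mapGL ℝ (t : SL(2, ℤ)) * heckeRep ℓ (cohT_negP ℓ x) := by
  induction x using OnePoint.rec with
  | infty =>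
    refine ⟨1, ?_⟩
    have e : cohT_negP ℓ (OnePoint.infty) = OnePoint.infty := rfl
    rw [e, heckeRep_infty, cohT_conj_heckeDiagMatrix, OneMemClass.coe_one, map_one, one_mul]
  | coe j =>
    have e : cohT_negP ℓ ((j : ZMod ℓ) : OnePoint (ZMod ℓ)) = ((-j : ZMod ℓ) : OnePoint (ZMod ℓ)) :=
      rfl
    rw [e, heckeRep_coe, heckeRep_coe]
    exact cohT_conj_heckeMatrix ℓ N j

theorem cohT_dvd_of_mem (p : ℕ) (γ : Gamma0 p) : (p : ℤ) ∣ (γ : SL(2, ℤ)) 1 0 :=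
  (ZMod.intCast_zmod_eq_zero_iff_dvd _ _).mp (Gamma0_mem.mp γ.2)

/-- The transfer data for `T_ℓ`, `ℓ ∤ p`. -/
theorem cohT_case_T (p : ℕ) [NeZero p] (ℓ : ℕ) [Fact ℓ.Prime] (hℓp : ¬ ℓ ∣ p) (γ : Gamma0 p) :
    ∃ g' : OnePoint (ZMod ℓ) → Gamma0 p,
      (∀ f Tf : CuspForm (Gamma0 p) 2, ⇑Tf = heckeT 2 ℓ ⇑f →
        periodMap p Tf (Additive.ofMul γ) = ∑ x, periodMap p f (Additive.ofMul (g' x)) ∧
        periodMap p Tf (Additive.ofMul (jConjGamma0 p γ)) =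
          ∑ x, periodMap p f (Additive.ofMul (jConjGamma0 p (g' x)))) ∧
      (∀ c : ℂ, heckeT 2 ℓ (s16e_fun p) = c • s16e_fun p → ∀ F : ℍ → ℂ,
        IsPrimOf F (s16e_fun p) → ∀ z : ℍ,
        c * (F ((γ : SL(2, ℤ)) • z) - F z) = ∑ x, (F ((g' x : SL(2, ℤ)) • z) - F z)) := by
  have : NeZero ℓ := ⟨(Fact.out : ℓ.Prime).ne_zero⟩
  choose g₁ hg₁ hmul₁ using fun x => heckeRep_mul hℓp (γ : SL(2, ℤ)) (cohT_dvd_of_mem p γ) x
  have hmem : ∀ x, g₁ x ∈ Gamma0 p := fun x =>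
    Gamma0_mem.mpr ((ZMod.intCast_zmod_eq_zero_iff_dvd _ _).mpr (hg₁ x))
  choose τ hτ using fun x => cohT_conj_heckeRep ℓ p x
  refine ⟨fun x => ⟨g₁ x, hmem x⟩, ?_, ?_⟩
  · intro f Tf hT
    have hT' : ⇑Tf = ∑ x, (⇑f) ∣[(2 : ℤ)] heckeRep ℓ x := by
      rw [hT, heckeT_eq_sum_onePoint]
    exact cohT_core p (heckeRep ℓ) (cohT_det_heckeRep_pos ℓ) (cohT_negP ℓ) τ hτ f Tf hT' γ
      (MulAction.toPerm (redMatrix ℓ (γ : SL(2, ℤ)))) (fun x => ⟨g₁ x, hmem x⟩)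
      (fun x => hmul₁ x)
  · intro c hc F hF z
    have hE : ∑ x, (s16e_fun p) ∣[(2 : ℤ)] heckeRep ℓ x = c • s16e_fun p := by
      rw [← hc, heckeT_eq_sum_onePoint]
    exact cohT_transfer_eis p (heckeRep ℓ) (cohT_det_heckeRep_pos ℓ) c hE γ
      (MulAction.toPerm (redMatrix ℓ (γ : SL(2, ℤ)))) (fun x => ⟨g₁ x, hmem x⟩)
      (fun x => hmul₁ x) hF z

/-- The transfer data for `U_q`, `q ∣ p`. -/
theorem cohT_case_U (p : ℕ) [NeZero p] (q : ℕ) [NeZero q] (hqp : q ∣ p) (γ : Gamma0 p) :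
    ∃ g' : ZMod q → Gamma0 p,
      (∀ f Tf : CuspForm (Gamma0 p) 2, ⇑Tf = heckeU 2 q ⇑f →
        periodMap p Tf (Additive.ofMul γ) = ∑ x, periodMap p f (Additive.ofMul (g' x)) ∧
        periodMap p Tf (Additive.ofMul (jConjGamma0 p γ)) =
          ∑ x, periodMap p f (Additive.ofMul (jConjGamma0 p (g' x)))) ∧
      (∀ c : ℂ, heckeU 2 q (s16e_fun p) = c • s16e_fun p → ∀ F : ℍ → ℂ,
        IsPrimOf F (s16e_fun p) → ∀ z : ℍ,
        c * (F ((γ : SL(2, ℤ)) • z) - F z) = ∑ x, (F ((g' x : SL(2, ℤ)) • z) - F z)) := by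
  have hq : (q : ℤ) ∣ (γ : SL(2, ℤ)) 1 0 :=
    (Int.natCast_dvd_natCast.mpr hqp).trans (cohT_dvd_of_mem p γ)
  choose g₁ hg₁ hmul₁ using fun x => heckeMatrix_mul_of_dvd (γ : SL(2, ℤ)) hq x
  have hmem : ∀ x, g₁ x ∈ Gamma0 p := fun x => by
    rw [Gamma0_mem, hg₁ x]
    push_cast
    rw [Gamma0_mem.mp γ.2, mul_zero]
  choose τ hτ using fun x => cohT_conj_heckeMatrix q p x
  have hdet : ∀ x : ZMod q, 0 < (heckeMatrix q x.val).det.val := fun x =>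
    ModularForm.det_heckeMatrix_pos q x.val
  refine ⟨fun x => ⟨g₁ x, hmem x⟩, ?_, ?_⟩
  · intro f Tf hT
    have hT' : ⇑Tf = ∑ x : ZMod q, (⇑f) ∣[(2 : ℤ)] heckeMatrix q x.val := by
      rw [hT, heckeU_eq_sum_zmod]
    exact cohT_core p (fun x : ZMod q => heckeMatrix q x.val) hdet (Equiv.neg (ZMod q)) τ hτ
      f Tf hT' γ (affinePerm (γ : SL(2, ℤ)) ((ZMod.intCast_zmod_eq_zero_iff_dvd _ _).mpr hq))
      (fun x => ⟨g₁ x, hmem x⟩) (fun x => hmul₁ x)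
  · intro c hc F hF z
    have hE : ∑ x : ZMod q, (s16e_fun p) ∣[(2 : ℤ)] heckeMatrix q x.val = c • s16e_fun p := by
      rw [← hc, heckeU_eq_sum_zmod]
    exact cohT_transfer_eis p (fun x : ZMod q => heckeMatrix q x.val) hdet c hE γ
      (affinePerm (γ : SL(2, ℤ)) ((ZMod.intCast_zmod_eq_zero_iff_dvd _ _).mpr hq))
      (fun x => ⟨g₁ x, hmem x⟩) (fun x => hmul₁ x) hF z

/-- (E-H) the Eisenstein series of level `p` is a Hecke eigenfunction. -/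
def coh_EisHeckeStatement (p : ℕ) : Prop :=
  (∀ ℓ : ℕ, ℓ.Prime → ℓ ≠ p → heckeT 2 ℓ (s16e_fun p) = ((1 : ℂ) + (ℓ : ℂ)) • s16e_fun p) ∧
    heckeU 2 p (s16e_fun p) = s16e_fun p

theorem cohT_periodHomPair_apply (p : ℕ) [NeZero p] (f g : CuspForm (Gamma0 p) 2)
    (γ : Gamma0 p) :
    periodHomPair p (f, g) (Additive.ofMul γ) =
      (periodMap p f (Additive.ofMul γ) + periodMap p f (Additive.ofMul (jConjGamma0 p γ))) +
        (periodMap p g (Additive.ofMul γ) - periodMap p g (Additive.ofMul (jConjGamma0 p γ))) := by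
  rw [final_periodHomPair_apply p (lin p (prim p) (periodEq p)) f g]
  rfl

/-- **(TR)** the Hecke transfer on periods. -/
theorem cohT_transfer (p : ℕ) [Fact p.Prime] (hE : coh_EisHeckeStatement p) :
    coh_TransferStatement p := by
  have hp : p.Prime := Fact.out
  intro ℓ γ
  by_cases h : (ℓ : ℕ) ∣ p
  · -- `U_p`
    have : NeZero (ℓ : ℕ) := ⟨ℓ.2.ne_zero⟩
    have hℓp : (ℓ : ℕ) = p := (Nat.prime_dvd_prime_iff_eq ℓ.2 hp).mp h
    obtain ⟨g', h1, h2⟩ := cohT_case_U p (ℓ : ℕ) h γ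
    refine ⟨ZMod (ℓ : ℕ), inferInstance, g', ?_, ?_⟩
    · intro f g
      have hf : ⇑(coh_op p ℓ f) = heckeU 2 (ℓ : ℕ) ⇑f := by
        rw [coh_op, CuspForm.heckeFormsGen_of_dvd h]
        rfl
      have hg : ⇑(coh_op p ℓ g) = heckeU 2 (ℓ : ℕ) ⇑g := by
        rw [coh_op, CuspForm.heckeFormsGen_of_dvd h]
        rfl
      obtain ⟨a1, a2⟩ := h1 f _ hf
      obtain ⟨b1, b2⟩ := h1 g _ hg
      rw [cohT_periodHomPair_apply, a1, a2, b1, b2]
      simp only [cohT_periodHomPair_apply, Finset.sum_add_distrib, Finset.sum_sub_distrib]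
    · intro F hF z
      have hc : heckeU 2 (ℓ : ℕ) (s16e_fun p) = (1 : ℂ) • s16e_fun p := by
        rw [hℓp, one_smul]
        exact hE.2
      have := h2 1 hc F hF z
      rw [eisensteinSystem_of_dvd h]
      simpa using this
  · -- `T_ℓ`
    have : Fact (ℓ : ℕ).Prime := ⟨ℓ.2⟩
    have hℓp : (ℓ : ℕ) ≠ p := fun e => h (e ▸ dvd_rfl)
    obtain ⟨g', h1, h2⟩ := cohT_case_T p (ℓ : ℕ) h γ
    refine ⟨OnePoint (ZMod (ℓ : ℕ)), inferInstance, g', ?_, ?_⟩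
    · intro f g
      have hf : ⇑(coh_op p ℓ f) = heckeT 2 (ℓ : ℕ) ⇑f := by
        rw [coh_op, CuspForm.heckeFormsGen_of_not_dvd h]
        rfl
      have hg : ⇑(coh_op p ℓ g) = heckeT 2 (ℓ : ℕ) ⇑g := by
        rw [coh_op, CuspForm.heckeFormsGen_of_not_dvd h]
        rfl
      obtain ⟨a1, a2⟩ := h1 f _ hf
      obtain ⟨b1, b2⟩ := h1 g _ hg
      rw [cohT_periodHomPair_apply, a1, a2, b1, b2]
      simp only [cohT_periodHomPair_apply, Finset.sum_add_distrib, Finset.sum_sub_distrib]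
    · intro F hF z
      have := h2 _ (hE.1 (ℓ : ℕ) ℓ.2 hℓp) F hF z
      rw [eisensteinSystem_of_not_dvd h]
      push_cast
      exact this

end Fermat.Agent.S16
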