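import Mathlib
import Fermat.Agent.S16.CohAsm
import Fermat.Agent.S16.CohGlue
import Fermat.Agent.S16.CohTrB
import Fermat.Agent.S16.CohPsi
import Fermat.Agent.S16.EisHecke

/-!
# S16, route [COH]: everything except the three Eisenstein inputs

`coh_lower_of_eis : (PRIM-E) → (INT) → (CONTENT) → coh_LowerStatement p`,
i.e. (C1) in the form `eisensteinNumerator p ∣ ev P` for every `P` in the kernel of
`HeckeAlg → 𝕋`.
-/

set_option autoImplicit false

noncomputable section

namespace Fermat.Agent.S16

open UpperHalfPlane CongruenceSubgroup ModularCurve ModularCurve.Period CuspForm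
open scoped MatrixGroups

/-- (E-H) from helper7's `s16e_heckeT`, `s16e_heckeU`. -/
theorem coh_eisHecke (p : ℕ) (hp : p.Prime) : coh_EisHeckeStatement p := by
  refine ⟨fun ℓ hℓ hne => ?_, s16e_heckeU p hp⟩
  rw [s16e_heckeT p ℓ hp hℓ hne]
  push_cast
  rfl

/-- **(TR)**. -/
theorem coh_transfer (p : ℕ) [Fact p.Prime] : coh_TransferStatement p :=
  cohT_transfer p (coh_eisHecke p Fact.out)

/-- **Route [COH]** modulo the three Eisenstein inputs (PRIM-E), (INT), (CONTENT). -/
theorem coh_lower_of_eis (p : ℕ) [Fact p.Prime] (hprim : coh_PrimStatement p)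
    (hint : coh_IntStatement p) (hcont : coh_ContentStatement p) : coh_LowerStatement p :=
  coh_lower_of p hprim hint (coh_transfer p) (cohPsi_statement p Fact.out) hcont
    (coh_span p) (coh_es p)

end Fermat.Agent.S16
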