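import Mathlib
import Fermat.Prelude.Def_GaloisRep_Flat

/-!
# S16, package [DT] (the `Δ`-test): the arithmetic core

Let `ℓ ≠ p` be primes, `a : ℕ → ℤ_(ℓ)` with `a 0 = 1` and `ℓ ^ m ∣ a n` for `n ≥ 1`, and let
`τ : ℕ → ℤ` with the two "trace identities"

* `∑_{i + j = p} τ i * a (p j) = 0`,
* `∑_{i + j = p²} τ i * a (p j) = p ^ 12`

and the Hecke relation `τ (p²) = τ p ^ 2 - p ^ 11`.  Then `ℓ ^ m ∣ p + 1`.
-/

set_option autoImplicit false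

namespace Fermat.Agent.S16

open Finset GaloisRep

/-- An integer divisible by `ℓ ^ m` in `ℤ_(ℓ)` is divisible by `ℓ ^ m` in `ℤ`. -/
theorem s16d_int_dvd_of_dvd (ℓ m : ℕ) (hℓ : ℓ.Prime) (z : ℤ)
    (h : ((ℓ : ↥(ratLocalizedAt ℓ)) ^ m) ∣ (z : ↥(ratLocalizedAt ℓ))) : ((ℓ : ℤ) ^ m) ∣ z := by
  obtain ⟨r, hr⟩ := h
  have hq : (z : ℚ) = (ℓ : ℚ) ^ m * (r : ℚ) := by
    have := congrArg (Subtype.val) hr
    simpa using this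
  have hden : (r : ℚ).den.Coprime ℓ := r.2
  have hℓ0 : ((ℓ : ℚ) ^ m) ≠ 0 := pow_ne_zero _ (by exact_mod_cast hℓ.ne_zero)
  have hr' : (r : ℚ) = (z : ℚ) / (((ℓ : ℤ) ^ m : ℤ) : ℚ) := by
    rw [hq]; push_cast; field_simp
  have hdvd : (r : ℚ).den ∣ ℓ ^ m := by
    have h1 : (((r : ℚ).den : ℤ)) ∣ ((ℓ : ℤ) ^ m) := by
      rw [hr']
      have := Rat.den_dvd z ((ℓ : ℤ) ^ m)
      simpa [Rat.divInt_eq_div] using this
    exact_mod_cast h1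
  have hone : (r : ℚ).den = 1 :=
    Nat.Coprime.eq_one_of_dvd (Nat.Coprime.pow_right m hden) hdvd
  rw [hr'] at hone
  exact (Rat.den_div_intCast_eq_one_iff z ((ℓ : ℤ) ^ m)
    (pow_ne_zero _ (by exact_mod_cast hℓ.ne_zero))).1 hone

/-- The sum `∑_{i + j = n} τ i * a (p j)` is congruent to `τ n` modulo `ℓ ^ m`. -/
theorem s16d_sum_congr (p ℓ m : ℕ) (hp : 0 < p)
    (a : ℕ → ↥(ratLocalizedAt ℓ)) (τ : ℕ → ℤ) (ha0 : a 0 = 1)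
    (ha : ∀ n, 1 ≤ n → ((ℓ : ↥(ratLocalizedAt ℓ)) ^ m) ∣ a n) (n : ℕ) :
    ((ℓ : ↥(ratLocalizedAt ℓ)) ^ m) ∣
      (∑ x ∈ antidiagonal n, (τ x.1 : ↥(ratLocalizedAt ℓ)) * a (p * x.2)) -
        (τ n : ↥(ratLocalizedAt ℓ)) := by
  have h1 : (τ n : ↥(ratLocalizedAt ℓ)) =
      ∑ x ∈ antidiagonal n, (τ x.1 : ↥(ratLocalizedAt ℓ)) * (if x.2 = 0 then 1 else 0) := by
    rw [Finset.sum_eq_single (n, 0)]
    · simp
    · rintro ⟨i, j⟩ hij hne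
      rw [HasAntidiagonal.mem_antidiagonal] at hij
      have hj : j ≠ 0 := by
        rintro rfl
        apply hne
        simp only [add_zero] at hij
        rw [hij]
      simp [hj]
    · intro h
      exact absurd (HasAntidiagonal.mem_antidiagonal.2 (by simp)) h
  rw [h1, ← Finset.sum_sub_distrib]
  refine Finset.dvd_sum fun x _ => ?_
  rw [← mul_sub]
  refine Dvd.dvd.mul_left ?_ _
  by_cases hx : x.2 = 0
  · simp [hx, ha0]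
  · simp only [hx, if_false, sub_zero]
    exact ha _ (Nat.mul_pos hp (Nat.pos_of_ne_zero hx))

/-- **The arithmetic core of the `Δ`-test.** -/
theorem s16d_core (p ℓ m : ℕ) (hp : p.Prime) (hℓ : ℓ.Prime) (hne : ℓ ≠ p)
    (a : ℕ → ↥(ratLocalizedAt ℓ)) (τ : ℕ → ℤ) (ha0 : a 0 = 1)
    (ha : ∀ n, 1 ≤ n → ∃ r : ↥(ratLocalizedAt ℓ), a n = (ℓ : ↥(ratLocalizedAt ℓ)) ^ m * r)
    (h1 : ∑ x ∈ antidiagonal p, (τ x.1 : ↥(ratLocalizedAt ℓ)) * a (p * x.2) = 0)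
    (h2 : ∑ x ∈ antidiagonal (p * p), (τ x.1 : ↥(ratLocalizedAt ℓ)) * a (p * x.2) =
      (p : ↥(ratLocalizedAt ℓ)) ^ 12)
    (h3 : τ (p * p) = τ p ^ 2 - (p : ℤ) ^ 11) : ℓ ^ m ∣ p + 1 := by
  have ha' : ∀ n, 1 ≤ n → ((ℓ : ↥(ratLocalizedAt ℓ)) ^ m) ∣ a n := fun n hn => ha n hn
  have c1 := s16d_sum_congr p ℓ m hp.pos a τ ha0 ha' p
  have c2 := s16d_sum_congr p ℓ m hp.pos a τ ha0 ha' (p * p)
  rw [h1, zero_sub, dvd_neg] at c1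
  rw [h2] at c2
  -- `ℓ ^ m ∣ τ p` and `ℓ ^ m ∣ p ^ 12 - τ (p²)` in `ℤ_(ℓ)`
  have d1 : ((ℓ : ℤ) ^ m) ∣ τ p := s16d_int_dvd_of_dvd ℓ m hℓ _ c1
  have d2 : ((ℓ : ℤ) ^ m) ∣ (p : ℤ) ^ 12 - τ (p * p) := by
    apply s16d_int_dvd_of_dvd ℓ m hℓ
    push_cast
    exact c2
  have d3 : ((ℓ : ℤ) ^ m) ∣ (p : ℤ) ^ 11 * ((p : ℤ) + 1) := by
    have e : (p : ℤ) ^ 11 * ((p : ℤ) + 1) = ((p : ℤ) ^ 12 - τ (p * p)) + τ p * τ p := by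
      rw [h3]; ring
    rw [e]
    exact dvd_add d2 (Dvd.dvd.mul_right d1 _)
  have hcop : IsCoprime ((ℓ : ℤ) ^ m) ((p : ℤ) ^ 11) := by
    apply IsCoprime.pow
    rw [Int.isCoprime_iff_gcd_eq_one]
    have := (Nat.coprime_primes hℓ hp).2 hne
    simpa [Int.gcd_natCast_natCast] using this
  have d4 : ((ℓ : ℤ) ^ m) ∣ ((p : ℤ) + 1) := hcop.dvd_of_dvd_mul_left d3
  exact_mod_cast d4

end Fermat.Agent.S16
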