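import Mathlib
import Fermat.Agent.S16.TraceFin
import Fermat.Agent.S16.Final
import Fermat.Agent.S16.DeltaCore
import Fermat.Agent.S20.LevelOne
import Fermat.Agent.S24.BridgeEta

/-!
# S16, package [DT]: the `Δ`-test

For primes `ℓ ≠ p` and `H ∈ M₂(Γ₀(p))` with `q`-expansion in `1 + ℓ^m q ℤ_(ℓ)[[q]]` we have
`ℓ^m ∣ p + 1`.

Proof.  By (TR2), `H · V_p Δ - p^(-12) U_p(Δ · U_p H)` is the `q`-expansion of a level one form
of weight `14` with vanishing constant term, hence `0`.  By (TR3), `V_p Δ + p^(-11) U_p Δ` is the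
`q`-expansion of a cusp form of level one and weight `12`, hence a multiple of `Δ`; this gives
`τ(p²) = τ(p)² - p^11`.  Comparing the coefficients of `q` and `q^p` in the first identity
modulo `ℓ^m` gives `ℓ^m ∣ τ(p)` and `τ(p²) ≡ p^12`, whence `ℓ^m ∣ p^11 (p + 1)`.

* `s16d_noH` : the statement in the shape `s16g_NoH p ℓ m`;
* `s16d_fin : s16fin_DT`.
-/

set_option autoImplicit false

noncomputable section

namespace Fermat.Agent.S16

open UpperHalfPlane ModularFormClass CongruenceSubgroup GaloisRep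
open scoped MatrixGroups ModularForm Manifold
open Fermat.Agent.S22 (IsMF IsNice G0 G1)

local notation "Δ" => ModularForm.discriminant

/-! ### `Δ` and its coefficients -/

/-- The Ramanujan function: the coefficients of `Δ = q ∏ (1 - q^n)^24`. -/
def s16d_tau (n : ℕ) : ℤ := PowerSeries.coeff n (PowerSeries.X * ModularCurve.dedekindEtaUnit)

theorem s16d_tau_zero : s16d_tau 0 = 0 := by
  simp [s16d_tau]

theorem s16d_tau_one : s16d_tau 1 = 1 := by
  have h : s16d_tau 1 = PowerSeries.coeff 0 ModularCurve.dedekindEtaUnit := by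
    rw [s16d_tau, show (1 : ℕ) = 0 + 1 from rfl, PowerSeries.coeff_succ_X_mul]
  rw [h, PowerSeries.coeff_zero_eq_constantCoeff_apply,
    ModularCurve.constantCoeff_dedekindEtaUnit]

theorem s16d_disc_fun_eq : (Δ : ℍ → ℂ) = (1728 : ℂ)⁻¹ • Fermat.Agent.S22.Dfun := by
  funext z
  rw [Pi.smul_apply, smul_eq_mul, Fermat.Agent.S22.Dfun_eq_discriminant]
  field_simp

theorem s16d_isMF_disc : IsMF G1 12 (Δ : ℍ → ℂ) := by
  rw [s16d_disc_fun_eq]
  exact Fermat.Agent.S22.isMF_Dfun.smul _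

theorem s16d_isNice_disc : IsNice (Δ : ℍ → ℂ) := s16d_isMF_disc.isNice_G1

theorem s16d_qExp_disc :
    qExpansion 1 (Δ : ℍ → ℂ) =
      (PowerSeries.X * ModularCurve.dedekindEtaUnit).map (Int.castRingHom ℂ) := by
  have h : (Δ : ℍ → ℂ) = Fermat.Agent.S24.anA_qfun * Fermat.Agent.S24.anA_etaF ^ 24 := by
    funext z
    rw [Fermat.Agent.S24.anA_discriminant_eq]
    rfl
  rw [h, Fermat.Agent.S24.anA_isNice_qfun.qExpansion_mul (Fermat.Agent.S24.anA_isNice_etaF.pow 24),
    Fermat.Agent.S24.anA_isNice_etaF.qExpansion_pow, Fermat.Agent.S24.anA_qExpansion_qfun,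
    Fermat.Agent.S24.anA_qExpansion_etaF, ModularCurve.dedekindEtaUnit, map_mul, map_pow,
    PowerSeries.map_X]

theorem s16d_disc_coeff (n : ℕ) :
    (qExpansion 1 (Δ : ℍ → ℂ)).coeff n = (s16d_tau n : ℂ) := by
  rw [s16d_qExp_disc, PowerSeries.coeff_map, s16d_tau]
  rfl

/-! ### Level one forms of weight `14` and `12` with vanishing constant term -/

theorem s16d_eq_zero_of_fourteen {F : ℍ → ℂ} (hF : IsMF G1 14 F)
    (h0 : (qExpansion 1 F).coeff 0 = 0) : F = 0 := by
  obtain ⟨G, rfl⟩ := hF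
  obtain ⟨g', hg', hG⟩ := Fermat.Agent.S20.l1_cusp_of_coeff G h0
  have hz : g' = 0 := Fermat.Agent.S20.l1_eq_zero_of_two (hg'.cast (by norm_num))
  rw [hG, hz, mul_zero]

theorem s16d_eq_smul_disc {F : ℍ → ℂ} (hF : IsMF G1 12 F)
    (h0 : (qExpansion 1 F).coeff 0 = 0) : ∃ c : ℂ, F = c • (Δ : ℍ → ℂ) := by
  obtain ⟨G, rfl⟩ := hF
  obtain ⟨g', hg', hG⟩ := Fermat.Agent.S20.l1_cusp_of_coeff G h0
  obtain ⟨c, hc⟩ := Fermat.Agent.S20.l1_const_of_zero (hg'.cast (by norm_num))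
  refine ⟨c, ?_⟩
  rw [hG, hc]
  funext z
  simp only [Pi.mul_apply, Pi.smul_apply, smul_eq_mul]
  ring

/-! ### The Hecke relation `τ(p²) = τ(p)² - p^11` -/

theorem s16d_tau_hecke {p : ℕ} (hp : p.Prime) :
    s16d_tau (p * p) = s16d_tau p ^ 2 - (p : ℤ) ^ 11 := by
  have hp' : (p : ℂ) ≠ 0 := by exact_mod_cast hp.ne_zero
  have hp1 : ¬ p ∣ 1 := fun h => hp.one_lt.ne' (Nat.dvd_one.1 h)
  obtain ⟨F, hF, hq⟩ := tr16_fin_TR3 hp s16d_isMF_disc
  have hc : ∀ n, (qExpansion 1 F).coeff n =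
      (if p ∣ n then (s16d_tau (n / p) : ℂ) else 0) +
        (p : ℂ) ^ ((1 : ℤ) - 12) * (s16d_tau (p * n) : ℂ) := by
    intro n
    rw [hq]
    simp only [map_add, PowerSeries.coeff_smul, tr16_U_coeff, tr16_V_coeff, smul_eq_mul,
      s16d_disc_coeff]
  have h0 : (qExpansion 1 F).coeff 0 = 0 := by
    rw [hc 0]
    simp [s16d_tau_zero]
  obtain ⟨c, rfl⟩ := s16d_eq_smul_disc hF h0
  have hcs : ∀ n, (qExpansion 1 (c • (Δ : ℍ → ℂ))).coeff n = c * (s16d_tau n : ℂ) := by
    intro n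
    rw [s16d_isNice_disc.qExpansion_smul, PowerSeries.coeff_smul, smul_eq_mul, s16d_disc_coeff]
  have e1 := hc 1
  rw [hcs 1, if_neg hp1, s16d_tau_one, Int.cast_one, mul_one, zero_add, mul_one] at e1
  have e2 := hc p
  rw [hcs p, if_pos (dvd_refl p), Nat.div_self hp.pos, s16d_tau_one, Int.cast_one, e1] at e2
  have hpz : (p : ℂ) ^ ((1 : ℤ) - 12) = ((p : ℂ) ^ 11)⁻¹ := by
    rw [show ((1 : ℤ) - 12) = -((11 : ℕ) : ℤ) by norm_num, zpow_neg, zpow_natCast]
  rw [hpz] at e2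
  have hp11 : ((p : ℂ) ^ 11) ≠ 0 := pow_ne_zero _ hp'
  have e3 : (s16d_tau p : ℂ) * (s16d_tau p : ℂ) = (p : ℂ) ^ 11 + (s16d_tau (p * p) : ℂ) := by
    field_simp at e2
    linear_combination e2
  have e4 : ((s16d_tau p * s16d_tau p : ℤ) : ℂ) = (((p : ℤ) ^ 11 + s16d_tau (p * p) : ℤ) : ℂ) := by
    push_cast
    exact e3
  have e5 := Int.cast_injective e4
  linarith [e5, sq (s16d_tau p)]

/-! ### The embedding `ℤ_(ℓ) → ℂ` -/

/-- The embedding `ℤ_(ℓ) → ℂ`. -/
def s16d_emb (ℓ : ℕ) : ↥(ratLocalizedAt ℓ) →+* ℂ :=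
  (Rat.castHom ℂ).comp (ratLocalizedAt ℓ).subtype

theorem s16d_emb_apply (ℓ : ℕ) (x : ↥(ratLocalizedAt ℓ)) : s16d_emb ℓ x = (((x : ℚ)) : ℂ) := rfl

theorem s16d_emb_injective (ℓ : ℕ) : Function.Injective (s16d_emb ℓ) := by
  intro x y h
  rw [s16d_emb_apply, s16d_emb_apply] at h
  exact Subtype.ext (Rat.cast_injective h)

/-! ### The `Δ`-test -/

/-- **The `Δ`-test**: for primes `ℓ ≠ p` with `ℓ^m ∤ p + 1` there is no modular form of weight
`2` and level `Γ₀(p)` with `q`-expansion in `1 + ℓ^m q ℤ_(ℓ)[[q]]`. -/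
theorem s16d_noH (p l m : ℕ) (hp : p.Prime) (hl : l.Prime) (hne : l ≠ p)
    (hnd : ¬ l ^ m ∣ p + 1) : s16g_NoH p l m := by
  intro H hH a ha h0 hn
  apply hnd
  have hp' : (p : ℂ) ≠ 0 := by exact_mod_cast hp.ne_zero
  have hp12 : (p : ℂ) ^ (-(12 : ℤ)) ≠ 0 := zpow_ne_zero _ hp'
  obtain ⟨F, hF, hq⟩ := tr16_fin_TR2 hp hH s16d_isMF_disc
  -- the coefficients of `F`
  have hc : ∀ n, (qExpansion 1 F).coeff n =
      ∑ x ∈ Finset.HasAntidiagonal.antidiagonal n, (qExpansion 1 H).coeff x.1 *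
          (if p ∣ x.2 then (s16d_tau (x.2 / p) : ℂ) else 0)
        - (p : ℂ) ^ (-(12 : ℤ)) * ∑ x ∈ Finset.HasAntidiagonal.antidiagonal (p * n),
            (s16d_tau x.1 : ℂ) * (qExpansion 1 H).coeff (p * x.2) := by
    intro n
    rw [hq]
    simp only [map_sub, PowerSeries.coeff_smul, PowerSeries.coeff_mul, tr16_U_coeff,
      tr16_V_coeff, smul_eq_mul, s16d_disc_coeff]
  have hF0 : (qExpansion 1 F).coeff 0 = 0 := by
    rw [hc 0]
    simp [s16d_tau_zero]
  have hFz : F = 0 := s16d_eq_zero_of_fourteen (hF.cast (by norm_num)) hF0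
  have hzero : ∀ n, (qExpansion 1 F).coeff n = 0 := by
    intro n
    rw [hFz, UpperHalfPlane.qExpansion_zero]
    simp
  have hH0 : (qExpansion 1 H).coeff 0 = 1 := by
    rw [ha 0, h0]
    simp
  -- the coefficient of `q`
  have i1 : ∑ x ∈ Finset.HasAntidiagonal.antidiagonal p,
      (s16d_tau x.1 : ℂ) * (qExpansion 1 H).coeff (p * x.2) = 0 := by
    have h1 := hc 1
    rw [hzero 1, mul_one] at h1
    have hL : ∑ x ∈ Finset.HasAntidiagonal.antidiagonal 1, (qExpansion 1 H).coeff x.1 *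
        (if p ∣ x.2 then (s16d_tau (x.2 / p) : ℂ) else 0) = 0 := by
      apply Finset.sum_eq_zero
      rintro ⟨i, j⟩ hij
      rw [Finset.HasAntidiagonal.mem_antidiagonal] at hij
      by_cases hj : p ∣ j
      · have hj0 : j = 0 := by
          have hj1 : j ≤ 1 := by simp only at hij; omega
          have := hp.two_le
          exact Nat.eq_zero_of_dvd_of_lt hj (by omega)
        simp [hj0, s16d_tau_zero]
      · simp [hj]
    rw [hL, zero_sub, eq_comm, neg_eq_zero, mul_eq_zero] at h1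
    exact h1.resolve_left hp12
  -- the coefficient of `q^p`
  have i2 : ∑ x ∈ Finset.HasAntidiagonal.antidiagonal (p * p),
      (s16d_tau x.1 : ℂ) * (qExpansion 1 H).coeff (p * x.2) = (p : ℂ) ^ 12 := by
    have h1 := hc p
    rw [hzero p] at h1
    have hL : ∑ x ∈ Finset.HasAntidiagonal.antidiagonal p, (qExpansion 1 H).coeff x.1 *
        (if p ∣ x.2 then (s16d_tau (x.2 / p) : ℂ) else 0) = 1 := by
      rw [Finset.sum_eq_single (0, p)]
      · simp [Nat.div_self hp.pos, s16d_tau_one, hH0]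
      · rintro ⟨i, j⟩ hij hne'
        rw [Finset.HasAntidiagonal.mem_antidiagonal] at hij
        by_cases hj : p ∣ j
        · have hjp : j < p := by
            simp only at hij
            rcases Nat.eq_zero_or_pos i with hi | hi
            · exfalso
              apply hne'
              subst hi
              simp only [zero_add] at hij
              rw [hij]
            · omega
          have hj0 : j = 0 := Nat.eq_zero_of_dvd_of_lt hj hjp
          simp [hj0, s16d_tau_zero]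
        · simp [hj]
      · intro h
        exact absurd (Finset.HasAntidiagonal.mem_antidiagonal.2 (zero_add p)) h
    rw [hL] at h1
    have h2 : (p : ℂ) ^ (-(12 : ℤ)) = ((p : ℂ) ^ 12)⁻¹ := by
      rw [show (-(12 : ℤ)) = -((12 : ℕ) : ℤ) by norm_num, zpow_neg, zpow_natCast]
    rw [h2] at h1
    have hp12' : ((p : ℂ) ^ 12) ≠ 0 := pow_ne_zero _ hp'
    field_simp at h1
    linear_combination h1
  -- transfer to `ℤ_(ℓ)`
  have hι : ∀ n, s16d_emb l (PowerSeries.coeff n a) = (qExpansion 1 H).coeff n := fun n =>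
    (ha n).symm
  refine s16d_core p l m hp hl hne (fun n => PowerSeries.coeff n a) s16d_tau h0 hn ?_ ?_
    (s16d_tau_hecke hp)
  · apply s16d_emb_injective l
    rw [map_sum, map_zero, ← i1]
    refine Finset.sum_congr rfl fun x _ => ?_
    rw [map_mul, map_intCast, hι]
  · apply s16d_emb_injective l
    rw [map_sum, map_pow, map_natCast, ← i2]
    refine Finset.sum_congr rfl fun x _ => ?_
    rw [map_mul, map_intCast, hι]

/-- The `Δ`-test in the shape of `Final.lean`. -/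
theorem s16d_fin : s16fin_DT :=
  fun p l m hp _ hl hne hnd => s16d_noH p l m hp hl hne hnd

end Fermat.Agent.S16
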