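import Mathlib
import Fermat.Agent.S16.Eis
import Fermat.Agent.S21.Prim

/-!
# S16, package [EIS], part 3: the logarithm of the modular unit (primitives of `2πi E_p`)

* `s16e_dlog N = 2πi * s16e_fun N` ;
* `s16e_tendsto_isNice` : a nice function tends to its constant term at `i∞` ;
* `s16e_slash_perCusp` : every `SL(2,ℤ)`-translate of `s16e_fun N`, minus its constant term
  `A / D - 1`, is holomorphic, `D`-periodic and vanishes at `i∞` ;
* `s16e_prim_exists` : `2πi E_N` has a primitive on `ℍ` ;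
* `s16e_prim_shift` : for ANY primitive `F` of `2πi E_N`, `h ∈ SL(2,ℤ)` with Hermite data
  `(A, D)` (`A = gcd(N, c)`, `A D = N`) and `n : ℤ`:
  `F (h • (T ^ (D n) • w)) - F (h • w) = 2πi (A - D) n`.
-/

set_option autoImplicit false

noncomputable section

namespace Fermat.Agent.S16

open UpperHalfPlane hiding I
open Complex Filter Function CongruenceSubgroup Matrix.SpecialLinearGroup ModularFormClass
open EisensteinSeries
open scoped Topology Manifold MatrixGroups ModularForm Real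
open Fermat.Agent.S22 (IsMF IsNice G0 G1)
open Fermat.Agent.S21 (IsPrimOf)

/-- The logarithmic differential `2πi E_N` of the modular unit `Δ(N z) / Δ(z)`. -/
def s16e_dlog (N : ℕ) : ℍ → ℂ := fun z => 2 * π * I * s16e_fun N z

theorem s16e_dlog_apply (N : ℕ) (z : ℍ) : s16e_dlog N z = 2 * π * I * s16e_fun N z := rfl

theorem s16e_two_pi_I_ne_zero : (2 * π * I : ℂ) ≠ 0 := by
  simp [Real.pi_ne_zero]

/-- A nice function tends to its constant term at `i∞`. -/
theorem s16e_tendsto_isNice {f : ℍ → ℂ} (hf : IsNice f) :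
    Tendsto f atImInfty (𝓝 ((qExpansion 1 f).coeff 0)) := by
  have h1 : (qExpansion 1 f).coeff 0 = cuspFunction 1 f 0 := by
    rw [qExpansion_coeff]
    simp
  rw [h1]
  have h2 : (cuspFunction 1 f ∘ fun τ : ℍ => Periodic.qParam 1 τ : ℍ → ℂ) = f := by
    funext τ
    simpa using eq_cuspFunction τ one_ne_zero hf.per
  have h3 := hf.analyticAt.continuousAt.tendsto.comp (qParam_tendsto_atImInfty one_pos)
  rw [h2] at h3
  exact h3

theorem s16e_E2_tendsto : Tendsto E2 atImInfty (𝓝 1) := by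
  have h := s16e_tendsto_isNice s16e_E2_isNice
  rw [s16e_E2_coeff] at h
  simpa using h

/-- The affine map `z ↦ (A z + B) / D` tends to `i∞` at `i∞`. -/
theorem s16e_tendsto_affine (A D : ℕ) (B : ℤ) (hA : 0 < A) (hD : 0 < D) :
    Tendsto (fun z : ℍ => ofComplex (((A : ℂ) * z + B) / D)) atImInfty atImInfty := by
  have hAr : (0 : ℝ) < A := by exact_mod_cast hA
  have hDr : (0 : ℝ) < D := by exact_mod_cast hD
  rw [atImInfty, tendsto_comap_iff]
  have him : ∀ z : ℍ, (ofComplex (((A : ℂ) * z + B) / D)).im = (A : ℝ) / D * z.im := by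
    intro z
    have hw : 0 < ((((A : ℤ) : ℂ) * (z : ℂ) + (B : ℂ)) / ((D : ℤ) : ℂ)).im :=
      s16e_im_pos B (by exact_mod_cast hA) (by exact_mod_cast hD) z
    have hcoe : (((A : ℂ) * (z : ℂ) + (B : ℂ)) / (D : ℂ)) =
        ((((A : ℤ) : ℂ) * (z : ℂ) + (B : ℂ)) / ((D : ℤ) : ℂ)) := by push_cast; rfl
    rw [hcoe, ofComplex_apply_of_im_pos hw]
    show ((((A : ℤ) : ℂ) * (z : ℂ) + (B : ℂ)) / ((D : ℤ) : ℂ)).im = _
    have h1 : ((((A : ℤ) : ℂ) * (z : ℂ) + (B : ℂ)) / ((D : ℤ) : ℂ)) =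
        ((((A : ℝ) : ℂ) * (z : ℂ) + ((B : ℝ) : ℂ)) / ((D : ℝ) : ℂ)) := by push_cast; rfl
    rw [h1, Complex.div_ofReal_im]
    simp
    ring
  have hfun : (UpperHalfPlane.im ∘ fun z : ℍ => ofComplex (((A : ℂ) * z + B) / D)) =
      fun z : ℍ => (A : ℝ) / D * z.im := by
    funext z
    exact him z
  rw [hfun]
  have hT : Tendsto UpperHalfPlane.im atImInfty atTop := tendsto_comap
  exact hT.const_mul_atTop (div_pos hAr hDr)

theorem s16e_tendsto_comp (A D : ℕ) (B : ℤ) (hA : 0 < A) (hD : 0 < D) :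
    Tendsto (fun z : ℍ => E2 (ofComplex (((A : ℂ) * z + B) / D))) atImInfty (𝓝 1) :=
  s16e_E2_tendsto.comp (s16e_tendsto_affine A D B hA hD)

/-- `E₂((A z + B) / D)` is `D`-periodic when `A` is an integer. -/
theorem s16e_periodic_comp (A D : ℕ) (B : ℤ) (hD : 0 < D) :
    Periodic ((fun z : ℍ => E2 (ofComplex (((A : ℂ) * z + B) / D))) ∘ ofComplex) (D : ℂ) := by
  intro w
  simp only [comp_apply]
  have hDc : (D : ℂ) ≠ 0 := by exact_mod_cast hD.ne'
  by_cases hw : 0 < w.im
  · have hw1 : 0 < (w + (D : ℂ)).im := by simpa using hw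
    rw [ofComplex_apply_of_im_pos hw1, ofComplex_apply_of_im_pos hw]
    show E2 (ofComplex (((A : ℂ) * (w + D) + B) / D)) = E2 (ofComplex (((A : ℂ) * w + B) / D))
    have e : ((A : ℂ) * (w + D) + B) / D = ((A : ℂ) * w + B) / D + ((A : ℕ) : ℂ) := by
      field_simp
      ring
    rw [e]
    have hper : ∀ (n : ℕ) (x : ℂ), E2 (ofComplex (x + (n : ℂ))) = E2 (ofComplex x) := by
      intro n x
      have := (s16e_E2_periodic.nat_mul n) x
      simpa using this
    exact hper A _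
  · have hw1 : ¬ 0 < (w + (D : ℂ)).im := by simpa using hw
    rw [ofComplex_apply_of_im_nonpos (not_lt.mp hw1), ofComplex_apply_of_im_nonpos (not_lt.mp hw)]

theorem s16e_E2_periodic_nat (n : ℕ) : Periodic (E2 ∘ ofComplex) (n : ℂ) := by
  have := s16e_E2_periodic.nat_mul n
  simpa using this

/-! ### (PRIM-E): existence of a primitive -/

/-- `E_N - (N - 1)` is holomorphic, `1`-periodic and vanishes at `i∞`. -/
theorem s16e_isPerCusp {N : ℕ} (hN : N ≠ 0) :
    Fermat.Agent.S22ES.IsPerCusp 1 (fun z => s16e_fun N z - ((N : ℂ) - 1)) where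
  mdiff := by
    have h : IsNice (s16e_fun N - fun _ => ((N : ℂ) - 1)) :=
      (s16e_isNice hN).sub (IsNice.const _)
    exact h.holo
  per := by
    have h : IsNice (s16e_fun N - fun _ => ((N : ℂ) - 1)) :=
      (s16e_isNice hN).sub (IsNice.const _)
    have := h.per
    simpa using this
  zero := by
    have h := s16e_tendsto_isNice (s16e_isNice hN)
    rw [s16e_coeff_zero hN] at h
    have h2 := h.sub_const ((N : ℂ) - 1)
    rw [sub_self] at h2
    exact h2

/-- A normalised primitive: `F₀(z) = (N - 1) z + G(z)` with `G` holomorphic, `1`-periodic and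
vanishing at `i∞`. -/
theorem s16e_prim_normal {N : ℕ} (hN : N ≠ 0) :
    ∃ G : ℍ → ℂ, Fermat.Agent.S22ES.IsPerCusp 1 G ∧
      IsPrimOf (fun z : ℍ => ((N : ℂ) - 1) * (z : ℂ) + G z) (s16e_fun N) := by
  obtain ⟨G, hG, hGd⟩ := Fermat.Agent.S22ES.exists_prim one_pos (s16e_isPerCusp hN)
  refine ⟨G, hG, fun τ => ?_⟩
  have hd : DifferentiableAt ℂ (G ∘ ofComplex) (τ : ℂ) := by
    have := UpperHalfPlane.mdifferentiable_iff.mp hG.mdiff
    exact (this (τ : ℂ) τ.im_pos).differentiableAt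
      (Fermat.Agent.S21.prim_isOpen_upper.mem_nhds τ.im_pos)
  have h1 : HasDerivAt (G ∘ ofComplex) (s16e_fun N τ - ((N : ℂ) - 1)) (τ : ℂ) := by
    have := hd.hasDerivAt
    rwa [hGd τ] at this
  have h2 : HasDerivAt (fun w : ℂ => ((N : ℂ) - 1) * w) ((N : ℂ) - 1) (τ : ℂ) := by
    simpa using (hasDerivAt_id (τ : ℂ)).const_mul ((N : ℂ) - 1)
  have h3 := h2.add h1
  have e : (N : ℂ) - 1 + (s16e_fun N τ - ((N : ℂ) - 1)) = s16e_fun N τ := by ring
  rw [e] at h3
  refine h3.congr_of_eventuallyEq ?_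
  filter_upwards [Fermat.Agent.S21.prim_isOpen_upper.mem_nhds τ.im_pos] with w hw
  simp only [Function.comp_apply, Pi.add_apply, ofComplex_apply_of_im_pos hw]

/-- **(PRIM-E)** the Eisenstein series of level `N` has a holomorphic primitive. -/
theorem s16e_prim_exists {N : ℕ} (hN : N ≠ 0) : ∃ F : ℍ → ℂ, IsPrimOf F (s16e_fun N) := by
  obtain ⟨G, -, hG⟩ := s16e_prim_normal hN
  exact ⟨_, hG⟩

end Fermat.Agent.S16

end
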