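import Mathlib
import Fermat.Agent.S16.EisLog
import Fermat.Agent.S16.CohDefs
import Fermat.Agent.S28.UnitMemAN

/-!
# S16, package [EIS], part 4: integrality of the Eisenstein periods

* `s16e_hasDerivAt_U` : `u = Δ(p z) / Δ(z)` has derivative `2πi E_p u` ;
* `s16e_exp_prim`     : `u = C exp(2πi F)` for every primitive `F` of `E_p` ;
* `s16e_prim`         : `coh_PrimStatement p` ;
* `s16e_int`          : `coh_IntStatement p`.
-/

set_option autoImplicit false

noncomputable section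

namespace Fermat.Agent.S16

open UpperHalfPlane hiding I
open Complex Filter Function CongruenceSubgroup Matrix.SpecialLinearGroup ModularFormClass
open EisensteinSeries ModularForm
open scoped Topology Manifold MatrixGroups ModularForm Real
open Fermat.Agent.S22 (IsMF IsNice G0 G1)
open Fermat.Agent.S21 (IsPrimOf)
open Fermat.Agent.S28 (umem_U umem_U_apply umem_U_smul_of_mem)

theorem s16e_deriv_eta (τ : ℍ) :
    HasDerivAt ModularForm.eta (π * I / 12 * E2 τ * ModularForm.eta τ) (τ : ℂ) := by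
  have hmem : (τ : ℂ) ∈ upperHalfPlaneSet := τ.im_pos
  have hd := (differentiableAt_eta_of_mem_upperHalfPlaneSet hmem).hasDerivAt
  have hne : ModularForm.eta (τ : ℂ) ≠ 0 := eta_ne_zero hmem
  have hl := logDeriv_eta_eq_E2 τ
  rw [logDeriv_apply, div_eq_iff hne] at hl
  rwa [hl] at hd

theorem s16e_hasDerivAt_eta24 (τ : ℍ) :
    HasDerivAt (fun w : ℂ => ModularForm.eta w ^ 24)
      (2 * π * I * E2 τ * ModularForm.eta τ ^ 24) (τ : ℂ) := by
  have h := (s16e_deriv_eta τ).pow 24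
  refine h.congr_deriv ?_
  push_cast
  ring

theorem s16e_disc_eq (z : ℍ) : ModularForm.discriminant z = ModularForm.eta (z : ℂ) ^ 24 := rfl

/-- **(E-L)** the modular unit `u = Δ(p z) / Δ(z)` satisfies `u' = 2πi E_p u`. -/
theorem s16e_hasDerivAt_U {p : ℕ} (hp : p ≠ 0) (τ : ℍ) :
    HasDerivAt (umem_U p ∘ ofComplex) (2 * π * I * s16e_fun p τ * umem_U p τ) (τ : ℂ) := by
  set σ : ℍ := heckeDiagMatrix p • τ with hσ
  have hσc : (σ : ℂ) = (p : ℂ) * (τ : ℂ) := coe_heckeDiagMatrix_smul hp τ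
  have hlin : HasDerivAt (fun w : ℂ => (p : ℂ) * w) (p : ℂ) (τ : ℂ) := by
    simpa using (hasDerivAt_id (τ : ℂ)).const_mul (p : ℂ)
  have ha0 : HasDerivAt (fun w : ℂ => ModularForm.eta w ^ 24)
      (2 * π * I * E2 σ * ModularForm.eta σ ^ 24) ((p : ℂ) * (τ : ℂ)) := by
    rw [← hσc]
    exact s16e_hasDerivAt_eta24 σ
  have ha : HasDerivAt (fun w : ℂ => ModularForm.eta ((p : ℂ) * w) ^ 24)
      (2 * π * I * E2 σ * ModularForm.eta σ ^ 24 * (p : ℂ)) (τ : ℂ) :=
    ha0.comp (τ : ℂ) hlin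
  have hb := s16e_hasDerivAt_eta24 τ
  have hbne : ModularForm.eta (τ : ℂ) ^ 24 ≠ 0 :=
    pow_ne_zero _ (eta_ne_zero (show (τ : ℂ) ∈ upperHalfPlaneSet from τ.im_pos))
  have hq := ha.div hb hbne
  have hval : (2 * π * I * E2 σ * ModularForm.eta σ ^ 24 * (p : ℂ) * ModularForm.eta (τ : ℂ) ^ 24
      - ModularForm.eta ((p : ℂ) * (τ : ℂ)) ^ 24 * (2 * π * I * E2 τ * ModularForm.eta τ ^ 24))
        / (ModularForm.eta (τ : ℂ) ^ 24) ^ 2 = 2 * π * I * s16e_fun p τ * umem_U p τ := by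
    rw [s16e_fun_apply, umem_U_apply, s16e_disc_eq, s16e_disc_eq, ← hσ, hσc]
    field_simp
  rw [hval] at hq
  refine hq.congr_of_eventuallyEq ?_
  filter_upwards [Fermat.Agent.S21.prim_isOpen_upper.mem_nhds τ.im_pos] with w hw
  simp only [Function.comp_apply, ofComplex_apply_of_im_pos hw, umem_U_apply, s16e_disc_eq,
    Pi.div_apply]
  rw [coe_heckeDiagMatrix_smul hp]

/-- For every primitive `F` of `E_p`, the function `u exp(-2πi F)` is constant. -/
theorem s16e_exp_prim {p : ℕ} (hp : p ≠ 0) {F : ℍ → ℂ} (hF : IsPrimOf F (s16e_fun p)) (z w : ℍ) :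
    umem_U p z * cexp (-(2 * π * I * F z)) = umem_U p w * cexp (-(2 * π * I * F w)) := by
  have h : IsPrimOf (fun z => umem_U p z * cexp (-(2 * π * I * F z))) 0 := by
    intro τ
    have h1 := s16e_hasDerivAt_U hp τ
    have h2 : HasDerivAt (fun x : ℂ => cexp (-(2 * π * I * (F ∘ ofComplex) x)))
        (cexp (-(2 * π * I * (F ∘ ofComplex) τ)) * -(2 * π * I * s16e_fun p τ)) (τ : ℂ) :=
      (((hF τ).const_mul (2 * π * I)).neg).cexp
    have h3 := h1.mul h2
    have e : 2 * π * I * s16e_fun p τ * umem_U p τ * cexp (-(2 * π * I * (F ∘ ofComplex) τ)) +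
        (umem_U p ∘ ofComplex) τ *
          (cexp (-(2 * π * I * (F ∘ ofComplex) τ)) * -(2 * π * I * s16e_fun p τ)) =
        (0 : ℍ → ℂ) τ := by
      simp only [Function.comp_apply, ofComplex_apply, Pi.zero_apply]
      ring
    rw [e] at h3
    exact h3
  exact Fermat.Agent.S21.prim_const_of_isPrimOf_zero h z w

/-- **(PRIM-E)**, in the shape of `CohDefs`. -/
theorem s16e_prim (p : ℕ) (hp : p ≠ 0) : coh_PrimStatement p :=
  s16e_prim_exists hp

/-- **(INT)**, in the shape of `CohDefs`: the Eisenstein periods are integers. -/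
theorem s16e_int (p : ℕ) (hp : p ≠ 0) : coh_IntStatement p := by
  intro F hF γ z
  have : NeZero p := ⟨hp⟩
  have h1 := s16e_exp_prim hp hF ((γ : SL(2, ℤ)) • z) z
  rw [umem_U_smul_of_mem γ.2 z] at h1
  have hU : umem_U p z ≠ 0 := by
    rw [umem_U_apply]
    exact div_ne_zero (discriminant_ne_zero _) (discriminant_ne_zero _)
  have h2 := mul_left_cancel₀ hU h1
  have h3 : cexp (2 * π * I * (F ((γ : SL(2, ℤ)) • z) - F z)) = 1 := by
    have e : 2 * π * I * (F ((γ : SL(2, ℤ)) • z) - F z) =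
        -(2 * π * I * F z) - -(2 * π * I * F ((γ : SL(2, ℤ)) • z)) := by ring
    rw [e, Complex.exp_sub, h2, div_self (Complex.exp_ne_zero _)]
  obtain ⟨k, hk⟩ := Complex.exp_eq_one_iff.mp h3
  refine ⟨k, ?_⟩
  have hpi : (2 * π * I : ℂ) ≠ 0 := s16e_two_pi_I_ne_zero
  have : 2 * π * I * (F ((γ : SL(2, ℤ)) • z) - F z) = 2 * π * I * (k : ℂ) := by
    rw [hk]; ring
  exact mul_left_cancel₀ hpi this

end Fermat.Agent.S16

end
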