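import Mathlib
import Fermat.Agent.S16.GlueEis

/-!
# S16, package [GLUE]: alternative entries for (C1)

* `s16g_main_cong`: the final assembly with `(C1)` given directly as `s16r_Cong p n`;
* `s16g_main_lower`: the final assembly with `(C1)` given as the lower bound
  `n ∣ ev P` for all `P` in the kernel of `phi` (the shape produced by the cohomological route).
-/

set_option autoImplicit false

namespace Fermat.Agent.S16

open UpperHalfPlane ModularFormClass CongruenceSubgroup ModularCurve CuspForm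
open Fermat.Agent.S22 (IsMF IsNice G0 IsIntQ)

/-- The final assembly with `(C1)` in the form `s16r_Cong p (eisensteinNumerator p)`. -/
theorem s16g_main_cong
    (hC1 : ∀ p : ℕ, p.Prime → 5 ≤ p → s16r_Cong p (eisensteinNumerator p))
    (h5 : ∀ p : ℕ, p.Prime → 5 ≤ p → ∀ ℓ : ℕ, ℓ.Prime → 5 ≤ ℓ → s16g_NoH p ℓ 1)
    (h3a : ∀ p : ℕ, p.Prime → 5 ≤ p → p % 3 = 1 → s16g_NoH p 3 1)
    (h3b : ∀ p : ℕ, p.Prime → 5 ≤ p → p % 3 = 2 → s16g_NoH p 3 2)
    (h2a : ∀ p : ℕ, p.Prime → 5 ≤ p → p % 4 = 1 → s16g_NoH p 2 2)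
    (h2b : ∀ p : ℕ, p.Prime → 5 ≤ p → p % 4 = 3 → s16g_NoH p 2 3)
    (p : ℕ) [Fact p.Prime] :
    Nat.card (↥(heckeLatticeAlgebra p ∅) ⧸
        Ideal.map ((latticeRestrictHom p ∅).toRingHom.comp (heckeEvalForms p 2))
          (eisensteinIdeal p)) =
      eisensteinNumerator p := by
  have hp : p.Prime := Fact.out
  rcases Nat.lt_or_ge p 5 with hlt | hge
  · exact s16g_small p hlt
  · exact s16r_result_of p (hC1 p hp hge)
      (s16g_C2 p hp (s16g_eisAt p hp.ne_zero)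
        (s16g_noH_all p hp hge (h5 p hp hge) (h3a p hp hge) (h3b p hp hge) (h2a p hp hge)
          (h2b p hp hge)))

/-- The final assembly with `(C1)` in the form of the lower bound `n ∣ ev P` on the kernel of
`phi`. -/
theorem s16g_main_lower
    (hL : ∀ p : ℕ, ∀ _ : Fact p.Prime, 5 ≤ p → ∀ P : HeckeAlg,
      (latticeRestrictHom p ∅).toRingHom.comp (heckeEvalForms p 2) P = 0 →
        ((eisensteinNumerator p : ℕ) : ℤ) ∣ MvPolynomial.aeval (eisensteinSystem p) P)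
    (h5 : ∀ p : ℕ, p.Prime → 5 ≤ p → ∀ ℓ : ℕ, ℓ.Prime → 5 ≤ ℓ → s16g_NoH p ℓ 1)
    (h3a : ∀ p : ℕ, p.Prime → 5 ≤ p → p % 3 = 1 → s16g_NoH p 3 1)
    (h3b : ∀ p : ℕ, p.Prime → 5 ≤ p → p % 3 = 2 → s16g_NoH p 3 2)
    (h2a : ∀ p : ℕ, p.Prime → 5 ≤ p → p % 4 = 1 → s16g_NoH p 2 2)
    (h2b : ∀ p : ℕ, p.Prime → 5 ≤ p → p % 4 = 3 → s16g_NoH p 2 3)
    (p : ℕ) [Fact p.Prime] :
    Nat.card (↥(heckeLatticeAlgebra p ∅) ⧸
        Ideal.map ((latticeRestrictHom p ∅).toRingHom.comp (heckeEvalForms p 2))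
          (eisensteinIdeal p)) =
      eisensteinNumerator p :=
  s16g_main_cong
    (fun p hp h5p => haveI : Fact p.Prime := ⟨hp⟩
      s16r_upper p (eisensteinNumerator p) (hL p ⟨hp⟩ h5p))
    h5 h3a h3b h2a h2b p

end Fermat.Agent.S16
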