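/-
S16, package [INT] (owner: helper14), part 3: weight `12 m` forms divided by `Δ ^ m`.

* `s16i_quot m f`            : the function `f / Δ ^ m`
* `s16i_quot_isModFun`       : for `f ∈ M_{12m}(Γ₀(M))` it is a modular function for `Γ₀(M)`
* `s16i_quot_hasLaurent`     : its `q`-expansion is `q-exp(f) · Δ(q)⁻ᵐ`
* `s16i_mem_chart_of_isMF`   : **(I5)** if the `q`-expansion of `f` is `ℓ`-integral, `ℓ ∤ N`,
                               `M ∣ N`, then `f / Δ ^ m` lies in the chart `chartAlgFin N ℓ`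
-/
import Mathlib
import Fermat.Agent.S28.UnitMemProd
import Fermat.Agent.S28.TwistFormal
import Fermat.Agent.S16.IntClos

set_option autoImplicit false

noncomputable section

namespace Fermat.Agent.S16

open UpperHalfPlane ModularFormClass CongruenceSubgroup Matrix.SpecialLinearGroup Function
open ModularForm Filter Asymptotics
open scoped MatrixGroups ModularForm Manifold Real Topology Polynomial

open Fermat.Agent.S24 Fermat.Agent.S22 Fermat.Agent.S28 ModularCurve ModularCurve.IgusaScheme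

local notation "Δ" => ModularForm.discriminant

/-- The function `f / Δ ^ m`. -/
def s16i_quot (m : ℕ) (f : ℍ → ℂ) : ℍ → ℂ := fun z => f z * ((Δ z)⁻¹) ^ m

theorem s16i_quot_apply (m : ℕ) (f : ℍ → ℂ) (z : ℍ) :
    s16i_quot m f z = f z * ((Δ z)⁻¹) ^ m := rfl

theorem s16i_quot_mdiff (m : ℕ) {f : ℍ → ℂ} (hf : MDiff f) : MDiff (s16i_quot m f) := by
  have h1 : MDiff (fun z : ℍ => f z / Δ z ^ m) :=
    hf.div (anC_discriminant_pow_mdiff m) (fun z => pow_ne_zero m (discriminant_ne_zero z))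
  refine (congrArg (fun g : ℍ → ℂ => MDiff g) ?_).mp h1
  funext z
  rw [s16i_quot_apply, div_eq_mul_inv, inv_pow]

theorem s16i_smul_of_isMF {M : ℕ} {k : ℤ} {f : ℍ → ℂ} (hf : IsMF (G0 M) k f)
    {γ : SL(2, ℤ)} (hγ : γ ∈ Gamma0 M) (z : ℍ) : f (γ • z) = denom γ z ^ k * f z := by
  obtain ⟨F, rfl⟩ := hf
  have hγ' : (γ : GL (Fin 2) ℝ) ∈ G0 M := ⟨γ, hγ, rfl⟩
  exact SlashInvariantForm.slash_action_eqn'' F hγ' z

theorem s16i_quot_smul_of_mem {M : ℕ} (m : ℕ) {f : ℍ → ℂ}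
    (hf : IsMF (G0 M) (12 * (m : ℤ)) f) {γ : SL(2, ℤ)} (hγ : γ ∈ Gamma0 M) (z : ℍ) :
    s16i_quot m f (γ • z) = s16i_quot m f z := by
  have hden : denom γ z ≠ 0 := denom_ne_zero γ z
  have hΔ : Δ z ≠ 0 := discriminant_ne_zero z
  have h12 : denom γ z ^ (12 : ℤ) ≠ 0 := zpow_ne_zero _ hden
  rw [s16i_quot_apply, s16i_quot_apply, s16i_smul_of_isMF hf hγ, anC_discriminant_smul,
    zpow_mul, zpow_natCast, mul_inv, mul_pow]
  generalize denom γ z ^ (12 : ℤ) = D at h12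
  have hDm : D ^ m ≠ 0 := pow_ne_zero m h12
  rw [inv_pow D m]
  field_simp

theorem s16i_quot_smul (m : ℕ) (f : ℍ → ℂ) (γ : SL(2, ℤ)) (z : ℍ) :
    s16i_quot m f (γ • z) = (f ∣[(12 * (m : ℤ))] (mapGL ℝ γ)) z * ((Δ z)⁻¹) ^ m := by
  have hden : denom γ z ≠ 0 := denom_ne_zero γ z
  have hΔ : Δ z ≠ 0 := discriminant_ne_zero z
  have h1 : (f ∣[(12 * (m : ℤ))] (mapGL ℝ γ)) z = f (γ • z) * denom γ z ^ (-(12 * (m : ℤ))) :=
    ModularForm.SL_slash_apply (k := 12 * (m : ℤ)) (f := f) γ z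
  have h12 : denom γ z ^ (12 : ℤ) ≠ 0 := zpow_ne_zero _ hden
  rw [s16i_quot_apply, h1, anC_discriminant_smul, zpow_neg, zpow_mul, zpow_natCast, mul_inv,
    mul_pow]
  generalize denom γ z ^ (12 : ℤ) = D at h12
  rw [inv_pow D m]
  ring

theorem s16i_inv_disc_pow_isBigO (m : ℕ) :
    (fun τ : ℍ => ((Δ τ)⁻¹) ^ m) =O[atImInfty] fun τ : ℍ => Real.exp (2 * π * m * τ.im) := by
  have h := umem_inv_disc_isBigO.pow m
  refine h.congr_right fun τ => ?_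
  rw [← Real.exp_nat_mul]
  congr 1
  ring

theorem s16i_quot_growth {M : ℕ} [NeZero M] (m : ℕ) {f : ℍ → ℂ}
    (hf : IsMF (G0 M) (12 * (m : ℤ)) f) (γ : SL(2, ℤ)) :
    anB_Growth (fun z => s16i_quot m f (γ • z)) := by
  have hfun : (fun z : ℍ => s16i_quot m f (γ • z)) =
      fun z : ℍ => (f ∣[(12 * (m : ℤ))] (mapGL ℝ γ)) z * ((Δ z)⁻¹) ^ m := by
    funext z
    exact s16i_quot_smul m f γ z
  rw [hfun]
  have hb : IsBoundedAtImInfty (f ∣[(12 * (m : ℤ))] (mapGL ℝ γ)) := by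
    obtain ⟨F, rfl⟩ := hf
    exact ModularFormClass.bdd_at_infty_slash F γ
  have h1 : (f ∣[(12 * (m : ℤ))] (mapGL ℝ γ)) =O[atImInfty] (1 : ℍ → ℝ) := hb
  have h2 := h1.mul (s16i_inv_disc_pow_isBigO m)
  refine ⟨m, h2.congr_right fun z => ?_⟩
  simp

/-- `f / Δ ^ m` is a modular function for `Γ₀(M)` when `f ∈ M_{12 m}(Γ₀(M))`. -/
theorem s16i_quot_isModFun (M : ℕ) [NeZero M] (m : ℕ) {f : ℍ → ℂ}
    (hf : IsMF (G0 M) (12 * (m : ℤ)) f) : anB_IsModFun M (s16i_quot m f) where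
  holo := by
    obtain ⟨F, rfl⟩ := hf
    exact s16i_quot_mdiff m (ModularFormClass.holo F)
  inv := fun _ hγ z => s16i_quot_smul_of_mem m hf hγ z
  growth := s16i_quot_growth m hf

/-- The `q`-expansion of `f / Δ ^ m`. -/
theorem s16i_quot_hasLaurent {M : ℕ} {k : ℤ} (m : ℕ) {f : ℍ → ℂ} (hf : IsMF (G0 M) k f) :
    anA_HasLaurent (HahnSeries.ofPowerSeries ℤ ℂ (qExpansion 1 f) * umem_deltaInvC ^ m)
      (s16i_quot m f) := by
  have h1 := anA_HasLaurent.of_isNice hf.isNice_G0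
  have h2 := umem_hasLaurent_pow umem_hasLaurent_disc_inv m
  have h3 := h1.mul h2
  refine (congrArg (anA_HasLaurent _) ?_).mp h3
  funext z
  simp [s16i_quot_apply]

/-! ### Integrality of the inverse of `Δ` -/

theorem s16i_deltaQ_inv_eq : umem_deltaQ⁻¹ =
    coeffMap (Int.castRingHom ℚ) (twL_deltaInv ℤ) := by
  have h1 : umem_deltaQ = twL_delta ℚ := rfl
  have h2 : twL_delta ℚ * coeffMap (Int.castRingHom ℚ) (twL_deltaInv ℤ) = 1 := by
    rw [← twL_coeffMap_delta (Int.castRingHom ℚ), ← map_mul, twL_delta_mul_inv, map_one]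
  rw [h1]
  exact inv_eq_of_mul_eq_one_right h2

theorem s16i_deltaQ_inv_mem (ℓ : ℕ) [Fact ℓ.Prime] : umem_deltaQ⁻¹ ∈ redO ℓ := by
  rw [s16i_deltaQ_inv_eq]
  exact redO_int ℓ _

theorem s16i_coeffEmb_deltaQ_inv : coeffEmb ℂ umem_deltaQ⁻¹ = umem_deltaInvC := by
  rw [map_inv₀, umem_coeffEmb_deltaQ, umem_deltaC_inv]

/-- The image in `ℂ((q))` of an `ℓ`-integral power series with the coefficients of `f`. -/
theorem s16i_coeffEmb_iota (ℓ : ℕ) [Fact ℓ.Prime] (f : ℍ → ℂ)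
    (a : PowerSeries ↥(GaloisRep.ratLocalizedAt ℓ))
    (ha : ∀ n, (qExpansion 1 f).coeff n =
      (((PowerSeries.coeff n a : ↥(GaloisRep.ratLocalizedAt ℓ)) : ℚ) : ℂ)) :
    coeffEmb ℂ (redO_iota ℓ (HahnSeries.ofPowerSeries ℤ _ a)) =
      HahnSeries.ofPowerSeries ℤ ℂ (qExpansion 1 f) := by
  ext k
  rw [coeffEmb_coeff, redO_iota_coeff]
  rcases lt_or_ge k 0 with hl | hl
  · rw [ModularCurve.ofPowerSeries_coeff_of_neg _ hl,
      ModularCurve.ofPowerSeries_coeff_of_neg _ hl]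
    simp
  · obtain ⟨n, rfl⟩ := Int.eq_ofNat_of_zero_le hl
    rw [HahnSeries.ofPowerSeries_apply_coeff, HahnSeries.ofPowerSeries_apply_coeff, ha]
    rfl

/-- **(I5)** A form of weight `12 m` and level `Γ₀(M)`, `M ∣ N`, with `ℓ`-integral
`q`-expansion (`ℓ ∤ N`), divided by `Δ ^ m`, lies in the chart `chartAlgFin N ℓ`. -/
theorem s16i_mem_chart_of_isMF (N ℓ : ℕ) [NeZero N] [Fact ℓ.Prime] (hℓN : ¬ ℓ ∣ N)
    (M : ℕ) (hM : M ∣ N) (m : ℕ) (f : ℍ → ℂ) (hf : IsMF (G0 M) (12 * (m : ℤ)) f)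
    (a : PowerSeries ↥(GaloisRep.ratLocalizedAt ℓ))
    (ha : ∀ n, (qExpansion 1 f).coeff n =
      (((PowerSeries.coeff n a : ↥(GaloisRep.ratLocalizedAt ℓ)) : ℚ) : ℂ)) :
    ∃ b : ↥(chartAlgFin N ℓ),
      ((b : ↥(modularFunctionFieldFull N)) : LaurentSeries ℚ) * umem_deltaQ ^ m =
        redO_iota ℓ (HahnSeries.ofPowerSeries ℤ _ a) := by
  have hM0 : NeZero M := ⟨fun h => NeZero.ne N (by rw [h] at hM; exact zero_dvd_iff.mp hM)⟩
  set u : LaurentSeries ℚ := redO_iota ℓ (HahnSeries.ofPowerSeries ℤ _ a) * umem_deltaQ⁻¹ ^ m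
    with hu
  have hmod : anB_IsModFun N (s16i_quot m f) :=
    s16i_isModFun_of_dvd hM (s16i_quot_isModFun M m hf)
  have hlau : anA_HasLaurent (coeffEmb ℂ u) (s16i_quot m f) := by
    rw [hu, map_mul, map_pow, s16i_coeffEmb_iota ℓ f a ha, s16i_coeffEmb_deltaQ_inv]
    exact s16i_quot_hasLaurent m hf
  have hO : u ∈ redO ℓ :=
    (redO ℓ).mul_mem (redO_intL ℓ _) ((redO ℓ).pow_mem (s16i_deltaQ_inv_mem ℓ) m)
  refine ⟨⟨⟨u, s16i_mem_full N hmod u hlau⟩, s16i_mem_chart N ℓ hℓN hmod u hlau hO⟩, ?_⟩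
  show u * umem_deltaQ ^ m = _
  rw [hu, mul_assoc, ← mul_pow, inv_mul_cancel₀ umem_deltaQ_ne_zero, one_pow, mul_one]

end Fermat.Agent.S16
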