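/-
S16, package [L3] (owner: helper11), part (L3b-1): level-one avatars.

A level-one form of weight `12 m` whose `q`-expansion has coefficients in (the image of) a ring
`R ⊆ ℂ` is `P(j) Δ ^ m` for a polynomial `P` with coefficients in `R`, as an identity of
Laurent series over `R`.

* `l3_avatar`     : the general statement (`φ : R →+* ℂ` injective)
* `l3_avatar_loc` : the case `R = ℤ_(ℓ)`
-/
import Mathlib
import Fermat.Agent.S24.CharPoly
import Fermat.Agent.S28.EsymChi
import Fermat.Agent.S28.TwistFormal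
import Fermat.Agent.S28.KeyRed
import Fermat.Agent.S16.IntMF

set_option autoImplicit false

noncomputable section

namespace Fermat.Agent.S16

open UpperHalfPlane ModularFormClass CongruenceSubgroup Matrix.SpecialLinearGroup Function
open ModularForm Filter Asymptotics
open scoped MatrixGroups ModularForm Manifold Real Topology Polynomial

open Fermat.Agent.S24 Fermat.Agent.S22 Fermat.Agent.S28 ModularCurve

local notation "Δ" => ModularForm.discriminant

section

variable {R : Type*} [CommRing R]

theorem l3_coeffMap_injective (φ : R →+* ℂ) (hφ : Function.Injective φ) :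
    Function.Injective (coeffMap φ) := by
  intro a b h
  ext n
  have := congrArg (fun s : LaurentSeries ℂ => s.coeff n) h
  simp only [coeffMap_coeff] at this
  exact hφ this

theorem l3_coeffMap_jq (φ : R →+* ℂ) : coeffMap φ (jqModC R) = anA_jSeries := by
  have h := map_jqModC (K := R) φ
  have h2 : jqModC ℂ = anA_jSeries := rfl
  rw [← h2, ← h]
  rfl

theorem l3_coeffMap_deltaInv (φ : R →+* ℂ) : coeffMap φ (twL_deltaInv R) = umem_deltaInvC := by
  have h1 : coeffMap φ (twL_delta R) * coeffMap φ (twL_deltaInv R) = 1 := by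
    rw [← map_mul, twL_delta_mul_inv, map_one]
  rw [twL_coeffMap_delta] at h1
  have h2 : twL_delta ℂ = umem_deltaC := rfl
  rw [h2] at h1
  have h3 := umem_deltaC_mul_inv
  calc coeffMap φ (twL_deltaInv R) = (umem_deltaInvC * umem_deltaC) * coeffMap φ (twL_deltaInv R) := by
        rw [mul_comm umem_deltaInvC, h3, one_mul]
    _ = umem_deltaInvC := by rw [mul_assoc, h1, mul_one]

theorem l3_coeffMap_aeval (φ : R →+* ℂ) (t : LaurentSeries R) (P : R[X]) :
    coeffMap φ (Polynomial.aeval t P) =
      (P.map φ).eval₂ (HahnSeries.C : ℂ →+* LaurentSeries ℂ) (coeffMap φ t) := by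
  induction P using Polynomial.induction_on' with
  | add p q hp hq =>
    rw [map_add, map_add, Polynomial.map_add, Polynomial.eval₂_add, hp, hq]
  | monomial n c =>
    rw [Polynomial.aeval_monomial, map_mul, map_pow, Polynomial.map_monomial,
      Polynomial.eval₂_monomial]
    congr 1
    have h1 : algebraMap R (PowerSeries R) c = PowerSeries.C c := by simp
    rw [HahnSeries.algebraMap_apply', h1, HahnSeries.ofPowerSeries_C]
    exact coeffMap_single φ 0 c

end

/-- **Level-one avatars.** -/
theorem l3_avatar {R : Type*} [CommRing R] (φ : R →+* ℂ) (hφ : Function.Injective φ)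
    (m : ℕ) (F : ℍ → ℂ) (hF : IsMF G1 (12 * (m : ℤ)) F) (c : PowerSeries R)
    (hc : ∀ n, (qExpansion 1 F).coeff n = φ (PowerSeries.coeff n c)) :
    ∃ P : R[X], HahnSeries.ofPowerSeries ℤ R c =
      Polynomial.aeval (jqModC R) P * twL_delta R ^ m := by
  have hF' : IsMF (G0 1) (12 * (m : ℤ)) F := hF.restrict_G0 1
  have hmod : anB_IsModFun 1 (s16i_quot m F) := s16i_quot_isModFun 1 m hF'
  have hgr : anD_ModGrowth (s16i_quot m F) := by
    have := hmod.growth 1
    simp only [one_smul] at this
    exact this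
  obtain ⟨P₀, hP₀⟩ := anD_polynomial_of_modGrowth (s16i_quot m F) hmod.holo
    (fun γ z => hmod.inv γ (by rw [Gamma0_mem]; simp [Subsingleton.elim _ (0 : ZMod 1)]) z) hgr
  have h1 := s16i_quot_hasLaurent m hF'
  have h2 := umem_hasLaurent_eval umem_hasLaurent_jfun P₀
  have hfun : (fun z => P₀.eval (jfun z)) = s16i_quot m F := by
    funext z
    rw [hP₀ z]
    rfl
  rw [hfun] at h2
  have hser := h1.unique_series h2
  -- the left-hand side comes from `R`
  set u : LaurentSeries R := HahnSeries.ofPowerSeries ℤ R c * twL_deltaInv R ^ m with hu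
  have hqF : HahnSeries.ofPowerSeries ℤ ℂ (qExpansion 1 F) =
      coeffMap φ (HahnSeries.ofPowerSeries ℤ R c) := by
    rw [twL_coeffMap_ofPowerSeries]
    congr 1
    ext n
    rw [hc, PowerSeries.coeff_map]
  have hu' : coeffMap φ u = P₀.eval₂ (HahnSeries.C : ℂ →+* LaurentSeries ℂ) anA_jSeries := by
    rw [← hser, hu, map_mul, map_pow, l3_coeffMap_deltaInv, hqF]
  -- descent of the coefficients
  have hjC : anA_jSeries = jqModC ℂ := rfl
  have hord : (anA_jSeries).order < 0 := by
    rw [hjC, keyR_order_jqModC]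
    norm_num
  have hlc : (anA_jSeries).leadingCoeff = 1 := by
    rw [HahnSeries.leadingCoeff_eq, hjC, keyR_order_jqModC, coeff_jqModC_neg_one]
  have hcoef : ∀ i, P₀.coeff i ∈ φ.range := by
    refine esymO_descent φ.range anA_jSeries hord (fun n => ?_) ?_ P₀ (fun n => ?_)
    · rw [← l3_coeffMap_jq φ, coeffMap_coeff]
      exact ⟨_, rfl⟩
    · rw [hlc, inv_one]
      exact φ.range.one_mem
    · have : Polynomial.aeval anA_jSeries P₀ =
          P₀.eval₂ (HahnSeries.C : ℂ →+* LaurentSeries ℂ) anA_jSeries := by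
        rw [Polynomial.aeval_def]
        congr 1
        ext c : 1
        exact esymO_algebraMap_eq_C c
      rw [this, ← hu', coeffMap_coeff]
      exact ⟨_, rfl⟩
  obtain ⟨P, hP⟩ : ∃ P : R[X], P.map φ = P₀ := by
    have : P₀ ∈ Polynomial.lifts φ := by
      rw [Polynomial.lifts_iff_coeff_lifts]
      intro n
      exact hcoef n
    exact (Polynomial.mem_lifts _).mp this
  refine ⟨P, ?_⟩
  have hfin : u = Polynomial.aeval (jqModC R) P := by
    apply l3_coeffMap_injective φ hφ
    rw [hu', l3_coeffMap_aeval, hP, l3_coeffMap_jq]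
  rw [← hfin, hu, mul_assoc, ← mul_pow, mul_comm (twL_deltaInv R), twL_delta_mul_inv, one_pow,
    mul_one]

/-- **Level-one avatars over `ℤ_(ℓ)`.** -/
theorem l3_avatar_loc (ℓ : ℕ) (m : ℕ) (F : ℍ → ℂ) (hF : IsMF G1 (12 * (m : ℤ)) F)
    (c : PowerSeries ↥(GaloisRep.ratLocalizedAt ℓ))
    (hc : ∀ n, (qExpansion 1 F).coeff n =
      (((PowerSeries.coeff n c : ↥(GaloisRep.ratLocalizedAt ℓ)) : ℚ) : ℂ)) :
    ∃ P : (↥(GaloisRep.ratLocalizedAt ℓ))[X], HahnSeries.ofPowerSeries ℤ _ c =
      Polynomial.aeval (jqModC ↥(GaloisRep.ratLocalizedAt ℓ)) P *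
        twL_delta ↥(GaloisRep.ratLocalizedAt ℓ) ^ m := by
  refine l3_avatar ((algebraMap ℚ ℂ).comp (GaloisRep.ratLocalizedAt ℓ).subtype) ?_ m F hF c hc
  exact (algebraMap ℚ ℂ).injective.comp Subtype.val_injective

end Fermat.Agent.S16
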