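/-
S16, route [COH], package [PSI], part 1 (helper8): the "side" function of the Farey edges.

For `g ∈ SL(2, ℤ)` and `z ∈ ℍ`, `psi16_side g z ∈ {0, 1}` records whether `z` lies on the positive
side `0 < Re (g⁻¹ • z)` of the oriented geodesic `g (0 → ∞)`.  We prove the explicit sign formula,
the invariance `side (δ g) (δ z) = side g z`, `side (-g) = side g`, and the finiteness of the set
of `g` that separate two given points.  Mathlib only.
-/
import Mathlib

set_option autoImplicit false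

open scoped MatrixGroups
open UpperHalfPlane Matrix

namespace Fermat.Agent.S16


/-- numerator of `Re (g • z)` -/
noncomputable def psi16_P (g : SL(2, ℤ)) (z : ℍ) : ℝ :=
  ((g 0 0 : ℝ) * z.re + (g 0 1 : ℝ)) * ((g 1 0 : ℝ) * z.re + (g 1 1 : ℝ))
    + (g 0 0 : ℝ) * (g 1 0 : ℝ) * z.im ^ 2

theorem psi16_denom_normSq_pos (g : SL(2, ℤ)) (z : ℍ) :
    0 < Complex.normSq (((g 1 0 : ℤ) : ℂ) * z + ((g 1 1 : ℤ) : ℂ)) := by
  have h := UpperHalfPlane.denom_ne_zero (g : GL (Fin 2) ℝ) z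
  rw [Complex.normSq_pos]
  intro h0
  apply h
  simpa [UpperHalfPlane.denom] using h0

theorem psi16_re_smul (g : SL(2, ℤ)) (z : ℍ) :
    (g • z).re = psi16_P g z /
      Complex.normSq (((g 1 0 : ℤ) : ℂ) * z + ((g 1 1 : ℤ) : ℂ)) := by
  have h := UpperHalfPlane.coe_specialLinearGroup_apply g z
  have h2 : (g • z).re = ((g • z : ℍ) : ℂ).re := rfl
  rw [h2, h, Complex.div_re]
  have hpos := psi16_denom_normSq_pos g z
  simp only [algebraMap_int_eq, eq_intCast, Complex.ofReal_intCast]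
  rw [← add_div]
  congr 1
  simp only [psi16_P, Complex.add_re, Complex.mul_re, Complex.intCast_re, Complex.intCast_im,
    Complex.add_im, Complex.mul_im, UpperHalfPlane.coe_re, UpperHalfPlane.coe_im]
  ring

theorem psi16_re_pos_iff (g : SL(2, ℤ)) (z : ℍ) :
    0 < (g • z).re ↔ 0 < psi16_P g z := by
  rw [psi16_re_smul]
  exact div_pos_iff_of_pos_right (psi16_denom_normSq_pos g z)

/-- the set of matrices with bounded entries is finite -/
theorem psi16_finite_bdd (n : ℕ) :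
    {g : SL(2, ℤ) | ∀ i j, |g i j| ≤ (n : ℤ)}.Finite := by
  have hinj : Function.Injective
      (fun g : SL(2, ℤ) => (g 0 0, g 0 1, g 1 0, g 1 1)) := by
    intro g h hgh
    simp only [Prod.mk.injEq] at hgh
    ext i j
    fin_cases i <;> fin_cases j
    · exact hgh.1
    · exact hgh.2.1
    · exact hgh.2.2.1
    · exact hgh.2.2.2
  have hfin : ((Set.Icc (-(n : ℤ)) n) ×ˢ (Set.Icc (-(n : ℤ)) n) ×ˢ
      (Set.Icc (-(n : ℤ)) n) ×ˢ (Set.Icc (-(n : ℤ)) n)).Finite :=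
    (Set.finite_Icc _ _).prod ((Set.finite_Icc _ _).prod
      ((Set.finite_Icc _ _).prod (Set.finite_Icc _ _)))
  refine (hfin.preimage hinj.injOn).subset ?_
  intro g hg
  change ∀ i j, |g i j| ≤ (n : ℤ) at hg
  simp only [Set.mem_preimage, Set.mem_prod, Set.mem_Icc]
  refine ⟨abs_le.mp (hg 0 0), abs_le.mp (hg 0 1), abs_le.mp (hg 1 0), abs_le.mp (hg 1 1)⟩

theorem psi16_det (g : SL(2, ℤ)) : g 0 0 * g 1 1 - g 0 1 * g 1 0 = 1 := by
  have h := g.det_coe
  rwa [Matrix.det_fin_two] at h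

theorem psi16_detR (g : SL(2, ℤ)) :
    (g 0 0 : ℝ) * (g 1 1 : ℝ) - (g 0 1 : ℝ) * (g 1 0 : ℝ) = 1 := by
  have h := psi16_det g
  exact_mod_cast h

theorem psi16_four_mul (g : SL(2, ℤ)) (z : ℍ) :
    4 * ((g 0 0 : ℝ) * (g 1 0 : ℝ)) * psi16_P g z =
      (2 * ((g 0 0 : ℝ) * (g 1 0 : ℝ)) * z.re
          + ((g 0 0 : ℝ) * (g 1 1 : ℝ) + (g 0 1 : ℝ) * (g 1 0 : ℝ))) ^ 2
      + (2 * ((g 0 0 : ℝ) * (g 1 0 : ℝ)) * z.im) ^ 2 - 1 := by
  have h := psi16_detR g
  unfold psi16_P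
  linear_combination (-((g 0 0 : ℝ) * (g 1 1 : ℝ) - (g 0 1 : ℝ) * (g 1 0 : ℝ) + 1)) * h

theorem psi16_P_pos_iff_of_large (g : SL(2, ℤ)) (z : ℍ)
    (h : 0 < (2 * ((g 0 0 : ℝ) * (g 1 0 : ℝ)) * z.re
          + ((g 0 0 : ℝ) * (g 1 1 : ℝ) + (g 0 1 : ℝ) * (g 1 0 : ℝ))) ^ 2
      + (2 * ((g 0 0 : ℝ) * (g 1 0 : ℝ)) * z.im) ^ 2 - 1) :
    0 < psi16_P g z ↔ 0 < (g 0 0 : ℝ) * (g 1 0 : ℝ) := by
  rw [← psi16_four_mul] at h
  have h2 : 0 < ((g 0 0 : ℝ) * (g 1 0 : ℝ)) * psi16_P g z := by linarith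
  exact (pos_iff_pos_of_mul_pos h2).symm

theorem psi16_P_of_a_zero (g : SL(2, ℤ)) (z : ℍ) (ha : g 0 0 = 0) :
    psi16_P g z = -z.re + (g 0 1 : ℝ) * (g 1 1 : ℝ) := by
  have h := psi16_detR g
  unfold psi16_P
  rw [ha] at h ⊢
  simp only [Int.cast_zero, zero_mul, zero_sub, zero_add] at h ⊢
  linear_combination (-z.re) * h

theorem psi16_P_of_c_zero (g : SL(2, ℤ)) (z : ℍ) (hc : g 1 0 = 0) :
    psi16_P g z = z.re + (g 0 1 : ℝ) * (g 1 1 : ℝ) := by
  have h := psi16_detR g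
  unfold psi16_P
  rw [hc] at h ⊢
  simp only [Int.cast_zero, zero_mul, mul_zero, sub_zero, zero_add, add_zero] at h ⊢
  linear_combination (z.re) * h

/-- integer `1 ≤ |c|` helper: `|a| ≤ |a * c|` for a nonzero integer `c` -/
theorem psi16_abs_le_abs_mul (a c : ℤ) (hc : c ≠ 0) : |(a : ℝ)| ≤ |(a : ℝ) * (c : ℝ)| := by
  rw [abs_mul]
  have h1 : (1 : ℝ) ≤ |(c : ℝ)| := by
    have : (1 : ℤ) ≤ |c| := Int.one_le_abs hc
    exact_mod_cast this
  nlinarith [abs_nonneg (a : ℝ)]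

/-- the core real estimate in the case `a c ≠ 0` -/
theorem psi16_core_bound (a b c d : ℤ) (hdet : a * d - b * c = 1) (ha : a ≠ 0) (hc : c ≠ 0)
    (x y ε R : ℝ) (hε : 0 < ε) (hy : ε ≤ y) (hx : |x| ≤ R)
    (hQ : (2 * ((a : ℝ) * c) * x + ((a : ℝ) * d + (b : ℝ) * c)) ^ 2
      + (2 * ((a : ℝ) * c) * y) ^ 2 - 1 ≤ 0) :
    |(a : ℝ)| ≤ 1 / (2 * ε) ∧ |(c : ℝ)| ≤ 1 / (2 * ε) ∧
    |(b : ℝ)| ≤ 1 + R / (2 * ε) ∧ |(d : ℝ)| ≤ 1 + R / (2 * ε) := by
  have hdetR : (a : ℝ) * d - (b : ℝ) * c = 1 := by exact_mod_cast hdet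
  have hR : 0 ≤ R := le_trans (abs_nonneg x) hx
  set m : ℝ := (a : ℝ) * c with hm
  set s : ℝ := (a : ℝ) * d + (b : ℝ) * c with hs
  have h1 : (2 * m * y) ^ 2 ≤ 1 := by nlinarith [sq_nonneg (2 * m * x + s)]
  have h2 : (2 * m * x + s) ^ 2 ≤ 1 := by nlinarith [sq_nonneg (2 * m * y)]
  have h1' : |2 * m * y| ≤ 1 := by
    have := abs_le_of_sq_le_sq' (a := 2 * m * y) (b := 1) (by simpa using h1) (by norm_num)
    exact abs_le.mpr this
  have h2' : |2 * m * x + s| ≤ 1 := by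
    have := abs_le_of_sq_le_sq' (a := 2 * m * x + s) (b := 1) (by simpa using h2) (by norm_num)
    exact abs_le.mpr this
  have hy0 : 0 < y := lt_of_lt_of_le hε hy
  -- |m| ≤ 1/(2ε)
  have hmabs : |m| ≤ 1 / (2 * ε) := by
    rw [abs_mul, abs_mul, abs_of_pos hy0] at h1'
    rw [le_div_iff₀ (by positivity)]
    have : |m| * (2 * ε) ≤ |(2:ℝ)| * |m| * y := by
      rw [abs_of_pos (by norm_num : (0:ℝ) < 2)]
      nlinarith [abs_nonneg m]
    linarith
  -- |s| ≤ 1 + R/ε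
  have hsabs : |s| ≤ 1 + R / ε := by
    have h3 : |s| ≤ |2 * m * x + s| + |2 * m * x| := by
      have := abs_sub (2 * m * x + s) (2 * m * x)
      simpa using this
    have h4 : |2 * m * x| ≤ R / ε := by
      rw [abs_mul, abs_mul, abs_of_pos (by norm_num : (0:ℝ) < 2)]
      have h5 : 2 * |m| ≤ 1 / ε := by
        have : 1 / (2 * ε) = (1 / ε) / 2 := by field_simp
        rw [this] at hmabs
        linarith
      calc 2 * |m| * |x| ≤ (1 / ε) * R := by
            apply mul_le_mul h5 hx (abs_nonneg x) (by positivity)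
        _ = R / ε := by ring
    linarith
  have had : |(a : ℝ) * d| ≤ 1 + R / (2 * ε) := by
    have e : (a : ℝ) * d = (s + 1) / 2 := by rw [hs]; linarith
    rw [e, abs_div, abs_of_pos (by norm_num : (0:ℝ) < 2)]
    have : |s + 1| ≤ |s| + 1 := by
      have := abs_add_le s 1
      simpa using this
    have e2 : R / (2 * ε) = (R / ε) / 2 := by field_simp
    rw [e2]
    linarith
  have hbc : |(b : ℝ) * c| ≤ 1 + R / (2 * ε) := by
    have e : (b : ℝ) * c = (s - 1) / 2 := by rw [hs]; linarith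
    rw [e, abs_div, abs_of_pos (by norm_num : (0:ℝ) < 2)]
    have : |s - 1| ≤ |s| + 1 := by
      have := abs_sub s 1
      simpa using this
    have e2 : R / (2 * ε) = (R / ε) / 2 := by field_simp
    rw [e2]
    linarith
  refine ⟨?_, ?_, ?_, ?_⟩
  · exact le_trans (psi16_abs_le_abs_mul a c hc) hmabs
  · have := psi16_abs_le_abs_mul c a ha
    rw [mul_comm] at this
    exact le_trans this hmabs
  · exact le_trans (psi16_abs_le_abs_mul b c hc) hbc
  · have := psi16_abs_le_abs_mul d a ha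
    rw [mul_comm] at this
    exact le_trans this had


/-- "between" estimate used in the degenerate cases -/
theorem psi16_between (t x₀ x₁ R : ℝ) (h0 : |x₀| ≤ R) (h1 : |x₁| ≤ R)
    (hne : ¬ (x₁ < t ↔ x₀ < t)) : |t| ≤ R := by
  rw [abs_le] at h0 h1 ⊢
  by_cases c1 : x₁ < t
  · have c0 : ¬ x₀ < t := fun h => hne ⟨fun _ => h, fun _ => c1⟩
    push Not at c0
    constructor <;> linarith
  · have c0 : x₀ < t := by
      by_contra h
      exact hne ⟨fun h' => absurd h' c1, fun h' => absurd h' h⟩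
    push Not at c1
    constructor <;> linarith

/-- all entries of a matrix in the support are bounded -/
theorem psi16_bound (g : SL(2, ℤ)) (z₀ z₁ : ℍ) (ε R : ℝ) (hε : 0 < ε)
    (h0 : ε ≤ z₀.im) (h1 : ε ≤ z₁.im) (hR0 : |z₀.re| ≤ R) (hR1 : |z₁.re| ≤ R)
    (hne : ¬ (0 < psi16_P g z₁ ↔ 0 < psi16_P g z₀)) :
    |(g 0 0 : ℝ)| ≤ 1 + R + 1 / (2 * ε) + R / (2 * ε) ∧
    |(g 0 1 : ℝ)| ≤ 1 + R + 1 / (2 * ε) + R / (2 * ε) ∧
    |(g 1 0 : ℝ)| ≤ 1 + R + 1 / (2 * ε) + R / (2 * ε) ∧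
    |(g 1 1 : ℝ)| ≤ 1 + R + 1 / (2 * ε) + R / (2 * ε) := by
  have hR : 0 ≤ R := le_trans (abs_nonneg _) hR0
  have hK : 0 ≤ 1 / (2 * ε) := by positivity
  have hKR : 0 ≤ R / (2 * ε) := by positivity
  have hdet := psi16_det g
  by_cases ha : g 0 0 = 0
  · -- a = 0 : b c = -1
    have hbc : g 0 1 * g 1 0 = -1 := by rw [ha] at hdet; linarith
    have hb : |(g 0 1 : ℝ)| = 1 := by
      have : |g 0 1| = 1 := by
        have h2 := congrArg (fun t : ℤ => |t|) hbc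
        simp only [abs_mul, abs_neg, abs_one] at h2
        exact Int.eq_one_of_mul_eq_one_right (abs_nonneg _) h2
      exact_mod_cast this
    have hc : |(g 1 0 : ℝ)| = 1 := by
      have : |g 1 0| = 1 := by
        have h2 := congrArg (fun t : ℤ => |t|) hbc
        simp only [abs_mul, abs_neg, abs_one] at h2
        exact Int.eq_one_of_mul_eq_one_left (abs_nonneg _) h2
      exact_mod_cast this
    have hP0 := psi16_P_of_a_zero g z₀ ha
    have hP1 := psi16_P_of_a_zero g z₁ ha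
    rw [hP0, hP1] at hne
    have hbd : |(g 0 1 : ℝ) * (g 1 1 : ℝ)| ≤ R := by
      apply psi16_between _ z₀.re z₁.re R hR0 hR1
      intro h
      apply hne
      constructor
      · intro h'
        have := h.mp (by linarith)
        linarith
      · intro h'
        have := h.mpr (by linarith)
        linarith
    have hd : |(g 1 1 : ℝ)| ≤ R := by
      rw [abs_mul, hb, one_mul] at hbd
      exact hbd
    refine ⟨?_, ?_, ?_, ?_⟩
    · rw [ha]; simp only [Int.cast_zero, abs_zero]; linarith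
    · rw [hb]; linarith
    · rw [hc]; linarith
    · linarith
  by_cases hc : g 1 0 = 0
  · -- c = 0 : a d = 1
    have had : g 0 0 * g 1 1 = 1 := by rw [hc] at hdet; linarith
    have ha' : |(g 0 0 : ℝ)| = 1 := by
      have : |g 0 0| = 1 := by
        have h2 := congrArg (fun t : ℤ => |t|) had
        simp only [abs_mul, abs_one] at h2
        exact Int.eq_one_of_mul_eq_one_right (abs_nonneg _) h2
      exact_mod_cast this
    have hd' : |(g 1 1 : ℝ)| = 1 := by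
      have : |g 1 1| = 1 := by
        have h2 := congrArg (fun t : ℤ => |t|) had
        simp only [abs_mul, abs_one] at h2
        exact Int.eq_one_of_mul_eq_one_left (abs_nonneg _) h2
      exact_mod_cast this
    have hP0 := psi16_P_of_c_zero g z₀ hc
    have hP1 := psi16_P_of_c_zero g z₁ hc
    rw [hP0, hP1] at hne
    have hbd : |((g 0 1 : ℝ) * (g 1 1 : ℝ))| ≤ R := by
      have hR0' : |-z₀.re| ≤ R := by rwa [abs_neg]
      have hR1' : |-z₁.re| ≤ R := by rwa [abs_neg]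
      apply psi16_between _ (-z₀.re) (-z₁.re) R hR0' hR1'
      intro h
      apply hne
      constructor
      · intro h'
        have := h.mp (by linarith)
        linarith
      · intro h'
        have := h.mpr (by linarith)
        linarith
    have hb : |(g 0 1 : ℝ)| ≤ R := by
      rw [abs_mul, hd', mul_one] at hbd
      exact hbd
    refine ⟨?_, ?_, ?_, ?_⟩
    · rw [ha']; linarith
    · linarith
    · rw [hc]; simp only [Int.cast_zero, abs_zero]; linarith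
    · rw [hd']; linarith
  · -- generic case
    have hex : (2 * ((g 0 0 : ℝ) * (g 1 0 : ℝ)) * z₀.re
          + ((g 0 0 : ℝ) * (g 1 1 : ℝ) + (g 0 1 : ℝ) * (g 1 0 : ℝ))) ^ 2
        + (2 * ((g 0 0 : ℝ) * (g 1 0 : ℝ)) * z₀.im) ^ 2 - 1 ≤ 0 ∨
        (2 * ((g 0 0 : ℝ) * (g 1 0 : ℝ)) * z₁.re
          + ((g 0 0 : ℝ) * (g 1 1 : ℝ) + (g 0 1 : ℝ) * (g 1 0 : ℝ))) ^ 2
        + (2 * ((g 0 0 : ℝ) * (g 1 0 : ℝ)) * z₁.im) ^ 2 - 1 ≤ 0 := by
      by_contra hcon
      push Not at hcon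
      have e0 := psi16_P_pos_iff_of_large g z₀ hcon.1
      have e1 := psi16_P_pos_iff_of_large g z₁ hcon.2
      exact hne (e1.trans e0.symm)
    rcases hex with hQ | hQ
    · obtain ⟨b1, b2, b3, b4⟩ := psi16_core_bound (g 0 0) (g 0 1) (g 1 0) (g 1 1) hdet ha hc
        z₀.re z₀.im ε R hε h0 hR0 hQ
      refine ⟨?_, ?_, ?_, ?_⟩ <;> linarith
    · obtain ⟨b1, b2, b3, b4⟩ := psi16_core_bound (g 0 0) (g 0 1) (g 1 0) (g 1 1) hdet ha hc
        z₁.re z₁.im ε R hε h1 hR1 hQ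
      refine ⟨?_, ?_, ?_, ?_⟩ <;> linarith

theorem psi16_forall_fin2 (g : SL(2, ℤ)) (P : ℤ → Prop) (h00 : P (g 0 0)) (h01 : P (g 0 1))
    (h10 : P (g 1 0)) (h11 : P (g 1 1)) : ∀ i j, P (g i j) := by
  intro i j
  fin_cases i <;> fin_cases j
  · exact h00
  · exact h01
  · exact h10
  · exact h11

/-- only finitely many `g` have `Re (g • z₀)` and `Re (g • z₁)` on different sides -/
theorem psi16_finite_P (z₀ z₁ : ℍ) :
    {g : SL(2, ℤ) | ¬ (0 < psi16_P g z₁ ↔ 0 < psi16_P g z₀)}.Finite := by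
  set ε : ℝ := min z₀.im z₁.im with hε
  set R : ℝ := max |z₀.re| |z₁.re| with hR
  have hεpos : 0 < ε := lt_min z₀.im_pos z₁.im_pos
  set B : ℝ := 1 + R + 1 / (2 * ε) + R / (2 * ε) with hB
  refine (psi16_finite_bdd ⌈B⌉₊).subset ?_
  intro g hg
  have hb := psi16_bound g z₀ z₁ ε R hεpos (min_le_left _ _) (min_le_right _ _)
    (le_max_left _ _) (le_max_right _ _) hg
  have key : ∀ t : ℤ, |(t : ℝ)| ≤ B → |t| ≤ ((⌈B⌉₊ : ℕ) : ℤ) := by
    intro t ht
    have h1 : (|t| : ℝ) ≤ (⌈B⌉₊ : ℝ) := le_trans ht (Nat.le_ceil B)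
    have h2 : ((|t| : ℤ) : ℝ) ≤ (((⌈B⌉₊ : ℕ) : ℤ) : ℝ) := by
      push_cast
      exact h1
    exact_mod_cast h2
  exact psi16_forall_fin2 g (fun t => |t| ≤ ((⌈B⌉₊ : ℕ) : ℤ)) (key _ hb.1) (key _ hb.2.1)
    (key _ hb.2.2.1) (key _ hb.2.2.2)

/-- the side function: `1` if `z` is on the positive side of the edge `g (0 → ∞)`, else `0` -/
noncomputable def psi16_side (g : SL(2, ℤ)) (z : ℍ) : ℤ :=
  if 0 < (g⁻¹ • z).re then 1 else 0

theorem psi16_side_eq (g : SL(2, ℤ)) (z : ℍ) :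
    psi16_side g z = if 0 < psi16_P g⁻¹ z then 1 else 0 := by
  unfold psi16_side
  simp only [psi16_re_pos_iff]

theorem psi16_side_mul (δ g : SL(2, ℤ)) (z : ℍ) :
    psi16_side (δ * g) (δ • z) = psi16_side g z := by
  unfold psi16_side
  rw [_root_.mul_inv_rev, mul_smul, inv_smul_smul]

theorem psi16_side_inv_mul (h g : SL(2, ℤ)) (z : ℍ) :
    psi16_side g (h • z) = psi16_side (h⁻¹ * g) z := by
  rw [← psi16_side_mul h (h⁻¹ * g) z, mul_inv_cancel_left]

theorem psi16_side_neg (g : SL(2, ℤ)) (z : ℍ) :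
    psi16_side (-g) z = psi16_side g z := by
  unfold psi16_side
  have h : (-g)⁻¹ = -g⁻¹ := by
    apply inv_eq_of_mul_eq_one_left
    simp
  rw [h, ModularGroup.SL_neg_smul]

theorem psi16_side_ne_iff (g : SL(2, ℤ)) (z₀ z₁ : ℍ) :
    psi16_side g z₁ ≠ psi16_side g z₀ ↔
      ¬ (0 < psi16_P g⁻¹ z₁ ↔ 0 < psi16_P g⁻¹ z₀) := by
  rw [psi16_side_eq, psi16_side_eq]
  by_cases h1 : 0 < psi16_P g⁻¹ z₁ <;> by_cases h0 : 0 < psi16_P g⁻¹ z₀ <;> simp [h1, h0]

/-- finiteness of the set of edges separating two points -/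
theorem psi16_finite_side (z₀ z₁ : ℍ) :
    {g : SL(2, ℤ) | psi16_side g z₁ ≠ psi16_side g z₀}.Finite := by
  have h := psi16_finite_P z₀ z₁
  have hinj : Function.Injective (fun g : SL(2, ℤ) => g⁻¹) := inv_injective
  refine (h.preimage hinj.injOn).subset ?_
  intro g hg
  exact (psi16_side_ne_iff g z₀ z₁).mp hg

theorem psi16_side_sub_finite (z₀ z₁ : ℍ) :
    (Function.support fun g : SL(2, ℤ) => psi16_side g z₁ - psi16_side g z₀).Finite := by
  refine (psi16_finite_side z₀ z₁).subset ?_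
  intro g hg
  rw [Function.mem_support] at hg
  intro h
  apply hg
  rw [h, sub_self]

end Fermat.Agent.S16
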