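import Mathlib
import Fermat.Prelude.Def_GaloisRep_Flat

/-!
# S16, (C2), package [SWD], part 4: `E_{ℓ-1} ≡ 1 mod ℓ`

For a prime `ℓ ≥ 5` the normalised Eisenstein series of weight `ℓ - 1` has `ℓ`-integral
`q`-expansion, congruent to `1` modulo `ℓ` (von Staudt–Clausen).
-/

set_option autoImplicit false

open UpperHalfPlane ModularForm EisensteinSeries ModularFormClass Finset
open scoped MatrixGroups ArithmeticFunction.sigma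

noncomputable section

namespace Fermat.Agent.S16

theorem s16w_mem_loc_iff (ℓ : ℕ) (q : ℚ) : q ∈ GaloisRep.ratLocalizedAt ℓ ↔ q.den.Coprime ℓ :=
  Iff.rfl

theorem s16w_l_mul_ne_one (ℓ : ℕ) (hℓ : ℓ.Prime) (w : ℚ) (hw : w ∈ GaloisRep.ratLocalizedAt ℓ) :
    (ℓ : ℚ) * w ≠ 1 := by
  intro h
  have hw' : w = (ℓ : ℚ)⁻¹ := eq_inv_of_mul_eq_one_right h
  rw [hw', s16w_mem_loc_iff, Rat.inv_natCast_den, if_neg hℓ.ne_zero, Nat.coprime_self] at hw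
  exact hℓ.one_lt.ne' hw

theorem s16w_intCast_mem (ℓ : ℕ) (n : ℤ) : (n : ℚ) ∈ GaloisRep.ratLocalizedAt ℓ := by
  rw [s16w_mem_loc_iff, Rat.den_intCast]
  exact Nat.coprime_one_left ℓ

theorem s16w_natCast_mem (ℓ : ℕ) (n : ℕ) : (n : ℚ) ∈ GaloisRep.ratLocalizedAt ℓ :=
  s16w_intCast_mem ℓ n

/-- In `ℤ_(ℓ)`, the elements `-1 + ℓ y` are units. -/
theorem s16w_inv_mem (ℓ : ℕ) (hℓ : ℓ.Prime) (y : ℚ) (hy : y ∈ GaloisRep.ratLocalizedAt ℓ) :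
    (-1 + (ℓ : ℚ) * y)⁻¹ ∈ GaloisRep.ratLocalizedAt ℓ := by
  set x : ℚ := -1 + (ℓ : ℚ) * y with hx
  have hxmem : x ∈ GaloisRep.ratLocalizedAt ℓ :=
    Subring.add_mem _ (Subring.neg_mem _ (Subring.one_mem _))
      (Subring.mul_mem _ (s16w_natCast_mem ℓ ℓ) hy)
  have hx0 : x ≠ 0 := by
    intro h0
    exact s16w_l_mul_ne_one ℓ hℓ y hy (by linarith)
  rw [s16w_mem_loc_iff, Rat.den_inv_of_ne_zero hx0, Nat.coprime_comm,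
    Nat.Prime.coprime_iff_not_dvd hℓ]
  intro hdvd
  have hdvd' : (ℓ : ℤ) ∣ x.num := Int.natCast_dvd.mpr hdvd
  obtain ⟨t, ht⟩ := hdvd'
  set z : ℚ := Rat.divInt t x.den with hz
  have hzmem : z ∈ GaloisRep.ratLocalizedAt ℓ := by
    rw [s16w_mem_loc_iff]
    have h1 : ((Rat.divInt t x.den).den : ℤ) ∣ (x.den : ℤ) := Rat.den_dvd t x.den
    exact Nat.Coprime.coprime_dvd_left (Int.natCast_dvd_natCast.mp h1) hxmem
  have hxz : x = (ℓ : ℚ) * z := by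
    rw [hz, Rat.divInt_eq_div]
    have hx' : (x.num : ℚ) / x.den = x := Rat.num_div_den x
    have hnum : (x.num : ℚ) = (ℓ : ℚ) * t := by
      rw [ht]
      push_cast
      ring
    rw [hnum, mul_div_assoc] at hx'
    exact_mod_cast hx'.symm
  refine s16w_l_mul_ne_one ℓ hℓ (y - z) (Subring.sub_mem _ hy hzmem) ?_
  rw [mul_sub, ← hxz, hx]
  ring

/-- von Staudt–Clausen at `ℓ - 1`: `ℓ B_{ℓ-1} = -1 + ℓ y` with `y ∈ ℤ_(ℓ)`. -/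
theorem s16w_bernoulli (ℓ : ℕ) (hℓ : ℓ.Prime) (h5 : 5 ≤ ℓ) :
    ∃ y : ℚ, y ∈ GaloisRep.ratLocalizedAt ℓ ∧ (ℓ : ℚ) * bernoulli (ℓ - 1) = -1 + (ℓ : ℚ) * y := by
  obtain ⟨k', hk'⟩ : ∃ k', ℓ - 1 = 2 * k' := by
    obtain ⟨r, hr⟩ := hℓ.even_sub_one (by omega)
    exact ⟨r, by omega⟩
  obtain ⟨N, hN⟩ := Bernoulli.vonStaudt_clausen k'
  rw [← hk'] at hN
  set T : Finset ℕ := (range (ℓ - 1 + 2)).filter (fun p => p.Prime ∧ (p - 1) ∣ (ℓ - 1)) with hT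
  have hmem : ℓ ∈ T := by
    rw [hT, Finset.mem_filter, Finset.mem_range]
    exact ⟨by omega, hℓ, dvd_rfl⟩
  have hsplit : ∑ p ∈ T, (1 : ℚ) / p = 1 / (ℓ : ℚ) + ∑ p ∈ T.erase ℓ, (1 : ℚ) / p :=
    (Finset.add_sum_erase T (fun p => (1 : ℚ) / p) hmem).symm
  set S' : ℚ := ∑ p ∈ T.erase ℓ, (1 : ℚ) / p with hS'
  have hS'mem : S' ∈ GaloisRep.ratLocalizedAt ℓ := by
    refine Subring.sum_mem _ fun p hp => ?_
    rw [Finset.mem_erase, hT, Finset.mem_filter] at hp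
    obtain ⟨hpl, -, hpp, -⟩ := hp
    rw [s16w_mem_loc_iff, one_div, Rat.inv_natCast_den, if_neg hpp.ne_zero]
    exact (Nat.coprime_primes hpp hℓ).mpr hpl
  refine ⟨(N : ℚ) - S', Subring.sub_mem _ (s16w_intCast_mem ℓ N) hS'mem, ?_⟩
  have hl0 : (ℓ : ℚ) ≠ 0 := by exact_mod_cast hℓ.ne_zero
  rw [hsplit] at hN
  have hB : bernoulli (ℓ - 1) = (N : ℚ) - 1 / (ℓ : ℚ) - S' := by linarith
  rw [hB]
  field_simp
  ring

/-- The `q`-expansion of `E_{ℓ-1}`: constant term `1`, all other coefficients in `ℓ ℤ_(ℓ)`. -/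
theorem s16w_eis_coeff (ℓ : ℕ) (hℓ : ℓ.Prime) (h5 : 5 ≤ ℓ) (hk : 3 ≤ ℓ - 1) :
    ∃ u : ℚ, u ∈ GaloisRep.ratLocalizedAt ℓ ∧ ∀ m : ℕ,
      (qExpansion 1 (E hk)).coeff m =
        if m = 0 then 1 else (((ℓ : ℚ) * u * (σ (ℓ - 1 - 1) m : ℚ) : ℚ) : ℂ) := by
  obtain ⟨y, hy, hB⟩ := s16w_bernoulli ℓ hℓ h5
  have hinv := s16w_inv_mem ℓ hℓ y hy
  set x : ℚ := -1 + (ℓ : ℚ) * y with hx
  have hx0 : x ≠ 0 := by
    intro h0
    exact s16w_l_mul_ne_one ℓ hℓ y hy (by linarith)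
  have hl0 : (ℓ : ℚ) ≠ 0 := by exact_mod_cast hℓ.ne_zero
  have hBval : bernoulli (ℓ - 1) = x / ℓ := by
    rw [← hB]
    field_simp
  have hk2 : Even (ℓ - 1) := hℓ.even_sub_one (by omega)
  refine ⟨-(2 * ((ℓ - 1 : ℕ) : ℚ)) * x⁻¹,
    Subring.mul_mem _ (Subring.neg_mem _ (Subring.mul_mem _ (s16w_natCast_mem ℓ 2)
      (s16w_natCast_mem ℓ (ℓ - 1)))) hinv, fun m => ?_⟩
  rw [E_qExpansion_coeff hk hk2 m]
  split_ifs with hm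
  · rfl
  · rw [hBval]
    push_cast
    field_simp

end Fermat.Agent.S16
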