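import Fermat.Agent.S16.SwdStruct
import Fermat.Agent.S16.SwdEis

/-!
# S16, (C2), package [SWD]: the level-one weight obstruction modulo `ℓ ≥ 5`

`s16w_cong`: let `ℓ ≥ 5` be a prime, `A ↪ ℂ` a ring containing `ℤ_(ℓ)` and `φ : A → κ` a ring
homomorphism to a field of characteristic `ℓ`.  If two level-one modular forms `f`, `g` of
weights `k ≤ k'` with `gcd (k' - k, ℓ - 1) = 2` have `q`-expansions with coefficients in `A`
which agree modulo `φ`, then both vanish modulo `φ`.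

`s16w_no_const`: the case `f = ` constant: a level-one form of weight `k'` with
`gcd (k', ℓ - 1) = 2` is not congruent to a nonzero constant modulo `φ`.

The proof uses `E_{ℓ-1} ≡ 1` (von Staudt–Clausen), the structure of level-one forms as isobaric
polynomials in `E₄`, `E₆`, the `q`-expansion principle modulo `φ`, and a degree argument in
`κ[Q][R]`: from `P_g ^ n = P_f ^ n * P_E ^ m`, `n = (ℓ - 1) / 2`, `gcd (n, m) = 1`, both the
`R`-degree `d` of `P_E` and the `Q`-order `t` of its top coefficient are divisible by `n`,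
contradicting `4 t + 6 d = 2 n`.
-/

set_option autoImplicit false

open UpperHalfPlane ModularForm EisensteinSeries Polynomial ModularFormClass
open scoped MatrixGroups ArithmeticFunction.sigma

noncomputable section

namespace Fermat.Agent.S16

open Fermat.Agent.S22

theorem s16w_not_dvd_1728 (ℓ : ℕ) (hℓ : ℓ.Prime) (h5 : 5 ≤ ℓ) : ¬ ℓ ∣ 1728 := by
  intro h
  have h1 : (1728 : ℕ) = 2 ^ 6 * 3 ^ 3 := by norm_num
  rw [h1] at h
  rcases (Nat.Prime.dvd_mul hℓ).mp h with h2 | h3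
  · have := Nat.le_of_dvd (by norm_num) (hℓ.dvd_of_dvd_pow h2)
    omega
  · have := Nat.le_of_dvd (by norm_num) (hℓ.dvd_of_dvd_pow h3)
    omega

theorem s16w_1728_ne_zero (ℓ : ℕ) (hℓ : ℓ.Prime) (h5 : 5 ≤ ℓ) (κ : Type*) [CommRing κ]
    [CharP κ ℓ] : (1728 : κ) ≠ 0 := by
  intro h
  have h' : ((1728 : ℕ) : κ) = 0 := by exact_mod_cast h
  rw [CharP.cast_eq_zero_iff κ ℓ] at h'
  exact s16w_not_dvd_1728 ℓ hℓ h5 h'

theorem s16w_isUnit_1728 {A : Type*} [CommRing A] (ℓ : ℕ) (hℓ : ℓ.Prime) (h5 : 5 ≤ ℓ)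
    (ι : A →+* ℂ) (hι : Function.Injective ι)
    (hA : ∀ q : ℚ, q ∈ GaloisRep.ratLocalizedAt ℓ → ∃ a : A, ι a = (q : ℂ)) :
    IsUnit (1728 : A) := by
  have hmem : ((1728 : ℕ) : ℚ)⁻¹ ∈ GaloisRep.ratLocalizedAt ℓ := by
    rw [s16w_mem_loc_iff, Rat.inv_natCast_den, if_neg (by norm_num), Nat.coprime_comm,
      Nat.Prime.coprime_iff_not_dvd hℓ]
    exact s16w_not_dvd_1728 ℓ hℓ h5
  obtain ⟨a, ha⟩ := hA _ hmem
  refine isUnit_iff_exists_inv'.mpr ⟨a, hι ?_⟩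
  rw [map_mul, ha, map_ofNat, map_one]
  push_cast
  norm_num

/-- `E_{ℓ-1}` has a `q`-expansion with coefficients in `A`, congruent to `1` modulo `φ`. -/
theorem s16w_eis {A κ : Type*} [CommRing A] [CommRing κ] (ℓ : ℕ) (hℓ : ℓ.Prime) (h5 : 5 ≤ ℓ)
    [CharP κ ℓ] (ι : A →+* ℂ)
    (hA : ∀ q : ℚ, q ∈ GaloisRep.ratLocalizedAt ℓ → ∃ a : A, ι a = (q : ℂ))
    (φ : A →+* κ) (hk : 3 ≤ ℓ - 1) :
    ∃ sE : PowerSeries A, qExpansion 1 (E hk) = sE.map ι ∧ sE.map φ = 1 := by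
  obtain ⟨u, hu, hcoeff⟩ := s16w_eis_coeff ℓ hℓ h5 hk
  obtain ⟨uA, huA⟩ := hA u hu
  refine ⟨PowerSeries.mk fun m => if m = 0 then 1 else
    (ℓ : A) * uA * ((σ (ℓ - 1 - 1) m : ℕ) : A), ?_, ?_⟩
  · ext m
    rw [hcoeff m, PowerSeries.coeff_map, PowerSeries.coeff_mk]
    split_ifs with hm
    · rw [map_one]
    · rw [map_mul, map_mul, map_natCast, map_natCast, huA]
      push_cast
      rfl
  · ext m
    rw [PowerSeries.coeff_map, PowerSeries.coeff_mk, PowerSeries.coeff_one]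
    split_ifs with hm
    · rw [map_one]
    · rw [map_mul, map_mul, map_natCast, CharP.cast_eq_zero κ ℓ, zero_mul, zero_mul]

/-- **Level-one weight obstruction modulo `ℓ`.**  Two level-one forms whose weights differ by
`d` with `gcd (d, ℓ - 1) = 2` can be congruent modulo `ℓ` only if both vanish modulo `ℓ`. -/
theorem s16w_cong {A κ : Type*} [CommRing A] [Field κ] (ℓ : ℕ) (hℓ : ℓ.Prime) (h5 : 5 ≤ ℓ)
    [CharP κ ℓ] (ι : A →+* ℂ) (hι : Function.Injective ι)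
    (hA : ∀ q : ℚ, q ∈ GaloisRep.ratLocalizedAt ℓ → ∃ a : A, ι a = (q : ℂ))
    (φ : A →+* κ) (k k' : ℕ) (hkk : k ≤ k') (hk : Nat.gcd (k' - k) (ℓ - 1) = 2)
    (f g : ℍ → ℂ) (hf : IsMF G1 (k : ℤ) f) (hg : IsMF G1 (k' : ℤ) g)
    (sf sg : PowerSeries A) (hsf : qExpansion 1 f = sf.map ι) (hsg : qExpansion 1 g = sg.map ι)
    (hc : sf.map φ = sg.map φ) : sf.map φ = 0 := by
  by_contra hne
  have h1728A := s16w_isUnit_1728 ℓ hℓ h5 ι hι hA
  have h1728κ := s16w_1728_ne_zero ℓ hℓ h5 κ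
  have hk3 : 3 ≤ ℓ - 1 := by omega
  obtain ⟨sE, hsE, hsE1⟩ := s16w_eis ℓ hℓ h5 ι hA φ hk3
  -- the three polynomials
  obtain ⟨Pf, hPf, hPfev⟩ := s16w_struct ι hι h1728A k f hf sf hsf
  obtain ⟨Pg, hPg, hPgev⟩ := s16w_struct ι hι h1728A k' g hg sg hsg
  obtain ⟨PE, hPE, hPEev⟩ := s16w_struct ι hι h1728A (ℓ - 1) (E hk3) ⟨E hk3, rfl⟩ sE hsE
  set Pf' := Pf.map (Polynomial.mapRingHom φ) with hPf'
  set Pg' := Pg.map (Polynomial.mapRingHom φ) with hPg'
  set PE' := PE.map (Polynomial.mapRingHom φ) with hPE'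
  have evf : s16w_evR κ Pf' = sf.map φ := by rw [hPf', ← s16w_evR_map, hPfev]
  have evg : s16w_evR κ Pg' = sg.map φ := by rw [hPg', ← s16w_evR_map, hPgev]
  have evE : s16w_evR κ PE' = 1 := by rw [hPE', ← s16w_evR_map, hPEev, hsE1]
  -- the exponents
  obtain ⟨n, hn⟩ : ∃ n, ℓ - 1 = 2 * n := by
    obtain ⟨r, hr⟩ := hℓ.even_sub_one (by omega)
    exact ⟨r, by omega⟩
  obtain ⟨m, hm⟩ : ∃ m, k' - k = 2 * m := by
    have : 2 ∣ k' - k := by
      rw [← hk]
      exact Nat.gcd_dvd_left _ _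
    exact this
  have hn0 : 0 < n := by omega
  have hcop : Nat.Coprime n m := by
    rw [hn, hm, Nat.gcd_mul_left] at hk
    have : Nat.gcd m n = 1 := by omega
    exact Nat.Coprime.symm this
  -- the polynomial identity
  have hiso1 : s16w_Iso (k' * n) (Pg' ^ n) := (hPg.map φ).pow n
  have hiso2 : s16w_Iso (k' * n) (Pf' ^ n * PE' ^ m) :=
    (((hPf.map φ).pow n).mul ((hPE.map φ).pow m)).cast (by
      have : k' = k + 2 * m := by omega
      rw [this, hn]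
      ring)
  have hid : Pg' ^ n = Pf' ^ n * PE' ^ m := by
    have h0 : Pg' ^ n - Pf' ^ n * PE' ^ m = 0 := by
      refine s16w_evR_injective h1728κ (k' * n) _ (hiso1.sub hiso2) ?_
      rw [map_sub, map_mul, map_pow, map_pow, map_pow, evf, evg, evE, hc, one_pow, mul_one,
        sub_self]
    exact sub_eq_zero.mp h0
  have hPf0 : Pf' ≠ 0 := by
    intro h0
    rw [h0, map_zero] at evf
    exact hne evf.symm
  have hPE0 : PE' ≠ 0 := by
    intro h0
    rw [h0, map_zero] at evE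
    exact zero_ne_one evE
  exact s16w_deg_contra_gen m n hn0 hcop Pf' Pg' PE' ((hPE.map φ).cast hn) hPf0 hPE0 hid

/-- **No level-one form of weight `k` with `gcd (k, ℓ - 1) = 2` is congruent to a nonzero
constant modulo `ℓ`.** -/
theorem s16w_no_const {A κ : Type*} [CommRing A] [Field κ] (ℓ : ℕ) (hℓ : ℓ.Prime) (h5 : 5 ≤ ℓ)
    [CharP κ ℓ] (ι : A →+* ℂ) (hι : Function.Injective ι)
    (hA : ∀ q : ℚ, q ∈ GaloisRep.ratLocalizedAt ℓ → ∃ a : A, ι a = (q : ℂ))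
    (φ : A →+* κ) (k : ℕ) (hk : Nat.gcd k (ℓ - 1) = 2)
    (F : ℍ → ℂ) (hF : IsMF G1 (k : ℤ) F)
    (s : PowerSeries A) (hs : qExpansion 1 F = s.map ι)
    (h0 : φ (PowerSeries.coeff 0 s) ≠ 0)
    (h1 : ∀ n, 1 ≤ n → φ (PowerSeries.coeff n s) = 0) : False := by
  set a₀ : A := PowerSeries.coeff 0 s with ha₀
  have hconst : IsMF G1 ((0 : ℕ) : ℤ) (fun _ : ℍ => ι a₀) := IsMF.const (ι a₀)
  have hcq : qExpansion 1 (fun _ : ℍ => ι a₀) = (PowerSeries.C a₀).map ι := by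
    have : (fun _ : ℍ => ι a₀) = (ι a₀) • (1 : ℍ → ℂ) := by
      funext z
      simp
    rw [this, IsNice.one.qExpansion_smul, qExpansion_one, PowerSeries.map_C,
      PowerSeries.smul_eq_C_mul, mul_one]
  have hc : (PowerSeries.C a₀).map φ = s.map φ := by
    ext n
    rw [PowerSeries.coeff_map, PowerSeries.coeff_map, PowerSeries.coeff_C]
    split_ifs with hn
    · rw [hn]
    · rw [map_zero, h1 n (by omega)]
  have := s16w_cong ℓ hℓ h5 ι hι hA φ 0 k (Nat.zero_le k) (by rwa [Nat.sub_zero])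
    _ F hconst hF (PowerSeries.C a₀) s hcq hs hc
  have h2 := congrArg (PowerSeries.coeff 0) this
  rw [PowerSeries.coeff_map, PowerSeries.coeff_C, if_pos rfl, map_zero] at h2
  exact h0 h2

end Fermat.Agent.S16
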