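import Fermat.Agent.S16.SwdIso

/-!
# S16, (C2), package [SWD], part 2: evaluation of isobaric polynomials at power series

`s16w_ev q r : R[Q][R] → R⟦X⟧` evaluates the inner variable at `q` and the outer variable at
`r`.  If `q`, `r` have constant term `1` and `q ^ 3 - r ^ 2` is not a zero divisor, then
`s16w_ev q r` is injective on isobaric polynomials (the `q`-expansion principle at level one).
-/

set_option autoImplicit false

open Polynomial

noncomputable section

namespace Fermat.Agent.S16

variable {R : Type*} [CommRing R]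

/-- Evaluation of a polynomial in `Q` (inner) and `R` (outer) at two power series. -/
def s16w_ev (q r : PowerSeries R) : Polynomial (Polynomial R) →+* PowerSeries R :=
  Polynomial.eval₂RingHom (Polynomial.eval₂RingHom (PowerSeries.C (R := R)) q) r

@[simp] theorem s16w_ev_C_C (q r : PowerSeries R) (c : R) :
    s16w_ev q r (C (C c)) = PowerSeries.C c := by
  simp [s16w_ev]

@[simp] theorem s16w_ev_C_X (q r : PowerSeries R) : s16w_ev q r (C X) = q := by
  simp [s16w_ev]

@[simp] theorem s16w_ev_X (q r : PowerSeries R) : s16w_ev q r X = r := by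
  simp [s16w_ev]

theorem s16w_ev_monomial (q r : PowerSeries R) (c : R) (a b : ℕ) :
    s16w_ev q r (C (C c) * (C X) ^ a * X ^ b) = PowerSeries.C c * q ^ a * r ^ b := by
  rw [map_mul, map_mul, map_pow, map_pow, s16w_ev_C_C, s16w_ev_C_X, s16w_ev_X]

theorem s16w_ev_disc (q r : PowerSeries R) :
    s16w_ev q r ((C X) ^ 3 - X ^ 2) = q ^ 3 - r ^ 2 := by
  rw [map_sub, map_pow, map_pow, s16w_ev_C_X, s16w_ev_X]

/-- Naturality of the evaluation in the coefficient ring. -/
theorem s16w_ev_map {S : Type*} [CommRing S] (φ : R →+* S) (q r : PowerSeries R)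
    (P : Polynomial (Polynomial R)) :
    PowerSeries.map φ (s16w_ev q r P) =
      s16w_ev (PowerSeries.map φ q) (PowerSeries.map φ r) (P.map (Polynomial.mapRingHom φ)) := by
  have h : (PowerSeries.map φ).comp (s16w_ev q r) =
      (s16w_ev (PowerSeries.map φ q) (PowerSeries.map φ r)).comp
        (Polynomial.mapRingHom (Polynomial.mapRingHom φ)) := by
    refine Polynomial.ringHom_ext (fun p => ?_) ?_
    · have h2 : ((PowerSeries.map φ).comp (s16w_ev q r)).comp (C : Polynomial R →+* _) =
          ((s16w_ev (PowerSeries.map φ q) (PowerSeries.map φ r)).comp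
            (Polynomial.mapRingHom (Polynomial.mapRingHom φ))).comp (C : Polynomial R →+* _) := by
        refine Polynomial.ringHom_ext (fun c => ?_) ?_
        · simp
        · simp
      exact congrArg (fun f => f p) h2
    · simp
  exact congrArg (fun f => f P) h

/-- **`q`-expansion principle at level one.**  Over a domain, if `q` and `r` have constant term
`1` and `q ^ 3 ≠ r ^ 2`, the evaluation is injective on isobaric polynomials. -/
theorem s16w_ev_injective {κ : Type*} [CommRing κ] [IsDomain κ] (q r : PowerSeries κ)
    (hq : PowerSeries.constantCoeff q = 1) (hr : PowerSeries.constantCoeff r = 1)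
    (hd : q ^ 3 - r ^ 2 ≠ 0) :
    ∀ (w : ℕ) (P : Polynomial (Polynomial κ)), s16w_Iso w P → s16w_ev q r P = 0 → P = 0 := by
  intro w
  induction w using Nat.strong_induction_on with
  | _ w ih =>
    intro P hP hev
    obtain ⟨c, a, b, P₁, hP₁, hdec⟩ := hP.decomp
    have hev' : PowerSeries.C c * q ^ a * r ^ b + (q ^ 3 - r ^ 2) * s16w_ev q r P₁ = 0 := by
      rw [← s16w_ev_monomial, ← s16w_ev_disc, ← map_mul, ← map_add, ← hdec]
      exact hev
    have hc : c = 0 := by
      have := congrArg PowerSeries.constantCoeff hev'
      simpa [hq, hr] using this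
    rw [hc, map_zero, zero_mul, zero_mul, zero_add] at hev'
    have hev₁ : s16w_ev q r P₁ = 0 := (mul_eq_zero.mp hev').resolve_left hd
    have hP₁0 : P₁ = 0 := by
      by_cases hw : w < 12
      · exact hP₁.eq_zero_of_lt hw
      · exact ih (w - 12) (by omega) P₁ hP₁.iso hev₁
    rw [hdec, hc, hP₁0]
    simp

end Fermat.Agent.S16
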