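import Mathlib

/-!
# S16, (C2), package [SWD], part 1: isobaric polynomials in `Q` (weight 4) and `R` (weight 6)

We work in `Polynomial (Polynomial R)`: the inner variable is `Q` (weight `4`), the outer
variable is `R` (weight `6`).  `s16w_Iso w P` says that every monomial `Q^a R^b` occurring in
`P` has `4 a + 6 b = w`.

Main results:
* closure properties of `s16w_Iso`;
* `s16w_Iso.weight_eq`: for `P ≠ 0` isobaric of weight `w`, the `R`-degree `d` and the
  `Q`-order `t` of the top coefficient satisfy `4 t + 6 d = w`;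
* `s16w_Iso.decomp`: `P = c Q^a R^b + (Q^3 - R^2) P₁` with `P₁` isobaric of weight `w - 12`;
* `s16w_deg_contra`: over a domain there are no nonzero isobaric `P_F` (weight `2 m`), `P_E`
  (weight `2 n`) with `P_F ^ n = u P_E ^ m`, `gcd (n, m) = 1`.
-/

set_option autoImplicit false

open Polynomial

noncomputable section

namespace Fermat.Agent.S16

variable {R : Type*} [CommRing R]

/-- `P` is isobaric of weight `w`, where the inner variable has weight `4` and the outer
variable has weight `6`. -/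
def s16w_Iso (w : ℕ) (P : Polynomial (Polynomial R)) : Prop :=
  ∀ b a, (P.coeff b).coeff a ≠ 0 → 4 * a + 6 * b = w

theorem s16w_Iso.zero (w : ℕ) : s16w_Iso w (0 : Polynomial (Polynomial R)) := by
  intro b a h
  simp at h

theorem s16w_Iso.add {w : ℕ} {P P' : Polynomial (Polynomial R)} (h : s16w_Iso w P)
    (h' : s16w_Iso w P') : s16w_Iso w (P + P') := by
  intro b a hne
  rw [coeff_add, coeff_add] at hne
  by_cases h1 : (P.coeff b).coeff a = 0
  · rw [h1, zero_add] at hne
    exact h' b a hne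
  · exact h b a h1

theorem s16w_Iso.neg {w : ℕ} {P : Polynomial (Polynomial R)} (h : s16w_Iso w P) :
    s16w_Iso w (-P) := by
  intro b a hne
  rw [coeff_neg, coeff_neg, neg_ne_zero] at hne
  exact h b a hne

theorem s16w_Iso.sub {w : ℕ} {P P' : Polynomial (Polynomial R)} (h : s16w_Iso w P)
    (h' : s16w_Iso w P') : s16w_Iso w (P - P') := by
  rw [sub_eq_add_neg]
  exact h.add h'.neg

theorem s16w_Iso.mul {w w' : ℕ} {P P' : Polynomial (Polynomial R)} (h : s16w_Iso w P)
    (h' : s16w_Iso w' P') : s16w_Iso (w + w') (P * P') := by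
  intro b a hne
  rw [coeff_mul, finsetSum_coeff] at hne
  obtain ⟨⟨i, j⟩, hij, hne1⟩ := Finset.exists_ne_zero_of_sum_ne_zero hne
  rw [coeff_mul] at hne1
  obtain ⟨⟨s, t⟩, hst, hne2⟩ := Finset.exists_ne_zero_of_sum_ne_zero hne1
  rw [Finset.HasAntidiagonal.mem_antidiagonal] at hij hst
  simp only at hij hst hne2
  have h1 : (P.coeff i).coeff s ≠ 0 := left_ne_zero_of_mul hne2
  have h2 : (P'.coeff j).coeff t ≠ 0 := right_ne_zero_of_mul hne2
  have e1 := h i s h1
  have e2 := h' j t h2
  omega

theorem s16w_Iso.const (c : R) : s16w_Iso 0 (C (C c) : Polynomial (Polynomial R)) := by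
  intro b a hne
  rw [coeff_C] at hne
  split_ifs at hne with hb
  · rw [coeff_C] at hne
    split_ifs at hne with ha
    · omega
    · exact absurd rfl hne
  · simp at hne

theorem s16w_Iso.varQ : s16w_Iso 4 (C X : Polynomial (Polynomial R)) := by
  intro b a hne
  rw [coeff_C] at hne
  split_ifs at hne with hb
  · rw [coeff_X] at hne
    split_ifs at hne with ha
    · omega
    · exact absurd rfl hne
  · simp at hne

theorem s16w_Iso.varR : s16w_Iso 6 (X : Polynomial (Polynomial R)) := by
  intro b a hne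
  rw [coeff_X] at hne
  split_ifs at hne with hb
  · rw [coeff_one] at hne
    split_ifs at hne with ha
    · omega
    · exact absurd rfl hne
  · simp at hne

theorem s16w_Iso.cast {w w' : ℕ} {P : Polynomial (Polynomial R)} (h : s16w_Iso w P)
    (e : w = w') : s16w_Iso w' P := e ▸ h

theorem s16w_Iso.pow {w : ℕ} {P : Polynomial (Polynomial R)} (h : s16w_Iso w P) (n : ℕ) :
    s16w_Iso (w * n) (P ^ n) := by
  induction n with
  | zero =>
    rw [pow_zero, mul_zero]
    have := s16w_Iso.const (1 : R)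
    rwa [C_1, C_1] at this
  | succ n ih =>
    rw [pow_succ]
    exact (ih.mul h).cast (by ring)

/-- The monomial `c Q^a R^b` is isobaric of weight `4 a + 6 b`. -/
theorem s16w_Iso.monomial (c : R) (a b : ℕ) :
    s16w_Iso (4 * a + 6 * b) (C (C c) * (C X) ^ a * X ^ b : Polynomial (Polynomial R)) :=
  (((s16w_Iso.const c).mul (s16w_Iso.varQ.pow a)).mul (s16w_Iso.varR.pow b)).cast (by ring)

/-- `Q^3 - R^2` is isobaric of weight `12`. -/
theorem s16w_Iso.disc : s16w_Iso 12 ((C X) ^ 3 - X ^ 2 : Polynomial (Polynomial R)) :=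
  ((s16w_Iso.varQ.pow 3).cast (by norm_num)).sub ((s16w_Iso.varR.pow 2).cast (by norm_num))

theorem s16w_Iso.map {S : Type*} [CommRing S] (φ : R →+* S) {w : ℕ}
    {P : Polynomial (Polynomial R)} (h : s16w_Iso w P) :
    s16w_Iso w (P.map (Polynomial.mapRingHom φ)) := by
  intro b a hne
  rw [coeff_map, Polynomial.coe_mapRingHom, coeff_map] at hne
  refine h b a fun h0 => hne ?_
  rw [h0, map_zero]

/-- For a nonzero isobaric polynomial, the `R`-degree `d` and the `Q`-order `t` of the top
coefficient satisfy `4 t + 6 d = w`. -/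
theorem s16w_Iso.weight_eq {w : ℕ} {P : Polynomial (Polynomial R)} (h : s16w_Iso w P)
    (hP : P ≠ 0) : 4 * P.leadingCoeff.natTrailingDegree + 6 * P.natDegree = w := by
  have hL : P.leadingCoeff ≠ 0 := leadingCoeff_ne_zero.mpr hP
  have hT : P.leadingCoeff.trailingCoeff ≠ 0 := trailingCoeff_nonzero_iff_nonzero.mpr hL
  exact h _ _ hT

/-- An isobaric polynomial of weight not of the form `4 a + 6 b` vanishes. -/
theorem s16w_Iso.eq_zero_of_forall_ne {w : ℕ} {P : Polynomial (Polynomial R)} (h : s16w_Iso w P)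
    (hw : ∀ a b : ℕ, 4 * a + 6 * b ≠ w) : P = 0 := by
  by_contra hP
  exact hw _ _ (h.weight_eq hP)

/-- The shifted isobaric condition: every monomial `Q^a R^b` of `P` has
`4 a + 6 b + 12 = w`. -/
def s16w_IsoS (w : ℕ) (P : Polynomial (Polynomial R)) : Prop :=
  ∀ b a, (P.coeff b).coeff a ≠ 0 → 4 * a + 6 * b + 12 = w

theorem s16w_IsoS.zero (w : ℕ) : s16w_IsoS w (0 : Polynomial (Polynomial R)) := by
  intro b a h
  simp at h

theorem s16w_IsoS.sub {w : ℕ} {P P' : Polynomial (Polynomial R)} (h : s16w_IsoS w P)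
    (h' : s16w_IsoS w P') : s16w_IsoS w (P - P') := by
  intro b a hne
  rw [coeff_sub, coeff_sub] at hne
  by_cases h1 : (P.coeff b).coeff a = 0
  · rw [h1, zero_sub, neg_ne_zero] at hne
    exact h' b a hne
  · exact h b a h1

theorem s16w_IsoS.iso {w : ℕ} {P : Polynomial (Polynomial R)} (h : s16w_IsoS w P) :
    s16w_Iso (w - 12) P := by
  intro b a hne
  have := h b a hne
  omega

theorem s16w_Iso.isoS {w : ℕ} {P : Polynomial (Polynomial R)} (h : s16w_Iso w P) :
    s16w_IsoS (w + 12) P := by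
  intro b a hne
  have := h b a hne
  omega

theorem s16w_IsoS.eq_zero_of_lt {w : ℕ} {P : Polynomial (Polynomial R)} (h : s16w_IsoS w P)
    (hw : w < 12) : P = 0 := by
  by_contra hP
  have hL : P.leadingCoeff ≠ 0 := leadingCoeff_ne_zero.mpr hP
  have hT : P.leadingCoeff.trailingCoeff ≠ 0 := trailingCoeff_nonzero_iff_nonzero.mpr hL
  have := h _ _ hT
  omega

theorem s16w_IsoS.disc_mul {w : ℕ} {P : Polynomial (Polynomial R)} (h : s16w_IsoS w P) :
    s16w_Iso w (((C X) ^ 3 - X ^ 2) * P) := by
  by_cases hw : w < 12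
  · rw [h.eq_zero_of_lt hw, mul_zero]
    exact s16w_Iso.zero w
  · exact (s16w_Iso.disc.mul h.iso).cast (by omega)

/-- `C L * R^b` is (shifted) isobaric if the support of `L` is. -/
theorem s16w_IsoS.C_mul_X_pow {w : ℕ} (L : Polynomial R) (b : ℕ)
    (hL : ∀ a, L.coeff a ≠ 0 → 4 * a + 6 * b + 12 = w) :
    s16w_IsoS w (C L * X ^ b : Polynomial (Polynomial R)) := by
  intro b' a hne
  rw [coeff_C_mul_X_pow] at hne
  split_ifs at hne with hb
  · subst hb
    exact hL a hne
  · simp at hne

/-- A polynomial supported in one degree is a monomial. -/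
theorem s16w_eq_monomial_of_support (p : Polynomial R) (a₀ : ℕ)
    (h : ∀ a, p.coeff a ≠ 0 → a = a₀) : p = C (p.coeff a₀) * X ^ a₀ := by
  ext a
  rw [coeff_C_mul_X_pow]
  split_ifs with ha
  · rw [ha]
  · by_contra hne
    exact ha (h a hne)

theorem s16w_eq_zero_of_support (p : Polynomial R) (h : ∀ a, p.coeff a = 0) : p = 0 := by
  ext a
  rw [h a, coeff_zero]

/-- **Decomposition.**  An isobaric polynomial of weight `w` is `c Q^a R^b` plus `Q^3 - R^2`
times a (shifted) isobaric polynomial. -/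
theorem s16w_Iso.decomp_aux : ∀ (d : ℕ) (w : ℕ) (P : Polynomial (Polynomial R)),
    P.natDegree ≤ d → s16w_Iso w P →
    ∃ (c : R) (a b : ℕ) (P₁ : Polynomial (Polynomial R)), s16w_IsoS w P₁ ∧
      P = C (C c) * (C X) ^ a * X ^ b + ((C X) ^ 3 - X ^ 2) * P₁ := by
  intro d
  induction d with
  | zero =>
    intro w P hd hP
    -- `P = C p₀`
    have hPC : P = C (P.coeff 0) := eq_C_of_natDegree_le_zero hd
    by_cases h4 : 4 ∣ w
    · obtain ⟨a₀, ha₀⟩ := h4
      refine ⟨(P.coeff 0).coeff a₀, a₀, 0, 0, s16w_IsoS.zero w, ?_⟩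
      rw [mul_zero, add_zero, pow_zero, mul_one, ← C_pow, ← C_mul]
      have : P.coeff 0 = C ((P.coeff 0).coeff a₀) * X ^ a₀ :=
        s16w_eq_monomial_of_support _ _ fun a ha => by
          have := hP 0 a ha
          omega
      rw [← this]
      exact hPC
    · refine ⟨0, 0, 0, 0, s16w_IsoS.zero w, ?_⟩
      rw [mul_zero, add_zero, C_0, C_0, zero_mul, zero_mul]
      have : P.coeff 0 = 0 := s16w_eq_zero_of_support _ fun a => by
        by_contra hne
        have := hP 0 a hne
        exact h4 ⟨a, by omega⟩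
      rw [hPC, this, C_0]
  | succ d ih =>
    intro w P hd hP
    by_cases hd' : P.natDegree ≤ d
    · exact ih w P hd' hP
    have hD : P.natDegree = d + 1 := by omega
    rcases Nat.eq_zero_or_pos d with hd0 | hdpos
    · -- `P` has degree one: `P = C p₁ * R + C p₀`
      subst hd0
      have hP1 : P = C (P.coeff 1) * X + C (P.coeff 0) := eq_X_add_C_of_natDegree_le_one hd
      have hc1 : P.coeff 1 ≠ 0 := by
        have := leadingCoeff_ne_zero.mpr (fun h0 : P = 0 => by rw [h0] at hD; simp at hD)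
        rwa [leadingCoeff, hD] at this
      have hT : (P.coeff 1).trailingCoeff ≠ 0 := trailingCoeff_nonzero_iff_nonzero.mpr hc1
      have hw1 := hP 1 _ hT
      set a₀ := (P.coeff 1).natTrailingDegree with ha₀
      have h0 : P.coeff 0 = 0 := s16w_eq_zero_of_support _ fun a => by
        by_contra hne
        have := hP 0 a hne
        omega
      have h1 : P.coeff 1 = C ((P.coeff 1).coeff a₀) * X ^ a₀ :=
        s16w_eq_monomial_of_support _ _ fun a ha => by
          have := hP 1 a ha
          omega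
      refine ⟨(P.coeff 1).coeff a₀, a₀, 1, 0, s16w_IsoS.zero w, ?_⟩
      rw [mul_zero, add_zero, pow_one, ← C_pow, ← C_mul, ← h1]
      rw [h0, C_0, add_zero] at hP1
      exact hP1
    · -- degree `D = d + 1 ≥ 2`: peel off the leading term
      set L : Polynomial R := P.coeff (d + 1) with hL
      have hLS : s16w_IsoS w (C L * X ^ (d - 1) : Polynomial (Polynomial R)) :=
        s16w_IsoS.C_mul_X_pow L (d - 1) fun a ha => by
          have := hP (d + 1) a ha
          omega
      set P' : Polynomial (Polynomial R) := P + ((C X) ^ 3 - X ^ 2) * (C L * X ^ (d - 1)) with hP'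
      have hP'iso : s16w_Iso w P' := hP.add hLS.disc_mul
      have hP'deg : P'.natDegree ≤ d := by
        rw [natDegree_le_iff_coeff_eq_zero]
        intro N hN
        have e1 : ((C X) ^ 3 - X ^ 2) * (C L * X ^ (d - 1)) =
            C (X ^ 3 * L) * X ^ (d - 1) - C L * X ^ (d + 1) := by
          have : d + 1 = 2 + (d - 1) := by omega
          rw [this, pow_add, C_mul, C_pow]
          ring
        rw [hP', coeff_add, e1, coeff_sub, coeff_C_mul_X_pow, coeff_C_mul_X_pow]
        have hN1 : N ≠ d - 1 := by omega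
        rw [if_neg hN1]
        by_cases hN2 : N = d + 1
        · rw [if_pos hN2, hN2, hL]
          ring
        · rw [if_neg hN2, sub_zero, add_zero]
          exact coeff_eq_zero_of_natDegree_lt (by omega)
      obtain ⟨c, a, b, P₁, hP₁, hdec⟩ := ih w P' hP'deg hP'iso
      refine ⟨c, a, b, P₁ - C L * X ^ (d - 1), hP₁.sub hLS, ?_⟩
      rw [mul_sub, ← add_sub_assoc, ← hdec, hP']
      ring

theorem s16w_Iso.decomp {w : ℕ} {P : Polynomial (Polynomial R)} (hP : s16w_Iso w P) :
    ∃ (c : R) (a b : ℕ) (P₁ : Polynomial (Polynomial R)), s16w_IsoS w P₁ ∧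
      P = C (C c) * (C X) ^ a * X ^ b + ((C X) ^ 3 - X ^ 2) * P₁ :=
  s16w_Iso.decomp_aux P.natDegree w P le_rfl hP

theorem s16w_natTrailingDegree_pow {κ : Type*} [CommRing κ] [IsDomain κ] (p : Polynomial κ)
    (hp : p ≠ 0) (n : ℕ) : (p ^ n).natTrailingDegree = n * p.natTrailingDegree := by
  induction n with
  | zero => simp
  | succ n ih =>
    rw [pow_succ, natTrailingDegree_mul (pow_ne_zero n hp) hp, ih]
    ring

/-- **The degree argument.**  Over a domain, there are no nonzero isobaric polynomials `P_F`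
of weight `2 m` and `P_E` of weight `2 n` with `P_F ^ n = u * P_E ^ m`, `u ≠ 0`, if
`gcd (n, m) = 1`. -/
theorem s16w_deg_contra {κ : Type*} [CommRing κ] [IsDomain κ] (m n : ℕ) (hm : 0 < m)
    (hn : 0 < n) (hmn : Nat.Coprime n m) (PF PE : Polynomial (Polynomial κ))
    (hF : s16w_Iso (2 * m) PF) (hE : s16w_Iso (2 * n) PE) (u : κ) (hu : u ≠ 0) (hPE : PE ≠ 0)
    (h : PF ^ n = C (C u) * PE ^ m) : False := by
  have hCu : (C (C u) : Polynomial (Polynomial κ)) ≠ 0 := by
    rw [Ne, C_eq_zero, C_eq_zero]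
    exact hu
  have hPF : PF ≠ 0 := by
    intro h0
    rw [h0, zero_pow hn.ne'] at h
    exact mul_ne_zero hCu (pow_ne_zero m hPE) h.symm
  have hwF := hF.weight_eq hPF
  have hwE := hE.weight_eq hPE
  -- degrees in `R`
  have hdeg : n * PF.natDegree = m * PE.natDegree := by
    have := congrArg natDegree h
    rwa [natDegree_pow, natDegree_C_mul (by rw [Ne, C_eq_zero]; exact hu), natDegree_pow] at this
  -- leading coefficients
  have hlc : PF.leadingCoeff ^ n = C u * PE.leadingCoeff ^ m := by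
    have := congrArg leadingCoeff h
    rwa [leadingCoeff_pow, leadingCoeff_mul, leadingCoeff_C, leadingCoeff_pow] at this
  have hLF : PF.leadingCoeff ≠ 0 := leadingCoeff_ne_zero.mpr hPF
  have hLE : PE.leadingCoeff ≠ 0 := leadingCoeff_ne_zero.mpr hPE
  have hord : n * PF.leadingCoeff.natTrailingDegree = m * PE.leadingCoeff.natTrailingDegree := by
    have := congrArg natTrailingDegree hlc
    rwa [s16w_natTrailingDegree_pow _ hLF, natTrailingDegree_mul (by rw [Ne, C_eq_zero]; exact hu)
      (pow_ne_zero m hLE), natTrailingDegree_C, zero_add, s16w_natTrailingDegree_pow _ hLE] at this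
  have h1 : m ∣ PF.natDegree :=
    (Nat.Coprime.symm hmn).dvd_of_dvd_mul_left ⟨PE.natDegree, hdeg⟩
  have h2 : m ∣ PF.leadingCoeff.natTrailingDegree :=
    (Nat.Coprime.symm hmn).dvd_of_dvd_mul_left ⟨_, hord⟩
  obtain ⟨s, hs⟩ := h1
  obtain ⟨t, ht⟩ := h2
  rw [hs, ht] at hwF
  have h3 : m * (4 * t + 6 * s) = m * 2 := by
    linarith
  have h4 := Nat.eq_of_mul_eq_mul_left hm h3
  omega

/-- **The degree argument, general form.**  Over a domain, if `P_E ≠ 0` is isobaric of weight
`2 n` and `gcd (n, m) = 1`, there are no `P_f ≠ 0`, `P_g` with `P_g ^ n = P_f ^ n * P_E ^ m`. -/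
theorem s16w_deg_contra_gen {κ : Type*} [CommRing κ] [IsDomain κ] (m n : ℕ) (hn : 0 < n)
    (hmn : Nat.Coprime n m) (Pf Pg PE : Polynomial (Polynomial κ))
    (hE : s16w_Iso (2 * n) PE) (hPf : Pf ≠ 0) (hPE : PE ≠ 0)
    (h : Pg ^ n = Pf ^ n * PE ^ m) : False := by
  have hPg : Pg ≠ 0 := by
    intro h0
    rw [h0, zero_pow hn.ne'] at h
    exact mul_ne_zero (pow_ne_zero n hPf) (pow_ne_zero m hPE) h.symm
  have hwE := hE.weight_eq hPE
  have hdeg : n * Pg.natDegree = n * Pf.natDegree + m * PE.natDegree := by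
    have := congrArg natDegree h
    rwa [natDegree_pow, natDegree_mul (pow_ne_zero n hPf) (pow_ne_zero m hPE), natDegree_pow,
      natDegree_pow] at this
  have hlc : Pg.leadingCoeff ^ n = Pf.leadingCoeff ^ n * PE.leadingCoeff ^ m := by
    have := congrArg leadingCoeff h
    rwa [leadingCoeff_pow, leadingCoeff_mul, leadingCoeff_pow, leadingCoeff_pow] at this
  have hLf : Pf.leadingCoeff ≠ 0 := leadingCoeff_ne_zero.mpr hPf
  have hLg : Pg.leadingCoeff ≠ 0 := leadingCoeff_ne_zero.mpr hPg
  have hLE : PE.leadingCoeff ≠ 0 := leadingCoeff_ne_zero.mpr hPE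
  have hord : n * Pg.leadingCoeff.natTrailingDegree =
      n * Pf.leadingCoeff.natTrailingDegree + m * PE.leadingCoeff.natTrailingDegree := by
    have := congrArg natTrailingDegree hlc
    rwa [s16w_natTrailingDegree_pow _ hLg, natTrailingDegree_mul (pow_ne_zero n hLf)
      (pow_ne_zero m hLE), s16w_natTrailingDegree_pow _ hLf,
      s16w_natTrailingDegree_pow _ hLE] at this
  have h1 : n ∣ PE.natDegree := by
    refine hmn.dvd_of_dvd_mul_left ?_
    have : n ∣ n * Pf.natDegree + m * PE.natDegree := ⟨Pg.natDegree, hdeg.symm⟩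
    exact (Nat.dvd_add_right (dvd_mul_right n _)).mp this
  have h2 : n ∣ PE.leadingCoeff.natTrailingDegree := by
    refine hmn.dvd_of_dvd_mul_left ?_
    have : n ∣ n * Pf.leadingCoeff.natTrailingDegree + m * PE.leadingCoeff.natTrailingDegree :=
      ⟨_, hord.symm⟩
    exact (Nat.dvd_add_right (dvd_mul_right n _)).mp this
  obtain ⟨s, hs⟩ := h1
  obtain ⟨t, ht⟩ := h2
  rw [hs, ht] at hwE
  have h3 : n * (4 * t + 6 * s) = n * 2 := by
    linarith
  have h4 := Nat.eq_of_mul_eq_mul_left hn h3
  omega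

end Fermat.Agent.S16
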