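import Fermat.Agent.S16.SwdRat
import Fermat.Agent.S16.LPBridge
import Fermat.Prelude.Def_ModularForm_HeckeOperatorForms
import Fermat.Prelude.Thm_UpperHalfPlane_qCoeff_heckeT

/-!
# S16, (C2), package [L5]: no `H ≡ 1 mod ℓ` for `ℓ ≥ 5`, `ℓ ∣ p + 1`

Let `p ≥ 5` and `ℓ ≥ 5` be primes, `ℓ ≠ p`, `ℓ ∣ p + 1`.  There is no modular form `H` of weight
`2` and level `Γ₀(p)` with `ℓ`-integral `q`-expansion in `1 + ℓ q ℤ_(ℓ)[[q]]`.

Proof.  Let `h = (1728 Δ) ^ p` (level one, weight `12 p`).  By (TR2) the series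
`H V h - p^(-12p) U (h U H)` is the expansion of a level-one form of weight `12 p + 2`, and
`T_p h = U h + p^(12p - 1) V h` is a level-one form of weight `12 p`.  Modulo `ℓ` we have
`H ≡ 1`, hence `T_p h + p^(12p) (H V h - p^(-12p) U (h U H)) ≡ p^(12p-1) (p + 1) V h ≡ 0`.
By the level-one weight obstruction `s16w_cong_rat` (weights `12 p` and `12 p + 2`),
`T_p h ≡ 0 mod ℓ`.  But its coefficient of `q` is `a_p(h) = 1728 ^ p`, an `ℓ`-unit.
-/

set_option autoImplicit false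

open UpperHalfPlane ModularForm EisensteinSeries ModularFormClass CongruenceSubgroup
open scoped MatrixGroups

noncomputable section

namespace Fermat.Agent.S16

open Fermat.Agent.S22 Fermat.Agent.S28

theorem s16w_G0_one : G0 1 = G1 := by
  have h : Gamma0 1 = ⊤ := by
    ext g
    simp [Gamma0_mem, Subsingleton.elim (_ : ZMod 1) 0]
  show ((Gamma0 1 : Subgroup SL(2, ℤ)) : Subgroup (GL (Fin 2) ℝ)) = _
  rw [h]
  exact Subgroup.map_eq_range_iff.mpr fun ⦃x⦄ a a_1 => a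

theorem s16w_isMF_of_G0_one {k : ℤ} {f : ℍ → ℂ} (h : IsMF (G0 1) k f) : IsMF G1 k f := by
  rw [s16w_G0_one] at h
  exact h

/-- The Hecke operator `T_p` preserves level-one modular forms. -/
theorem s16w_heckeT_isMF (p : ℕ) (hp : p.Prime) (k : ℤ) (h : ℍ → ℂ) (hh : IsMF G1 k h) :
    IsMF G1 k (ModularForm.heckeT k p h) := by
  obtain ⟨F, rfl⟩ := hh.restrict_G0 1
  have hp1 : ¬ p ∣ 1 := fun h1 => hp.one_lt.ne' (Nat.dvd_one.mp h1)
  have h1 : IsMF (G0 1) k (ModularForm.heckeT k p ⇑F) :=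
    ⟨ModularForm.heckeTLin k hp hp1 F, rfl⟩
  exact s16w_isMF_of_G0_one h1

/-- The `q`-expansion of `T_p h`. -/
theorem s16w_heckeT_qExp {p : ℕ} (hp : p ≠ 0) (k : ℤ) {h : ℍ → ℂ} (hh : IsNice h) :
    qExpansion 1 (ModularForm.heckeT k p h) =
      tr16_U p (qExpansion 1 h) + ((p : ℂ) ^ (k - 1)) • tr16_V p (qExpansion 1 h) := by
  ext n
  have h2 := UpperHalfPlane.qCoeff_heckeT hh.per hh.holo hh.bdd k hp n
  simp only [ModularFormClass.qCoeff, ModularForm.coeffHeckeT] at h2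
  rw [h2, map_add, tr16_U_coeff, PowerSeries.coeff_smul, tr16_V_coeff, mul_comm n p]
  split_ifs <;> simp

theorem s16w_Dfun_qExpansion : qExpansion 1 Dfun = s16w_Qr ℂ ^ 3 - s16w_Rr ℂ ^ 2 := by
  rw [Dfun_eq, (isNice_E4.pow 3).qExpansion_sub (isNice_E6.pow 2), isNice_E4.qExpansion_pow,
    isNice_E6.qExpansion_pow, s16w_Qr_complex, s16w_Rr_complex]

/-- The coefficient of `q ^ p` in `(E₄³ - E₆²) ^ p` is `1728 ^ p`. -/
theorem s16w_disc_pow_coeff (R : Type*) [CommRing R] (p : ℕ) :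
    PowerSeries.coeff p ((s16w_Qr R ^ 3 - s16w_Rr R ^ 2) ^ p) = (1728 : R) ^ p := by
  obtain ⟨v, hv⟩ := (PowerSeries.X_dvd_iff (φ := s16w_Qr R ^ 3 - s16w_Rr R ^ 2)).mpr
    (by rw [← PowerSeries.coeff_zero_eq_constantCoeff_apply]; exact s16w_disc_coeff_zero_r R)
  have hv0 : PowerSeries.constantCoeff v = 1728 := by
    have := s16w_disc_coeff_one_r R
    rw [hv, show (1 : ℕ) = 0 + 1 from rfl, PowerSeries.coeff_succ_X_mul,
      PowerSeries.coeff_zero_eq_constantCoeff_apply] at this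
    exact this
  rw [hv, mul_pow]
  have := PowerSeries.coeff_X_pow_mul (v ^ p) p 0
  rw [zero_add] at this
  rw [this, PowerSeries.coeff_zero_eq_constantCoeff_apply, map_pow, hv0]

/-- **(C2) at `ℓ ≥ 5`, `ℓ ∣ p + 1`, from (TR2).** -/
theorem s16w_noH_five_of (p ℓ : ℕ) (hp : p.Prime) (hℓ : ℓ.Prime) (h5 : 5 ≤ ℓ)
    (hd : ℓ ∣ p + 1) (hTR2 : s16lp_TR2At p) : s16g_NoH p ℓ 1 := by
  intro H hH a ha ha0 ha1
  have hFact : Fact ℓ.Prime := ⟨hℓ⟩
  have hp0 : p ≠ 0 := hp.ne_zero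
  have hqH : qExpansion 1 H = a.map (s16w_iotaC ℓ) := s16w_qExp_eq_map ℓ H a ha
  -- `a = 1 + ℓ a'`
  obtain ⟨a', ha'⟩ : ∃ a' : PowerSeries ↥(GaloisRep.ratLocalizedAt ℓ),
      a = 1 + PowerSeries.C (ℓ : ↥(GaloisRep.ratLocalizedAt ℓ)) * a' := by
    classical
    have ha1' : ∀ n, 1 ≤ n → ∃ r : ↥(GaloisRep.ratLocalizedAt ℓ),
        PowerSeries.coeff n a = (ℓ : ↥(GaloisRep.ratLocalizedAt ℓ)) * r := by
      intro n hn
      obtain ⟨r, hr⟩ := ha1 n hn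
      exact ⟨r, by rw [hr, pow_one]⟩
    refine ⟨PowerSeries.mk fun n => if h : 1 ≤ n then Classical.choose (ha1' n h) else 0, ?_⟩
    refine PowerSeries.ext fun n => ?_
    rw [map_add, PowerSeries.coeff_C_mul, PowerSeries.coeff_mk, PowerSeries.coeff_one]
    by_cases hn : 1 ≤ n
    · rw [dif_pos hn, if_neg (by omega), zero_add]
      exact Classical.choose_spec (ha1' n hn)
    · have hn0 : n = 0 := by omega
      rw [dif_neg hn, if_pos hn0, mul_zero, add_zero, hn0, ha0]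
  -- the level-one form `h = (1728 Δ) ^ p`
  have hh : IsMF G1 ((12 * p : ℕ) : ℤ) (Dfun ^ p) :=
    (isMF_Dfun.pow p).cast (by push_cast; ring)
  have hhN : IsNice (Dfun ^ p) := isNice_Dfun.pow p
  have hqh : qExpansion 1 (Dfun ^ p) =
      ((s16w_Qr ↥(GaloisRep.ratLocalizedAt ℓ) ^ 3 - s16w_Rr ↥(GaloisRep.ratLocalizedAt ℓ) ^ 2)
        ^ p).map (s16w_iotaC ℓ) := by
    rw [isNice_Dfun.qExpansion_pow, s16w_Dfun_qExpansion, map_pow, map_sub, map_pow, map_pow,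
      s16w_Qr_map, s16w_Rr_map]
  generalize hsh : (s16w_Qr ↥(GaloisRep.ratLocalizedAt ℓ) ^ 3 -
    s16w_Rr ↥(GaloisRep.ratLocalizedAt ℓ) ^ 2) ^ p = sh at hqh
  have hshp : PowerSeries.coeff p sh = (1728 : ↥(GaloisRep.ratLocalizedAt ℓ)) ^ p := by
    rw [← hsh]
    exact s16w_disc_pow_coeff _ p
  -- (TR2) and (TR3)
  obtain ⟨F₂, hF₂, hqF₂⟩ := hTR2 H hH ((12 * p : ℕ) : ℤ) (Dfun ^ p) hh
  have hF₃ := s16w_heckeT_isMF p hp ((12 * p : ℕ) : ℤ) (Dfun ^ p) hh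
  have hqF₃ := s16w_heckeT_qExp hp0 ((12 * p : ℕ) : ℤ) hhN
  -- the two series over `ℤ_(ℓ)`
  have hpC : (p : ℂ) ≠ 0 := by exact_mod_cast hp0
  have hι_nat : ∀ m : ℕ, s16w_iotaC ℓ (m : ↥(GaloisRep.ratLocalizedAt ℓ)) = (m : ℂ) :=
    fun m => map_natCast _ m
  have hq3 : qExpansion 1 (ModularForm.heckeT ((12 * p : ℕ) : ℤ) p (Dfun ^ p)) =
      (tr16_U p sh + PowerSeries.C ((p : ↥(GaloisRep.ratLocalizedAt ℓ)) ^ (12 * p - 1)) *
        tr16_V p sh).map (s16w_iotaC ℓ) := by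
    rw [hqF₃, hqh, map_add, map_mul, PowerSeries.map_C, map_pow, hι_nat, tr16_U_map,
      tr16_V_map, PowerSeries.smul_eq_C_mul]
    congr 3
    have hp1 : 1 ≤ 12 * p := by have := hp.pos; omega
    rw [show (((12 * p : ℕ) : ℤ) - 1) = ((12 * p - 1 : ℕ) : ℤ) by omega, zpow_natCast]
  have hg : IsMF G1 ((12 * p + 2 : ℕ) : ℤ) ((-((p : ℂ) ^ (12 * p))) • F₂) :=
    (IsMF.smul _ hF₂).cast (by push_cast; ring)
  have hqg : qExpansion 1 ((-((p : ℂ) ^ (12 * p))) • F₂) =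
      (-(PowerSeries.C ((p : ↥(GaloisRep.ratLocalizedAt ℓ)) ^ (12 * p)) * (a * tr16_V p sh) -
        tr16_U p (sh * tr16_U p a))).map (s16w_iotaC ℓ) := by
    rw [hF₂.isNice_G1.qExpansion_smul, hqF₂, hqH, hqh, map_neg, map_sub, map_mul, map_mul,
      PowerSeries.map_C, map_pow, hι_nat, ← tr16_U_map, ← tr16_V_map, map_mul, ← tr16_U_map,
      PowerSeries.smul_eq_C_mul, PowerSeries.smul_eq_C_mul, map_neg]
    have hCC : PowerSeries.C ((p : ℂ) ^ (12 * p)) *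
        PowerSeries.C ((p : ℂ) ^ (-((12 * p : ℕ) : ℤ))) = 1 := by
      rw [← map_mul, zpow_neg, zpow_natCast, mul_inv_cancel₀ (pow_ne_zero _ hpC), map_one]
    linear_combination (tr16_U p (PowerSeries.map (s16w_iotaC ℓ) sh *
      tr16_U p (PowerSeries.map (s16w_iotaC ℓ) a))) * hCC
  -- the congruence
  obtain ⟨c, hc⟩ := hd
  have hP : PowerSeries.C ((p : ↥(GaloisRep.ratLocalizedAt ℓ)) ^ (12 * p - 1)) +
      PowerSeries.C ((p : ↥(GaloisRep.ratLocalizedAt ℓ)) ^ (12 * p)) =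
      PowerSeries.C (ℓ : ↥(GaloisRep.ratLocalizedAt ℓ)) *
        PowerSeries.C ((p : ↥(GaloisRep.ratLocalizedAt ℓ)) ^ (12 * p - 1) * c) := by
    rw [← map_add, ← map_mul]
    congr 1
    obtain ⟨m, hm⟩ : ∃ m, 12 * p = m + 1 := ⟨12 * p - 1, by have := hp.pos; omega⟩
    rw [hm, Nat.add_sub_cancel]
    have hc' : ((p : ↥(GaloisRep.ratLocalizedAt ℓ)) + 1) =
        (ℓ : ↥(GaloisRep.ratLocalizedAt ℓ)) * c := by
      have h0 : ((p + 1 : ℕ) : ↥(GaloisRep.ratLocalizedAt ℓ)) =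
          ((ℓ * c : ℕ) : ↥(GaloisRep.ratLocalizedAt ℓ)) := congrArg _ hc
      push_cast at h0
      exact h0
    rw [pow_succ]
    linear_combination ((p : ↥(GaloisRep.ratLocalizedAt ℓ)) ^ m) * hc'
  have hUa : tr16_U p a = 1 + PowerSeries.C (ℓ : ↥(GaloisRep.ratLocalizedAt ℓ)) * tr16_U p a' := by
    rw [ha', tr16_U_add, tr16_U_one hp0, tr16_U_C_mul]
  have e1 : tr16_U p (sh * tr16_U p a) =
      tr16_U p sh + PowerSeries.C (ℓ : ↥(GaloisRep.ratLocalizedAt ℓ)) *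
        tr16_U p (sh * tr16_U p a') := by
    rw [hUa, mul_add, mul_one, tr16_U_add, mul_left_comm, tr16_U_C_mul]
  have hW : (tr16_U p sh + PowerSeries.C ((p : ↥(GaloisRep.ratLocalizedAt ℓ)) ^ (12 * p - 1)) *
        tr16_V p sh) -
      (-(PowerSeries.C ((p : ↥(GaloisRep.ratLocalizedAt ℓ)) ^ (12 * p)) * (a * tr16_V p sh) -
        tr16_U p (sh * tr16_U p a))) =
      PowerSeries.C (ℓ : ↥(GaloisRep.ratLocalizedAt ℓ)) *
        (PowerSeries.C ((p : ↥(GaloisRep.ratLocalizedAt ℓ)) ^ (12 * p - 1) * c) * tr16_V p sh +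
          PowerSeries.C ((p : ↥(GaloisRep.ratLocalizedAt ℓ)) ^ (12 * p)) * (a' * tr16_V p sh) -
          tr16_U p (sh * tr16_U p a')) := by
    rw [e1, ha']
    linear_combination (tr16_V p sh) * hP
  have hl2 : Nat.gcd (12 * p + 2 - 12 * p) (ℓ - 1) = 2 := by
    rw [Nat.add_sub_cancel_left]
    obtain ⟨r, hr⟩ := hℓ.even_sub_one (by omega)
    exact Nat.gcd_eq_left ⟨r, by omega⟩
  have hres := s16w_cong_rat ℓ hℓ h5 (12 * p) (12 * p + 2) (by omega) hl2 _ _ hF₃ hg _ _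
    (fun n => by rw [hq3, PowerSeries.coeff_map]; rfl)
    (fun n => by rw [hqg, PowerSeries.coeff_map]; rfl)
    (fun n => ⟨_, by rw [← map_sub, hW, PowerSeries.coeff_C_mul]⟩)
  -- the coefficient of `q`
  obtain ⟨r, hr⟩ := hres 1
  have hp1 : ¬ p ∣ 1 := fun h1 => hp.one_lt.ne' (Nat.dvd_one.mp h1)
  rw [map_add, tr16_U_coeff, mul_one, PowerSeries.coeff_C_mul, tr16_V_coeff_of_not_dvd hp1,
    mul_zero, add_zero, hshp] at hr
  have hred := congrArg (redO_res ℓ) hr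
  rw [map_pow, map_ofNat, map_mul, redO_res_natCast_self, zero_mul] at hred
  exact pow_ne_zero p (s16w_1728_ne_zero ℓ hℓ h5 (ZMod ℓ)) hred

end Fermat.Agent.S16
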