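import Fermat.Agent.S16.SwdEv
import Fermat.Agent.S22.LevelOne

/-!
# S16, (C2), package [SWD], part 3: level-one forms are isobaric polynomials in `E₄`, `E₆`

For a ring `A ↪ ℂ` in which `1728` is invertible, every level-one modular form of weight `k`
whose `q`-expansion has coefficients in `A` is `P(E₄, E₆)` for an isobaric polynomial `P` of
weight `k` with coefficients in `A` (on the level of `q`-expansions).
-/

set_option autoImplicit false

open UpperHalfPlane ModularForm EisensteinSeries Polynomial ModularFormClass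
open scoped MatrixGroups

noncomputable section

namespace Fermat.Agent.S16

open Fermat.Agent.S22

/-- The integral `q`-expansion of `E₄`. -/
def s16w_Q : PowerSeries ℤ := PowerSeries.mk fun n => (isIntQ_E4 n).choose

/-- The integral `q`-expansion of `E₆`. -/
def s16w_R : PowerSeries ℤ := PowerSeries.mk fun n => (isIntQ_E6 n).choose

theorem s16w_Q_map : s16w_Q.map (Int.castRingHom ℂ) = qExpansion 1 (E₄ : ℍ → ℂ) := by
  ext n
  rw [PowerSeries.coeff_map, s16w_Q, PowerSeries.coeff_mk, eq_intCast]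
  exact ((isIntQ_E4 n).choose_spec).symm

theorem s16w_R_map : s16w_R.map (Int.castRingHom ℂ) = qExpansion 1 (E₆ : ℍ → ℂ) := by
  ext n
  rw [PowerSeries.coeff_map, s16w_R, PowerSeries.coeff_mk, eq_intCast]
  exact ((isIntQ_E6 n).choose_spec).symm

/-- The `q`-expansion of `E₄` over an arbitrary commutative ring. -/
def s16w_Qr (R : Type*) [CommRing R] : PowerSeries R := s16w_Q.map (Int.castRingHom R)

/-- The `q`-expansion of `E₆` over an arbitrary commutative ring. -/
def s16w_Rr (R : Type*) [CommRing R] : PowerSeries R := s16w_R.map (Int.castRingHom R)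

theorem s16w_Qr_map {R S : Type*} [CommRing R] [CommRing S] (φ : R →+* S) :
    (s16w_Qr R).map φ = s16w_Qr S := by
  unfold s16w_Qr
  have h : (PowerSeries.map φ).comp (PowerSeries.map (Int.castRingHom R)) =
      PowerSeries.map (Int.castRingHom S) := by
    rw [← PowerSeries.map_comp]
    congr 1
    exact RingHom.ext_int _ _
  exact RingHom.congr_fun h s16w_Q

theorem s16w_Rr_map {R S : Type*} [CommRing R] [CommRing S] (φ : R →+* S) :
    (s16w_Rr R).map φ = s16w_Rr S := by
  unfold s16w_Rr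
  have h : (PowerSeries.map φ).comp (PowerSeries.map (Int.castRingHom R)) =
      PowerSeries.map (Int.castRingHom S) := by
    rw [← PowerSeries.map_comp]
    congr 1
    exact RingHom.ext_int _ _
  exact RingHom.congr_fun h s16w_R

theorem s16w_Qr_complex : s16w_Qr ℂ = qExpansion 1 (E₄ : ℍ → ℂ) := s16w_Q_map

theorem s16w_Rr_complex : s16w_Rr ℂ = qExpansion 1 (E₆ : ℍ → ℂ) := s16w_R_map

theorem s16w_Q_constantCoeff : PowerSeries.constantCoeff s16w_Q = 1 := by
  have h := congrArg (PowerSeries.coeff 0) s16w_Q_map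
  rw [PowerSeries.coeff_map, E_qExpansion_coeff_zero _ ⟨2, rfl⟩, eq_intCast] at h
  rw [← PowerSeries.coeff_zero_eq_constantCoeff_apply]
  exact_mod_cast h

theorem s16w_R_constantCoeff : PowerSeries.constantCoeff s16w_R = 1 := by
  have h := congrArg (PowerSeries.coeff 0) s16w_R_map
  rw [PowerSeries.coeff_map, E_qExpansion_coeff_zero _ ⟨3, rfl⟩, eq_intCast] at h
  rw [← PowerSeries.coeff_zero_eq_constantCoeff_apply]
  exact_mod_cast h

theorem s16w_Qr_constantCoeff (R : Type*) [CommRing R] :
    PowerSeries.constantCoeff (s16w_Qr R) = 1 := by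
  rw [s16w_Qr, ← PowerSeries.coeff_zero_eq_constantCoeff_apply, PowerSeries.coeff_map,
    PowerSeries.coeff_zero_eq_constantCoeff_apply, s16w_Q_constantCoeff, map_one]

theorem s16w_Rr_constantCoeff (R : Type*) [CommRing R] :
    PowerSeries.constantCoeff (s16w_Rr R) = 1 := by
  rw [s16w_Rr, ← PowerSeries.coeff_zero_eq_constantCoeff_apply, PowerSeries.coeff_map,
    PowerSeries.coeff_zero_eq_constantCoeff_apply, s16w_R_constantCoeff, map_one]

/-- `q`-expansion of the discriminant: `1728 Δ = E₄³ - E₆²`. -/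
theorem s16w_disc_qExpansion :
    (1728 : ℂ) • qExpansion 1 ModularForm.discriminant = s16w_Qr ℂ ^ 3 - s16w_Rr ℂ ^ 2 := by
  have h1 : (ModularForm.discriminant : ℍ → ℂ) = (1728 : ℂ)⁻¹ • Dfun := by
    funext z
    rw [Pi.smul_apply, Dfun_eq_discriminant, smul_eq_mul]
    field_simp
  rw [h1, isNice_Dfun.qExpansion_smul, smul_smul, mul_inv_cancel₀ (by norm_num), one_smul,
    Dfun_eq, (isNice_E4.pow 3).qExpansion_sub (isNice_E6.pow 2), isNice_E4.qExpansion_pow,
    isNice_E6.qExpansion_pow, s16w_Qr_complex, s16w_Rr_complex]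

theorem s16w_disc_map (R : Type*) [CommRing R] :
    (s16w_Q ^ 3 - s16w_R ^ 2).map (Int.castRingHom R) = s16w_Qr R ^ 3 - s16w_Rr R ^ 2 := by
  rw [map_sub, map_pow, map_pow]
  rfl

theorem s16w_disc_coeff_zero : PowerSeries.coeff 0 (s16w_Q ^ 3 - s16w_R ^ 2) = 0 := by
  rw [PowerSeries.coeff_zero_eq_constantCoeff_apply, map_sub, map_pow, map_pow,
    s16w_Q_constantCoeff, s16w_R_constantCoeff]
  norm_num

theorem s16w_disc_coeff_one : PowerSeries.coeff 1 (s16w_Q ^ 3 - s16w_R ^ 2) = 1728 := by
  have h := congrArg (PowerSeries.coeff 1) s16w_disc_qExpansion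
  rw [← s16w_disc_map, PowerSeries.coeff_map, PowerSeries.coeff_smul,
    discriminant_qExpansion_coeff_one, eq_intCast, smul_eq_mul, mul_one] at h
  exact_mod_cast h.symm

theorem s16w_disc_coeff_zero_r (R : Type*) [CommRing R] :
    PowerSeries.coeff 0 (s16w_Qr R ^ 3 - s16w_Rr R ^ 2) = 0 := by
  rw [← s16w_disc_map, PowerSeries.coeff_map, s16w_disc_coeff_zero, map_zero]

theorem s16w_disc_coeff_one_r (R : Type*) [CommRing R] :
    PowerSeries.coeff 1 (s16w_Qr R ^ 3 - s16w_Rr R ^ 2) = 1728 := by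
  rw [← s16w_disc_map, PowerSeries.coeff_map, s16w_disc_coeff_one]
  simp

theorem s16w_disc_ne_zero (R : Type*) [CommRing R] (h : (1728 : R) ≠ 0) :
    s16w_Qr R ^ 3 - s16w_Rr R ^ 2 ≠ 0 := by
  intro h0
  have := s16w_disc_coeff_one_r R
  rw [h0, map_zero] at this
  exact h this.symm

/-- The evaluation of isobaric polynomials at the `q`-expansions of `E₄`, `E₆` over `R`. -/
def s16w_evR (R : Type*) [CommRing R] : Polynomial (Polynomial R) →+* PowerSeries R :=
  s16w_ev (s16w_Qr R) (s16w_Rr R)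

theorem s16w_evR_map {R S : Type*} [CommRing R] [CommRing S] (φ : R →+* S)
    (P : Polynomial (Polynomial R)) :
    PowerSeries.map φ (s16w_evR R P) = s16w_evR S (P.map (Polynomial.mapRingHom φ)) := by
  rw [s16w_evR, s16w_ev_map, s16w_Qr_map, s16w_Rr_map]
  rfl

/-- `q`-expansion principle at level one: over a domain in which `1728 ≠ 0`, an isobaric
polynomial vanishing at the `q`-expansions of `E₄`, `E₆` is zero. -/
theorem s16w_evR_injective {κ : Type*} [CommRing κ] [IsDomain κ] (h : (1728 : κ) ≠ 0) (w : ℕ)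
    (P : Polynomial (Polynomial κ)) (hP : s16w_Iso w P) (hev : s16w_evR κ P = 0) : P = 0 :=
  s16w_ev_injective _ _ (s16w_Qr_constantCoeff κ) (s16w_Rr_constantCoeff κ)
    (s16w_disc_ne_zero κ h) w P hP hev

/-- Division by a power series `δ = q (1 + ⋯)` with coefficients in `A` stays inside `A`. -/
theorem s16w_div_mem {A : Type*} [CommRing A] (ι : A →+* ℂ) (hι : Function.Injective ι)
    (δ s' : PowerSeries A) (g : PowerSeries ℂ)
    (h0 : PowerSeries.coeff 0 δ = 0) (h1 : PowerSeries.coeff 1 δ = 1)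
    (h : s'.map ι = δ.map ι * g) :
    ∃ t : PowerSeries A, t.map ι = g := by
  obtain ⟨u, hu⟩ := (PowerSeries.X_dvd_iff (φ := δ)).mpr
    (by rwa [← PowerSeries.coeff_zero_eq_constantCoeff_apply])
  have hu1 : PowerSeries.constantCoeff u = 1 := by
    have := congrArg (PowerSeries.coeff 1) hu
    rw [h1, show (1 : ℕ) = 0 + 1 from rfl, PowerSeries.coeff_succ_X_mul,
      PowerSeries.coeff_zero_eq_constantCoeff_apply] at this
    exact this.symm
  have huU : IsUnit u := PowerSeries.isUnit_iff_constantCoeff.mpr (by rw [hu1]; exact isUnit_one)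
  obtain ⟨v, hv⟩ := huU.exists_left_inv
  have hs0 : PowerSeries.constantCoeff s' = 0 := by
    have h' := congrArg PowerSeries.constantCoeff h
    rw [map_mul] at h'
    have e1 : PowerSeries.constantCoeff (δ.map ι) = 0 := by
      rw [← PowerSeries.coeff_zero_eq_constantCoeff_apply, PowerSeries.coeff_map, h0, map_zero]
    have e2 : PowerSeries.constantCoeff (s'.map ι) = ι (PowerSeries.constantCoeff s') := by
      rw [← PowerSeries.coeff_zero_eq_constantCoeff_apply, PowerSeries.coeff_map,
        PowerSeries.coeff_zero_eq_constantCoeff_apply]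
    rw [e1, zero_mul, e2] at h'
    exact hι (by rw [h', map_zero])
  obtain ⟨s'', hs''⟩ := (PowerSeries.X_dvd_iff (φ := s')).mpr hs0
  refine ⟨v * s'', ?_⟩
  have e : (PowerSeries.X : PowerSeries ℂ) * s''.map ι = PowerSeries.X * (u.map ι * g) := by
    rw [← mul_assoc, ← PowerSeries.map_X ι, ← map_mul, ← map_mul, ← hs'', ← hu]
    exact h
  have e2 : s''.map ι = u.map ι * g := mul_left_cancel₀ PowerSeries.X_ne_zero e
  rw [map_mul, e2, ← mul_assoc, ← map_mul, hv, map_one, one_mul]

theorem s16w_struct_of_eq_zero {A : Type*} [CommRing A] (ι : A →+* ℂ)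
    (hι : Function.Injective ι) (k : ℕ) (f : ℍ → ℂ) (hf0 : f = 0)
    (s : PowerSeries A) (hs : qExpansion 1 f = s.map ι) :
    ∃ P : Polynomial (Polynomial A), s16w_Iso k P ∧ s16w_evR A P = s := by
  refine ⟨0, s16w_Iso.zero k, ?_⟩
  rw [map_zero]
  apply PowerSeries.map_injective ι hι
  rw [map_zero, ← hs, hf0, qExpansion_zero]

/-- **Structure theorem.**  A level-one modular form of weight `k` whose `q`-expansion has
coefficients in a ring `A ↪ ℂ` in which `1728` is invertible is an isobaric polynomial of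
weight `k` in `E₄`, `E₆` with coefficients in `A`. -/
theorem s16w_struct {A : Type*} [CommRing A] (ι : A →+* ℂ) (hι : Function.Injective ι)
    (h1728 : IsUnit (1728 : A)) :
    ∀ (k : ℕ) (f : ℍ → ℂ), IsMF G1 (k : ℤ) f → ∀ s : PowerSeries A,
      qExpansion 1 f = s.map ι →
      ∃ P : Polynomial (Polynomial A), s16w_Iso k P ∧ s16w_evR A P = s := by
  have hmap := PowerSeries.map_injective ι hι
  intro k
  induction k using Nat.strong_induction_on with
  | _ k ih =>
    intro f hf s hs
    rcases Nat.even_or_odd k with hke | hko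
    swap
    · -- odd weight
      obtain ⟨F, rfl⟩ := hf
      have hF : F = 0 := ModularForm.levelOne_odd_weight_eq_zero (by exact_mod_cast hko) F
      exact s16w_struct_of_eq_zero ι hι k _ (by rw [hF]; rfl) s hs
    rcases Nat.lt_or_ge k 4 with hk4 | hk4
    · -- weight 0 or 2
      have hk02 : k = 0 ∨ k = 2 := by
        obtain ⟨r, hr⟩ := hke
        omega
      rcases hk02 with rfl | rfl
      · obtain ⟨F, rfl⟩ := hf
        obtain ⟨c, hc⟩ := levelOne_weight_zero_const F
        have hc' : (⇑F : ℍ → ℂ) = c • (1 : ℍ → ℂ) := by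
          rw [hc]
          funext z
          simp
        rw [hc', IsNice.one.qExpansion_smul, qExpansion_one] at hs
        refine ⟨C (C (PowerSeries.coeff 0 s)), s16w_Iso.const _, ?_⟩
        rw [s16w_evR, s16w_ev_C_C]
        apply hmap
        rw [← hs, PowerSeries.map_C]
        have h0 := congrArg (PowerSeries.coeff 0) hs
        rw [PowerSeries.coeff_map, PowerSeries.coeff_smul, PowerSeries.coeff_one, if_pos rfl,
          smul_eq_mul, mul_one] at h0
        rw [← h0, PowerSeries.smul_eq_C_mul, mul_one]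
      · obtain ⟨F, rfl⟩ := hf
        have hF : F = 0 := rank_zero_iff_forall_zero.mp levelOne_weight_two_rank_zero F
        exact s16w_struct_of_eq_zero ι hι 2 _ (by rw [hF]; rfl) s hs
    -- even weight `k ≥ 4`
    obtain ⟨a, b, hab⟩ : ∃ a b : ℕ, 4 * a + 6 * b = k := by
      obtain ⟨r, hr⟩ := hke
      by_cases h4 : 4 ∣ k
      · obtain ⟨t, ht⟩ := h4
        exact ⟨t, 0, by omega⟩
      · exact ⟨(k - 6) / 4, 1, by omega⟩
    set c₀ : A := PowerSeries.coeff 0 s with hc₀
    set monf : ℍ → ℂ := (E₄ : ℍ → ℂ) ^ a * (E₆ : ℍ → ℂ) ^ b with hmonf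
    have hmon : IsMF G1 (k : ℤ) monf :=
      ((isMF_E4.pow a).mul (isMF_E6.pow b)).cast (by rw [← hab]; push_cast; ring)
    have hmonN : IsNice monf := (isNice_E4.pow a).mul (isNice_E6.pow b)
    have hmonq : qExpansion 1 monf = s16w_Qr ℂ ^ a * s16w_Rr ℂ ^ b := by
      rw [hmonf, (isNice_E4.pow a).qExpansion_mul (isNice_E6.pow b), isNice_E4.qExpansion_pow,
        isNice_E6.qExpansion_pow, s16w_Qr_complex, s16w_Rr_complex]
    set f' : ℍ → ℂ := f - (ι c₀) • monf with hf'
    have hf'MF : IsMF G1 (k : ℤ) f' := hf.sub (IsMF.smul _ hmon)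
    set s' : PowerSeries A := s - PowerSeries.C c₀ * (s16w_Qr A ^ a * s16w_Rr A ^ b) with hs'
    have hs'map : qExpansion 1 f' = s'.map ι := by
      rw [hf', hf.isNice_G1.qExpansion_sub (hmonN.smul _), hmonN.qExpansion_smul, hs, hmonq, hs',
        map_sub, map_mul, map_mul, map_pow, map_pow, s16w_Qr_map, s16w_Rr_map, PowerSeries.map_C,
        PowerSeries.smul_eq_C_mul]
    have hs'0 : PowerSeries.coeff 0 s' = 0 := by
      rw [hs', map_sub, PowerSeries.coeff_zero_eq_constantCoeff_apply,
        PowerSeries.coeff_zero_eq_constantCoeff_apply, map_mul, map_mul, map_pow, map_pow,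
        s16w_Qr_constantCoeff, s16w_Rr_constantCoeff, one_pow, one_pow, mul_one,
        PowerSeries.constantCoeff_C, mul_one, ← PowerSeries.coeff_zero_eq_constantCoeff_apply,
        sub_self]
    obtain ⟨F', hF'⟩ := hf'MF
    have hcusp : (qExpansion 1 ⇑F').coeff 0 = 0 := by
      rw [hF', hs'map, PowerSeries.coeff_map, hs'0, map_zero]
    have hmul := ModularForm.qExpansion_eq_qExpansion_discriminant_mul F' hcusp
    set G := CuspForm.discriminantEquiv (ModularForm.toCuspForm F' hcusp) with hG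
    -- the discriminant over `A`
    obtain ⟨c1728, hc1728⟩ := h1728.exists_left_inv
    set δ : PowerSeries A := PowerSeries.C c1728 * (s16w_Qr A ^ 3 - s16w_Rr A ^ 2) with hδ
    have hδmap : δ.map ι = qExpansion 1 ModularForm.discriminant := by
      rw [hδ, map_mul, map_sub, map_pow, map_pow, s16w_Qr_map, s16w_Rr_map, PowerSeries.map_C,
        ← s16w_disc_qExpansion, ← PowerSeries.smul_eq_C_mul, smul_smul]
      have : ι c1728 * 1728 = 1 := by
        have := congrArg ι hc1728
        rwa [map_mul, map_ofNat, map_one] at this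
      rw [this, one_smul]
    have hδ0 : PowerSeries.coeff 0 δ = 0 := by
      rw [hδ, PowerSeries.coeff_C_mul, s16w_disc_coeff_zero_r, mul_zero]
    have hδ1 : PowerSeries.coeff 1 δ = 1 := by
      rw [hδ, PowerSeries.coeff_C_mul, s16w_disc_coeff_one_r]
      exact hc1728
    have hdiv : s'.map ι = δ.map ι * qExpansion 1 ⇑G := by
      rw [hδmap, ← hs'map, ← hF']
      exact hmul
    obtain ⟨t, ht⟩ := s16w_div_mem ι hι δ s' _ hδ0 hδ1 hdiv
    have hs'eq : s' = δ * t := by
      apply hmap
      rw [map_mul, ht]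
      exact hdiv
    have hseq : s = PowerSeries.C c₀ * (s16w_Qr A ^ a * s16w_Rr A ^ b) + δ * t := by
      rw [← hs'eq, hs']
      ring
    rcases Nat.lt_or_ge k 12 with hk12 | hk12
    · -- `G = 0`
      have hG0 : (⇑G : ℍ → ℂ) = 0 :=
        levelOne_neg_weight_eq_zero (by omega) G
      have ht0 : t = 0 := by
        apply hmap
        rw [ht, hG0, qExpansion_zero, map_zero]
      refine ⟨C (C c₀) * (C X) ^ a * X ^ b, (s16w_Iso.monomial c₀ a b).cast hab, ?_⟩
      rw [s16w_evR, s16w_ev_monomial, hseq, ht0, mul_zero, add_zero, mul_assoc]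
    · have hGMF : IsMF G1 (((k - 12 : ℕ) : ℤ)) ⇑G :=
        IsMF.cast (by omega) (⟨G, rfl⟩ : IsMF G1 ((k : ℤ) - 12) ⇑G)
      obtain ⟨PG, hPG, hPGev⟩ := ih (k - 12) (by omega) ⇑G hGMF t ht.symm
      refine ⟨C (C c₀) * (C X) ^ a * X ^ b + C (C c1728) * ((C X) ^ 3 - X ^ 2) * PG,
        ((s16w_Iso.monomial c₀ a b).cast hab).add
          ((((s16w_Iso.const c1728).mul s16w_Iso.disc).mul hPG).cast (by omega)), ?_⟩
      have hPGev' : s16w_ev (s16w_Qr A) (s16w_Rr A) PG = t := hPGev
      rw [s16w_evR, map_add, s16w_ev_monomial, map_mul, map_mul, s16w_ev_disc, s16w_ev_C_C,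
        hPGev', hseq, hδ, mul_assoc (PowerSeries.C c₀)]

end Fermat.Agent.S16
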