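import Mathlib
import Fermat.Agent.S16.ThB

/-!
# S16 (C1), package [TB-SLASH]: the product theta series as functions on `ℍ` and their
weight-2 slash transforms under `S` and `T` (four variables).
-/

namespace Fermat.Agent.S16

open Complex Real UpperHalfPlane
open scoped MatrixGroups ModularForm Manifold

variable {k : ℕ}

/-- the product theta series as a function on the upper half plane -/
noncomputable def thBs_fun (m : Fin k → ℕ) (f : (Fin k → ℤ) → ℂ) : ℍ → ℂ :=
  fun z => thB_theta m f (z : ℂ)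

theorem thBs_fun_apply (m : Fin k → ℕ) (f : (Fin k → ℤ) → ℂ) (z : ℍ) :
    thBs_fun m f z = thB_theta m f (z : ℂ) := rfl

theorem thBs_mdiff {m : Fin k → ℕ} (hm : ∀ i, 0 < m i) {f : (Fin k → ℤ) → ℂ}
    (hf : thB_Periodic m f) : MDiff (thBs_fun m f) := by
  rw [UpperHalfPlane.mdifferentiable_iff]
  refine (thB_differentiableOn hm hf).congr (fun z hz => ?_)
  simp only [Function.comp_apply, thBs_fun]
  rw [UpperHalfPlane.ofComplex_apply_of_im_pos hz]

theorem thBs_bdd {m : Fin k → ℕ} (hm : ∀ i, 0 < m i) {f : (Fin k → ℤ) → ℂ}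
    (hf : thB_Periodic m f) : IsBoundedAtImInfty (thBs_fun m f) := by
  rw [UpperHalfPlane.isBoundedAtImInfty_iff]
  obtain ⟨C, hC⟩ := thB_bounded hm hf
  exact ⟨C, 1, fun z hz => hC (z : ℂ) hz⟩

theorem thBs_tendsto {m : Fin k → ℕ} (hm : ∀ i, 0 < m i) {f : (Fin k → ℤ) → ℂ}
    (hf : thB_Periodic m f) :
    Filter.Tendsto (thBs_fun m f) atImInfty (nhds (f 0)) :=
  thB_tendsto hm hf

/-- linearity in the weight -/
theorem thB_theta_smul (m : Fin k → ℕ) (f : (Fin k → ℤ) → ℂ) (c : ℂ) (z : ℂ) :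
    thB_theta m (fun n => c * f n) z = c * thB_theta m f z := by
  unfold thB_theta
  rw [← tsum_mul_left]
  refine tsum_congr (fun n => ?_)
  unfold thB_term
  ring

theorem thBs_fun_smul (m : Fin k → ℕ) (f : (Fin k → ℤ) → ℂ) (c : ℂ) :
    thBs_fun m (fun n => c * f n) = c • thBs_fun m f := by
  funext z
  simp only [thBs_fun, Pi.smul_apply, smul_eq_mul]
  exact thB_theta_smul m f c z

theorem thBs_periodic_smul {m : Fin k → ℕ} {f : (Fin k → ℤ) → ℂ}
    (hf : thB_Periodic m f) (c : ℂ) : thB_Periodic m (fun n => c * f n) := by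
  intro n n' h
  simp only [hf n n' h]

theorem thBs_congr (m : Fin k → ℕ) {f g : (Fin k → ℤ) → ℂ} (h : ∀ n, f n = g n) :
    thBs_fun m f = thBs_fun m g := by
  have : f = g := funext h
  rw [this]

/-- **`T`**: `Θ_f ∣[2] T = Θ_{e(Q) f}`. -/
theorem thBs_slash_T (m : Fin k → ℕ) (f : (Fin k → ℤ) → ℂ) :
    thBs_fun m f ∣[(2 : ℤ)] ModularGroup.T =
      thBs_fun m (fun n => cexp (2 * π * Complex.I * thB_Q m n) * f n) := by
  funext z
  rw [ModularForm.SL_slash_apply, UpperHalfPlane.modular_T_smul]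
  have hden : denom (ModularGroup.T : SL(2, ℤ)) z = 1 := by
    rw [ModularGroup.denom_apply]
    simp [ModularGroup.T]
  rw [hden]
  simp only [thBs_fun, UpperHalfPlane.coe_vadd, Complex.ofReal_one, one_zpow, mul_one]
  rw [add_comm]
  exact thB_translate m f z

/-- **`S`** (four variables): `Θ_f ∣[2] S = Θ_{-(1/(4P)) f̂}`. -/
theorem thBs_slash_S {m : Fin 4 → ℕ} (hm : ∀ i, 0 < m i) (P : ℕ)
    (hP : m 0 * m 1 * m 2 * m 3 = P ^ 2) {f : (Fin 4 → ℤ) → ℂ} (hf : thB_Periodic m f) :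
    thBs_fun m f ∣[(2 : ℤ)] ModularGroup.S =
      thBs_fun m (fun n => -(1 / (4 * (P : ℂ))) * thB_hat m f n) := by
  funext z
  rw [ModularForm.SL_slash_apply, UpperHalfPlane.modular_S_smul, ModularGroup.denom_S]
  rw [thBs_fun_smul]
  simp only [thBs_fun, Pi.smul_apply, smul_eq_mul]
  have hz : 0 < (z : ℂ).im := z.im_pos
  have hz0 : (z : ℂ) ≠ 0 := UpperHalfPlane.ne_zero z
  have e : (-(z : ℂ))⁻¹ = -1 / (z : ℂ) := by
    rw [neg_div, one_div, inv_neg]
  rw [e, thB_inversion hm hf hz, thB_prefactor_four m hm P hP hz]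
  have : ((z : ℂ)) ^ (-(2 : ℤ)) = ((z : ℂ) ^ 2)⁻¹ := by
    rw [zpow_neg]
    norm_cast
  rw [this]
  field_simp

end Fermat.Agent.S16
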