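import Mathlib
import Fermat.Agent.S16.ThCFp
import Fermat.Agent.S16.ThFp
import Fermat.Agent.S16.ThOrbit

set_option autoImplicit false

namespace Fermat.Agent.S16

open Finset Complex Real

variable {p q : ℕ} {a : ℤ} [Fact p.Prime]

/-- The orbit functions `Λ_x = (λ_x)~` on `ℤ⁴`: `Λ_∞ = 1_L`, `Λ_j = -(1/p) 1_M e(j Q)`. -/
noncomputable def thC_Lam (p q : ℕ) [Fact p.Prime] (a : ℤ) (x : Option (ZMod p)) :
    (Fin 4 → ℤ) → ℂ :=
  thC_tilde p q a (thFp_lam p q x)

theorem thC_tilde_const_mul (c : ℂ) (f : ZMod p × ZMod p → ℂ) (n : Fin 4 → ℤ) :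
    c * thC_tilde p q a f n = thC_tilde p q a (fun w => c * f w) n := by
  unfold thC_tilde
  split_ifs <;> simp

open Classical in
theorem thC_Lam_none (n : Fin 4 → ℤ) :
    thC_Lam p q a none n = if thC_memL p q a n then 1 else 0 := by
  unfold thC_Lam thC_tilde
  rw [thFp_lam_none]
  by_cases hM : thC_memM q a n
  · rw [if_pos hM]
    by_cases h0 : thC_cls p n = 0
    · rw [h0, Pi.single_eq_same, if_pos (thC_memL_iff.2 ⟨hM, h0⟩)]
    · rw [Pi.single_eq_of_ne h0, if_neg (fun hL => h0 (thC_memL_iff.1 hL).2)]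
  · rw [if_neg hM, if_neg (fun hL => hM hL.1)]

theorem thC_Lam_none_of_memL {n : Fin 4 → ℤ} (hn : thC_memL p q a n) :
    thC_Lam p q a none n = 1 := by
  classical
  rw [thC_Lam_none, if_pos hn]

theorem thC_Lam_none_of_not_memL {n : Fin 4 → ℤ} (hn : ¬ thC_memL p q a n) :
    thC_Lam p q a none n = 0 := by
  classical
  rw [thC_Lam_none, if_neg hn]

/-- **(C-per)** -/
theorem thC_Lam_periodic (x : Option (ZMod p)) :
    thB_Periodic (thC_m p q) (thC_Lam p q a x) :=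
  thC_tilde_periodic a _

/-- **(C-T)** `e(Q) Λ_x = Λ_{T x}`. -/
theorem thC_Lam_T (h : thC_Hyp p q a) (x : Option (ZMod p)) (n : Fin 4 → ℤ) :
    cexp (2 * π * I * thB_Q (thC_m p q) n) * thC_Lam p q a x n =
      thC_Lam p q a (thO_actT p x) n := by
  unfold thC_Lam
  rw [thC_expQ_tilde h]
  congr 1
  funext w
  cases x with
  | none => exact thFp_tau_none w
  | some j => exact thFp_tau_some j w

/-- **(C-S)** `-(1/(4pq)) · hat Λ_x = Λ_{S x}`. -/
theorem thC_Lam_S (h : thC_Hyp p q a) (hns : ¬ IsSquare (-(q : ZMod p)))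
    (x : Option (ZMod p)) (n' : Fin 4 → ℤ) :
    -(1 / (4 * (p : ℂ) * q)) * thB_hat (thC_m p q) (thC_Lam p q a x) n' =
      thC_Lam p q a (thO_actS p x) n' := by
  have hp0 : (p : ℂ) ≠ 0 := Nat.cast_ne_zero.2 h.hp.ne_zero
  have hq0 : (q : ℂ) ≠ 0 := Nat.cast_ne_zero.2 h.hq.ne_zero
  unfold thC_Lam
  rw [thC_hat_tilde' h]
  have e1 : -(1 / (4 * (p : ℂ) * q)) * (4 * (q : ℂ) * thC_tilde p q a
      (fun w => ∑ w', thFp_lam p q x w' * ZMod.stdAddChar (N := p) (thC_Bbar p q w' w)) n') =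
      -(1 / (p : ℂ)) * thC_tilde p q a
      (fun w => ∑ w', thFp_lam p q x w' * ZMod.stdAddChar (N := p) (thC_Bbar p q w' w)) n' := by
    field_simp
  rw [e1, thC_tilde_const_mul]
  congr 1
  have e2 : (fun w => -(1 / (p : ℂ)) *
      ∑ w', thFp_lam p q x w' * ZMod.stdAddChar (N := p) (thC_Bbar p q w' w)) =
      thFp_sig p q (thFp_lam p q x) := rfl
  rw [e2]
  cases x with
  | none => exact thFp_sig_none
  | some j =>
    by_cases hj : j = 0
    · subst hj
      simp only [thO_actS]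
      exact thFp_sig_zero h.hp2 h.q_ne_zero
    · simp only [thO_actS, if_neg hj]
      exact thFp_sig_some' h.hp2 h.q_ne_zero hns j hj

theorem thC_m_pos (h : thC_Hyp p q a) (i : Fin 4) : 0 < thC_m p q i := by
  have hp := h.hp.pos
  have hq := h.hq.pos
  have hpq : 0 < p * q := Nat.mul_pos hp hq
  fin_cases i <;> simp [thC_m] <;> omega

/-- **(Θ-T)** -/
theorem thC_theta_T (h : thC_Hyp p q a) (x : Option (ZMod p)) (z : ℂ) :
    thB_theta (thC_m p q) (thC_Lam p q a x) (z + 1) =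
      thB_theta (thC_m p q) (thC_Lam p q a (thO_actT p x)) z := by
  rw [thB_translate]
  congr 1
  funext n
  exact thC_Lam_T h x n

/-- **(Θ-S)** -/
theorem thC_theta_S (h : thC_Hyp p q a) (hns : ¬ IsSquare (-(q : ZMod p)))
    (x : Option (ZMod p)) {z : ℂ} (hz : 0 < z.im) :
    thB_theta (thC_m p q) (thC_Lam p q a x) (-1 / z) =
      z ^ 2 * thB_theta (thC_m p q) (thC_Lam p q a (thO_actS p x)) z := by
  have hp0 : (p : ℂ) ≠ 0 := Nat.cast_ne_zero.2 h.hp.ne_zero
  have hq0 : (q : ℂ) ≠ 0 := Nat.cast_ne_zero.2 h.hq.ne_zero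
  rw [thB_inversion (thC_m_pos h) (thC_Lam_periodic x) hz,
    thB_prefactor_four (thC_m p q) (thC_m_pos h) (p * q) (by simp [thC_m]; ring) hz]
  have e : thB_theta (thC_m p q) (thC_Lam p q a (thO_actS p x)) z =
      -(1 / (4 * (p : ℂ) * q)) *
        thB_theta (thC_m p q) (thB_hat (thC_m p q) (thC_Lam p q a x)) z := by
    unfold thB_theta
    rw [← tsum_mul_left]
    refine tsum_congr fun n => ?_
    unfold thB_term
    rw [← thC_Lam_S h hns x n]
    ring
  rw [e]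
  push_cast
  field_simp

end Fermat.Agent.S16
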