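import Mathlib
import Fermat.Agent.S16.ThLam
import Fermat.Agent.S16.ThSlash
import Fermat.Agent.S16.ThQExp
import Fermat.Agent.S16.ThE

set_option autoImplicit false

namespace Fermat.Agent.S16

open Complex Real UpperHalfPlane ModularGroup CongruenceSubgroup
open scoped MatrixGroups ModularForm
open Fermat.Agent.S22

/-- The theta series of the lattice `L` is a modular form of weight 2 and level `Γ₀(p)`. -/
theorem thC_fin_isMF {p q : ℕ} {a : ℤ} [Fact p.Prime] (h : thC_Hyp p q a)
    (hns : ¬ IsSquare (-(q : ZMod p))) :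
    IsMF (G0 p) 2 (thS_fun (thC_m p q) (thC_Lam p q a none)) := by
  have hm := thC_m_pos h
  have hT : ∀ x, thS_fun (thC_m p q) (thC_Lam p q a x) ∣[(2 : ℤ)] T =
      thS_fun (thC_m p q) (thC_Lam p q a (thO_actT p x)) := by
    intro x
    rw [thS_slash_T]
    exact thS_congr _ (thC_Lam_T h x)
  have hS : ∀ x, thS_fun (thC_m p q) (thC_Lam p q a x) ∣[(2 : ℤ)] S =
      thS_fun (thC_m p q) (thC_Lam p q a (thO_actS p x)) := by
    intro x
    rw [thS_slash_S (thC_m p q) hm (p * q) (by simp [thC_m]; ring) (thC_Lam_periodic x),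
      ← thS_smul]
    refine thS_congr _ fun n => ?_
    rw [← thC_Lam_S h hns x n]
    push_cast
    ring
  exact thS_isMF p hm (thC_Lam p q a) thC_Lam_periodic none (thO_idx p)
    (thO_orbit p 2 (fun x => thS_fun (thC_m p q) (thC_Lam p q a x)) hT hS)
    (thO_idx_of_mem p)

/-- **(C1), route #589**: for every odd prime `p` there is a modular form of weight 2 and level
`Γ₀(p)` with `q`-expansion in `1 + 2qℤ[[q]]`. -/
theorem thC_fin_hAt (p : ℕ) (hp : p.Prime) (hp2 : p ≠ 2) : s16g_HAt p := by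
  haveI : Fact p.Prime := ⟨hp⟩
  obtain ⟨q, a, hq, hq4, hqp, hns, ha⟩ := thE_exists_q p hp hp2
  have h : thC_Hyp p q (a : ℤ) := ⟨hp, hq, hp2, hq4, hqp, ha⟩
  refine thQ_hAt h (thC_Lam p q a none) (fun n hn => thC_Lam_none_of_memL hn)
    (fun n hn => thC_Lam_none_of_not_memL hn) _ (thC_fin_isMF h hns) ?_
  intro τ
  have hs := (thB_summable (thC_m_pos h)
    (thC_Lam_periodic (p := p) (q := q) (a := (a : ℤ)) none) τ.im_pos).hasSum
  exact hs

end Fermat.Agent.S16
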