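import Mathlib
import Fermat.Agent.S16.Reduce
import Fermat.Agent.S16.Eis
import Fermat.Agent.S22.Conj
import Fermat.Prelude.Def_ModularCurve_ModularUnit

/-!
# S16, (C1): end-glue

From a weight 2 form `Θ` of level `Γ₀(p)` with `q`-expansion in `1 + 2 q ℤ[[q]]` whose
translates by the elements of `SL(2,ℤ)` outside `Γ₀(p)` tend to `-1/p` at `i∞`, and the
Eisenstein series `p E₂(pz) - E₂(z)` of level `p`, we produce an integral cusp form congruent
to `E' = ∑ σ'(k) q^k` modulo `eisensteinNumerator p`, i.e. the statement `(C1)` in the shape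
`s16r_Cong p (eisensteinNumerator p)`.
-/

set_option autoImplicit false

noncomputable section

namespace Fermat.Agent.S16

open UpperHalfPlane ModularFormClass CongruenceSubgroup Matrix.SpecialLinearGroup Function Filter
open Fermat.Agent.S22 ModularCurve CuspForm EisensteinSeries
open scoped MatrixGroups ModularForm Manifold Topology

/-- A nice function tends to the constant term of its `q`-expansion at `i∞`. -/
theorem thGl_tendsto_coeff_zero {f : ℍ → ℂ} (hf : IsNice f) :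
    Tendsto f atImInfty (𝓝 ((qExpansion 1 f).coeff 0)) := by
  have hcomp : (cuspFunction 1 f ∘ fun τ : ℍ => Periodic.qParam 1 τ) = f := by
    funext τ
    simpa using eq_cuspFunction τ one_ne_zero hf.per
  have ht := hf.analyticAt.continuousAt.tendsto.comp (qParam_tendsto_atImInfty one_pos)
  rw [hcomp, ← Conj.coeff_zero_eq_cuspFunction] at ht
  exact ht

/-- `E₂ → 1` at `i∞`. -/
theorem thGl_tendsto_E2 : Tendsto E2 atImInfty (𝓝 (1 : ℂ)) := by
  have h := thGl_tendsto_coeff_zero s16e_E2_isNice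
  rwa [s16e_E2_coeff 0, if_pos rfl] at h

/-- `z ↦ (A z + B) / D` tends to `i∞` at `i∞`. -/
theorem thGl_tendsto_affine (A D : ℕ) (B : ℤ) (hA : 0 < A) (hD : 0 < D) :
    Tendsto (fun z : ℍ => ofComplex (((A : ℂ) * z + B) / D)) atImInfty atImInfty := by
  have hAr : (0 : ℝ) < A := by exact_mod_cast hA
  have hDr : (0 : ℝ) < D := by exact_mod_cast hD
  have him : ∀ z : ℍ, (ofComplex (((A : ℂ) * z + B) / D)).im = (A : ℝ) / D * z.im := by
    intro z
    have hw : 0 < ((((A : ℤ) : ℂ) * (z : ℂ) + (B : ℂ)) / ((D : ℤ) : ℂ)).im :=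
      s16e_im_pos B (by exact_mod_cast hA) (by exact_mod_cast hD) z
    have hcoe : (((A : ℂ) * (z : ℂ) + (B : ℂ)) / (D : ℂ)) =
        ((((A : ℤ) : ℂ) * (z : ℂ) + (B : ℂ)) / ((D : ℤ) : ℂ)) := by push_cast; rfl
    rw [hcoe, ofComplex_apply_of_im_pos hw]
    show ((((A : ℤ) : ℂ) * (z : ℂ) + (B : ℂ)) / ((D : ℤ) : ℂ)).im = _
    have h1 : ((((A : ℤ) : ℂ) * (z : ℂ) + (B : ℂ)) / ((D : ℤ) : ℂ)) =
        ((((A : ℝ) : ℂ) * (z : ℂ) + ((B : ℝ) : ℂ)) / ((D : ℝ) : ℂ)) := by push_cast; rfl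
    rw [h1, Complex.div_ofReal_im]
    simp
    ring
  rw [atImInfty, tendsto_comap_iff]
  have h2 : (UpperHalfPlane.im ∘ fun z : ℍ => ofComplex (((A : ℂ) * z + B) / D)) =
      (fun y : ℝ => (A : ℝ) / D * y) ∘ UpperHalfPlane.im := by
    funext z
    exact him z
  rw [h2]
  exact (tendsto_id.const_mul_atTop (div_pos hAr hDr)).comp tendsto_comap

/-- `E₂((A z + B) / D) → 1` at `i∞`. -/
theorem thGl_tendsto_E2_comp (A D : ℕ) (B : ℤ) (hA : 0 < A) (hD : 0 < D) :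
    Tendsto (fun z : ℍ => E2 (ofComplex (((A : ℂ) * z + B) / D))) atImInfty (𝓝 (1 : ℂ)) :=
  thGl_tendsto_E2.comp (thGl_tendsto_affine A D B hA hD)

/-- **The Eisenstein series at the cusp `0`**: every translate of `p E₂(pz) - E₂(z)` by an
element of `SL(2,ℤ)` outside `Γ₀(p)` tends to `-(p-1)/p` at `i∞`. -/
theorem thGl_tendsto_eis (p : ℕ) (hp : p.Prime) (γ : SL(2, ℤ)) (hγ : γ ∉ Gamma0 p) :
    Tendsto (s16e_fun p ∣[(2 : ℤ)] γ) atImInfty (𝓝 (1 / (p : ℂ) - 1)) := by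
  obtain ⟨A, D, B, hA, hD, hAD, hAg, -, -, h⟩ := s16e_slash p hp.pos γ
  have hndvd : ¬ (p : ℤ) ∣ γ 1 0 := fun hd =>
    hγ (Gamma0_mem.2 ((ZMod.intCast_zmod_eq_zero_iff_dvd _ p).2 hd))
  have hA1 : A = 1 := by
    have hAp : A ∣ p := ⟨D, hAD.symm⟩
    rcases (Nat.dvd_prime hp).1 hAp with h1 | h1
    · exact h1
    · exfalso
      apply hndvd
      have hg : (Int.gcd (p : ℤ) (γ 1 0) : ℤ) ∣ γ 1 0 := Int.gcd_dvd_right _ _
      rw [← hAg, h1] at hg
      exact hg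
  have hDp : D = p := by rw [hA1, one_mul] at hAD; exact hAD
  have hfun : s16e_fun p ∣[(2 : ℤ)] γ =
      fun z : ℍ => (A : ℂ) / D * E2 (ofComplex (((A : ℂ) * z + B) / D)) - E2 z := by
    funext z
    exact h z
  rw [hfun]
  have h1 := (thGl_tendsto_E2_comp A D B hA hD).const_mul ((A : ℂ) / D)
  have h2 := h1.sub thGl_tendsto_E2
  have e : (A : ℂ) / D * 1 - 1 = 1 / (p : ℂ) - 1 := by
    rw [hA1, hDp]; simp
  rw [e] at h2
  exact h2


/-- A modular form of level `Γ₀(N)` all of whose `SL(2,ℤ)`-translates vanish at `i∞` is a cusp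
form. -/
theorem thGl_isCF (N : ℕ) [NeZero N] {k : ℤ} {f : ℍ → ℂ} (hf : IsMF (G0 N) k f)
    (h : ∀ γ : SL(2, ℤ), IsZeroAtImInfty (f ∣[k] γ)) : IsCF (G0 N) k f := by
  obtain ⟨F, rfl⟩ := hf
  refine ⟨{ toSlashInvariantForm := F.toSlashInvariantForm
            holo' := F.holo'
            zero_at_cusps' := fun {c} hc => ?_ }, rfl⟩
  have hc' : IsCusp c 𝒮ℒ := (Subgroup.IsArithmetic.isCusp_iff_isCusp_SL2Z (G0 N)).mp hc
  rw [OnePoint.isZeroAt_iff_forall_SL2Z hc']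
  intro γ _
  exact h γ

/-- Slash invariance of (the function of) a modular form of level `Γ₀(N)`. -/
theorem thGl_slash_eq (N : ℕ) {k : ℤ} {f : ℍ → ℂ} (hf : IsMF (G0 N) k f) (γ : SL(2, ℤ))
    (hγ : γ ∈ Gamma0 N) : f ∣[k] γ = f := by
  obtain ⟨F, rfl⟩ := hf
  exact SlashInvariantFormClass.slash_action_eq F _ ⟨γ, hγ, rfl⟩

/-- **(C1), end-glue**: a weight 2 form `Θ` on `Γ₀(p)` with `q`-expansion in `1 + 2qℤ[[q]]` and
value `-1/p` at the cusp `0` yields an integral cusp form congruent to `E'` modulo the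
Eisenstein numerator. -/
theorem thGl_cong (p : ℕ) [Fact p.Prime] (Θ : ℍ → ℂ) (hΘ : IsMF (G0 p) 2 Θ) (a : ℕ → ℤ)
    (ha : ∀ k, (qExpansion 1 Θ).coeff k = (a k : ℂ)) (h0 : a 0 = 1)
    (h2 : ∀ k, 1 ≤ k → (2 : ℤ) ∣ a k)
    (hcusp : ∀ γ : SL(2, ℤ), γ ∉ Gamma0 p →
      Tendsto (Θ ∣[(2 : ℤ)] γ) atImInfty (𝓝 (-(1 / (p : ℂ))))) :
    s16r_Cong p (eisensteinNumerator p) := by
  have hp : p.Prime := Fact.out
  have hpne : NeZero p := ⟨hp.ne_zero⟩
  -- arithmetic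
  set g : ℕ := Nat.gcd (p - 1) 12 with hg
  have hgpos : 0 < g := Nat.gcd_pos_of_pos_right _ (by norm_num)
  set n : ℕ := (p - 1) / g with hn
  set m : ℕ := 12 / g with hm
  have hgn : g * n = p - 1 := Nat.mul_div_cancel' (Nat.gcd_dvd_left _ _)
  have hgm : g * m = 12 := Nat.mul_div_cancel' (Nat.gcd_dvd_right _ _)
  have hcop : Nat.Coprime n m := Nat.coprime_div_gcd_div_gcd hgpos
  have hnum : eisensteinNumerator p = n := rfl
  obtain ⟨v, u, huv⟩ : IsCoprime (n : ℤ) (m : ℤ) := Nat.isCoprime_iff_coprime.2 hcop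
  -- `v * n + u * m = 1`
  have hp1 : ((p - 1 : ℕ) : ℂ) = (p : ℂ) - 1 := by
    rw [Nat.cast_sub hp.one_le]; simp
  have hgnC : (g : ℂ) * n = (p : ℂ) - 1 := by rw [← hp1, ← hgn]; push_cast; ring
  have hgmC : (g : ℂ) * m = 12 := by
    have : ((g * m : ℕ) : ℂ) = ((12 : ℕ) : ℂ) := by rw [hgm]
    push_cast at this
    exact this
  have hgC : (g : ℂ) ≠ 0 := by exact_mod_cast hgpos.ne'
  have hpC : (p : ℂ) ≠ 0 := by exact_mod_cast hp.ne_zero
  -- the form
  set c : ℂ := (u : ℂ) / (2 * g) with hc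
  set F₀ : ℍ → ℂ := s16e_fun p - ((p : ℂ) - 1) • Θ with hF₀
  set F : ℍ → ℂ := c • F₀ with hF
  have hE : IsMF (G0 p) 2 (s16e_fun p) := s16e_isMF p
  have hF₀mf : IsMF (G0 p) 2 F₀ := hE.sub (hΘ.smul _)
  have hFmf : IsMF (G0 p) 2 F := hF₀mf.smul c
  have hEn : IsNice (s16e_fun p) := s16e_isNice hp.ne_zero
  have hΘn : IsNice Θ := hΘ.isNice_G0
  have hF₀n : IsNice F₀ := hEn.sub (hΘn.smul _)
  -- coefficients
  have hcoeff : ∀ k, (qExpansion 1 F).coeff k =
      c * ((qExpansion 1 (s16e_fun p)).coeff k - ((p : ℂ) - 1) * (a k : ℂ)) := by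
    intro k
    rw [hF, IsNice.qExpansion_smul c hF₀n, hF₀, IsNice.qExpansion_sub hEn (hΘn.smul _),
      IsNice.qExpansion_smul _ hΘn]
    simp [ha k]
  have hcoeff0 : (qExpansion 1 F).coeff 0 = 0 := by
    rw [hcoeff 0, s16e_coeff_zero hp.ne_zero, h0]
    simp
  -- cusp form
  have hFcf : IsCF (G0 p) 2 F := by
    refine thGl_isCF p hFmf fun γ => ?_
    by_cases hγ : γ ∈ Gamma0 p
    · rw [thGl_slash_eq p hFmf γ hγ]
      exact Conj.isZeroAtImInfty_of_coeff_zero hFmf.isNice_G0 hcoeff0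
    · have hsl : F ∣[(2 : ℤ)] γ =
          c • (s16e_fun p ∣[(2 : ℤ)] γ - ((p : ℂ) - 1) • (Θ ∣[(2 : ℤ)] γ)) := by
        rw [hF, hF₀, ModularForm.SL_smul_slash, sub_eq_add_neg, SlashAction.add_slash,
          SlashAction.neg_slash, ModularForm.SL_smul_slash, ← sub_eq_add_neg]
      rw [hsl]
      have h1 := thGl_tendsto_eis p hp γ hγ
      have h3 := (h1.sub ((hcusp γ hγ).const_smul ((p : ℂ) - 1))).const_smul c
      have e : c • (1 / (p : ℂ) - 1 - ((p : ℂ) - 1) • -(1 / (p : ℂ))) = 0 := by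
        simp only [smul_eq_mul]
        field_simp
        ring
      rw [e] at h3
      exact h3
  obtain ⟨Fc, hFc⟩ := hFcf
  -- the integral coefficients
  refine ⟨Fc, fun k => if k = 0 then 0 else u * ((m : ℤ) * s16r_sigma p k - n * (a k / 2)), ?_, ?_⟩
  · intro k
    show (qExpansion 1 (⇑Fc)).coeff k = _
    rw [hFc]
    by_cases hk : k = 0
    · subst hk
      rw [hcoeff0]; simp
    · dsimp only
      rw [if_neg hk, hcoeff k, s16e_coeff_pos hp.ne_zero hk]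
      obtain ⟨b, hb⟩ := h2 k (Nat.pos_of_ne_zero hk)
      have hb2 : a k / 2 = b := by rw [hb]; simp
      rw [hb2, hb]
      have hσ : (∑ e ∈ k.divisors with ¬ p ∣ e, (e : ℤ)) = s16r_sigma p k := rfl
      rw [hσ]
      push_cast
      rw [hc, ← hgnC]
      field_simp
      have h12 : (12 : ℂ) = g * m := hgmC.symm
      linear_combination (2 * (u : ℂ) * (s16r_sigma p k : ℂ)) * h12
  · intro k hk
    dsimp only
    rw [if_neg (by omega : k ≠ 0), hnum]
    refine ⟨-(v * s16r_sigma p k + u * (a k / 2)), ?_⟩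
    linear_combination (s16r_sigma p k : ℤ) * huv

end Fermat.Agent.S16
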