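import Mathlib
import Fermat.Agent.S16.ThBSlash
import Fermat.Agent.S16.ThCFp
import Fermat.Agent.S16.ThFp
import Fermat.Agent.S16.ThOrbit
import Fermat.Agent.S16.ThQExp
import Fermat.Agent.S16.ThE
import Fermat.Agent.S20.Conj

/-!
# S16 (C1), final assembly of route #589: the theta series of the lattice `L` is a modular
form of weight 2 on `Γ₀(p)` with `q`-expansion in `1 + 2qℤ[[q]]`.
-/

namespace Fermat.Agent.S16

open Complex Real UpperHalfPlane
open scoped MatrixGroups ModularForm Manifold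
open Fermat.Agent.S22 (IsMF G0)

variable {p q : ℕ} {a : ℤ}

/-- the theta series `Θ_{f~}` attached to a function `f` on `𝔽_p²` -/
noncomputable def thL_fun (p q : ℕ) (a : ℤ) (f : ZMod p × ZMod p → ℂ) : ℍ → ℂ :=
  thBs_fun (thC_m p q) (thC_tilde p q a f)

theorem thL_m_pos (h : thC_Hyp p q a) (i : Fin 4) : 0 < thC_m p q i := by
  have hp := h.hp.pos
  have hq := h.hq.pos
  fin_cases i <;> simp [thC_m, hp, hq]

theorem thL_prod (p q : ℕ) :
    thC_m p q 0 * thC_m p q 1 * thC_m p q 2 * thC_m p q 3 = (p * q) ^ 2 := by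
  simp [thC_m]
  ring

theorem thL_mdiff (h : thC_Hyp p q a) (f : ZMod p × ZMod p → ℂ) : MDiff (thL_fun p q a f) :=
  thBs_mdiff (thL_m_pos h) (thC_tilde_periodic a f)

theorem thL_bdd (h : thC_Hyp p q a) (f : ZMod p × ZMod p → ℂ) :
    IsBoundedAtImInfty (thL_fun p q a f) :=
  thBs_bdd (thL_m_pos h) (thC_tilde_periodic a f)

/-- **(T)** for arbitrary weights on `𝔽_p²`. -/
theorem thL_slash_T [NeZero p] (h : thC_Hyp p q a) (f : ZMod p × ZMod p → ℂ) :
    thL_fun p q a f ∣[(2 : ℤ)] ModularGroup.T =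
      thL_fun p q a (fun w => ZMod.stdAddChar (N := p) (thC_Nbar p q w) * f w) := by
  unfold thL_fun
  rw [thBs_slash_T]
  exact thBs_congr _ (thC_expQ_tilde h f)

/-- **(S)** for arbitrary weights on `𝔽_p²`. -/
theorem thL_slash_S [Fact p.Prime] (h : thC_Hyp p q a) (f : ZMod p × ZMod p → ℂ) :
    thL_fun p q a f ∣[(2 : ℤ)] ModularGroup.S = thL_fun p q a (thFp_sig p q f) := by
  unfold thL_fun
  rw [thBs_slash_S (thL_m_pos h) (p * q) (thL_prod p q) (thC_tilde_periodic a f)]
  refine thBs_congr _ (fun n => ?_)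
  rw [thC_hat_tilde' h f n]
  have hp0 : (p : ℂ) ≠ 0 := Nat.cast_ne_zero.2 h.hp.ne_zero
  have hq0 : (q : ℂ) ≠ 0 := Nat.cast_ne_zero.2 h.hq.ne_zero
  unfold thC_tilde
  by_cases hn : thC_memM q a n
  · rw [if_pos hn, if_pos hn]
    unfold thFp_sig thFp_F
    push_cast
    field_simp
  · rw [if_neg hn, if_neg hn]
    simp

/-- the orbit of the theta series of `L` -/
noncomputable def thL_Phi (p q : ℕ) (a : ℤ) [Fact p.Prime] : Option (ZMod p) → ℍ → ℂ :=
  fun x => thL_fun p q a (thFp_lam p q x)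

theorem thL_Phi_T [Fact p.Prime] (h : thC_Hyp p q a) (x : Option (ZMod p)) :
    thL_Phi p q a x ∣[(2 : ℤ)] ModularGroup.T = thL_Phi p q a (thO_actT p x) := by
  unfold thL_Phi
  rw [thL_slash_T h]
  cases x with
  | none =>
    simp only [thO_actT]
    congr 1
    funext w
    exact thFp_tau_none w
  | some j =>
    simp only [thO_actT]
    congr 1
    funext w
    exact thFp_tau_some j w

theorem thL_Phi_S [Fact p.Prime] (h : thC_Hyp p q a) (hns : ¬ IsSquare (-(q : ZMod p)))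
    (x : Option (ZMod p)) :
    thL_Phi p q a x ∣[(2 : ℤ)] ModularGroup.S = thL_Phi p q a (thO_actS p x) := by
  unfold thL_Phi
  rw [thL_slash_S h]
  cases x with
  | none =>
    simp only [thO_actS]
    rw [thFp_sig_none]
  | some j =>
    by_cases hj : j = 0
    · subst hj
      simp only [thO_actS, if_true]
      rw [thFp_sig_zero h.hp2 h.q_ne_zero]
    · simp only [thO_actS, if_neg hj]
      rw [thFp_sig_some' h.hp2 h.q_ne_zero hns j hj]

/-- **[TF-MF]**: the theta series of `L` is a modular form of weight 2 on `Γ₀(p)`. -/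
theorem thL_isMF [Fact p.Prime] (h : thC_Hyp p q a) (hns : ¬ IsSquare (-(q : ZMod p))) :
    IsMF (G0 p) 2 (thL_Phi p q a none) := by
  have : NeZero p := ⟨h.hp.ne_zero⟩
  refine Fermat.Agent.S20.isMF_criterion p 2 (thL_Phi p q a none) (thL_mdiff h _) ?_ ?_
  · intro γ hγ
    exact thO_invariant p 2 (thL_Phi p q a) (thL_Phi_T h) (thL_Phi_S h hns) γ hγ
  · intro g
    rw [thO_orbit p 2 (thL_Phi p q a) (thL_Phi_T h) (thL_Phi_S h hns) g]
    exact thL_bdd h _

/-- the values at the other cusp (not needed for `s16g_HAt`) -/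
theorem thL_tendsto [Fact p.Prime] (h : thC_Hyp p q a) (hns : ¬ IsSquare (-(q : ZMod p)))
    (γ : SL(2, ℤ)) (hγ : γ ∉ CongruenceSubgroup.Gamma0 p) :
    Filter.Tendsto (thL_Phi p q a none ∣[(2 : ℤ)] γ) atImInfty (nhds (-(1 / (p : ℂ)))) := by
  rw [thO_orbit p 2 (thL_Phi p q a) (thL_Phi_T h) (thL_Phi_S h hns) γ]
  have hx : thO_idx p γ ≠ none := fun hx => hγ ((thO_idx_eq_none_iff p γ).1 hx)
  obtain ⟨j, hj⟩ := Option.ne_none_iff_exists'.1 hx
  rw [hj]
  have := thBs_tendsto (thL_m_pos h) (thC_tilde_periodic (p := p) (q := q) a (thFp_lam p q (some j)))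
  have e : thC_tilde p q a (thFp_lam p q (some j)) 0 = -(1 / (p : ℂ)) := by
    unfold thC_tilde
    rw [if_pos thC_memM_zero]
    have : thC_cls p (0 : Fin 4 → ℤ) = 0 := by simp [thC_cls]
    rw [this, thFp_lam_some_zero]
  rw [e] at this
  exact this

/-- **(C1) for the triple `(p, q, a)`**. -/
theorem thL_hAt_of [Fact p.Prime] (h : thC_Hyp p q a) (hns : ¬ IsSquare (-(q : ZMod p))) :
    s16g_HAt p := by
  classical
  refine thQ_hAt h (thC_tilde p q a (thFp_lam p q none)) ?_ ?_ (thL_Phi p q a none)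
    (thL_isMF h hns) ?_
  · intro n hn
    unfold thC_tilde
    rw [if_pos hn.1, (thC_memL_iff.1 hn).2, thFp_lam_none_zero]
  · intro n hn
    unfold thC_tilde
    by_cases hM : thC_memM q a n
    · rw [if_pos hM, thFp_lam_none]
      have : thC_cls p n ≠ 0 := fun h0 => hn (thC_memL_iff.2 ⟨hM, h0⟩)
      rw [Pi.single_eq_of_ne this]
    · rw [if_neg hM]
  · intro τ
    have hs := (thB_summable (thL_m_pos h)
      (thC_tilde_periodic (p := p) (q := q) a (thFp_lam p q none)) τ.im_pos).hasSum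
    exact hs

/-- **(C1), export of route #589**: for every odd prime `p` there is a modular form of weight
2 on `Γ₀(p)` with `q`-expansion in `1 + 2qℤ[[q]]`. -/
theorem thL_hAt (p : ℕ) (hp : p.Prime) (hp2 : p ≠ 2) : s16g_HAt p := by
  have : Fact p.Prime := ⟨hp⟩
  obtain ⟨q, a, hq, hq4, hqp, hns, ha⟩ := thE_exists_q p hp hp2
  exact thL_hAt_of (a := (a : ℤ)) ⟨hp, hq, hp2, hq4, hqp, ha⟩ hns

/-- in the shape of PLAN v1 (second proof; the name `thF_hAt` lives in `ThFinal.lean`) -/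
theorem thL_hAt_five (p : ℕ) (hp : p.Prime) (h5 : 5 ≤ p) : s16g_HAt p :=
  thL_hAt p hp (by omega)

end Fermat.Agent.S16
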